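import Mathlib.RingTheory.Nullstellensatz
import Mathlib.RingTheory.Valuation.ValuationSubring

/-!
# Exact zeros from approximate zeros

Approximate solutions of every precision of a polynomial system over a valuation ring give an
exact solution over its algebraically closed fraction field (`exists_exact_zero`), by the
Nullstellensatz.  Used in `Semistable.Rigidity`.
-/

set_option autoImplicit false

noncomputable section

namespace FLTAgent.Semistable

variable {L k : Type*} [Field L] [Field k] {A : ValuationSubring L}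

theorem exists_eval_bound {σ : Type*} (Q : MvPolynomial σ L) :
    ∃ b : A, b ≠ 0 ∧ ∀ x : σ → A, (b : L) * MvPolynomial.eval (fun i => (x i : L)) Q ∈ A := by
  induction Q using MvPolynomial.induction_on with
  | C c =>
    obtain ⟨a, b, hb, hab⟩ := IsFractionRing.div_surjective (A := A) c
    refine ⟨b, nonZeroDivisors.ne_zero hb, fun x => ?_⟩
    rw [MvPolynomial.eval_C, ← hab]
    have hb0 : (b : L) ≠ 0 := fun h => nonZeroDivisors.ne_zero hb (Subtype.ext h)
    show (b : L) * ((a : L) / (b : L)) ∈ A
    rw [mul_div_cancel₀ _ hb0]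
    exact a.2
  | add p q hp hq =>
    obtain ⟨b, hb, hpb⟩ := hp
    obtain ⟨c, hc, hqc⟩ := hq
    refine ⟨b * c, mul_ne_zero hb hc, fun x => ?_⟩
    rw [map_add, mul_add]
    refine A.add_mem _ _ ?_ ?_
    · push_cast
      rw [mul_right_comm]
      exact A.mul_mem _ _ (hpb x) c.2
    · push_cast
      rw [mul_assoc]
      exact A.mul_mem _ _ b.2 (hqc x)
  | mul_X p i hp =>
    obtain ⟨b, hb, hpb⟩ := hp
    refine ⟨b, hb, fun x => ?_⟩
    rw [map_mul, MvPolynomial.eval_X, ← mul_assoc]
    exact A.mul_mem _ _ (hpb x) (x i).2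

theorem exists_exact_zero [IsAlgClosed L] (π : A →+* k) {σ τ : Type*} [Finite σ] [Fintype τ]
    (P : τ → MvPolynomial σ A) (ht : ∃ t : A, t ≠ 0 ∧ π t = 0)
    (happ : ∀ b : A, b ≠ 0 → ∃ x : σ → A, ∀ l, b ∣ MvPolynomial.eval x (P l)) :
    ∃ x : σ → L, ∀ l, MvPolynomial.eval x (MvPolynomial.map A.subtype (P l)) = 0 := by
  classical
  by_contra! hno
  let I : Ideal (MvPolynomial σ L) :=
    Ideal.span (Set.range fun l => MvPolynomial.map A.subtype (P l))
  have hzl : MvPolynomial.zeroLocus L I = ∅ := by
    rw [Set.eq_empty_iff_forall_notMem]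
    intro x hx
    obtain ⟨l, hl⟩ := hno x
    apply hl
    have := (MvPolynomial.mem_zeroLocus_iff.mp hx) _ (Ideal.subset_span ⟨l, rfl⟩)
    simpa [MvPolynomial.aeval_eq_eval] using this
  have htop : I = ⊤ := by
    have h := MvPolynomial.vanishingIdeal_zeroLocus_eq_radical (K := L) I
    rw [hzl, MvPolynomial.vanishingIdeal_empty] at h
    exact Ideal.radical_eq_top.mp h.symm
  obtain ⟨Q, hQ⟩ := Ideal.mem_span_range_iff_exists_fun.mp (htop ▸ Submodule.mem_top :
    (1 : MvPolynomial σ L) ∈ I)
  choose b hb hbd using fun l => exists_eval_bound (A := A) (Q l)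
  obtain ⟨t, ht0, htπ⟩ := ht
  have hb0 : ∏ l, b l ≠ 0 := Finset.prod_ne_zero_iff.mpr fun l _ => hb l
  obtain ⟨x, hx⟩ := happ ((∏ l, b l) * t) (mul_ne_zero hb0 ht0)
  choose q hq using hx
  let s : A := ∑ l, (∏ j ∈ Finset.univ.erase l, b j) * ⟨_, hbd l x⟩ * q l
  have hev : ∀ l, MvPolynomial.eval (fun i => (x i : L)) (MvPolynomial.map A.subtype (P l)) =
      ((MvPolynomial.eval x (P l) : A) : L) := by
    intro l
    rw [MvPolynomial.eval_map]
    exact (MvPolynomial.eval₂_comp A.subtype x (P l)).symm
  have h1 : ∏ l, b l = ((∏ l, b l) * t) * s := by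
    apply Subtype.ext
    have he := congrArg (MvPolynomial.eval (fun i => (x i : L))) hQ
    rw [map_sum, map_one] at he
    calc ((∏ l, b l : A) : L) = ((∏ l, b l : A) : L) * 1 := (mul_one _).symm
      _ = _ := by
        rw [← he, Finset.mul_sum]
        simp only [s]
        push_cast
        rw [Finset.mul_sum]
        refine Finset.sum_congr rfl fun l _ => ?_
        rw [map_mul, hev l, hq l, ← Finset.mul_prod_erase Finset.univ (fun j => (b j : L))
          (Finset.mem_univ l)]
        push_cast
        rw [← Finset.mul_prod_erase Finset.univ (fun j => (b j : L)) (Finset.mem_univ l)]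
        ring
  have h2 : t * s = 1 := by
    apply mul_left_cancel₀ hb0
    rw [mul_one, ← mul_assoc, ← h1]
  have := congrArg π h2
  rw [map_mul, htπ, zero_mul, map_one] at this
  exact zero_ne_one this

end FLTAgent.Semistable
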