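import Fermat.Agent.Semistable.Setting
import Fermat.Agent.MazurStep.InertiaBranch

/-!
# Galois action on the pair reduction of `X₀(Mq)` at `q`

The morphisms of the pair reduction attached to an automorphism preserving the valuation ring
(`galoisMorph`) and to Atkin–Lehner (`alMorph`); consequently inertia at `q` acts unipotently of
echelon two on the prime-to-`q` torsion of `J₀(Mq)` (`inertia_unipotent`), and Frobenius is
`-q` times Atkin–Lehner on the toric part (`frob_add_nsmul_al`).
-/

set_option autoImplicit false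

noncomputable section

open AlgebraicCurve ModularCurve Polynomial FLTAgent.FFBasic FLTAgent.Deuring
open FLTAgent.HeckeJacobian
open FLTAgent.CongruenceRel (specialAut coe_specialAut_smul specialAut_refl coeffMap_injective)
open FLTAgent.MazurStep (w_smul inertia_mem residue_inertia gauss_galois)

namespace FLTAgent.Semistable.Level

local notation "Qbar" => AlgebraicClosure ℚ

variable {M q : ℕ} [NeZero M] [Fact q.Prime]
variable {k : Type} [Field k]
variable {A : ValuationSubring Qbar} {π : A →+* k}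
variable {σ : Qbar ≃ₐ[ℚ] Qbar} {hσ : ∀ a ∈ A, σ a ∈ A} {τ : k ≃+* k}

theorem galois_smul_jA (M q : ℕ) [NeZero M] [NeZero q] (σ : Qbar ≃ₐ[ℚ] Qbar) :
    arithmeticGalois (modularFunctionFieldFull (M * q)) σ • jA M q = jA M q :=
  Subtype.ext (by rw [coe_arithmeticGalois_smul, coe_jA, coeffMap_jqModC])

theorem galois_smul_pol_jA (M q : ℕ) [NeZero M] [NeZero q] (σ : Qbar ≃ₐ[ℚ] Qbar) :
    arithmeticGalois (modularFunctionFieldFull (M * q)) σ • pol (K := Qbar) (jA M q) =
      pol (K := Qbar) (jA M q) := by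
  set g := arithmeticGalois (modularFunctionFieldFull (M * q)) σ
  ext v
  rw [SemilinearAut.divisor_smul_apply, pol_apply, pol_apply, ← SemilinearAut.ord_smul g,
    smul_inv_smul, galois_smul_jA]

variable [IsAlgClosed k] [CharP k q] (S : Setting M q A π)

theorem branch₁_galois (hτ : ∀ a : A, π ⟨σ a, hσ a a.2⟩ = τ (π a))
    {f : modularFunctionFieldBar (M * q)} (hf : f ∈ (branch₁ S).O) :
    ∃ h : arithmeticGalois (modularFunctionFieldFull (M * q)) σ • f ∈ (branch₁ S).O,
      (branch₁ S).res ⟨_, h⟩ = specialAut M τ • (branch₁ S).res ⟨f, hf⟩ := by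
  obtain ⟨h, e⟩ := gauss_galois (M := M) (q := q) hτ (f := f) hf
  exact ⟨h, Subtype.ext ((coe_res₁ S h).trans
    (e.trans (coe_specialAut_smul M τ ((branch₁ S).res ⟨f, hf⟩)).symm))⟩

theorem branch₂_galois (hτ : ∀ a : A, π ⟨σ a, hσ a a.2⟩ = τ (π a))
    {f : modularFunctionFieldBar (M * q)} (hf : f ∈ (branch₂ S).O) :
    ∃ h : arithmeticGalois (modularFunctionFieldFull (M * q)) σ • f ∈ (branch₂ S).O,
      (branch₂ S).res ⟨_, h⟩ = specialAut M τ • (branch₂ S).res ⟨f, hf⟩ := by
  obtain ⟨h, e⟩ := gauss_galois (M := M) (q := q) hτ ((mem_ring₂_iff π S.al f).mp hf)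
  have h' : arithmeticGalois (modularFunctionFieldFull (M * q)) σ • f ∈
      Gauss.ring A π (ι₂ S.al) := (mem_ring₂_iff π S.al _).mpr (by rw [w_smul]; exact h)
  refine ⟨h', Subtype.ext ((coe_res₂ S h').trans (((res₂_eq π S.al h').trans ?_).trans
    (coe_specialAut_smul M τ ((branch₂ S).res ⟨f, hf⟩)).symm))⟩
  refine Eq.trans ?_ (congrArg (coeffMap (τ : k →+* k))
    ((coe_res₂ S hf).trans (res₂_eq π S.al hf)).symm)
  exact Eq.trans (congrArg _ (Subtype.ext (w_smul S.al f))) e

theorem specialAut_smul_hbar (ρ : k ≃+* k) : specialAut M ρ • hbar S = hbar S :=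
  Subtype.ext (by rw [coe_specialAut_smul, coe_hbar, coeffMap_unitSeries])

theorem specialAut_smul_mem (ρ : k ≃+* k) {s : Place k (modularFunctionFieldFullC k M)}
    (hs : s ∈ nodeSet S) : specialAut M ρ • s ∈ nodeSet S :=
  smul_mem_nodeSet S (specialAut_smul_jFb M ρ) (specialAut_smul_hbar S ρ) hs

variable (M q) in
omit [NeZero M] in
theorem specialAut_commute_frobAut (ρ : k ≃+* k) :
    Commute (specialAut M ρ) (frobAut (k := k) q M) := by
  have hc : ∀ c, ρ (constFrob q c) = constFrob q (ρ c) := fun c => by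
    rw [constFrob_apply, constFrob_apply, map_pow]
  refine Subtype.ext (Prod.ext (RingEquiv.ext fun x => Subtype.ext ?_) (RingEquiv.ext hc))
  show coeffMap (ρ : k →+* k)
      (coeffMap ((constFrob (k := k) q : k ≃+* k) : k →+* k) (x : LaurentSeries k)) =
    coeffMap ((constFrob (k := k) q : k ≃+* k) : k →+* k)
      (coeffMap (ρ : k →+* k) (x : LaurentSeries k))
  rw [coeffMap_coeffMap, coeffMap_coeffMap]
  exact coeffMap_congr (RingHom.ext hc) _

/-- The Atkin–Lehner automorphism as an automorphism. -/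
def alEquiv : modularFunctionFieldBar (M * q) ≃ₐ[Qbar] modularFunctionFieldBar (M * q) :=
  AlgEquiv.ofAlgHom S.al.w S.al.w (AlgHom.ext (w_w S.al)) (AlgHom.ext (w_w S.al))

omit [IsAlgClosed k] [CharP k q] in
theorem alEquiv_apply (f : modularFunctionFieldBar (M * q)) : alEquiv S f = S.al.w f := rfl

variable [IsFunctionField k (modularFunctionFieldFullC k M)]
variable (hk : (hbar S : LaurentSeries k) ∈ IntermediateField.adjoin k {jqModC k})

/-- The permutation of the crossings attached to a residual automorphism. -/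
def nodePerm (ρ : k ≃+* k) (s : nodeSet S) : nodeSet S :=
  ⟨specialAut M ρ • s.1, specialAut_smul_mem S ρ s.2⟩

/-- An automorphism preserving `A` as a morphism of the pair reduction. -/
def galoisMorph (hτ : ∀ a : A, π ⟨σ a, hσ a a.2⟩ = τ (π a)) :
    PairReduction.Morph (pairReduction S hk) (pairReduction S hk) where
  g := arithmeticGalois (modularFunctionFieldFull (M * q)) σ
  τ := τ
  σ₁ := SemilinearAut.toRingAut (specialAut M τ)
  σ₂ := SemilinearAut.toRingAut (specialAut M τ)
  σ₁_algebraMap c := SemilinearAut.smul_algebraMap (specialAut M τ) c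
  σ₂_algebraMap c := SemilinearAut.smul_algebraMap (specialAut M τ) c
  map_mem₁ _ h := (branch₁_galois S hτ h).1
  map_mem₂ _ h := (branch₂_galois S hτ h).1
  map_res₁ _ h := (branch₁_galois S hτ h).2
  map_res₂ _ h := (branch₂_galois S hτ h).2
  perm := nodePerm S τ
  map_node₁ s a := SemilinearAut.ord_smul (specialAut M τ) s.1 a
  map_node₂ s a := by
    show ((frobAut (k := k) q M)⁻¹ • specialAut M τ • s.1).ord (specialAut M τ • a) = _
    rw [← mul_smul, ← (specialAut_commute_frobAut M q τ).inv_right.eq, mul_smul,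
      SemilinearAut.ord_smul]
    rfl
  bound := ⟨1, by
    rw [one_smul]
    exact (galois_smul_pol_jA M q σ).le⟩

theorem galoisMorph_map_E (hτ : ∀ a : A, π ⟨σ a, hσ a a.2⟩ = τ (π a)) :
    (galoisMorph S hk hτ).g • (pairReduction S hk).E = (pairReduction S hk).E :=
  galois_smul_pol_jA M q σ

omit [IsAlgClosed k] [CharP k q] [IsFunctionField k (modularFunctionFieldFullC k M)] in
include S in
/-- The image of the cusps of `j(τ)` under the involution. -/
theorem exists_al_bound :
    ∃ n : ℕ, SemilinearAut.ofAlgAut (alEquiv S) • pol (K := Qbar) (jA M q) ≤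
      n • pol (K := Qbar) (jA M q) := by
  set g := SemilinearAut.ofAlgAut (alEquiv S) with hg
  have hjB : jB M q ≠ 0 := fun h0 => by
    have h1 := congrArg S.al.w h0
    rw [map_zero, w_beta_apply] at h1
    exact transcendental_jA (M := M) (q := q)
      ((show jA M q = 0 from h1).symm ▸ isAlgebraic_zero)
  obtain ⟨n, hn⟩ := pol_le_nsmul (K := Qbar) hjB (inB_jA_jB M q)
  refine ⟨n, le_of_eq_of_le ?_ hn⟩
  ext v
  rw [SemilinearAut.divisor_smul_apply, pol_apply, pol_apply, ← SemilinearAut.ord_smul g,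
    smul_inv_smul, hg, SemilinearAut.ofAlgAut_smul, alEquiv_apply, w_alpha_apply]

/-- The Atkin–Lehner involution exchanges the two branches. -/
def alMorph : PairReduction.Morph (pairReduction S hk) (pairReduction S hk).swap where
  g := SemilinearAut.ofAlgAut (alEquiv S)
  τ := RingEquiv.refl k
  σ₁ := RingEquiv.refl _
  σ₂ := RingEquiv.refl _
  σ₁_algebraMap _ := rfl
  σ₂_algebraMap _ := rfl
  map_mem₁ u h := (mem_ring₂_iff π S.al _).mpr (by
    rw [SemilinearAut.ofAlgAut_smul, alEquiv_apply, w_w]; exact h)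
  map_mem₂ u h := by
    show SemilinearAut.ofAlgAut (alEquiv S) • u ∈ Gauss.ring A π (ι₁ M q)
    rw [SemilinearAut.ofAlgAut_smul, alEquiv_apply]
    exact (mem_ring₂_iff π S.al _).mp h
  map_res₁ u h := by
    refine Subtype.ext ((coe_res₂ S _).trans ((res₂_eq π S.al _).trans ?_))
    exact congrArg _ (Subtype.ext (w_w S.al u))
  map_res₂ u h := by
    refine Subtype.ext ((coe_res₁ S _).trans (Eq.trans ?_ (res₂_eq π S.al h).symm))
    rfl
  perm := nodePerm S (constFrob q)
  map_node₁ s a := by
    show ((frobAut (k := k) q M)⁻¹ • frobAut (k := k) q M • s.1).ord a = s.1.ord a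
    rw [inv_smul_smul]
  map_node₂ s a := by
    show (frobAut (k := k) q M • s.1).ord a = ((frobAut (k := k) q M)⁻¹ • s.1).ord a
    rw [eq_inv_smul_iff.mpr (frobAut_smul_smul S s.2)]
  bound := exists_al_bound S

theorem nodePerm_constFrob_involutive :
    Function.Involutive (nodePerm S (constFrob (k := k) q)) := fun s =>
  Subtype.ext (frobAut_smul_smul S s.2)

/-- On the toric part Frobenius is minus `q` times the Atkin–Lehner involution. -/
theorem frob_add_nsmul_al {m : ℕ} (hA : PairReduction.Admissible π m)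
    (hτ : ∀ a : A, π ⟨σ a, hσ a a.2⟩ = constFrob q (π a)) {x : JZero (M * q)}
    (hx : (pairReduction S hk).IsTorus m x) :
    σ • x + q • (SemilinearAut.ofAlgAut (alEquiv S) • x) = 0 :=
  PairReduction.smul_add_nsmul_eq_zero hA (galoisMorph S hk hτ) (alMorph S hk)
    (fun _ => rfl) (nodePerm_constFrob_involutive S).surjective (fun _ => rfl)
    (fun c _ => constFrob_apply q c) hx

include S hk in
/-- An automorphism trivial modulo `π` acts unipotently of echelon two. -/
theorem unipotent_of_trivial {m : ℕ} (hA : PairReduction.Admissible π m)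
    (hτ : ∀ a : A, π ⟨σ a, hσ a a.2⟩ = π a) {x : JZero (M * q)} (hx : m • x = 0) :
    σ • σ • x + x = 2 • (σ • x) := by
  have hτ' : ∀ a : A, π ⟨σ a, hσ a a.2⟩ = RingEquiv.refl k (π a) := hτ
  have h1 : ∀ y : modularFunctionFieldFullC k M,
      specialAut M (RingEquiv.refl k) • y = y := fun y => by rw [specialAut_refl, one_smul]
  refine (galoisMorph S hk hτ').unipotent_sq hA h1 h1 (fun _ => rfl) (fun s => ?_) hx
  refine Subtype.ext ?_
  show specialAut M (RingEquiv.refl k) • s.1 = s.1
  rw [specialAut_refl, one_smul]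

end FLTAgent.Semistable.Level

namespace FLTAgent.Semistable

local notation "Qbar" => AlgebraicClosure ℚ

variable {q : ℕ} [Fact q.Prime] {A : ValuationSubring (AlgebraicClosure ℚ)}

theorem admissible_residue (hA : A.LiesOverPrime q) {m : ℕ} (hm : ¬ q ∣ m) :
    PairReduction.Admissible (IsLocalRing.residue A) m :=
  ⟨Deuring.natCast_residue_ne_zero hA hm, Deuring.exists_residue_eq_zero hA,
    fun a b ha hb => Deuring.exists_dvd_pow hA a b ha hb⟩

/-- Inertia at `q` acts unipotently of echelon two on the prime-to-`q` torsion of `J₀(Mq)`. -/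
theorem inertia_unipotent {M : ℕ} [NeZero M] (hqM : ¬ q ∣ M) (hA : A.LiesOverPrime q)
    {σ : Qbar ≃ₐ[ℚ] Qbar} (hσ : σ ∈ A.inertiaSubgroupIn ℚ) {m : ℕ} (hm : ¬ q ∣ m)
    {x : JZero (M * q)} (hx : m • x = 0) : σ • σ • x + x = 2 • (σ • x) := by
  have := charP_residueField hA
  have := Deuring.isAlgClosed_residueField A
  have := Modular.isFunctionFieldk (Level.setting M q hqM hA).good
  exact Level.unipotent_of_trivial (hσ := fun _ => MazurStep.inertia_mem hσ)
    (Level.setting M q hqM hA)
    (Level.hbar_mem_kj _ (Level.setting 1 q (Fact.out : q.Prime).not_dvd_one hA))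
    (admissible_residue hA hm) (MazurStep.residue_inertia hσ) hx

/-- The same, with the level given as a product. -/
theorem inertia_unipotent_of_eq {N M : ℕ} [NeZero M] (hN : N = M * q) (hqM : ¬ q ∣ M)
    (hA : A.LiesOverPrime q) {σ : Qbar ≃ₐ[ℚ] Qbar} (hσ : σ ∈ A.inertiaSubgroupIn ℚ) {m : ℕ}
    (hm : ¬ q ∣ m) {x : JZero N} (hx : m • x = 0) : σ • σ • x + x = 2 • (σ • x) := by
  subst hN
  exact inertia_unipotent hqM hA hσ hm hx

end FLTAgent.Semistable

end
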