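import Fermat.Agent.Semistable.Instance
import Fermat.Agent.GoodReduction.X0
import Fermat.Agent.ModularFF.AtkinLehnerQbar

/-!
# The standing hypotheses hold at every valuation over `q`

Existence of the Atkin–Lehner data (`alData`) and the `Setting` at a valuation ring of `ℚ̄`
over `q` (`Level.setting`), so the results on the pair reduction of `X₀(Mq)` at `q` become
unconditional.
-/

set_option autoImplicit false

noncomputable section

open AlgebraicCurve ModularCurve Polynomial FLTAgent.FFBasic FLTAgent.Deuring
open FLTAgent.HeckeJacobian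

namespace FLTAgent.Semistable

/-- Functions integral over `K[x]` are regular away from the poles of `x`. -/
theorem inB_of_isIntegral {K F : Type*} [Field K] [Field F] [Algebra K F] {x f : F}
    (h : IsIntegral (Algebra.adjoin K ({x} : Set F)) f) : InB K x f := by
  obtain ⟨p, hp, hpf⟩ := h
  refine inB_of_root (hp.map (algebraMap (Algebra.adjoin K ({x} : Set F)) F)) (fun i v hv => ?_)
    (by rw [eval_map]; exact hpf)
  rw [coeff_map]
  obtain ⟨Q, hQ⟩ : ∃ Q : K[X], aeval x Q = (p.coeff i : F) :=
    (Algebra.adjoin_singleton_eq_range_aeval K x).le (p.coeff i).2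
  refine ord_nonneg_of_mem v ?_
  show ((p.coeff i : Algebra.adjoin K ({x} : Set F)) : F) ∈ v.toValuationSubring
  rw [← hQ]
  exact aeval_mem v.algebraMap_mem' (mem_of_ord_nonneg v hv) _

/-- The residue field of a place over `q` has characteristic `q`. -/
theorem charP_residueField {q : ℕ} [Fact q.Prime] {A : ValuationSubring (AlgebraicClosure ℚ)}
    (hA : A.LiesOverPrime q) : CharP (IsLocalRing.ResidueField A) q := by
  refine (CharP.charP_iff_prime_eq_zero Fact.out).2 ?_
  obtain ⟨hm, hu⟩ := (ValuationSubring.mem_nonunits_iff_exists_mem_maximalIdeal (A := A)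
    (a := (q : AlgebraicClosure ℚ))).mp hA
  rw [← map_natCast (IsLocalRing.residue A), IsLocalRing.residue_eq_zero_iff]
  exact hu

namespace Level

local notation "Qbar" => AlgebraicClosure ℚ

variable (M q : ℕ) [NeZero M] [Fact q.Prime]

theorem nonempty_alData (hqM : ¬ q ∣ M) : Nonempty (ALData M q) := by
  obtain ⟨w, hwa, hwb, -, -, h, hh, hmul, -, -, hint, hwint, heta⟩ :=
    ModularFF.exists_al_delta M q Fact.out hqM
  have hj : ModularFF.jElt Qbar (M * q) = jA M q :=
    Subtype.ext ((ModularFF.coe_jElt Qbar (M * q)).trans (coe_jA M q).symm)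
  have hg : ModularFF.gen Qbar (M * q) (ModularFF.divQ M q) = jB M q :=
    Subtype.ext (coe_jB M q).symm
  rw [hj] at hint hwint heta
  rw [hg] at heta
  exact ⟨⟨w, hwa, hwb, h, hh, hmul, inB_of_isIntegral hint, inB_of_isIntegral hwint,
    inB_of_isIntegral heta⟩⟩

/-- The Atkin–Lehner data. -/
def alData (hqM : ¬ q ∣ M) : ALData M q := Classical.choice (nonempty_alData M q hqM)

/-- The standing hypotheses at a valuation ring over `q`. -/
def setting (hqM : ¬ q ∣ M) {A : ValuationSubring Qbar} (hA : A.LiesOverPrime q) :
    Setting M q A (IsLocalRing.residue A) where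
  surj := IsLocalRing.residue_surjective
  good := GoodReduction.x0GoodReduction M Fact.out hqM A hA
  arch a b ha hb := Deuring.exists_dvd_pow hA a b ha hb
  not_dvd := hqM
  al := alData M q hqM

variable {M q}
variable {A : ValuationSubring Qbar}

end Level

end FLTAgent.Semistable

end
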