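import Fermat.Agent.Semistable.Approx
import Fermat.Agent.Semistable.CommonZero

/-!
# Rigidity of the toric part

Approximate roots of every precision give exact roots (`exists_root_of_approx`), so a toric
class with constant gluing vanishes (`IsGluingOf.eq_zero`) and the gluing embeds the toric part
(`IsGluingOf.eq_of_eq_smul`).
-/

set_option autoImplicit false

noncomputable section

open AlgebraicCurve FLTAgent.FFRiemannRoch FLTAgent.FFBasic

namespace FLTAgent.Semistable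

variable {L k : Type*} [Field L] [Field k] {A : ValuationSubring L} {π : A →+* k}
variable {F F₁ F₂ : Type*} [Field F] [Field F₁] [Field F₂]
  [Algebra L F] [Algebra k F₁] [Algebra k F₂] {ι : Type*} [Fintype ι]

namespace PairReduction

variable {C : PairReduction A π F F₁ F₂ ι} {m : ℕ}

variable (C) in
/-- Approximate roots of every precision in one lattice give an exact root. -/
theorem exists_root_of_approx [IsAlgClosed L] {m : ℕ} {f : F} {c g : L × L} (hgc : g ^ m * c = 1)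
    (hg₁ : g.1 ≠ 0) (hg₂ : g.2 ≠ 0) (hf : C.Mem c f) (V : Submodule L F) [FiniteDimensional L V]
    (ht : ∃ t : A, t ≠ 0 ∧ π t = 0)
    (happ : ∀ b : A, b ≠ 0 →
      ∃ z ∈ V, C.Mem g z ∧ C.Mem ((b : L)⁻¹, (b : L)⁻¹) (z ^ m * f - 1)) :
    ∃ v : F, v ^ m * f = 1 := by
  classical
  obtain ⟨d, β, hβ, hβli, hspanβ⟩ : ∃ (d : ℕ) (β : Fin d → F), (∀ i, C.Mem g (β i)) ∧
      LinearIndependent k (fun i => C.red g (β i)) ∧ Submodule.span L (Set.range β) = V := by
    obtain ⟨β, hβV, hβ, hβli⟩ := C.exists_basis hg₁ hg₂ V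
    refine ⟨_, β, hβ, hβli, Submodule.eq_of_le_of_finrank_eq
      (Submodule.span_le.mpr (Set.range_subset_iff.mpr hβV)) ?_⟩
    rw [finrank_span_eq_card (C.linearIndependent_of_red hβ hβli), Fintype.card_fin]
  let κ : Option (Fin m → Fin d) → F := fun o => o.elim 1 fun q => (∏ t, β (q t)) * f
  have hκ : ∀ o, C.Mem (1, 1) (κ o) := by
    rintro (_ | q)
    · exact mem_one_pair
    · have h1 : C.Mem (g ^ m) (∏ t, β (q t)) := by
        have : ∀ (s : Finset (Fin m)), C.Mem (g ^ s.card) (∏ t ∈ s, β (q t)) := by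
          intro s
          induction s using Finset.cons_induction with
          | empty => rw [Finset.card_empty, pow_zero, Finset.prod_empty]; exact mem_one_pair
          | cons i s hi ih =>
            rw [Finset.card_cons, Finset.prod_cons, pow_succ']
            exact (hβ (q i)).mul ih
        simpa using this Finset.univ
      have := h1.mul hf
      rwa [hgc] at this
  let W : Submodule L F := Submodule.span L (Set.range κ)
  have : FiniteDimensional L W := FiniteDimensional.span_of_finite L (Set.finite_range _)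
  obtain ⟨γ, hγW, hγ, hγli⟩ := C.exists_basis (g := (1, 1)) one_ne_zero one_ne_zero W
  have hspan : Submodule.span L (Set.range γ) = W := by
    refine Submodule.eq_of_le_of_finrank_eq
      (Submodule.span_le.mpr (Set.range_subset_iff.mpr hγW)) ?_
    rw [finrank_span_eq_card (C.linearIndependent_of_red hγ hγli), Fintype.card_fin]
  have hco : ∀ o, ∃ a : Fin (Module.finrank L W) → A, ∑ l, ((a l : L)) • γ l = κ o := by
    intro o
    have : κ o ∈ Submodule.span L (Set.range γ) := by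
      rw [hspan]; exact Submodule.subset_span ⟨o, rfl⟩
    obtain ⟨e, he⟩ := (Submodule.mem_span_range_iff_exists_fun L).mp this
    exact ⟨fun l => ⟨e l, C.coord_mem hγ hγli (he ▸ hκ o) l⟩, he⟩
  choose a ha using hco
  let P : Fin (Module.finrank L W) → MvPolynomial (Fin d) A := fun l =>
    (∑ q : Fin m → Fin d, MvPolynomial.C (a (some q) l) * ∏ t, MvPolynomial.X (q t))
      - MvPolynomial.C (a none l)
  have hG : ∀ x : Fin d → L, (∑ i, x i • β i) ^ m * f - 1
      = ∑ l, MvPolynomial.eval x (MvPolynomial.map A.subtype (P l)) • γ l := by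
    intro x
    have h1 : (∑ i, x i • β i) ^ m * f
        = ∑ q : Fin m → Fin d, (∏ t, x (q t)) • κ (some q) := by
      rw [Fintype.sum_pow, Finset.sum_mul]
      refine Finset.sum_congr rfl fun q _ => ?_
      simp only [Algebra.smul_def, Finset.prod_mul_distrib, ← map_prod, κ, Option.elim]
      ring
    rw [h1, show (1 : F) = κ none from rfl]
    simp only [← ha, Finset.smul_sum, smul_smul]
    rw [Finset.sum_comm, ← Finset.sum_sub_distrib]
    refine Finset.sum_congr rfl fun l _ => ?_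
    rw [← Finset.sum_smul, ← sub_smul]
    congr 1
    simp [P, mul_comm]
  have happP : ∀ b : A, b ≠ 0 → ∃ x : Fin d → A, ∀ l, b ∣ MvPolynomial.eval x (P l) := by
    intro b hb
    obtain ⟨z, hzV, hzg, hz⟩ := happ b hb
    rw [← hspanβ, Submodule.mem_span_range_iff_exists_fun] at hzV
    obtain ⟨x, rfl⟩ := hzV
    have hx := C.coord_mem hβ hβli hzg
    refine ⟨fun i => ⟨x i, hx i⟩, fun l => ?_⟩
    rw [hG x] at hz
    have hz' : C.Mem (1, 1) ((b : L)⁻¹ •
        ∑ l, MvPolynomial.eval x (MvPolynomial.map A.subtype (P l)) • γ l) := by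
      rw [C.mem_smul_iff]
      simpa using hz
    rw [Finset.smul_sum] at hz'
    simp only [smul_smul] at hz'
    have hA := C.coord_mem hγ hγli hz' l
    refine ⟨⟨_, hA⟩, Subtype.ext ?_⟩
    have hev : MvPolynomial.eval x (MvPolynomial.map A.subtype (P l))
        = ((MvPolynomial.eval (fun i => (⟨x i, hx i⟩ : A)) (P l) : A) : L) := by
      rw [MvPolynomial.eval_map]
      exact (MvPolynomial.eval₂_comp A.subtype (fun i => (⟨x i, hx i⟩ : A)) (P l)).symm
    push_cast
    rw [hev, ← mul_assoc, mul_inv_cancel₀ (fun h => hb (Subtype.ext h)), one_mul]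
  obtain ⟨x, hx⟩ := exists_exact_zero π P ht happP
  refine ⟨∑ i, x i • β i, sub_eq_zero.mp ?_⟩
  rw [hG x]
  exact Finset.sum_eq_zero fun l _ => by rw [hx l, zero_smul]

namespace RootData

variable (R : C.RootData m)

/-- Change the second component of the root by a root of unity. -/
def twist (ζ : k) (hζ : ζ ^ m = 1) (hζ0 : ζ ≠ 0) : C.RootData m where
  D := R.D
  degree_eq := R.degree_eq
  f := R.f
  f_ne := R.f_ne
  div_eq := R.div_eq
  g := R.g
  g_ne₁ := R.g_ne₁
  g_ne₂ := R.g_ne₂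
  φ := (R.φ.1, ζ • R.φ.2)
  φ_ne₁ := R.φ_ne₁
  φ_ne₂ := by
    rw [Algebra.smul_def]
    exact mul_ne_zero ((map_ne_zero _).mpr hζ0) R.φ_ne₂
  mem := R.mem
  red_eq := by
    rw [R.red_eq]
    refine Prod.ext rfl ?_
    show R.φ.2 ^ m = (ζ • R.φ.2) ^ m
    rw [smul_pow, hζ, one_smul]

variable [IsAlgClosed k] [IsFunctionField k F₁] [IsFunctionField k F₂]
variable [IsAlgClosed L] [IsFunctionField L F]

omit [IsAlgClosed L] [IsFunctionField L F] in
theorem isGluing_twist {ζ : k} (hζ : ζ ^ m = 1) (hζ0 : ζ ≠ 0) {ε : ι → k}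
    (hε : R.IsGluing ε) (hconst : ∀ s, ε s = ζ) : (R.twist ζ hζ hζ0).IsGluing 1 := by
  intro n w hw
  obtain ⟨u, hu, hug, rfl⟩ := (R.twist ζ hζ hζ0).mem_V.mp hw
  obtain ⟨h₁, h₂, hval⟩ := hε n (R.mem_V.mpr ⟨u, hu, hug, rfl⟩)
  refine ⟨h₁, ?_, fun s => ?_⟩
  · show ζ • R.φ.2 * _ ∈ _
    rw [smul_mul_assoc]
    exact Submodule.smul_mem _ _ h₂
  · show valueAt (C.node₁ s) (R.φ * C.red R.g u).1
      = 1 * valueAt (C.node₂ s) (ζ • R.φ.2 * (C.red R.g u).2)
    rw [smul_mul_assoc, hval s, hconst, one_mul]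
    exact ((hasValue_valueAt (mem_ball_zero_of_mem (C.node₂_le n s) h₂)).smul ζ).valueAt_eq.symm

/-- Rigidity for trivial gluing: `f` is an `m`-th power. -/
theorem exists_exact_root (hm : (m : k) ≠ 0) (hε : R.IsGluing 1)
    (ht : ∃ t : A, t ≠ 0 ∧ π t = 0)
    (harch : ∀ a b : A, π a = 0 → b ≠ 0 → ∃ N, b ∣ a ^ N) :
    ∃ v : F, v ^ m * R.f = 1 := by
  classical
  obtain ⟨n₀, happ⟩ := R.exists_bounded_approx hm hε ht harch
  exact C.exists_root_of_approx R.g_pow_mul_inv R.g_ne₁ R.g_ne₂ R.mem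
    (riemannRochSpace (R.D + n₀ • C.E)) ht fun b hb => by
      obtain ⟨z, ⟨hzE, hzg⟩, hz⟩ := happ b hb
      exact ⟨z, hzE, hzg, hz⟩

end RootData

variable [IsAlgClosed k] [IsFunctionField k F₁] [IsFunctionField k F₂]
variable [IsAlgClosed L] [IsFunctionField L F]

/-- A toric class whose gluing is constant vanishes. -/
theorem IsGluingOf.eq_zero (hm : (m : k) ≠ 0) (ht : ∃ t : A, t ≠ 0 ∧ π t = 0)
    (harch : ∀ a b : A, π a = 0 → b ≠ 0 → ∃ N, b ∣ a ^ N)
    {x : Pic0 L F} {ε : ι → k} (h : C.IsGluingOf m x ε) (hε : ∀ s t, ε s = ε t) : x = 0 := by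
  have hm0 : 0 < m := Nat.pos_of_ne_zero fun h0 => hm (by rw [h0, Nat.cast_zero])
  obtain ⟨R, rfl, hR⟩ := h
  obtain ⟨ζ, hζ, hζ0, hconst⟩ : ∃ ζ : k, ζ ^ m = 1 ∧ ζ ≠ 0 ∧ ∀ s, ε s = ζ := by
    rcases isEmpty_or_nonempty ι with hι | ⟨⟨s₀⟩⟩
    · exact ⟨1, one_pow m, one_ne_zero, fun s => (IsEmpty.false s).elim⟩
    · refine ⟨ε s₀, hR.pow_eq_one R hm0 s₀, fun h0 => ?_, fun s => hε s s₀⟩
      have := hR.pow_eq_one R hm0 s₀
      rw [h0, zero_pow hm0.ne'] at this
      exact zero_ne_one this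
  obtain ⟨v, hv⟩ := (R.twist ζ hζ hζ0).exists_exact_root hm
    (R.isGluing_twist hζ hζ0 hR hconst) ht harch
  change v ^ m * R.f = 1 at hv
  have hv0 : v ≠ 0 := fun h0 => by simp [h0, zero_pow hm0.ne'] at hv
  show QuotientAddGroup.mk _ = (0 : Pic0 L F)
  rw [QuotientAddGroup.eq_zero_iff, AddSubgroup.mem_addSubgroupOf]
  refine ⟨v⁻¹, inv_ne_zero hv0, fun P => ?_⟩
  have h1 := congrArg P.ord hv
  rw [P.ord_mul (pow_ne_zero m hv0) R.f_ne, ← zpow_natCast, P.ord_zpow, P.ord_one,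
    ← R.div_eq, ← mul_add] at h1
  have h2 := (mul_eq_zero.mp h1).resolve_left (by exact_mod_cast hm0.ne')
  show R.D P = _
  rw [P.ord_inv]
  omega

/-- The gluing determines the toric class. -/
theorem IsGluingOf.eq_of_eq_smul (hm : (m : k) ≠ 0) (ht : ∃ t : A, t ≠ 0 ∧ π t = 0)
    (harch : ∀ a b : A, π a = 0 → b ≠ 0 → ∃ N, b ∣ a ^ N)
    {x y : Pic0 L F} {ε δ : ι → k} (h : C.IsGluingOf m x ε) (h' : C.IsGluingOf m y δ) {c : k}
    (hc : δ = c • ε) : x = y := by
  have hm0 : 0 < m := Nat.pos_of_ne_zero fun h0 => hm (by rw [h0, Nat.cast_zero])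
  have hneg : -x = (m - 1) • x := neg_eq_of_add_eq_zero_left (by
    rw [← succ_nsmul, Nat.sub_add_cancel hm0, h.isTorus.nsmul_eq_zero])
  have hz : C.IsGluingOf m (y + -x) (δ * ε ^ (m - 1)) :=
    hneg ▸ h'.add hm0 (h.nsmul hm0 (m - 1))
  refine (add_neg_eq_zero.mp (hz.eq_zero hm ht harch fun s t => ?_)).symm
  simp only [hc, Pi.mul_apply, Pi.smul_apply, Pi.pow_apply, smul_eq_mul, mul_assoc,
    ← pow_succ', Nat.sub_add_cancel hm0, h.pow_eq_one hm0]

end PairReduction

end FLTAgent.Semistable
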