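import Fermat.Agent.Semistable.Transport

/-!
# Relations between morphisms on torsion classes

For morphisms of a pair reduction: inertia type morphisms act unipotently of echelon two
(`unipotent_sq`), and a Frobenius type morphism is minus `q` times the exchange on the toric part
(`smul_add_nsmul_eq_zero`).  Applied to `X₀(Mq)` in `Semistable.Galois`.
-/

set_option autoImplicit false

noncomputable section

open AlgebraicCurve FLTAgent.FFRiemannRoch FLTAgent.FFBasic

namespace FLTAgent.Semistable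

variable {L k : Type*} [Field L] [Field k] {A : ValuationSubring L} {π : A →+* k}
variable {F F₁ F₂ : Type*} [Field F] [Field F₁] [Field F₂]
  [Algebra L F] [Algebra k F₁] [Algebra k F₂] {ι : Type*} [Fintype ι]

namespace PairReduction

/-- The hypotheses on the valuation ring and on `m` used for rigidity. -/
structure Admissible (π : A →+* k) (m : ℕ) : Prop where
  ne_zero : (m : k) ≠ 0
  exists_zero : ∃ t : A, t ≠ 0 ∧ π t = 0
  arch : ∀ a b : A, π a = 0 → b ≠ 0 → ∃ N, b ∣ a ^ N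

theorem Admissible.pos {m : ℕ} (h : Admissible π m) : 0 < m :=
  Nat.pos_of_ne_zero fun h0 => h.ne_zero (by rw [h0, Nat.cast_zero])

variable {C : PairReduction A π F F₁ F₂ ι} {m : ℕ}
variable [IsAlgClosed k] [IsFunctionField k F₁] [IsFunctionField k F₂]
  [IsAlgClosed L] [IsFunctionField L F]

namespace Morph

variable (Φ : Morph C C)

omit [IsFunctionField k F₁] [IsFunctionField k F₂] [IsFunctionField L F] in
/-- A morphism trivial on the reductions moves torsion classes by toric classes. -/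
theorem isTorus_sub (hm : 0 < m) (h₁ : ∀ a, Φ.σ₁ a = a) (h₂ : ∀ a, Φ.σ₂ a = a) {x : Pic0 L F}
    (hx : m • x = 0) : C.IsTorus m (Φ.g • x - x) := by
  obtain ⟨T, hT⟩ := C.exists_torsionData hx
  have e : Φ.g • x - x = ((Φ.mapData T).mul (T.npow (m - 1))).cls := by
    have h0 : (T.npow (m - 1)).cls = (m - 1) • T.cls := rfl
    rw [TorsionData.cls_mul, Φ.cls_mapData, h0, hT, sub_eq_add_neg,
      neg_eq_of_add_eq_zero_left (by rw [← succ_nsmul, Nat.sub_add_cancel hm, hx])]
  rw [e]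
  refine isTorus_of_bar hm _ (φ := T.bar) (a₁ := 1) (a₂ := 1) ?_ ?_
  · rw [TorsionData.bar_mul, Φ.bar_mapData, T.bar_npow, Prod.fst_mul, h₁, Prod.pow_fst,
      ← pow_succ', Nat.sub_add_cancel hm, one_smul]
  · rw [TorsionData.bar_mul, Φ.bar_mapData, T.bar_npow, Prod.snd_mul, h₂, Prod.pow_snd,
      ← pow_succ', Nat.sub_add_cancel hm, one_smul]

/-- A morphism trivial on residues and nodes fixes the toric part. -/
theorem smul_eq_self (hA : Admissible π m) (hτ : ∀ c, Φ.τ c = c) (hperm : ∀ s, Φ.perm s = s)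
    {x : Pic0 L F} (hx : C.IsTorus m x) : Φ.g • x = x := by
  obtain ⟨ε, hε⟩ := hx.exists_gluingOf hA.pos
  obtain ⟨δ, hδ, hδε⟩ := Φ.isGluingOf hA.pos hε
  refine (hε.eq_of_eq_smul hA.ne_zero hA.exists_zero hA.arch hδ (c := 1) ?_).symm
  rw [one_smul]
  funext s
  have := hδε s
  rwa [hperm, hτ] at this

/-- Inertia type morphisms are unipotent of echelon two. -/
theorem unipotent_sq (hA : Admissible π m) (h₁ : ∀ a, Φ.σ₁ a = a) (h₂ : ∀ a, Φ.σ₂ a = a)
    (hτ : ∀ c, Φ.τ c = c) (hperm : ∀ s, Φ.perm s = s) {x : Pic0 L F} (hx : m • x = 0) :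
    Φ.g • Φ.g • x + x = 2 • (Φ.g • x) := by
  have h := Φ.smul_eq_self hA hτ hperm (Φ.isTorus_sub hA.pos h₁ h₂ hx)
  rw [smul_sub, sub_eq_sub_iff_add_eq_add] at h
  rw [h, two_nsmul]

end Morph

/-- If `Φ` raises roots of unity to the power `q` and permutes the nodes like an exchange `W`,
then `Φ = -q • W` on the toric part. -/
theorem smul_add_nsmul_eq_zero (hA : Admissible π m) (Φ : Morph C C) (W : Morph C C.swap) {q : ℕ}
    (hperm : ∀ s, Φ.perm s = W.perm s) (hsurj : Function.Surjective W.perm)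
    (hW : ∀ c, W.τ c = c) (hΦ : ∀ c : k, c ^ m = 1 → Φ.τ c = c ^ q) {x : Pic0 L F}
    (hx : C.IsTorus m x) : Φ.g • x + q • (W.g • x) = 0 := by
  obtain ⟨ε, hε⟩ := hx.exists_gluingOf hA.pos
  obtain ⟨δ, hδ, hδε⟩ := Φ.isGluingOf hA.pos hε
  obtain ⟨η, hη, hηε⟩ := W.isGluingOf hA.pos hε
  have hη' : C.IsGluingOf m (W.g • x) η⁻¹ := hη.swap hA.pos
  refine (hδ.add hA.pos (hη'.nsmul hA.pos q)).eq_zero hA.ne_zero hA.exists_zero hA.arch
    fun s t => ?_
  have key : ∀ t, (δ * η⁻¹ ^ q) t = 1 := fun t => by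
    obtain ⟨s, rfl⟩ := hsurj t
    have h1 := hδε s
    rw [hperm, hΦ _ (hε.pow_eq_one hA.pos s)] at h1
    have hne : ε s ≠ 0 := fun h0 => by
      have := hε.pow_eq_one hA.pos s
      rw [h0, zero_pow hA.pos.ne'] at this
      exact zero_ne_one this
    rw [Pi.mul_apply, Pi.pow_apply, Pi.inv_apply, h1, hηε, hW, inv_pow,
      mul_inv_cancel₀ (pow_ne_zero q hne)]
  rw [key, key]

end PairReduction

end FLTAgent.Semistable
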