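import Fermat.Agent.Semistable.Dim
import Fermat.Agent.Semistable.Relations

/-!
# The pair reduction of `X₀(Mq)` at `q`

The crossings as places of the two copies of `X₀(M)` (`node₁`, `node₂`) and the instance
`pairReduction` of `PairReduction`, assembled from `Branches`, `Regular`, `Compat` and `Dim`.
The starting point of the semistable torsion arguments.
-/

set_option autoImplicit false

noncomputable section

open AlgebraicCurve ModularCurve Polynomial FLTAgent.FFBasic FLTAgent.Deuring
open FLTAgent.HeckeJacobian

namespace FLTAgent.Semistable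

theorem isPolarDivisor_pol {K F : Type*} [Field K] [Field F] [Algebra K F] [IsFunctionField K F]
    (x : F) : IsPolarDivisor x (pol (K := K) x) := by
  refine ⟨pol_nonneg x, mem_rr_of_ord fun v => by rw [pol_apply]; omega, fun v hv => ?_⟩
  rw [pol_apply] at hv ⊢
  omega

namespace Level

local notation "Qbar" => AlgebraicClosure ℚ

variable {M q : ℕ} [NeZero M] [Fact q.Prime]

theorem degree_pol_jF (N : ℕ) [NeZero N] :
    Divisor.degree (pol (K := Qbar) (Modular.jF (L := Qbar) N)) =
      (dedekindPsi N : ℤ) := by
  let : Algebra Qbar ℂ := qbarToC.toAlgebra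
  rw [pol, degree_poles (Modular.transcendental_jF N)]
  have h : Modular.jF (L := Qbar) N = ModularFF.jElt Qbar N := Subtype.ext (by
    rw [Modular.coe_jF, ModularFF.coe_jElt])
  rw [h, ← MFDim.index_Gamma0_eq_dedekindPsi]
  exact congrArg Nat.cast (ModularFF.finrank_adjoin_jElt Qbar N)

variable {k : Type} [Field k] [IsAlgClosed k] [CharP k q]
variable {A : ValuationSubring Qbar} {π : A →+* k} (S : Setting M q A π)

omit [IsAlgClosed k] [CharP k q] in
theorem Setting.isFunctionField (S : Setting M q A π) :
    IsFunctionField k (modularFunctionFieldFullC k M) :=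
  Modular.isFunctionFieldk S.good

variable [IsFunctionField k (modularFunctionFieldFullC k M)]

omit [IsFunctionField k (modularFunctionFieldFullC k M)] in
/-- The residue of `Δ(τ)/Δ(qτ)` lies in `k(j)`, from the instance at level one. -/
theorem hbar_mem_kj (S₁ : Setting 1 q A π) :
    (hbar S : LaurentSeries k) ∈ IntermediateField.adjoin k {jqModC k} := by
  rw [coe_hbar, ← coe_hbar S₁]
  have hle : modularFunctionFieldFullC k 1 ≤ IntermediateField.adjoin k {jqModC k} := by
    rw [modularFunctionFieldFullC, IntermediateField.adjoin_le_iff]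
    rintro _ ⟨d, hd0, hd, rfl⟩
    obtain rfl := Nat.dvd_one.mp hd
    rw [qExpand_one_apply]
    exact IntermediateField.mem_adjoin_simple_self k _
  exact hle (hbar S₁).2

include S in
/-- The degree of the poles of `j` is the sum over the two components. -/
theorem degree_eq :
    Divisor.degree (pol (K := Qbar) (jA M q)) =
      Divisor.degree (pol (K := k) (Modular.jFb (k := k) M)) +
        Divisor.degree (pol (K := k) (expandSpecial q M (Modular.jFb (k := k) M))) := by
  have hjA : jA M q = Modular.jF (L := Qbar) (M * q) :=
    Subtype.ext ((coe_jA M q).trans (Modular.coe_jF (L := Qbar) (M * q)).symm)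
  have hb : Divisor.degree (pol (K := k) (Modular.jFb (k := k) M)) = (dedekindPsi M : ℤ) := by
    have : IsFunctionField Qbar (Modular.FF Qbar M) := Modular.isFunctionFieldL S.good
    rw [← degree_pol_jF M, pol, pol, degree_poles (Modular.transcendental_jFb M),
      degree_poles (Modular.transcendental_jF M), Modular.finrank_eq S.good]
  rw [hjA, degree_pol_jF (M * q), pol_expandSpecial_jFb, map_nsmul, hb,
    dedekindPsi_mul_prime (NeZero.ne M) Fact.out, if_neg S.not_dvd, nsmul_eq_mul]
  push_cast
  ring

instance instFintypeNodeSet : Fintype (nodeSet S) := (nodeSet_finite S).fintype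

/-- The first side of a crossing. -/
def node₁ (s : nodeSet S) : Place k (modularFunctionFieldFullC k M) := s.1

/-- The second side of a crossing. -/
def node₂ (s : nodeSet S) : Place k (modularFunctionFieldFullC k M) :=
  (frobAut (k := k) q M)⁻¹ • s.1

/-- The pair reduction of `X₀(Mq)` at `q`. -/
def pairReduction (hk : (hbar S : LaurentSeries k) ∈ IntermediateField.adjoin k {jqModC k}) :
    PairReduction A π (modularFunctionFieldBar (M * q)) (modularFunctionFieldFullC k M)
      (modularFunctionFieldFullC k M) (nodeSet S) where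
  π_surj := S.surj
  b₁ := branch₁ S
  b₂ := branch₂ S
  ortho g₁ g₂ h₁ _ V _ := pair_ortho S g₁ g₂ h₁ V
  J := jA M q
  J_mem₁ := jA_mem₁ S
  J_mem₂ := jA_mem₂ S
  E := pol (K := Qbar) (jA M q)
  E₁ := pol (K := k) (Modular.jFb (k := k) M)
  E₂ := pol (K := k) (expandSpecial q M (Modular.jFb (k := k) M))
  polar := isPolarDivisor_pol _
  polar₁ := by rw [res₁_jA]; exact isPolarDivisor_pol _
  polar₂ := by rw [res₂_jA]; exact isPolarDivisor_pol _
  degree_pos₁ := degree_pol_pos (Modular.transcendental_jFb M)
  degree_pos₂ := by
    rw [pol_expandSpecial_jFb, map_nsmul, nsmul_eq_mul]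
    exact mul_pos (by exact_mod_cast (Fact.out : q.Prime).pos)
      (degree_pol_pos (Modular.transcendental_jFb M))
  degree_eq := degree_eq S
  node₁ := node₁ S
  node₂ := node₂ S
  node₁_injective := Subtype.val_injective
  node₂_injective _ _ h := Subtype.ext (MulAction.injective _ h)
  node₁_off s := by
    rw [node₁, pol_apply, max_eq_right (by have := s.2.1; omega)]
  node₂_off s := by
    rw [node₂, pol_expandSpecial_jFb, Finsupp.smul_apply, pol_apply,
      max_eq_right (by have := (frobAut_inv_smul_mem S s.2).1; omega), smul_zero]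
  reg₁ n u h₁ h₂ hu := (reg_res S n h₁ h₂ hu).1
  reg₂ n u h₁ h₂ hu := (reg_res S n h₁ h₂ hu).2
  compat n u h₁ h₂ hu s := compat_values S h₁ h₂ (inB_of_mem hu) s.2
  dim := exists_dim S hk

end Level

end FLTAgent.Semistable
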