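import Fermat.Agent.Semistable.Torsion

/-!
# Divisibility of the reductions of torsion data

Reductions of torsion data have divisors divisible by `m` away from the nodes, and at a node
their slopes on the two branches vanish together (`TorsionData.divisibility`), by a count of
dimensions over all multiples (`TorsionData.count_le`).
-/

set_option autoImplicit false

noncomputable section

open AlgebraicCurve FLTAgent.FFRiemannRoch FLTAgent.FFBasic

namespace FLTAgent.Semistable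

theorem exists_forall_eq_mul_of_pow_eq {k W : Type*} [Field k] [IsAlgClosed k] [AddCommGroup W]
    [Module k W] (l₁ l₂ : W →ₗ[k] k) {m : ℕ} (hm : 0 < m) {c : k}
    (h : ∀ w, l₁ w ^ m = c * l₂ w ^ m) : ∃ ζ : k, ∀ w, l₁ w = ζ * l₂ w := by
  classical
  let Z := Polynomial.nthRootsFinset m c
  let ψ : k → (W →ₗ[k] k) := fun ζ => l₁ - ζ • l₂
  have hcov : ⋃ p ∈ Z.image (fun ζ => LinearMap.ker (ψ ζ)), (p : Set W) = Set.univ := by
    refine Set.eq_univ_of_forall fun w => ?_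
    simp only [Finset.set_biUnion_finset_image, Set.mem_iUnion, SetLike.mem_coe, LinearMap.mem_ker,
      ψ, LinearMap.sub_apply, LinearMap.smul_apply, smul_eq_mul, sub_eq_zero]
    rcases eq_or_ne (l₂ w) 0 with hb | hb
    · obtain ⟨ζ, hζ⟩ := IsAlgClosed.exists_pow_nat_eq c hm
      refine ⟨ζ, (Polynomial.mem_nthRootsFinset hm c).mpr hζ, ?_⟩
      have := h w
      rw [hb, zero_pow hm.ne', mul_zero] at this
      rw [(pow_eq_zero_iff hm.ne').mp this, hb, mul_zero]
    · refine ⟨l₁ w / l₂ w, (Polynomial.mem_nthRootsFinset hm c).mpr ?_, ?_⟩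
      · rw [div_pow, h w, mul_div_assoc, div_self (pow_ne_zero m hb), mul_one]
      · rw [div_mul_cancel₀ _ hb]
  have : Infinite k := IsAlgClosed.instInfinite
  obtain ⟨ζ, -, htop⟩ := Finset.mem_image.mp (Subspace.top_mem_of_biUnion_eq_univ hcov)
  refine ⟨ζ, fun w => ?_⟩
  have hw : w ∈ LinearMap.ker (ψ ζ) := htop ▸ Submodule.mem_top
  simpa [ψ, sub_eq_zero] using hw

theorem degree_eq_sum_of_subset {K G : Type*} [Field K] [Field G] [Algebra K G] [IsAlgClosed K]
    [IsFunctionField K G] {D : Divisor K G} {S : Finset (Place K G)} (hS : D.support ⊆ S) :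
    Divisor.degree D = ∑ v ∈ S, D v := by
  show Finsupp.liftAddHom _ D = _
  rw [Finsupp.liftAddHom_apply, Finsupp.sum_of_support_subset D hS _ (fun v _ => map_zero _)]
  exact Finset.sum_congr rfl fun v _ => by
    show D v * (v.deg : ℤ) = D v
    rw [deg_eq_one]
    simp

theorem sum_val_mul {m : ℕ} [NeZero m] (a : ZMod m) :
    2 * ∑ j : ZMod m, (j * a).val = m * (Finset.univ.filter fun j : ZMod m => j * a ≠ 0).card := by
  classical
  rw [two_mul]
  conv_lhs => arg 2; rw [← Equiv.sum_comp (Equiv.neg (ZMod m))]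
  rw [← Finset.sum_add_distrib, Finset.card_filter, Finset.mul_sum]
  refine Finset.sum_congr rfl fun j _ => ?_
  rw [Equiv.neg_apply, neg_mul, ZMod.neg_val]
  have := ZMod.val_lt (j * a)
  by_cases h : j * a = 0
  · simp [h]
  · rw [if_pos h, if_neg h]
    omega

section Shift

variable {k G : Type*} [Field k] [Field G] [Algebra k G] [IsFunctionField k G]

/-- The divisor of integral parts of `div b / m`. -/
def floorDiv (m : ℕ) (b : G) : Divisor k G :=
  (divOf (K := k) b).mapRange (fun x => x / (m : ℤ)) (Int.zero_ediv _)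

theorem floorDiv_apply (m : ℕ) (b : G) (v : Place k G) :
    floorDiv (k := k) m b v = v.ord b / (m : ℤ) := by
  rw [floorDiv, Finsupp.mapRange_apply, divOf_apply]

theorem support_floorDiv_subset (m : ℕ) (b : G) :
    (floorDiv (k := k) m b).support ⊆ (divOf (K := k) b).support := Finsupp.support_mapRange

theorem mem_floorDiv_of_pow_mul_mem {m n : ℕ} (hm : 0 < m) {a b : G} (hb : b ≠ 0)
    {E : Divisor k G} (h : a ^ m * b ∈ riemannRochSpace ((m * n) • E)) :
    a ∈ riemannRochSpace (floorDiv m b + n • E) := by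
  rw [mem_riemannRochSpace_iff] at h ⊢
  intro v
  rcases eq_or_ne a 0 with ha | ha
  · exact Or.inl ha
  refine Or.inr ?_
  have h1 := (h v).resolve_left (mul_ne_zero (pow_ne_zero m ha) hb)
  rw [v.ord_mul (pow_ne_zero m ha) hb, ← zpow_natCast, v.ord_zpow] at h1
  simp only [Finsupp.add_apply, floorDiv_apply, Finsupp.smul_apply, nsmul_eq_mul, Nat.cast_mul]
    at h1 ⊢
  have hm' : (0 : ℤ) < m := by exact_mod_cast hm
  have h2 := Int.mul_ediv_add_emod (v.ord b) m
  have h3 := Int.emod_lt_of_pos (v.ord b) hm'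
  nlinarith

variable [IsAlgClosed k]

theorem sum_val_eq_neg_degree {m : ℕ} [NeZero m] {b b' : G}
    (hcast : ∀ v : Place k G, (v.ord b' : ZMod m) = v.ord b) {S : Finset (Place k G)}
    (hS : (divOf (K := k) b).support ⊆ S) :
    ∑ v ∈ S, (((v.ord b : ZMod m)).val : ℤ)
      = -((m : ℤ) * Divisor.degree (floorDiv (k := k) m b')) := by
  classical
  set S' := S ∪ (divOf (K := k) b').support
  have h0 := degree_divOf (K := k) b'
  rw [degree_eq_sum_of_subset (S := S') Finset.subset_union_right] at h0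
  rw [degree_eq_sum_of_subset (S := S') ((support_floorDiv_subset m b').trans
    Finset.subset_union_right), Finset.sum_subset (s₂ := S') Finset.subset_union_left
      fun v _ hv => by
        have : divOf (K := k) b v = 0 := Finsupp.notMem_support_iff.mp fun h => hv (hS h)
        rw [divOf_apply] at this
        rw [this, Int.cast_zero, ZMod.val_zero]
        rfl]
  rw [Finset.mul_sum, eq_neg_iff_add_eq_zero, ← Finset.sum_add_distrib, ← h0]
  refine Finset.sum_congr rfl fun v _ => ?_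
  rw [← hcast v, ZMod.val_intCast, floorDiv_apply, divOf_apply]
  exact Int.emod_add_mul_ediv _ _

omit [IsFunctionField k G] [IsAlgClosed k] in
theorem exists_shift {ι : Type*} [Fintype ι] {p : ι → Place k G} {m : ℕ} (hm : 0 < m) {b : G}
    (hb : b ≠ 0) : ∃ z : G, z ≠ 0 ∧ ∀ s, 0 ≤ (p s).ord (b * z ^ m) ∧ (p s).ord (b * z ^ m) < m := by
  classical
  rcases isEmpty_or_nonempty ι with hι | ⟨⟨s₀⟩⟩
  · exact ⟨1, one_ne_zero, fun s => (IsEmpty.false s).elim⟩
  obtain ⟨z, hz⟩ := exists_ord_eq_forall (Finset.univ.image p) fun v => -(v.ord b / (m : ℤ))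
  have hz0 : z ≠ 0 := (hz (p s₀) (Finset.mem_image_of_mem p (Finset.mem_univ s₀))).1
  refine ⟨z, hz0, fun s => ?_⟩
  have h := (hz (p s) (Finset.mem_image_of_mem p (Finset.mem_univ s))).2
  rw [(p s).ord_mul hb (pow_ne_zero m hz0), ← zpow_natCast, (p s).ord_zpow, h]
  have hm' : (0 : ℤ) < m := by exact_mod_cast hm
  have h1 := Int.emod_nonneg ((p s).ord b) hm'.ne'
  have h2 := Int.emod_lt_of_pos ((p s).ord b) hm'
  have h3 := Int.mul_ediv_add_emod ((p s).ord b) m
  constructor <;> linarith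

theorem exists_value_of_ord_nonneg {b : G} (hb : b ≠ 0) {v : Place k G} (h : 0 ≤ v.ord b) :
    ∃ β : k, HasValue v b β ∧ (β = 0 ↔ v.ord b ≠ 0) := by
  have hball : b ∈ ball v 0 := (mem_ball_iff_ord v).mpr (Or.inr (by omega))
  refine ⟨valueAt v b, hasValue_valueAt hball, fun h0 => ?_, fun hne => ?_⟩
  · have h1 := hasValue_valueAt hball
    rw [h0, hasValue_zero_iff, mem_ball_iff_ord] at h1
    have := h1.resolve_left hb
    omega
  · exact (hasValue_zero_iff.mpr ((mem_ball_iff_ord v).mpr (Or.inr (by omega)))).valueAt_eq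

/-- Two functionals whose `m`-th powers are proportional satisfy a linear relation. -/
private lemma exists_relation_of_pow_mul_eq {W : Type*} [AddCommGroup W] [Module k W]
    (l₁ l₂ : W →ₗ[k] k) {m : ℕ} (hm : 0 < m) {β₁ β₂ : k} (hβ : β₁ ≠ 0 ∨ β₂ ≠ 0)
    (h : ∀ w, l₁ w ^ m * β₁ = l₂ w ^ m * β₂) :
    ∃ a b : k, (a ≠ 0 ∨ b ≠ 0) ∧ ∀ w, a * l₁ w + b * l₂ w = 0 := by
  rcases eq_or_ne β₁ 0 with h1 | h1
  · refine ⟨0, 1, Or.inr one_ne_zero, fun w => ?_⟩
    have := h w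
    rw [h1, mul_zero] at this
    rw [(pow_eq_zero_iff hm.ne').mp
      ((mul_eq_zero.mp this.symm).resolve_right (hβ.resolve_left fun hne => hne h1))]
    ring
  · obtain ⟨ζ, hζ⟩ := exists_forall_eq_mul_of_pow_eq l₁ l₂ hm (c := β₂ / β₁) fun w => by
      rw [div_mul_eq_mul_div, eq_div_iff h1, mul_comm β₂]; exact h w
    refine ⟨1, -ζ, Or.inl one_ne_zero, fun w => ?_⟩
    rw [hζ w]; ring

omit [IsFunctionField k G] [IsAlgClosed k] in
/-- Multiplying by an `m`-th power does not change orders modulo `m`. -/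
private lemma cast_ord_mul_pow {m : ℕ} (v : Place k G) {b z : G} (hb : b ≠ 0) (hz : z ≠ 0) :
    (v.ord (b * z ^ m) : ZMod m) = v.ord b := by
  rw [v.ord_mul hb (pow_ne_zero m hz), ← zpow_natCast, v.ord_zpow]; simp

omit [IsFunctionField k G] [IsAlgClosed k] in
/-- For a shifted function the order is divisible by `m` only if it vanishes. -/
private lemma cast_ord_eq_zero_iff {m : ℕ} {v : Place k G} {b z : G} (hb : b ≠ 0) (hz : z ≠ 0)
    (h : 0 ≤ v.ord (b * z ^ m) ∧ v.ord (b * z ^ m) < m) :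
    (v.ord b : ZMod m) = 0 ↔ v.ord (b * z ^ m) = 0 := by
  rw [← cast_ord_mul_pow v hb hz, ZMod.intCast_zmod_eq_zero_iff_dvd]
  exact ⟨Int.eq_zero_of_dvd_of_nonneg_of_lt h.1 h.2, fun h0 => h0 ▸ dvd_zero _⟩

end Shift

variable {L k : Type*} [Field L] [Field k] {A : ValuationSubring L} {π : A →+* k}
variable {F F₁ F₂ : Type*} [Field F] [Field F₁] [Field F₂]
  [Algebra L F] [Algebra k F₁] [Algebra k F₂] {ι : Type*} [Fintype ι]
variable {C : PairReduction A π F F₁ F₂ ι} {m : ℕ}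
variable [IsAlgClosed k] [IsFunctionField k F₁] [IsFunctionField k F₂]
variable [IsAlgClosed L] [IsFunctionField L F]

namespace PairReduction

omit [IsAlgClosed k] [IsFunctionField k F₁] [IsFunctionField k F₂] [IsAlgClosed L]
  [IsFunctionField L F] in
/-- The `m`-th power of a section of `T.D + n • E`, times `T.f`, is a section of `(m * n) • E`. -/
private lemma TorsionData.pow_mul_mem [NeZero m] (T : C.TorsionData m) {n : ℕ} {u : F}
    (hu : u ∈ riemannRochSpace (T.D + n • C.E)) :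
    u ^ m * T.f ∈ riemannRochSpace ((m * n) • C.E) := by
  rcases eq_or_ne u 0 with rfl | hu0
  · simp [zero_pow (NeZero.ne m)]
  rw [mem_riemannRochSpace_iff] at hu ⊢
  intro v
  right
  have h := (hu v).resolve_left hu0
  have hp := v.ord_zpow u m
  rw [zpow_natCast] at hp
  rw [v.ord_mul (pow_ne_zero m hu0) T.f_ne, hp, ← T.div_eq v]
  simp only [Finsupp.add_apply, Finsupp.smul_apply, nsmul_eq_mul, Nat.cast_mul] at h ⊢
  nlinarith

omit [IsAlgClosed L] [IsFunctionField L F] in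
/-- A shifted reduction of a section, normalised by roots of the inverse constants, lies in the
spaces of the integral parts, and its values agree at the nodes. -/
private lemma TorsionData.normalised_mem [NeZero m] (T : C.TorsionData m) {g : L × L}
    (hg : g ^ m * T.c = (1, 1)) {z₁ : F₁} {z₂ : F₂} (hz₁ : z₁ ≠ 0) (hz₂ : z₂ ≠ 0) {n : ℕ}
    {w : F₁ × F₂} (hw : w ∈ C.resSub g (riemannRochSpace (T.D + n • C.E))) :
    z₁⁻¹ * w.1 ∈ riemannRochSpace (floorDiv m (T.bar.1 * z₁ ^ m) + n • C.E₁) ∧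
      z₂⁻¹ * w.2 ∈ riemannRochSpace (floorDiv m (T.bar.2 * z₂ ^ m) + n • C.E₂) ∧
      ∀ s, valueAt (C.node₁ s) ((z₁⁻¹ * w.1) ^ m * (T.bar.1 * z₁ ^ m))
        = valueAt (C.node₂ s) ((z₂⁻¹ * w.2) ^ m * (T.bar.2 * z₂ ^ m)) := by
  obtain ⟨u, hu, hug, rfl⟩ := hw
  have hm : 0 < m := NeZero.pos m
  have h1 : C.Mem (1, 1) (u ^ m * T.f) := hg ▸ (hug.pow m).mul T.mem
  have h2 := red_mul (hug.pow m) T.mem
  rw [hg, red_pow hug] at h2
  obtain ⟨r₁, r₂, hval⟩ := C.red_mem_glued_one h1 (T.pow_mul_mem hu)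
  rw [h2] at r₁ r₂ hval
  have e₁ : (z₁⁻¹ * (C.red g u).1) ^ m * (T.bar.1 * z₁ ^ m)
      = (C.red g u ^ m * C.red T.c T.f).1 := by
    show _ = (C.red g u).1 ^ m * T.bar.1
    simp only [mul_pow, inv_pow]
    field_simp
  have e₂ : (z₂⁻¹ * (C.red g u).2) ^ m * (T.bar.2 * z₂ ^ m)
      = (C.red g u ^ m * C.red T.c T.f).2 := by
    show _ = (C.red g u).2 ^ m * T.bar.2
    simp only [mul_pow, inv_pow]
    field_simp
  refine ⟨mem_floorDiv_of_pow_mul_mem hm (mul_ne_zero T.bar_ne₁ (pow_ne_zero m hz₁)) (e₁ ▸ r₁),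
    mem_floorDiv_of_pow_mul_mem hm (mul_ne_zero T.bar_ne₂ (pow_ne_zero m hz₂)) (e₂ ▸ r₂),
    fun s => ?_⟩
  rw [e₁, e₂, hval s, Pi.one_apply, one_mul]

omit [IsAlgClosed L] [IsFunctionField L F] in
/-- Linear combinations of values at the nodes, one at each of a set of nodes, take all values on
sections of divisors of large degree. -/
private lemma exists_node_combination (C : PairReduction A π F F₁ F₂ ι) {D₁ : Divisor k F₁}
    {D₂ : Divisor k F₂} (hD₁ : ∀ s, D₁ (C.node₁ s) = 0) (hD₂ : ∀ s, D₂ (C.node₂ s) = 0)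
    (hdeg₁ : 2 * (genusFF k F₁ : ℤ) + Fintype.card ι ≤ Divisor.degree D₁)
    (hdeg₂ : 2 * (genusFF k F₂ : ℤ) + Fintype.card ι ≤ Divisor.degree D₂)
    {P : ι → Prop} [DecidablePred P] (a b c : {s // P s} → k) (hab : ∀ s, a s ≠ 0 ∨ b s ≠ 0) :
    ∃ x ∈ riemannRochSpace D₁, ∃ y ∈ riemannRochSpace D₂, ∀ s : {s // P s},
      a s * valueAt (C.node₁ s.1) x + b s * valueAt (C.node₂ s.1) y = c s := by
  classical
  obtain ⟨x, hx, hxv⟩ := exists_mem_valueAt_eq C.node₁_injective hD₁ hdeg₁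
    (fun s => if h : P s then (if a ⟨s, h⟩ = 0 then 0 else c ⟨s, h⟩ / a ⟨s, h⟩) else 0)
  obtain ⟨y, hy, hyv⟩ := exists_mem_valueAt_eq C.node₂_injective hD₂ hdeg₂
    (fun s => if h : P s then (if a ⟨s, h⟩ = 0 then c ⟨s, h⟩ / b ⟨s, h⟩ else 0) else 0)
  refine ⟨x, hx, y, hy, fun s => ?_⟩
  rw [(hxv s.1).valueAt_eq, (hyv s.1).valueAt_eq, dif_pos s.2, dif_pos s.2]
  by_cases ha : a s = 0
  · rw [if_pos ha, if_pos ha, mul_zero, zero_add,
      mul_div_cancel₀ _ ((hab s).resolve_left fun h => h ha)]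
  · rw [if_neg ha, if_neg ha, mul_zero, add_zero, mul_div_cancel₀ _ ha]

omit [IsAlgClosed L] in
open Classical in
/-- The sections of `T.D + n • E` reduce injectively into a space cut out by one linear condition
at each node where not both slopes are nonzero. -/
private lemma TorsionData.ell_add_card_le [NeZero m] (T : C.TorsionData m) {g : L × L}
    (hg : g ^ m * T.c = (1, 1)) (hg₁ : g.1 ≠ 0) (hg₂ : g.2 ≠ 0) {z₁ : F₁} {z₂ : F₂}
    (hz₁ : z₁ ≠ 0) (hz₂ : z₂ ≠ 0)
    (hnn₁ : ∀ s, 0 ≤ (C.node₁ s).ord (T.bar.1 * z₁ ^ m) ∧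
      (C.node₁ s).ord (T.bar.1 * z₁ ^ m) < m)
    (hnn₂ : ∀ s, 0 ≤ (C.node₂ s).ord (T.bar.2 * z₂ ^ m) ∧
      (C.node₂ s).ord (T.bar.2 * z₂ ^ m) < m) {n : ℕ}
    (hdeg₁ : 2 * (genusFF k F₁ : ℤ) + Fintype.card ι ≤
      Divisor.degree (floorDiv m (T.bar.1 * z₁ ^ m) + n • C.E₁))
    (hdeg₂ : 2 * (genusFF k F₂ : ℤ) + Fintype.card ι ≤
      Divisor.degree (floorDiv m (T.bar.2 * z₂ ^ m) + n • C.E₂)) :
    ell L F (T.D + n • C.E) + Fintype.card {s // ¬(((C.node₁ s).ord T.bar.1 : ZMod m) ≠ 0 ∧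
        ((C.node₂ s).ord T.bar.2 : ZMod m) ≠ 0)} ≤
      ell k F₁ (floorDiv m (T.bar.1 * z₁ ^ m) + n • C.E₁) +
        ell k F₂ (floorDiv m (T.bar.2 * z₂ ^ m) + n • C.E₂) := by
  set D₁ := floorDiv (k := k) m (T.bar.1 * z₁ ^ m) + n • C.E₁ with hD₁
  set D₂ := floorDiv (k := k) m (T.bar.2 * z₂ ^ m) + n • C.E₂ with hD₂
  have hn₁ : ∀ s, D₁ (C.node₁ s) = 0 := fun s => by
    simp [hD₁, floorDiv_apply, Int.ediv_eq_zero_of_lt (hnn₁ s).1 (hnn₁ s).2, C.node₁_off s]
  have hn₂ : ∀ s, D₂ (C.node₂ s) = 0 := fun s => by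
    simp [hD₂, floorDiv_apply, Int.ediv_eq_zero_of_lt (hnn₂ s).1 (hnn₂ s).2, C.node₂_off s]
  have hkey := fun w hw => T.normalised_mem hg hz₁ hz₂ (n := n) (w := w) hw
  let W := C.resSub g (riemannRochSpace (T.D + n • C.E))
  let M := riemannRochSpace D₁ × riemannRochSpace D₂
  let j : W →ₗ[k] M :=
    { toFun := fun w => (⟨_, (hkey _ w.2).1⟩, ⟨_, (hkey _ w.2).2.1⟩)
      map_add' := fun a b => Prod.ext (Subtype.ext (mul_add _ _ _)) (Subtype.ext (mul_add _ _ _))
      map_smul' := fun a b => Prod.ext (Subtype.ext (mul_smul_comm _ _ _))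
        (Subtype.ext (mul_smul_comm _ _ _)) }
  let l₁ : ι → (M →ₗ[k] k) := fun s =>
    (evalL _ (C.node₁ s) (hn₁ s).le).comp (LinearMap.fst k _ _)
  let l₂ : ι → (M →ₗ[k] k) := fun s =>
    (evalL _ (C.node₂ s) (hn₂ s).le).comp (LinearMap.snd k _ _)
  have hcond : ∀ s : {s // ¬(((C.node₁ s).ord T.bar.1 : ZMod m) ≠ 0 ∧
      ((C.node₂ s).ord T.bar.2 : ZMod m) ≠ 0)},
      ∃ a b : k, (a ≠ 0 ∨ b ≠ 0) ∧ ∀ w, a * l₁ s.1 (j w) + b * l₂ s.1 (j w) = 0 := by
    rintro ⟨s, hs⟩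
    obtain ⟨β₁, hβ₁, hz1⟩ :=
      exists_value_of_ord_nonneg (mul_ne_zero T.bar_ne₁ (pow_ne_zero m hz₁)) (hnn₁ s).1
    obtain ⟨β₂, hβ₂, hz2⟩ :=
      exists_value_of_ord_nonneg (mul_ne_zero T.bar_ne₂ (pow_ne_zero m hz₂)) (hnn₂ s).1
    refine exists_relation_of_pow_mul_eq ((l₁ s).comp j) ((l₂ s).comp j) (NeZero.pos m)
      (or_iff_not_imp_left.mpr fun h1 h2 => hs
        ⟨fun h => hz1.mp (not_not.mp h1) ((cast_ord_eq_zero_iff T.bar_ne₁ hz₁ (hnn₁ s)).mp h),
          fun h => hz2.mp h2 ((cast_ord_eq_zero_iff T.bar_ne₂ hz₂ (hnn₂ s)).mp h)⟩) fun w => ?_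
    have h1 := ((hasValue_valueAt (mem_ball_zero_of_mem (hn₁ s).le (j w).1.2)).pow m).mul hβ₁
    have h2 := ((hasValue_valueAt (mem_ball_zero_of_mem (hn₂ s).le (j w).2.2)).pow m).mul hβ₂
    exact h1.valueAt_eq.symm.trans (((hkey _ w.2).2.2 s).trans h2.valueAt_eq)
  choose a b hab hann using hcond
  let Φ : M →ₗ[k] ({s // ¬(((C.node₁ s).ord T.bar.1 : ZMod m) ≠ 0 ∧
      ((C.node₂ s).ord T.bar.2 : ZMod m) ≠ 0)} → k) :=
    LinearMap.pi fun s => a s • l₁ s.1 + b s • l₂ s.1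
  have hsurj : Function.Surjective Φ := fun c => by
    obtain ⟨x, hx, y, hy, hxy⟩ := exists_node_combination C hn₁ hn₂ hdeg₁ hdeg₂ a b c hab
    exact ⟨(⟨x, hx⟩, ⟨y, hy⟩), funext hxy⟩
  have hjinj : Function.Injective j := fun x y h => Subtype.ext (Prod.ext
    (mul_left_cancel₀ (inv_ne_zero hz₁) (congrArg (fun p : M => (p.1 : F₁)) h))
    (mul_left_cancel₀ (inv_ne_zero hz₂) (congrArg (fun p : M => (p.2 : F₂)) h)))
  have hrange : LinearMap.range j ≤ LinearMap.ker Φ := by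
    rintro _ ⟨w, rfl⟩
    rw [LinearMap.mem_ker]
    exact funext fun s => hann s w
  have hdimW : Module.finrank k W = ell L F (T.D + n • C.E) := C.finrank_resSub hg₁ hg₂ _
  have h1 := Submodule.finrank_mono hrange
  rw [LinearMap.finrank_range_of_inj hjinj, hdimW] at h1
  have h2 := LinearMap.finrank_range_add_finrank_ker Φ
  rw [LinearMap.range_eq_top.mpr hsurj, finrank_top, Module.finrank_fintype_fun_eq_card,
    Module.finrank_prod] at h2
  simp only [ell] at h1 ⊢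
  omega

open Classical in
/-- Total residue of the slopes, bounded by the number of nodes where both are nonzero. -/
theorem TorsionData.count_le [NeZero m] (T : C.TorsionData m) {S₁ : Finset (Place k F₁)}
    (hS₁ : (divOf (K := k) T.bar.1).support ⊆ S₁) {S₂ : Finset (Place k F₂)}
    (hS₂ : (divOf (K := k) T.bar.2).support ⊆ S₂) :
    ∑ v ∈ S₁, ((v.ord T.bar.1 : ZMod m)).val + ∑ v ∈ S₂, ((v.ord T.bar.2 : ZMod m)).val
      ≤ m * (Finset.univ.filter fun s => ((C.node₁ s).ord T.bar.1 : ZMod m) ≠ 0 ∧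
          ((C.node₂ s).ord T.bar.2 : ZMod m) ≠ 0).card := by
  have hm : 0 < m := NeZero.pos m
  obtain ⟨g₁, hg₁⟩ := IsAlgClosed.exists_pow_nat_eq T.c.1⁻¹ hm
  obtain ⟨g₂, hg₂⟩ := IsAlgClosed.exists_pow_nat_eq T.c.2⁻¹ hm
  have hg₁0 : g₁ ≠ 0 := fun h => T.c_ne₁ (inv_eq_zero.mp (by rw [← hg₁, h, zero_pow hm.ne']))
  have hg₂0 : g₂ ≠ 0 := fun h => T.c_ne₂ (inv_eq_zero.mp (by rw [← hg₂, h, zero_pow hm.ne']))
  have hgm : ((g₁, g₂) : L × L) ^ m * T.c = (1, 1) :=
    Prod.ext (by simp [hg₁, inv_mul_cancel₀ T.c_ne₁]) (by simp [hg₂, inv_mul_cancel₀ T.c_ne₂])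
  obtain ⟨z₁, hz₁, hnn₁⟩ := exists_shift (p := C.node₁) hm T.bar_ne₁
  obtain ⟨z₂, hz₂, hnn₂⟩ := exists_shift (p := C.node₂) hm T.bar_ne₂
  set D₁ := floorDiv (k := k) m (T.bar.1 * z₁ ^ m) with hD₁
  set D₂ := floorDiv (k := k) m (T.bar.2 * z₂ ^ m) with hD₂
  obtain ⟨nd, hnd⟩ := C.dim
  obtain ⟨N, hN⟩ := exists_bound_ell (K := L) (F := F)
  obtain ⟨N₁, hN₁⟩ := exists_bound_ell (K := k) (F := F₁)
  obtain ⟨N₂, hN₂⟩ := exists_bound_ell (K := k) (F := F₂)
  set n := nd + N.toNat + N₁.toNat + N₂.toNat + (Divisor.degree D₁).natAbs +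
    (Divisor.degree D₂).natAbs + 2 * genusFF k F₁ + 2 * genusFF k F₂ + Fintype.card ι
  have hE₁ := C.degree_pos₁
  have hE₂ := C.degree_pos₂
  have hmul₁ : (n : ℤ) * 1 ≤ n * Divisor.degree C.E₁ :=
    mul_le_mul_of_nonneg_left (by omega) (by omega)
  have hmul₂ : (n : ℤ) * 1 ≤ n * Divisor.degree C.E₂ :=
    mul_le_mul_of_nonneg_left (by omega) (by omega)
  have hmul : (n : ℤ) * 1 ≤ n * Divisor.degree C.E :=
    mul_le_mul_of_nonneg_left (by rw [C.degree_eq]; omega) (by omega)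
  -- one linear condition at each node where not both slopes are nonzero
  have h1 := T.ell_add_card_le hgm hg₁0 hg₂0 hz₁ hz₂ hnn₁ hnn₂ (n := n)
    (by rw [map_add, map_nsmul, nsmul_eq_mul, ← hD₁]; omega)
    (by rw [map_add, map_nsmul, nsmul_eq_mul, ← hD₂]; omega)
  let P := fun s => ((C.node₁ s).ord T.bar.1 : ZMod m) ≠ 0 ∧ ((C.node₂ s).ord T.bar.2 : ZMod m) ≠ 0
  change _ + Fintype.card {s // ¬P s} ≤ _ at h1
  rw [← hD₁, ← hD₂] at h1
  have e0 := hN (T.D + n • C.E)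
    (by rw [map_add, T.degree_eq, map_nsmul, nsmul_eq_mul]; omega)
  have e1 := hN (n • C.E) (by rw [map_nsmul, nsmul_eq_mul]; omega)
  have e2 := hN₁ (D₁ + n • C.E₁) (by rw [map_add, map_nsmul, nsmul_eq_mul]; omega)
  have e3 := hN₁ (n • C.E₁) (by rw [map_nsmul, nsmul_eq_mul]; omega)
  have e4 := hN₂ (D₂ + n • C.E₂) (by rw [map_add, map_nsmul, nsmul_eq_mul]; omega)
  have e5 := hN₂ (n • C.E₂) (by rw [map_nsmul, nsmul_eq_mul]; omega)
  have e6 := hnd n (by omega)
  have e7 : Fintype.card {s // ¬P s} = Fintype.card ι - Fintype.card {s // P s} :=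
    Fintype.card_subtype_compl P
  have e8 : Fintype.card {s // P s} ≤ Fintype.card ι := Fintype.card_subtype_le P
  have e9 : Fintype.card {s // P s} = (Finset.univ.filter P).card := Fintype.card_subtype P
  rw [map_add, T.degree_eq, zero_add] at e0
  rw [map_add] at e2 e4
  simp only [ell] at e0 e1 e2 e3 e4 e5 h1
  have hcount : -Divisor.degree D₁ - Divisor.degree D₂ ≤ (Finset.univ.filter P).card := by omega
  zify
  rw [sum_val_eq_neg_degree (fun v => cast_ord_mul_pow v T.bar_ne₁ hz₁) hS₁,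
    sum_val_eq_neg_degree (fun v => cast_ord_mul_pow v T.bar_ne₂ hz₂) hS₂]
  rw [← hD₁, ← hD₂]
  calc -((m : ℤ) * Divisor.degree D₁) + -((m : ℤ) * Divisor.degree D₂)
      = (m : ℤ) * (-Divisor.degree D₁ - Divisor.degree D₂) := by ring
    _ ≤ _ := mul_le_mul_of_nonneg_left hcount (by omega)

open Classical in
/-- Off the nodes divisors of reductions are divisible by `m`; slopes vanish in pairs. -/
theorem TorsionData.divisibility [NeZero m] (T : C.TorsionData m) :
    (∀ v : Place k F₁, (∀ s, v ≠ C.node₁ s) → (v.ord T.bar.1 : ZMod m) = 0) ∧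
      (∀ v : Place k F₂, (∀ s, v ≠ C.node₂ s) → (v.ord T.bar.2 : ZMod m) = 0) ∧
      ∀ s, ((C.node₁ s).ord T.bar.1 : ZMod m) = 0 ↔ ((C.node₂ s).ord T.bar.2 : ZMod m) = 0 := by
  set S₁ := (divOf (K := k) T.bar.1).support ∪ Finset.univ.image C.node₁
  set S₂ := (divOf (K := k) T.bar.2).support ∪ Finset.univ.image C.node₂
  let c₁ : Place k F₁ → Finset (ZMod m) := fun v =>
    Finset.univ.filter fun j => j * (v.ord T.bar.1 : ZMod m) ≠ 0
  let c₂ : Place k F₂ → Finset (ZMod m) := fun v =>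
    Finset.univ.filter fun j => j * (v.ord T.bar.2 : ZMod m) ≠ 0
  have hpow : ∀ j : ZMod m,
      (∀ v : Place k F₁, (v.ord (T.npow j.val).bar.1 : ZMod m) = j * v.ord T.bar.1) ∧
        ∀ v : Place k F₂, (v.ord (T.npow j.val).bar.2 : ZMod m) = j * v.ord T.bar.2 := fun j =>
    ⟨fun v => by
      rw [T.bar_npow, Prod.pow_fst, ← zpow_natCast, v.ord_zpow, Int.cast_mul, Int.cast_natCast,
        ZMod.natCast_zmod_val],
    fun v => by
      rw [T.bar_npow, Prod.pow_snd, ← zpow_natCast, v.ord_zpow, Int.cast_mul, Int.cast_natCast,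
        ZMod.natCast_zmod_val]⟩
  have hsub₁ : ∀ j : ℕ, (divOf (K := k) (T.npow j).bar.1).support ⊆ S₁ := fun j v hv => by
    refine Finset.mem_union_left _ (Finsupp.mem_support_iff.mpr fun h0 => ?_)
    rw [Finsupp.mem_support_iff, divOf_apply, T.bar_npow, Prod.pow_fst, ← zpow_natCast,
      v.ord_zpow] at hv
    rw [divOf_apply] at h0
    exact hv (by rw [h0, mul_zero])
  have hsub₂ : ∀ j : ℕ, (divOf (K := k) (T.npow j).bar.2).support ⊆ S₂ := fun j v hv => by
    refine Finset.mem_union_left _ (Finsupp.mem_support_iff.mpr fun h0 => ?_)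
    rw [Finsupp.mem_support_iff, divOf_apply, T.bar_npow, Prod.pow_snd, ← zpow_natCast,
      v.ord_zpow] at hv
    rw [divOf_apply] at h0
    exact hv (by rw [h0, mul_zero])
  have hsum := Finset.sum_le_sum (s := (Finset.univ : Finset (ZMod m))) fun j _ =>
    (T.npow j.val).count_le (hsub₁ j.val) (hsub₂ j.val)
  simp only [(hpow _).1, (hpow _).2] at hsum
  rw [Finset.sum_add_distrib, Finset.sum_comm (t := S₁), Finset.sum_comm (t := S₂),
    ← Finset.mul_sum] at hsum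
  have hcnt : ∑ j : ZMod m, (Finset.univ.filter fun s =>
        j * ((C.node₁ s).ord T.bar.1 : ZMod m) ≠ 0 ∧
          j * ((C.node₂ s).ord T.bar.2 : ZMod m) ≠ 0).card
      = ∑ s, (c₁ (C.node₁ s) ∩ c₂ (C.node₂ s)).card := by
    simp only [Finset.card_filter]
    rw [Finset.sum_comm]
    refine Finset.sum_congr rfl fun s _ => ?_
    rw [← Finset.card_filter, ← Finset.filter_and]
  rw [hcnt] at hsum
  have hA : m * (∑ v ∈ S₁, (c₁ v).card + ∑ v ∈ S₂, (c₂ v).card)
      ≤ m * (2 * ∑ s, (c₁ (C.node₁ s) ∩ c₂ (C.node₂ s)).card) := by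
    calc m * (∑ v ∈ S₁, (c₁ v).card + ∑ v ∈ S₂, (c₂ v).card)
        = 2 * (∑ v ∈ S₁, ∑ j : ZMod m, (j * (v.ord T.bar.1 : ZMod m)).val
            + ∑ v ∈ S₂, ∑ j : ZMod m, (j * (v.ord T.bar.2 : ZMod m)).val) := by
          simp only [mul_add, Finset.mul_sum]
          exact congr_arg₂ (· + ·)
            (Finset.sum_congr rfl fun v _ => by rw [← Finset.mul_sum, sum_val_mul])
            (Finset.sum_congr rfl fun v _ => by rw [← Finset.mul_sum, sum_val_mul])
      _ ≤ 2 * (m * ∑ s, (c₁ (C.node₁ s) ∩ c₂ (C.node₂ s)).card) := Nat.mul_le_mul_left 2 hsum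
      _ = _ := by ring
  have hB := Nat.le_of_mul_le_mul_left hA (NeZero.pos m)
  have hI₁ : Finset.univ.image C.node₁ ⊆ S₁ := Finset.subset_union_right
  have hI₂ : Finset.univ.image C.node₂ ⊆ S₂ := Finset.subset_union_right
  rw [← Finset.sum_sdiff hI₁, ← Finset.sum_sdiff hI₂,
    Finset.sum_image (fun a _ b _ h => C.node₁_injective h),
    Finset.sum_image (fun a _ b _ h => C.node₂_injective h)] at hB
  have hle₁ := fun s => Finset.card_le_card
    (Finset.inter_subset_left (s₁ := c₁ (C.node₁ s)) (s₂ := c₂ (C.node₂ s)))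
  have hle₂ := fun s => Finset.card_le_card
    (Finset.inter_subset_right (s₁ := c₁ (C.node₁ s)) (s₂ := c₂ (C.node₂ s)))
  have t₁ := Finset.sum_le_sum (s := (Finset.univ : Finset ι)) fun s _ => hle₁ s
  have t₂ := Finset.sum_le_sum (s := (Finset.univ : Finset ι)) fun s _ => hle₂ s
  have hz₁ : ∀ v ∈ S₁ \ Finset.univ.image C.node₁, (c₁ v).card = 0 :=
    Finset.sum_eq_zero_iff.mp (by omega)
  have hz₂ : ∀ v ∈ S₂ \ Finset.univ.image C.node₂, (c₂ v).card = 0 :=
    Finset.sum_eq_zero_iff.mp (by omega)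
  have heq₁ := (Finset.sum_eq_sum_iff_of_le fun s _ => hle₁ s).mp (le_antisymm t₁ (by omega))
  have heq₂ := (Finset.sum_eq_sum_iff_of_le fun s _ => hle₂ s).mp (le_antisymm t₂ (by omega))
  refine ⟨fun v hv => ?_, fun v hv => ?_, fun s => ?_⟩
  · by_contra hne
    have hvS : v ∈ S₁ := Finset.mem_union_left _ (Finsupp.mem_support_iff.mpr fun h0 => by
      rw [divOf_apply] at h0; exact hne (by rw [h0, Int.cast_zero]))
    have := hz₁ v (Finset.mem_sdiff.mpr ⟨hvS, fun hmem => by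
      obtain ⟨s, -, hs⟩ := Finset.mem_image.mp hmem; exact hv s hs.symm⟩)
    rw [Finset.card_eq_zero, Finset.filter_eq_empty_iff] at this
    exact this (Finset.mem_univ 1) (by rwa [one_mul])
  · by_contra hne
    have hvS : v ∈ S₂ := Finset.mem_union_left _ (Finsupp.mem_support_iff.mpr fun h0 => by
      rw [divOf_apply] at h0; exact hne (by rw [h0, Int.cast_zero]))
    have := hz₂ v (Finset.mem_sdiff.mpr ⟨hvS, fun hmem => by
      obtain ⟨s, -, hs⟩ := Finset.mem_image.mp hmem; exact hv s hs.symm⟩)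
    rw [Finset.card_eq_zero, Finset.filter_eq_empty_iff] at this
    exact this (Finset.mem_univ 1) (by rwa [one_mul])
  · have e : c₁ (C.node₁ s) = c₂ (C.node₂ s) :=
      (Finset.eq_of_subset_of_card_le Finset.inter_subset_left
          (heq₁ s (Finset.mem_univ s)).ge).symm.trans
        (Finset.eq_of_subset_of_card_le Finset.inter_subset_right (heq₂ s (Finset.mem_univ s)).ge)
    have := Finset.ext_iff.mp e 1
    simp only [c₁, c₂, Finset.mem_filter, Finset.mem_univ, true_and, one_mul] at this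
    exact not_iff_not.mp this

end PairReduction

end FLTAgent.Semistable
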