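import Fermat.Agent.Semistable.GluingOps
import Mathlib.Data.ZMod.Basic

/-!
# Torsion data and their slopes

`TorsionData`: a divisor with `m • D = div f` and rescaled reductions of `f`; the slopes of a
torsion class at the nodes (`slope₁`) are well defined, and powers on
both branches characterise the toric part (`isTorus_of_bar`).
-/

set_option autoImplicit false

noncomputable section

open AlgebraicCurve FLTAgent.FFRiemannRoch FLTAgent.FFBasic

namespace FLTAgent.Semistable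

variable {L k : Type*} [Field L] [Field k] {A : ValuationSubring L} {π : A →+* k}
variable {F F₁ F₂ : Type*} [Field F] [Field F₁] [Field F₂]
  [Algebra L F] [Algebra k F₁] [Algebra k F₂] {ι : Type*} [Fintype ι]

/-- Nonzero reductions of one rescaled element differ by a constant. -/
theorem Branch.exists_red_eq_smul {Fb : Type*} [Field Fb] [Algebra k Fb] (B : Branch A π F Fb)
    {f : F} {c d : L} (hc : B.Mem c f) (hd : B.Mem d f)
    (hc0 : B.red c f ≠ 0) (hd0 : B.red d f ≠ 0) :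
    ∃ a : k, a ≠ 0 ∧ B.red c f = a • B.red d f := by
  have hne : ∀ {e : L}, B.red e f ≠ 0 → e ≠ 0 := fun {e} he h => he (by
    subst h
    rw [B.red_eq_res B.O.zero_mem (zero_smul L f)]
    exact map_zero _)
  have key : ∀ {x y : L} (h : x / y ∈ A), B.Mem y f → B.red y f ≠ 0 →
      B.red x f = π ⟨x / y, h⟩ • B.red y f := by
    intro x y h hy hy0
    have hxy : y * (x / y) = x := mul_div_cancel₀ _ (hne hy0)
    have hm : B.Mem (y * (x / y)) f := B.mem_smul_iff.mp (Branch.Mem.smul B hy ⟨x / y, h⟩)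
    rw [← B.red_smul hy ⟨x / y, h⟩, B.red_smul_eq hm, hxy]
  rcases A.mem_or_inv_mem (c / d) with h | h
  · have e := key h hd hd0
    exact ⟨_, fun h0 => hc0 (by rw [e, h0, zero_smul]), e⟩
  · rw [inv_div] at h
    have e := key h hc hc0
    have hne' : π ⟨d / c, h⟩ ≠ 0 := fun h0 => hd0 (by rw [e, h0, zero_smul])
    exact ⟨_, inv_ne_zero hne', by rw [e, inv_smul_smul₀ hne']⟩

namespace PairReduction

/-- A divisor with `m • D = div f` together with nonzero rescaled reductions of `f`. -/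
structure TorsionData (C : PairReduction A π F F₁ F₂ ι) (m : ℕ) where
  D : Divisor L F
  degree_eq : Divisor.degree D = 0
  f : F
  f_ne : f ≠ 0
  div_eq : ∀ v : Place L F, (m : ℤ) * D v = v.ord f
  c : L × L
  mem : C.Mem c f
  ne₁ : (C.red c f).1 ≠ 0
  ne₂ : (C.red c f).2 ≠ 0

variable {C : PairReduction A π F F₁ F₂ ι} {m : ℕ}

namespace TorsionData

/-- The class. -/
def cls (T : C.TorsionData m) : Pic0 L F := Pic0.mk ⟨T.D, T.degree_eq⟩

/-- The pair of reductions. -/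
def bar (T : C.TorsionData m) : F₁ × F₂ := C.red T.c T.f

/-- The reduced function of torsion data is nonzero on the first branch. -/
theorem bar_ne₁ (T : C.TorsionData m) : T.bar.1 ≠ 0 := T.ne₁

theorem bar_ne₂ (T : C.TorsionData m) : T.bar.2 ≠ 0 := T.ne₂

/-- The first scale is nonzero. -/
theorem c_ne₁ (T : C.TorsionData m) : T.c.1 ≠ 0 := fun h => T.ne₁ (by
  show C.b₁.red T.c.1 T.f = 0
  rw [h, C.b₁.red_eq_res C.b₁.O.zero_mem (zero_smul L T.f)]
  exact map_zero _)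

/-- The second scale is nonzero. -/
theorem c_ne₂ (T : C.TorsionData m) : T.c.2 ≠ 0 := fun h => T.ne₂ (by
  show C.b₂.red T.c.2 T.f = 0
  rw [h, C.b₂.red_eq_res C.b₂.O.zero_mem (zero_smul L T.f)]
  exact map_zero _)

/-- Product of torsion data. -/
def mul (S T : C.TorsionData m) : C.TorsionData m where
  D := S.D + T.D
  degree_eq := by rw [map_add, S.degree_eq, T.degree_eq, add_zero]
  f := S.f * T.f
  f_ne := mul_ne_zero S.f_ne T.f_ne
  div_eq v := by rw [v.ord_mul S.f_ne T.f_ne, Finsupp.add_apply, mul_add, S.div_eq, T.div_eq]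
  c := S.c * T.c
  mem := S.mem.mul T.mem
  ne₁ := by rw [red_mul S.mem T.mem]; exact mul_ne_zero S.ne₁ T.ne₁
  ne₂ := by rw [red_mul S.mem T.mem]; exact mul_ne_zero S.ne₂ T.ne₂

theorem cls_mul (S T : C.TorsionData m) : (S.mul T).cls = S.cls + T.cls := rfl

theorem bar_mul (S T : C.TorsionData m) : (S.mul T).bar = S.bar * T.bar :=
  red_mul S.mem T.mem

/-- Powers of torsion data. -/
def npow (T : C.TorsionData m) (j : ℕ) : C.TorsionData m where
  D := j • T.D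
  degree_eq := by rw [map_nsmul, T.degree_eq, nsmul_zero]
  f := T.f ^ j
  f_ne := pow_ne_zero j T.f_ne
  div_eq v := by
    rw [← zpow_natCast, v.ord_zpow, ← T.div_eq v, Finsupp.smul_apply, nsmul_eq_mul]
    ring
  c := T.c ^ j
  mem := T.mem.pow j
  ne₁ := by rw [red_pow T.mem]; exact pow_ne_zero j T.ne₁
  ne₂ := by rw [red_pow T.mem]; exact pow_ne_zero j T.ne₂

theorem bar_npow (T : C.TorsionData m) (j : ℕ) : (T.npow j).bar = T.bar ^ j := red_pow T.mem j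

theorem nsmul_cls (T : C.TorsionData m) : m • T.cls = 0 := by
  show QuotientAddGroup.mk (m • (⟨T.D, T.degree_eq⟩ : Divisor.degZero (K := L) (F := F))) = _
  rw [QuotientAddGroup.eq_zero_iff, AddSubgroup.mem_addSubgroupOf]
  exact ⟨T.f, T.f_ne, fun v => by simp [T.div_eq]⟩

end TorsionData

/-- Every torsion class has torsion data. -/
theorem exists_torsionData {x : Pic0 L F} (hx : m • x = 0) :
    ∃ T : C.TorsionData m, T.cls = x := by
  obtain ⟨⟨D, hD⟩, rfl⟩ := Pic0.mk_surjective x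
  have h : (Pic0.mk (m • (⟨D, hD⟩ : Divisor.degZero (K := L) (F := F))) : Pic0 L F) = 0 := hx
  rw [Pic0.mk, QuotientAddGroup.eq_zero_iff, AddSubgroup.mem_addSubgroupOf] at h
  obtain ⟨f, hf, hfD⟩ := h
  obtain ⟨c₁, -, hm₁, hr₁⟩ := C.b₁.exists_red_ne_zero hf
  obtain ⟨c₂, -, hm₂, hr₂⟩ := C.b₂.exists_red_ne_zero hf
  refine ⟨{ D := D, degree_eq := hD, f := f, f_ne := hf, div_eq := fun v => ?_, c := (c₁, c₂),
            mem := ⟨hm₁, hm₂⟩, ne₁ := hr₁, ne₂ := hr₂ }, rfl⟩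
  simpa using hfD v

variable [IsAlgClosed L] [IsFunctionField L F]

/-- The reductions depend on the class only up to constants and `m`-th powers. -/
theorem TorsionData.exists_bar_eq {S T : C.TorsionData m} (h : S.cls = T.cls) :
    ∃ (a₁ a₂ : k) (z : F₁ × F₂), a₁ ≠ 0 ∧ a₂ ≠ 0 ∧ z.1 ≠ 0 ∧ z.2 ≠ 0 ∧
      T.bar.1 = a₁ • (S.bar.1 * z.1 ^ m) ∧ T.bar.2 = a₂ • (S.bar.2 * z.2 ^ m) := by
  obtain ⟨h0, hh0, hh⟩ : ∃ h0 : F, h0 ≠ 0 ∧ ∀ v : Place L F, T.D v - S.D v = v.ord h0 := by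
    have := (QuotientAddGroup.eq.mp h : _)
    rw [AddSubgroup.mem_addSubgroupOf] at this
    obtain ⟨h0, hh0, hh⟩ := this
    exact ⟨h0, hh0, fun v => by rw [← hh v]; simp [sub_eq_neg_add]⟩
  obtain ⟨lam, hlam⟩ : ∃ lam : L, algebraMap L F lam = T.f / (S.f * h0 ^ m) := by
    refine exists_eq_algebraMap_of_isIntegral (IsAlgebraic.isIntegral
      (isAlgebraic_iff_forall_ord_eq_zero.mpr fun v => ?_))
    rw [div_eq_mul_inv, v.ord_mul T.f_ne (inv_ne_zero (mul_ne_zero S.f_ne (pow_ne_zero m hh0))),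
      v.ord_inv, v.ord_mul S.f_ne (pow_ne_zero m hh0), ← zpow_natCast, v.ord_zpow, ← S.div_eq,
      ← T.div_eq, ← hh v]
    ring
  have hf : T.f = lam • (S.f * h0 ^ m) := by
    rw [Algebra.smul_def, hlam, div_mul_cancel₀ _ (mul_ne_zero S.f_ne (pow_ne_zero m hh0))]
  obtain ⟨d₁, -, hd₁, hr₁⟩ := C.b₁.exists_red_ne_zero hh0
  obtain ⟨d₂, -, hd₂, hr₂⟩ := C.b₂.exists_red_ne_zero hh0
  have h₁ : C.b₁.Mem (T.c.1 * lam) (S.f * h0 ^ m) := by
    rw [← C.b₁.mem_smul_iff, ← hf]; exact T.mem.1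
  have h₂ : C.b₂.Mem (T.c.2 * lam) (S.f * h0 ^ m) := by
    rw [← C.b₂.mem_smul_iff, ← hf]; exact T.mem.2
  have k₁ : C.b₁.Mem (S.c.1 * d₁ ^ m) (S.f * h0 ^ m) :=
    Branch.Mem.mul _ S.mem.1 (Branch.Mem.pow _ hd₁ m)
  have k₂ : C.b₂.Mem (S.c.2 * d₂ ^ m) (S.f * h0 ^ m) :=
    Branch.Mem.mul _ S.mem.2 (Branch.Mem.pow _ hd₂ m)
  have e₁ : C.b₁.red (T.c.1 * lam) (S.f * h0 ^ m) = T.bar.1 := by
    rw [← C.b₁.red_smul_eq h₁, ← hf]; rfl
  have e₂ : C.b₂.red (T.c.2 * lam) (S.f * h0 ^ m) = T.bar.2 := by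
    rw [← C.b₂.red_smul_eq h₂, ← hf]; rfl
  have f₁ : C.b₁.red (S.c.1 * d₁ ^ m) (S.f * h0 ^ m) = S.bar.1 * C.b₁.red d₁ h0 ^ m := by
    rw [C.b₁.red_mul S.mem.1 (Branch.Mem.pow _ hd₁ m), C.b₁.red_pow hd₁]; rfl
  have f₂ : C.b₂.red (S.c.2 * d₂ ^ m) (S.f * h0 ^ m) = S.bar.2 * C.b₂.red d₂ h0 ^ m := by
    rw [C.b₂.red_mul S.mem.2 (Branch.Mem.pow _ hd₂ m), C.b₂.red_pow hd₂]; rfl
  obtain ⟨a₁, ha₁, q₁⟩ := C.b₁.exists_red_eq_smul h₁ k₁ (e₁ ▸ T.bar_ne₁)
    (f₁ ▸ mul_ne_zero S.bar_ne₁ (pow_ne_zero m hr₁))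
  obtain ⟨a₂, ha₂, q₂⟩ := C.b₂.exists_red_eq_smul h₂ k₂ (e₂ ▸ T.bar_ne₂)
    (f₂ ▸ mul_ne_zero S.bar_ne₂ (pow_ne_zero m hr₂))
  exact ⟨a₁, a₂, (C.b₁.red d₁ h0, C.b₂.red d₂ h0), ha₁, ha₂, hr₁, hr₂,
    by rw [← e₁, q₁, f₁], by rw [← e₂, q₂, f₂]⟩

omit [IsFunctionField L F] in
/-- Powers on both branches, up to constants, characterise the toric part. -/
theorem isTorus_of_bar [IsAlgClosed k] (hm : 0 < m) (T : C.TorsionData m) {φ : F₁ × F₂}
    {a₁ a₂ : k} (h₁ : T.bar.1 = a₁ • φ.1 ^ m)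
    (h₂ : T.bar.2 = a₂ • φ.2 ^ m) : C.IsTorus m T.cls := by
  obtain ⟨r₁, hr₁⟩ := IsAlgClosed.exists_pow_nat_eq T.c.1⁻¹ hm
  obtain ⟨r₂, hr₂⟩ := IsAlgClosed.exists_pow_nat_eq T.c.2⁻¹ hm
  obtain ⟨b₁, hb₁⟩ := IsAlgClosed.exists_pow_nat_eq a₁ hm
  obtain ⟨b₂, hb₂⟩ := IsAlgClosed.exists_pow_nat_eq a₂ hm
  have hg : ((r₁, r₂) ^ m)⁻¹ = T.c := by
    refine Prod.ext ?_ ?_ <;> simp [hr₁, hr₂]
  exact ⟨{ D := T.D, degree_eq := T.degree_eq, f := T.f, f_ne := T.f_ne, div_eq := T.div_eq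
           g := (r₁, r₂)
           g_ne₁ := fun h => T.c_ne₁ (inv_eq_zero.mp (by
             rw [← hr₁, show r₁ = 0 from h, zero_pow hm.ne']))
           g_ne₂ := fun h => T.c_ne₂ (inv_eq_zero.mp (by
             rw [← hr₂, show r₂ = 0 from h, zero_pow hm.ne']))
           φ := (b₁ • φ.1, b₂ • φ.2)
           φ_ne₁ := fun h0 => T.bar_ne₁ (by
             rw [h₁, ← hb₁, ← smul_pow, show b₁ • φ.1 = 0 from h0, zero_pow hm.ne'])
           φ_ne₂ := fun h0 => T.bar_ne₂ (by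
             rw [h₂, ← hb₂, ← smul_pow, show b₂ • φ.2 = 0 from h0, zero_pow hm.ne'])
           mem := hg ▸ T.mem
           red_eq := by
             rw [hg]
             refine Prod.ext ?_ ?_
             · rw [Prod.pow_fst, smul_pow, hb₁]; exact h₁
             · rw [Prod.pow_snd, smul_pow, hb₂]; exact h₂ }, rfl⟩

variable (C m) in
/-- The slope of a torsion class at the nodes on the first branch. -/
def slope₁ (x : Pic0 L F) : ι → ZMod m :=
  letI := Classical.propDecidable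
  if h : ∃ T : C.TorsionData m, T.cls = x then fun s => ((C.node₁ s).ord h.choose.bar.1 : ZMod m)
  else 0

theorem TorsionData.ord_bar_cast_eq {S T : C.TorsionData m} (h : S.cls = T.cls) :
    (∀ v : Place k F₁, (v.ord T.bar.1 : ZMod m) = v.ord S.bar.1) ∧
      ∀ v : Place k F₂, (v.ord T.bar.2 : ZMod m) = v.ord S.bar.2 := by
  obtain ⟨a₁, a₂, z, ha₁, ha₂, hz₁, hz₂, e₁, e₂⟩ := TorsionData.exists_bar_eq h
  refine ⟨fun v => ?_, fun v => ?_⟩
  · rw [e₁, FFBasic.ord_smul_const v ha₁,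
      v.ord_mul S.bar_ne₁ (pow_ne_zero m hz₁), ← zpow_natCast, v.ord_zpow]
    simp
  · rw [e₂, FFBasic.ord_smul_const v ha₂,
      v.ord_mul S.bar_ne₂ (pow_ne_zero m hz₂), ← zpow_natCast, v.ord_zpow]
    simp

/-- The slope is the order of the reduced function at the node modulo `m`. -/
theorem slope₁_eq {x : Pic0 L F} {T : C.TorsionData m} (hT : T.cls = x) (s : ι) :
    C.slope₁ m x s = ((C.node₁ s).ord T.bar.1 : ZMod m) := by
  have h : ∃ T : C.TorsionData m, T.cls = x := ⟨T, hT⟩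
  rw [slope₁, dif_pos h]
  exact (TorsionData.ord_bar_cast_eq (hT.trans h.choose_spec.symm)).1 _

end PairReduction

end FLTAgent.Semistable
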