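import Fermat.Agent.Semistable.Abelian
import Fermat.Agent.Semistable.Rigidity
import Fermat.Prelude.Def_AlgebraicCurve_BaseChangeGalois
import Mathlib.LinearAlgebra.Prod

/-!
# Morphisms of pair reductions

Semilinear morphisms `Morph` of pair reductions and the exchange `swap` of the branches, with
their effect on torsion data, the toric part and gluings (`isGluingOf`).
-/

set_option autoImplicit false

noncomputable section

open AlgebraicCurve FLTAgent.FFRiemannRoch FLTAgent.FFBasic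

namespace FLTAgent.Semistable

variable {L k : Type*} [Field L] [Field k] {A : ValuationSubring L} {π : A →+* k}
variable {F F₁ F₂ : Type*} [Field F] [Field F₁] [Field F₂]
  [Algebra L F] [Algebra k F₁] [Algebra k F₂] {ι : Type*} [Fintype ι]

namespace PairReduction

/-- The same pair reduction with the two branches exchanged. -/
def swap (C : PairReduction A π F F₁ F₂ ι) : PairReduction A π F F₂ F₁ ι where
  π_surj := C.π_surj
  b₁ := C.b₂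
  b₂ := C.b₁
  ortho g₁ g₂ h₁ h₂ V _ := by
    obtain ⟨b, hb₁, hb₂, hV, hli⟩ := C.ortho g₂ g₁ h₂ h₁ V
    exact ⟨b, hb₂, hb₁, hV,
      hli.map' (LinearEquiv.prodComm k F₁ F₂).toLinearMap (LinearEquiv.prodComm k F₁ F₂).ker⟩
  J := C.J
  J_mem₁ := C.J_mem₂
  J_mem₂ := C.J_mem₁
  E := C.E
  E₁ := C.E₂
  E₂ := C.E₁
  polar := C.polar
  polar₁ := C.polar₂
  polar₂ := C.polar₁
  degree_pos₁ := C.degree_pos₂
  degree_pos₂ := C.degree_pos₁
  degree_eq := by rw [C.degree_eq, add_comm]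
  node₁ := C.node₂
  node₂ := C.node₁
  node₁_injective := C.node₂_injective
  node₂_injective := C.node₁_injective
  node₁_off := C.node₂_off
  node₂_off := C.node₁_off
  reg₁ n u h₁ h₂ := C.reg₂ n u h₂ h₁
  reg₂ n u h₁ h₂ := C.reg₁ n u h₂ h₁
  compat n u h₁ h₂ hu s := by
    obtain ⟨c, hc₁, hc₂⟩ := C.compat n u h₂ h₁ hu s
    exact ⟨c, hc₂, hc₁⟩
  dim := by
    obtain ⟨n₀, h⟩ := C.dim
    exact ⟨n₀, fun n hn => (h n hn).trans (add_comm _ _)⟩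

variable {C : PairReduction A π F F₁ F₂ ι} {m : ℕ}

/-- A torus datum seen from the exchanged branches. -/
def RootData.swap (R : C.RootData m) : C.swap.RootData m where
  D := R.D
  degree_eq := R.degree_eq
  f := R.f
  f_ne := R.f_ne
  div_eq := R.div_eq
  g := R.g.swap
  g_ne₁ := R.g_ne₂
  g_ne₂ := R.g_ne₁
  φ := R.φ.swap
  φ_ne₁ := R.φ_ne₂
  φ_ne₂ := R.φ_ne₁
  mem := ⟨R.mem.2, R.mem.1⟩
  red_eq := Prod.ext (congrArg Prod.snd R.red_eq :) (congrArg Prod.fst R.red_eq :)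

/-- A morphism of pair reductions over a semilinear automorphism. -/
structure Morph {G₁ G₂ : Type*} [Field G₁] [Field G₂] [Algebra k G₁] [Algebra k G₂]
    (C : PairReduction A π F F₁ F₂ ι) (C' : PairReduction A π F G₁ G₂ ι) where
  g : SemilinearAut L F
  τ : k ≃+* k
  σ₁ : F₁ ≃+* G₁
  σ₂ : F₂ ≃+* G₂
  σ₁_algebraMap : ∀ c, σ₁ (algebraMap k F₁ c) = algebraMap k G₁ (τ c)
  σ₂_algebraMap : ∀ c, σ₂ (algebraMap k F₂ c) = algebraMap k G₂ (τ c)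
  map_mem₁ : ∀ u, u ∈ C.b₁.O → g • u ∈ C'.b₁.O
  map_mem₂ : ∀ u, u ∈ C.b₂.O → g • u ∈ C'.b₂.O
  map_res₁ : ∀ u (h : u ∈ C.b₁.O), C'.b₁.res ⟨g • u, map_mem₁ u h⟩ = σ₁ (C.b₁.res ⟨u, h⟩)
  map_res₂ : ∀ u (h : u ∈ C.b₂.O), C'.b₂.res ⟨g • u, map_mem₂ u h⟩ = σ₂ (C.b₂.res ⟨u, h⟩)
  perm : ι → ι
  map_node₁ : ∀ s a, (C'.node₁ (perm s)).ord (σ₁ a) = (C.node₁ s).ord a
  map_node₂ : ∀ s a, (C'.node₂ (perm s)).ord (σ₂ a) = (C.node₂ s).ord a
  bound : ∃ n : ℕ, g • C.E ≤ n • C'.E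

namespace Morph

variable {G₁ G₂ : Type*} [Field G₁] [Field G₂] [Algebra k G₁] [Algebra k G₂]
variable {C' : PairReduction A π F G₁ G₂ ι} (Φ : Morph C C')

/-- Action on scalars. -/
def base (c : L × L) : L × L :=
  (SemilinearAut.baseAut Φ.g c.1, SemilinearAut.baseAut Φ.g c.2)

theorem smul_algebra_smul (c : L) (u : F) :
    Φ.g • (c • u) = SemilinearAut.baseAut Φ.g c • (Φ.g • u) := by
  rw [Algebra.smul_def, smul_mul', SemilinearAut.smul_algebraMap, Algebra.smul_def]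

theorem mem_map {c : L × L} {u : F} (h : C.Mem c u) : C'.Mem (Φ.base c) (Φ.g • u) := by
  constructor
  · show SemilinearAut.baseAut Φ.g c.1 • (Φ.g • u) ∈ C'.b₁.O
    rw [← Φ.smul_algebra_smul]
    exact Φ.map_mem₁ _ h.1
  · show SemilinearAut.baseAut Φ.g c.2 • (Φ.g • u) ∈ C'.b₂.O
    rw [← Φ.smul_algebra_smul]
    exact Φ.map_mem₂ _ h.2

theorem red_map {c : L × L} {u : F} (h : C.Mem c u) :
    C'.red (Φ.base c) (Φ.g • u) = (Φ.σ₁ (C.red c u).1, Φ.σ₂ (C.red c u).2) := by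
  refine Prod.ext ?_ ?_
  · show C'.b₁.red _ _ = Φ.σ₁ (C.b₁.red _ _)
    rw [C.b₁.red_eq h.1, ← Φ.map_res₁ _ h.1]
    exact C'.b₁.red_eq_res (Φ.map_mem₁ _ h.1) (Φ.smul_algebra_smul _ _).symm
  · show C'.b₂.red _ _ = Φ.σ₂ (C.b₂.red _ _)
    rw [C.b₂.red_eq h.2, ← Φ.map_res₂ _ h.2]
    exact C'.b₂.red_eq_res (Φ.map_mem₂ _ h.2) (Φ.smul_algebra_smul _ _).symm

theorem div_map {D : Divisor L F} {f : F} (h : ∀ v : Place L F, (m : ℤ) * D v = v.ord f)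
    (v : Place L F) : (m : ℤ) * (Φ.g • D) v = v.ord (Φ.g • f) := by
  rw [SemilinearAut.divisor_smul_apply, h]
  have := SemilinearAut.ord_smul Φ.g (Φ.g⁻¹ • v) f
  rw [smul_inv_smul] at this
  exact this.symm

theorem smul_ne {u : F} (hu : u ≠ 0) : Φ.g • u ≠ 0 := fun h =>
  hu (MulAction.injective Φ.g (h.trans (smul_zero Φ.g).symm))

/-- Image of torsion data. -/
def mapData (T : C.TorsionData m) : C'.TorsionData m where
  D := Φ.g • T.D
  degree_eq := by rw [SemilinearAut.degree_smul, T.degree_eq]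
  f := Φ.g • T.f
  f_ne := Φ.smul_ne T.f_ne
  div_eq := Φ.div_map T.div_eq
  c := Φ.base T.c
  mem := Φ.mem_map T.mem
  ne₁ := by rw [Φ.red_map T.mem]; exact (map_ne_zero Φ.σ₁).mpr T.ne₁
  ne₂ := by rw [Φ.red_map T.mem]; exact (map_ne_zero Φ.σ₂).mpr T.ne₂

theorem cls_mapData (T : C.TorsionData m) : (Φ.mapData T).cls = Φ.g • T.cls := rfl

theorem bar_mapData (T : C.TorsionData m) :
    (Φ.mapData T).bar = (Φ.σ₁ T.bar.1, Φ.σ₂ T.bar.2) := Φ.red_map T.mem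

theorem base_pow_inv (c : L × L) : ((Φ.base c) ^ m)⁻¹ = Φ.base ((c ^ m)⁻¹) := by
  refine Prod.ext ?_ ?_ <;> simp [base]

/-- Image of a torus datum. -/
def mapRoot (R : C.RootData m) : C'.RootData m where
  D := Φ.g • R.D
  degree_eq := by rw [SemilinearAut.degree_smul, R.degree_eq]
  f := Φ.g • R.f
  f_ne := Φ.smul_ne R.f_ne
  div_eq := Φ.div_map R.div_eq
  g := Φ.base R.g
  g_ne₁ := (map_ne_zero _).mpr R.g_ne₁
  g_ne₂ := (map_ne_zero _).mpr R.g_ne₂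
  φ := (Φ.σ₁ R.φ.1, Φ.σ₂ R.φ.2)
  φ_ne₁ := (map_ne_zero Φ.σ₁).mpr R.φ_ne₁
  φ_ne₂ := (map_ne_zero Φ.σ₂).mpr R.φ_ne₂
  mem := Φ.base_pow_inv R.g ▸ Φ.mem_map R.mem
  red_eq := by
    rw [Φ.base_pow_inv, Φ.red_map R.mem, R.red_eq]
    exact Prod.ext (map_pow Φ.σ₁ _ _) (map_pow Φ.σ₂ _ _)

theorem hasValue_map₁ {s : ι} {a : F₁} {c : k} (h : HasValue (C.node₁ s) a c) :
    HasValue (C'.node₁ (Φ.perm s)) (Φ.σ₁ a) (Φ.τ c) := by
  unfold HasValue at *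
  rw [← Φ.σ₁_algebraMap, ← map_sub, mem_ball_iff_ord, Φ.map_node₁,
    map_eq_zero_iff _ Φ.σ₁.injective]
  exact (mem_ball_iff_ord _).mp h

theorem hasValue_map₂ {s : ι} {a : F₂} {c : k} (h : HasValue (C.node₂ s) a c) :
    HasValue (C'.node₂ (Φ.perm s)) (Φ.σ₂ a) (Φ.τ c) := by
  unfold HasValue at *
  rw [← Φ.σ₂_algebraMap, ← map_sub, mem_ball_iff_ord, Φ.map_node₂,
    map_eq_zero_iff _ Φ.σ₂.injective]
  exact (mem_ball_iff_ord _).mp h

variable [IsAlgClosed L] [IsFunctionField L F]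

variable [IsAlgClosed k] [IsFunctionField k F₁] [IsFunctionField k F₂]
  [IsFunctionField k G₁] [IsFunctionField k G₂]

theorem isGluingOf {x : Pic0 L F} {ε : ι → k} (hm : 0 < m) (h : C.IsGluingOf m x ε) :
    ∃ δ, C'.IsGluingOf m (Φ.g • x) δ ∧ ∀ s, δ (Φ.perm s) = Φ.τ (ε s) := by
  obtain ⟨R, rfl, hε⟩ := h
  obtain ⟨δ, -, hδ, -⟩ := (Φ.mapRoot R).exists_gluing hm
  refine ⟨δ, ⟨Φ.mapRoot R, rfl, hδ⟩, fun s => ?_⟩
  obtain ⟨a, ha⟩ := C.exists_pair_values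
  obtain ⟨b, hb⟩ := hε.eq_glued R hm
  obtain ⟨B, hB⟩ := Φ.bound
  obtain ⟨w, hw₁, hw₂, hv₁, hv₂⟩ := ha (a + b) (by omega) ε 1
  have hw : w ∈ R.V (a + b) := by
    rw [hb _ (by omega)]
    exact ⟨hw₁, hw₂, fun s => by rw [hv₁, hv₂]; simp⟩
  obtain ⟨u, hu, hug, hwu⟩ := R.mem_V.mp hw
  have hu' : Φ.g • u ∈ riemannRochSpace ((Φ.mapRoot R).D + (B * (a + b)) • C'.E) := by
    rw [mem_riemannRochSpace_iff] at hu ⊢
    intro v
    rcases eq_or_ne u 0 with rfl | hu0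
    · exact Or.inl (smul_zero _)
    refine Or.inr ?_
    have h1 := (hu (Φ.g⁻¹ • v)).resolve_left hu0
    have h2 := SemilinearAut.ord_smul Φ.g (Φ.g⁻¹ • v) u
    rw [smul_inv_smul] at h2
    have h3 := hB v
    rw [SemilinearAut.divisor_smul_apply] at h3
    simp only [mapRoot, Finsupp.add_apply, Finsupp.smul_apply, nsmul_eq_mul, Nat.cast_mul,
      Nat.cast_add, SemilinearAut.divisor_smul_apply] at h1 h3 ⊢
    rw [h2]
    nlinarith
  have hV : (Φ.σ₁ w.1, Φ.σ₂ w.2) ∈ (Φ.mapRoot R).V (B * (a + b)) := by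
    refine (Φ.mapRoot R).mem_V.mpr ⟨_, hu', Φ.mem_map hug, ?_⟩
    rw [show (Φ.mapRoot R).g = Φ.base R.g from rfl, Φ.red_map hug, ← hwu]
    exact Prod.ext (map_mul Φ.σ₁ _ _).symm (map_mul Φ.σ₂ _ _).symm
  have h4 := (hδ _ hV).2.2 (Φ.perm s)
  rw [(Φ.hasValue_map₁ (hasValue_valueAt (mem_ball_zero_of_mem (C.node₁_le _ s) hw₁))).valueAt_eq,
    (Φ.hasValue_map₂ (hasValue_valueAt (mem_ball_zero_of_mem (C.node₂_le _ s) hw₂))).valueAt_eq,
    hv₁, hv₂, Pi.one_apply, map_one, mul_one] at h4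
  exact h4.symm

end Morph

variable [IsAlgClosed k] [IsFunctionField k F₁] [IsFunctionField k F₂]

theorem IsGluingOf.swap [IsAlgClosed L] [IsFunctionField L F] (hm : 0 < m) {x : Pic0 L F}
    {ε : ι → k} (h : C.IsGluingOf m x ε) : C.swap.IsGluingOf m x ε⁻¹ := by
  obtain ⟨R, rfl, hε⟩ := h
  refine ⟨R.swap, rfl, fun n w hw => ?_⟩
  obtain ⟨u, hu, hug, hwu⟩ := R.swap.mem_V.mp hw
  obtain ⟨h₁, h₂, hv⟩ := hε n (R.mem_V.mpr ⟨u, hu, ⟨hug.2, hug.1⟩, rfl⟩)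
  rw [← hwu]
  refine ⟨h₂, h₁, fun s => ?_⟩
  show valueAt (C.node₂ s) (R.φ * C.red R.g u).2
    = ε⁻¹ s * valueAt (C.node₁ s) (R.φ * C.red R.g u).1
  have hne : ε s ≠ 0 := fun h0 => by
    have := hε.pow_eq_one R hm s
    rw [h0, zero_pow hm.ne'] at this
    exact zero_ne_one this
  rw [hv s, Pi.inv_apply, inv_mul_cancel_left₀ hne]

end PairReduction

end FLTAgent.Semistable
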