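import Fermat.Agent.Semistable.Divisible

/-!
# Divisors divisible by `m`

A divisor with every order divisible by `m` is `m` times a divisor (`exists_divBy`), and over an
algebraically closed field a principal one comes from an `m`-th power.
Used for the torsion of `J₀(Mq)` in `SemistableFinals.PrincipleLevel`.
-/

set_option autoImplicit false

noncomputable section

open AlgebraicCurve FLTAgent.FFRiemannRoch FLTAgent.FFBasic

namespace FLTAgent.Semistable

theorem exists_divBy {k G : Type*} [Field k] [Field G] [Algebra k G] [IsAlgClosed k]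
    [IsFunctionField k G] {m : ℕ} (hm : 0 < m) (b : G)
    (h : ∀ v : Place k G, (v.ord b : ZMod m) = 0) :
    ∃ D : Divisor.degZero (K := k) (F := G), ∀ v, (m : ℤ) * (D : Divisor k G) v = v.ord b := by
  have key : ∀ v, (m : ℤ) * floorDiv (k := k) m b v = v.ord b := fun v => by
    rw [floorDiv_apply]
    exact Int.mul_ediv_cancel' ((ZMod.intCast_zmod_eq_zero_iff_dvd _ m).mp (h v))
  refine ⟨⟨floorDiv m b, ?_⟩, key⟩
  have h2 : m • floorDiv (k := k) m b = divOf b := Finsupp.ext fun v => by
    rw [Finsupp.smul_apply, nsmul_eq_mul, key v, divOf_apply]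
  have h3 := congrArg (Divisor.degree (K := k) (F := G)) h2
  rw [map_nsmul, degree_divOf, nsmul_eq_mul] at h3
  rw [Divisor.mem_degZero]
  exact (mul_eq_zero.mp h3).resolve_left (by exact_mod_cast hm.ne')

theorem exists_eq_smul_pow_of_principal {k G : Type*} [Field k] [Field G] [Algebra k G]
    [IsAlgClosed k] [IsFunctionField k G] {m : ℕ} {b : G} (hb : b ≠ 0)
    {D : Divisor.degZero (K := k) (F := G)}
    (hD : ∀ v : Place k G, (m : ℤ) * (D : Divisor k G) v = v.ord b) (h : Pic0.mk D = 0) :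
    ∃ (a : k) (φ : G), a ≠ 0 ∧ φ ≠ 0 ∧ b = a • φ ^ m := by
  rw [Pic0.mk, QuotientAddGroup.eq_zero_iff, AddSubgroup.mem_addSubgroupOf] at h
  obtain ⟨φ, hφ, hDφ⟩ := h
  obtain ⟨a, ha⟩ : ∃ a : k, algebraMap k G a = b / φ ^ m := by
    refine exists_eq_algebraMap_of_isIntegral (IsAlgebraic.isIntegral
      (isAlgebraic_iff_forall_ord_eq_zero.mpr fun v => ?_))
    rw [div_eq_mul_inv, v.ord_mul hb (inv_ne_zero (pow_ne_zero m hφ)), v.ord_inv,
      ← zpow_natCast, v.ord_zpow, ← hDφ v, hD v, add_neg_cancel]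
  refine ⟨a, φ, fun h0 => ?_, hφ,
    by rw [Algebra.smul_def, ha, div_mul_cancel₀ _ (pow_ne_zero m hφ)]⟩
  rw [h0, map_zero] at ha
  exact div_ne_zero hb (pow_ne_zero m hφ) ha.symm

end FLTAgent.Semistable
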