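import Fermat.Agent.FFRiemannRoch.Local
import Fermat.Prelude.Def_AlgebraicCurve_Repartitions
import Mathlib.RingTheory.Valuation.ValuationSubring

/-!
# Abstract pair reductions

A function field with two constant reductions (`Branch`) whose joint lattices reduce onto the
functions on two curves glued at finitely many pairs of points (`PairReduction`).  The instance
for `X₀(Mq)` at `q` is `Semistable.Level.pairReduction` in `Semistable.Instance`.
-/

set_option autoImplicit false

noncomputable section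

open AlgebraicCurve FLTAgent.FFRiemannRoch

namespace FLTAgent.Semistable

variable {L k : Type*} [Field L] [Field k]

/-- A constant reduction of `F` with values in `Fb`, along `π : A →+* k`. -/
structure Branch (A : ValuationSubring L) (π : A →+* k) (F Fb : Type*) [Field F] [Field Fb]
    [Algebra L F] [Algebra k Fb] where
  O : ValuationSubring F
  res : O →+* Fb
  algebraMap_mem : ∀ a : A, algebraMap L F a ∈ O
  res_algebraMap : ∀ a : A,
    res ⟨algebraMap L F a, algebraMap_mem a⟩ = algebraMap k Fb (π a)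
  scale : ∀ f : F, f ≠ 0 → ∃ (c : L) (h : c • f ∈ O), res ⟨c • f, h⟩ ≠ 0

variable {A : ValuationSubring L} {π : A →+* k}
variable {F Fb F₁ F₂ : Type*} [Field F] [Field Fb] [Field F₁] [Field F₂]
  [Algebra L F] [Algebra k Fb] [Algebra k F₁] [Algebra k F₂]

/-- `v` evaluates `a` to `c`. -/
def HasValue (v : Place k Fb) (a : Fb) (c : k) : Prop :=
  a - algebraMap k Fb c ∈ ball v (-1)

/-- The exact polar divisor condition. -/
def IsPolarDivisor {K G : Type*} [Field K] [Field G] [Algebra K G] (J : G) (E : Divisor K G) :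
    Prop :=
  0 ≤ E ∧ J ∈ riemannRochSpace E ∧ ∀ v, 0 < E v → v.ord J = -E v

variable (A π F F₁ F₂) in
/-- Two branches with a joint lattice theory, glued at the nodes `node₁ s = node₂ s`. -/
structure PairReduction (ι : Type*) [Fintype ι] where
  π_surj : Function.Surjective π
  b₁ : Branch A π F F₁
  b₂ : Branch A π F F₂
  /-- finite dimensional spaces have, for every rescaling of the two branches, bases with
  independent pair reductions -/
  ortho : ∀ (g₁ g₂ : L), g₁ ≠ 0 → g₂ ≠ 0 → ∀ (V : Submodule L F) [FiniteDimensional L V],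
    ∃ (b : Fin (Module.finrank L V) → F) (h₁ : ∀ i, g₁ • b i ∈ b₁.O) (h₂ : ∀ i, g₂ • b i ∈ b₂.O),
      (∀ i, b i ∈ V) ∧
        LinearIndependent k (fun i => (b₁.res ⟨g₁ • b i, h₁ i⟩, b₂.res ⟨g₂ • b i, h₂ i⟩))
  J : F
  J_mem₁ : J ∈ b₁.O
  J_mem₂ : J ∈ b₂.O
  E : Divisor L F
  E₁ : Divisor k F₁
  E₂ : Divisor k F₂
  polar : IsPolarDivisor J E
  polar₁ : IsPolarDivisor (b₁.res ⟨J, J_mem₁⟩) E₁
  polar₂ : IsPolarDivisor (b₂.res ⟨J, J_mem₂⟩) E₂
  degree_pos₁ : 0 < Divisor.degree E₁
  degree_pos₂ : 0 < Divisor.degree E₂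
  degree_eq : Divisor.degree E = Divisor.degree E₁ + Divisor.degree E₂
  node₁ : ι → Place k F₁
  node₂ : ι → Place k F₂
  node₁_injective : Function.Injective node₁
  node₂_injective : Function.Injective node₂
  node₁_off : ∀ s, E₁ (node₁ s) = 0
  node₂_off : ∀ s, E₂ (node₂ s) = 0
  /-- integral functions with poles bounded by `n • E` reduce inside `n • E₁`, `n • E₂` -/
  reg₁ : ∀ (n : ℕ) (u : F) (h₁ : u ∈ b₁.O), u ∈ b₂.O → u ∈ riemannRochSpace (n • E) →
    b₁.res ⟨u, h₁⟩ ∈ riemannRochSpace (n • E₁)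
  reg₂ : ∀ (n : ℕ) (u : F), u ∈ b₁.O → ∀ h₂ : u ∈ b₂.O, u ∈ riemannRochSpace (n • E) →
    b₂.res ⟨u, h₂⟩ ∈ riemannRochSpace (n • E₂)
  /-- and take equal values at the nodes -/
  compat : ∀ (n : ℕ) (u : F) (h₁ : u ∈ b₁.O) (h₂ : u ∈ b₂.O), u ∈ riemannRochSpace (n • E) →
    ∀ s, ∃ c : k, HasValue (node₁ s) (b₁.res ⟨u, h₁⟩) c ∧
      HasValue (node₂ s) (b₂.res ⟨u, h₂⟩) c
  /-- the reductions fill the space of compatible pairs in large degree -/
  dim : ∃ n₀ : ℕ, ∀ n, n₀ ≤ n →
    Module.finrank L (riemannRochSpace (n • E)) + Fintype.card ι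
      = Module.finrank k (riemannRochSpace (n • E₁))
        + Module.finrank k (riemannRochSpace (n • E₂))

end FLTAgent.Semistable
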