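import Fermat.Agent.Semistable.Newton
import Mathlib.Algebra.Ring.GeomSum
import Mathlib.RingTheory.Coprime.Lemmas

/-!
# Approximate roots in one fixed lattice

For a torus datum with trivial gluing, `exists_bounded_approx` produces approximate inverse
`m`-th roots of every precision inside one fixed lattice, by Newton iteration.
Used in `Semistable.Rigidity`.
-/

set_option autoImplicit false

noncomputable section

open AlgebraicCurve FLTAgent.FFRiemannRoch FLTAgent.FFBasic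

namespace FLTAgent.Semistable

variable {L k : Type*} [Field L] [Field k] {A : ValuationSubring L} {π : A →+* k}
variable {F F₁ F₂ : Type*} [Field F] [Field F₁] [Field F₂]
  [Algebra L F] [Algebra k F₁] [Algebra k F₂] {ι : Type*} [Fintype ι]

namespace PairReduction

variable {C : PairReduction A π F F₁ F₂ ι}

theorem mem_smul_one {g : L × L} {u : F} (hu : C.Mem g u) {v : F} (hv : C.Mem (1, 1) v) :
    C.Mem g (v * u) := mul_comm u v ▸ hu.mul_one_right hv

theorem mem_of_mul_mem {g h : L × L} {e S : F} (hS : C.Mem h S) (h₁ : (C.red h S).1 ≠ 0)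
    (h₂ : (C.red h S).2 ≠ 0) (hmul : C.Mem (g * h) (e * S)) : C.Mem g e :=
  ⟨C.b₁.mem_of_mul_mem C.π_surj hS.1 h₁ hmul.1, C.b₂.mem_of_mul_mem C.π_surj hS.2 h₂ hmul.2⟩

/-- Functions integral on both branches with poles supported on `E`. -/
def affineInt : Subring F where
  carrier := {x | C.Mem (1, 1) x ∧ ∃ n : ℕ, x ∈ riemannRochSpace (n • C.E)}
  mul_mem' := fun {x y} ⟨hx, n, hn⟩ ⟨hy, l, hl⟩ =>
    ⟨hx.mul_one_right hy, n + l, add_nsmul C.E n l ▸ mul_mem_riemannRochSpace hn hl⟩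
  one_mem' := ⟨mem_one_pair, 0, pow_zero C.J ▸ C.polar.pow_mem 0⟩
  add_mem' := fun {x y} ⟨hx, n, hn⟩ ⟨hy, l, hl⟩ =>
    ⟨hx.add hy, n + l, Submodule.add_mem _
      (riemannRochSpace_mono (nsmul_le_nsmul_divisor C.polar.1 (by omega)) hn)
      (riemannRochSpace_mono (nsmul_le_nsmul_divisor C.polar.1 (by omega)) hl)⟩
  zero_mem' := ⟨C.mem_zero _, 0, Submodule.zero_mem _⟩
  neg_mem' := fun {x} ⟨hx, n, hn⟩ =>
    ⟨⟨Branch.Mem.neg _ hx.1, Branch.Mem.neg _ hx.2⟩, n, Submodule.neg_mem _ hn⟩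

theorem exists_bezout (N : ℕ) : ∃ (r : ℕ) (a b : F), a ∈ riemannRochSpace (r • C.E) ∧
    b ∈ riemannRochSpace (r • C.E) ∧ C.Mem (1, 1) a ∧ C.Mem (1, 1) b ∧
      a * C.J ^ N + b * (C.J - 1) ^ N = 1 := by
  have hJ : C.J ∈ C.affineInt := ⟨J_mem, 1, by rw [one_smul]; exact C.polar.2.1⟩
  have hcop : IsCoprime (⟨C.J, hJ⟩ : C.affineInt) (⟨C.J, hJ⟩ - 1) := ⟨1, -1, by ring⟩
  obtain ⟨⟨a, ha, i, hi⟩, ⟨b, hb, l, hl⟩, hab⟩ := hcop.pow (m := N) (n := N)
  exact ⟨i + l, a, b,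
    riemannRochSpace_mono (nsmul_le_nsmul_divisor C.polar.1 (by omega)) hi,
    riemannRochSpace_mono (nsmul_le_nsmul_divisor C.polar.1 (by omega)) hl,
    ha, hb, by simpa using congrArg Subtype.val hab⟩

theorem mem_of_mul_pow_mem {G : Type*} [Field G] [Algebra k G] {J a : G} {E : Divisor k G}
    (hJ : IsPolarDivisor J E) {r s : ℕ} (ha : a ∈ riemannRochSpace ((r + 1) • E))
    (h : a * J ^ s ∈ riemannRochSpace ((r + s) • E)) : a ∈ riemannRochSpace (r • E) := by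
  rw [mem_riemannRochSpace_iff] at ha h ⊢
  intro v
  rcases eq_or_ne a 0 with ha0 | ha0
  · exact Or.inl ha0
  right
  have h1 := (ha v).resolve_left ha0
  simp only [Finsupp.smul_apply, nsmul_eq_mul, Nat.cast_add, Nat.cast_one] at h1 ⊢
  rcases eq_or_lt_of_le (hJ.1 v) with hE | hE
  · simp only [Finsupp.zero_apply] at hE
    rw [← hE, mul_zero, neg_zero] at h1 ⊢
    exact h1
  · simp only [Finsupp.zero_apply] at hE
    have hJ0 : J ≠ 0 := fun h0 => by
      have := hJ.2.2 v hE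
      rw [h0, Place.ord_zero] at this
      omega
    have h2 := (h v).resolve_left (mul_ne_zero ha0 (pow_ne_zero s hJ0))
    rw [v.ord_mul ha0 (pow_ne_zero s hJ0), hJ.ord_pow hE] at h2
    simp only [Finsupp.smul_apply, nsmul_eq_mul, Nat.cast_add] at h2
    linarith

theorem red_J_sub_one_ne_zero {G : Type*} [Field G] [Algebra k G] {J : G} {E : Divisor k G}
    (hJ : IsPolarDivisor J E) (hdeg : 0 < Divisor.degree E) : J - 1 ≠ 0 := by
  intro h
  rw [sub_eq_zero] at h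
  subst h
  obtain ⟨v, hv⟩ : ∃ v, 0 < E v := by
    by_contra! hc
    have h0 : E = 0 := Finsupp.ext fun v => le_antisymm (hc v) (hJ.1 v)
    rw [h0, map_zero] at hdeg
    exact lt_irrefl _ hdeg
  have := hJ.2.2 v hv
  rw [Place.ord_one] at this
  omega

namespace RootData

variable {m : ℕ} (R : C.RootData m)

/-- Cancelling the weight `g ^ (m - 1)` against that of `f`. -/
private theorem g_pow_pred_mul_inv (hm0 : 0 < m) : R.g ^ (m - 1) * (R.g ^ m)⁻¹ = R.g⁻¹ := by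
  have h1 := R.g_ne₁
  have h2 := R.g_ne₂
  obtain ⟨m', rfl⟩ : ∃ m', m = m' + 1 := ⟨m - 1, by omega⟩
  refine Prod.ext ?_ ?_
  · simp only [Prod.fst_mul, Prod.fst_inv, Prod.pow_fst, Nat.add_sub_cancel, pow_succ]
    field_simp
  · simp only [Prod.snd_mul, Prod.snd_inv, Prod.pow_snd, Nat.add_sub_cancel, pow_succ]
    field_simp

/-- A diagonal weight is unchanged by conjugation with `g`. -/
private theorem g_mul_diag_mul_inv (c : L) : R.g * (c, c) * R.g⁻¹ = (c, c) := by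
  refine Prod.ext ?_ ?_
  · simp [mul_comm R.g.1, mul_assoc, R.g_ne₁]
  · simp [mul_comm R.g.2, mul_assoc, R.g_ne₂]

/-- Close functions have `m`-th powers close after multiplication by `f`. -/
private theorem mem_pow_sub_pow_mul (hm0 : 0 < m) {c : L} {x y : F} (hx : C.Mem R.g x)
    (hy : C.Mem R.g y) (hxy : C.Mem (R.g * (c, c)) (x - y)) :
    C.Mem (c, c) ((x ^ m - y ^ m) * R.f) := by
  set T := ∑ i ∈ Finset.range m, x ^ i * y ^ (m - 1 - i) with hT
  have hTm : C.Mem (R.g ^ (m - 1)) T := Mem.sum fun i hi => by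
    rw [Finset.mem_range] at hi
    have := (hx.pow i).mul (hy.pow (m - 1 - i))
    rwa [← pow_add, show i + (m - 1 - i) = m - 1 by omega] at this
  have := hxy.mul ((g_pow_pred_mul_inv R hm0) ▸ hTm.mul R.mem : C.Mem R.g⁻¹ (T * R.f))
  rw [g_mul_diag_mul_inv, ← mul_assoc, mul_comm (x - y), hT, geom_sum₂_mul] at this
  exact this

/-- Conversely, with equal nonzero reductions, close `m`-th powers come from close functions. -/
private theorem mem_sub_of_pow_sub_pow (hm : (m : k) ≠ 0) (hm0 : 0 < m) {c : L} {a a' : F}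
    (hag : C.Mem R.g a) (ha'g : C.Mem R.g a') (haa : C.red R.g a = C.red R.g a')
    (hne₁ : (C.red R.g a).1 ≠ 0) (hne₂ : (C.red R.g a).2 ≠ 0)
    (hdiff0 : C.Mem (c, c) ((a ^ m - a' ^ m) * R.f)) : C.Mem (R.g * (c, c)) (a - a') := by
  set S := ∑ i ∈ Finset.range m, a ^ i * a' ^ (m - 1 - i) with hS
  have hterm : ∀ i ∈ Finset.range m, C.Mem (R.g ^ (m - 1)) (a ^ i * a' ^ (m - 1 - i)) := by
    intro i hi
    rw [Finset.mem_range] at hi
    have := (hag.pow i).mul (ha'g.pow (m - 1 - i))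
    rwa [← pow_add, show i + (m - 1 - i) = m - 1 by omega] at this
  have hSm : C.Mem (R.g ^ (m - 1)) S := Mem.sum hterm
  have hSred : C.red (R.g ^ (m - 1)) S = (m : F₁ × F₂) * C.red R.g a ^ (m - 1) := by
    rw [hS, red_sum hterm]
    rw [Finset.sum_congr rfl (g := fun _ => C.red R.g a ^ (m - 1)) fun i hi => by
      rw [Finset.mem_range] at hi
      have e := red_mul (hag.pow i) (ha'g.pow (m - 1 - i))
      rw [← pow_add, show i + (m - 1 - i) = m - 1 by omega] at e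
      rw [e, red_pow hag, red_pow ha'g, ← haa, ← pow_add,
        show i + (m - 1 - i) = m - 1 by omega]]
    rw [Finset.sum_const, Finset.card_range, nsmul_eq_mul]
  have hgg := g_pow_pred_mul_inv R hm0
  have hSf : C.Mem R.g⁻¹ (S * R.f) := hgg ▸ hSm.mul R.mem
  have hSfr : C.red R.g⁻¹ (S * R.f) = (m : F₁ × F₂) * C.red R.g a ^ (m - 1) * R.φ ^ m := by
    rw [← hgg, red_mul hSm R.mem, hSred, R.red_eq]
  refine mem_of_mul_mem hSf ?_ ?_ ?_
  · rw [hSfr]
    refine mul_ne_zero (mul_ne_zero ?_ (pow_ne_zero _ hne₁)) (pow_ne_zero _ R.φ_ne₁)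
    rw [Prod.fst_natCast, ← map_natCast (algebraMap k F₁)]
    exact (map_ne_zero _).mpr hm
  · rw [hSfr]
    refine mul_ne_zero (mul_ne_zero ?_ (pow_ne_zero _ hne₂)) (pow_ne_zero _ R.φ_ne₂)
    rw [Prod.snd_natCast, ← map_natCast (algebraMap k F₂)]
    exact (map_ne_zero _).mpr hm
  · have e : (a - a') * (S * R.f) = (a ^ m - a' ^ m) * R.f := by
      rw [← mul_assoc, mul_comm (a - a'), hS, geom_sum₂_mul]
    rwa [e, g_mul_diag_mul_inv]


variable [IsAlgClosed k] [IsFunctionField k F₁] [IsFunctionField k F₂]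
variable [IsAlgClosed L] [IsFunctionField L F]

omit [IsAlgClosed L] in
/-- A function close to `u` after clearing poles descends to the fixed lattice. -/
private theorem exists_lat_descend (hε : R.IsGluing 1) {n₀ : ℕ}
    (hn₀ : ∀ n, n₀ ≤ n → R.V n = C.glued n 1) {N : ℕ} {c : L} {u : F} (hu : R.Lat N u) :
    ∀ d : ℕ, ∀ z : F, R.Lat (n₀ + d) z → C.Mem (R.g * (c, c)) (z * C.J ^ N - u) →
      ∃ z', R.Lat n₀ z' ∧ C.Mem (R.g * (c, c)) (z' * C.J ^ N - u) := by
  intro d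
  induction d with
  | zero => exact fun z hz h => ⟨z, hz, h⟩
  | succ d ih =>
    intro z hz h
    obtain ⟨z', hz', hzz⟩ := R.descent_step (r := n₀ + d) (s := N) (c := c) (y := u)
      (fun w hw hwJ => by
        have hV : ∀ n, ∀ x ∈ C.resSub R.g (riemannRochSpace (R.D + n • C.E)),
            R.φ * x ∈ C.glued n 1 := fun n x hx =>
          hε n (Submodule.mem_map_of_mem (f := LinearMap.mulLeft k R.φ) hx)
        obtain ⟨h₁, h₂, hval⟩ := hV _ w hw
        obtain ⟨h₁', h₂', -⟩ := hV _ _ hwJ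
        have hmem : R.φ * w ∈ C.glued (n₀ + d) 1 := by
          refine ⟨mem_of_mul_pow_mem (s := N) C.polar₁ h₁ ?_,
            mem_of_mul_pow_mem (s := N) C.polar₂ h₂ ?_,
            hval⟩
          · rw [← C.b₁.red_one C.J_mem₁, Prod.fst_mul, mul_assoc]
            exact h₁'
          · rw [← C.b₂.red_one C.J_mem₂, Prod.snd_mul, mul_assoc]
            exact h₂'
        rw [← hn₀ _ (Nat.le_add_right _ _), V, Submodule.mem_map] at hmem
        obtain ⟨x, hx, hxw⟩ := hmem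
        rwa [← R.mulLeft_injective (show R.φ * x = R.φ * w from hxw)])
      hz (riemannRochSpace_mono (add_le_add le_rfl
        (nsmul_le_nsmul_divisor C.polar.1 (by omega))) hu.1) h
    refine ih z' hz' ?_
    have e : z' * C.J ^ N - u = (z * C.J ^ N - u) - (z - z') * C.J ^ N := by ring
    rw [e]
    exact h.sub (hzz.mul_one_right (J_pow_mem' N))

/-- Newton roots for `J` and `J - 1` at a common exponent. -/
private theorem exists_newton_pair (hm : (m : k) ≠ 0) (hε : R.IsGluing 1)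
    (ht : ∃ t : A, t ≠ 0 ∧ π t = 0)
    (harch : ∀ a b : A, π a = 0 → b ≠ 0 → ∃ N, b ∣ a ^ N) {b : A} (hb : b ≠ 0)
    (hsub1 : C.J - 1 ∈ riemannRochSpace C.E)
    (hJ'pow : ∀ n : ℕ, C.Mem (1, 1) ((C.J - 1) ^ n))
    (hJ'red : ∀ n : ℕ, C.red (1, 1) ((C.J - 1) ^ n) = C.red (1, 1) (C.J - 1) ^ n) :
    ∃ (N : ℕ) (u u' : F), R.Lat N u ∧ R.φ * C.red R.g u = C.red (1, 1) C.J ^ N ∧
      C.Mem ((b : L)⁻¹, (b : L)⁻¹) (u ^ m * R.f - C.J ^ (N * m)) ∧
      R.Lat N u' ∧ R.φ * C.red R.g u' = C.red (1, 1) (C.J - 1) ^ N ∧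
      C.Mem ((b : L)⁻¹, (b : L)⁻¹) (u' ^ m * R.f - (C.J - 1) ^ (N * m)) := by
  obtain ⟨N₁, u, hu, hur, hue⟩ := R.exists_newton hm hε ht harch C.polar.2.1 J_mem b hb
  obtain ⟨N₂, u', hu', hu'r, hu'e⟩ := R.exists_newton hm hε ht harch hsub1
    (J_mem.sub mem_one_pair) b hb
  refine ⟨N₁ + N₂, u * C.J ^ N₂, u' * (C.J - 1) ^ N₁, R.pow_mul_mem_lat hu N₂, ?_, ?_,
    ⟨?_, hu'.2.mul_one_right (hJ'pow N₁)⟩, ?_, ?_⟩
  · rw [red_mul_one_right hu.2 (J_pow_mem' N₂), ← mul_assoc, hur, red_J_pow, pow_add]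
  · have e : (u * C.J ^ N₂) ^ m * R.f - C.J ^ ((N₁ + N₂) * m)
        = (u ^ m * R.f - C.J ^ (N₁ * m)) * C.J ^ (N₂ * m) := by
      rw [mul_pow, add_mul, pow_add, ← pow_mul]; ring
    rw [e]
    exact hue.mul_one_right (J_pow_mem' _)
  · rw [add_comm N₁ N₂, add_nsmul, ← add_assoc]
    exact mul_mem_riemannRochSpace hu'.1 (pow_mem_riemannRochSpace hsub1 N₁)
  · rw [red_mul_one_right hu'.2 (hJ'pow N₁), ← mul_assoc, hu'r, hJ'red, ← pow_add,
      add_comm N₂ N₁]
  · have e : (u' * (C.J - 1) ^ N₁) ^ m * R.f - (C.J - 1) ^ ((N₁ + N₂) * m)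
        = (u' ^ m * R.f - (C.J - 1) ^ (N₂ * m)) * (C.J - 1) ^ (N₁ * m) := by
      rw [mul_pow, add_mul, pow_add, ← pow_mul]; ring
    rw [e]
    exact hu'e.mul_one_right (hJ'pow _)

/-- With trivial gluing, `f` has approximate inverse `m`-th roots in one fixed lattice. -/
theorem exists_bounded_approx (hm : (m : k) ≠ 0) (hε : R.IsGluing 1)
    (ht : ∃ t : A, t ≠ 0 ∧ π t = 0)
    (harch : ∀ a b : A, π a = 0 → b ≠ 0 → ∃ N, b ∣ a ^ N) :
    ∃ n₀ : ℕ, ∀ b : A, b ≠ 0 → ∃ z : F, R.Lat n₀ z ∧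
      C.Mem ((b : L)⁻¹, (b : L)⁻¹) (z ^ m * R.f - 1) := by
  have hm0 : 0 < m := Nat.pos_of_ne_zero fun h => hm (by rw [h, Nat.cast_zero])
  obtain ⟨n₀, hn₀⟩ := hε.eq_glued R hm0
  refine ⟨n₀, fun b hb => ?_⟩
  have h1eq : ((1, 1) : L × L) = 1 := rfl
  have h1rr : (1 : F) ∈ riemannRochSpace C.E :=
    riemannRochSpace_mono (zero_smul ℕ C.E ▸ C.polar.1)
      (pow_zero C.J ▸ C.polar.pow_mem 0)
  have hJ'm : C.Mem (1, 1) (C.J - 1) := J_mem.sub mem_one_pair
  have hJ'pow : ∀ n : ℕ, C.Mem (1, 1) ((C.J - 1) ^ n) := fun n => by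
    have := hJ'm.pow n; rwa [h1eq, one_pow] at this
  have hJ'red : ∀ n : ℕ, C.red (1, 1) ((C.J - 1) ^ n) = C.red (1, 1) (C.J - 1) ^ n := fun n => by
    have := red_pow hJ'm n; rwa [h1eq, one_pow] at this
  have hred' : C.red (1, 1) (C.J - 1) = C.red (1, 1) C.J - 1 := by
    rw [red_sub J_mem mem_one_pair]
    exact congrArg _ (Prod.ext C.b₁.red_one_one C.b₂.red_one_one)
  have hne₁ : (C.red (1, 1) (C.J - 1)).1 ≠ 0 := by
    rw [hred']
    exact red_J_sub_one_ne_zero (by rw [red, C.b₁.red_one C.J_mem₁]; exact C.polar₁) C.degree_pos₁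
  have hne₂ : (C.red (1, 1) (C.J - 1)).2 ≠ 0 := by
    rw [hred']
    exact red_J_sub_one_ne_zero (by rw [red, C.b₂.red_one C.J_mem₂]; exact C.polar₂) C.degree_pos₂
  obtain ⟨N, u, u', hu, hur, hue, hu', hu'r, hu'e⟩ := exists_newton_pair R hm hε ht harch hb
    (Submodule.sub_mem _ C.polar.2.1 h1rr) hJ'pow hJ'red
  set c : L := (b : L)⁻¹
  -- the two roots agree after clearing the poles
  set a := u * (C.J - 1) ^ N with ha
  set a' := u' * C.J ^ N with ha'
  have hag : C.Mem R.g a := hu.2.mul_one_right (hJ'pow N)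
  have ha'g : C.Mem R.g a' := hu'.2.mul_one_right (J_pow_mem' N)
  have haa : C.red R.g a = C.red R.g a' := R.mulLeft_injective (by
    show R.φ * _ = R.φ * _
    rw [red_mul_one_right hu.2 (hJ'pow N), red_mul_one_right hu'.2 (J_pow_mem' N), ← mul_assoc,
      ← mul_assoc, hur, hu'r, red_J_pow, hJ'red, mul_comm])
  have hdiff0 : C.Mem (c, c) ((a ^ m - a' ^ m) * R.f) := by
    have e : (a ^ m - a' ^ m) * R.f = (u ^ m * R.f - C.J ^ (N * m)) * (C.J - 1) ^ (N * m)
        - (u' ^ m * R.f - (C.J - 1) ^ (N * m)) * C.J ^ (N * m) := by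
      rw [ha, ha', mul_pow, mul_pow, ← pow_mul, ← pow_mul]; ring
    rw [e]
    exact (hue.mul_one_right (hJ'pow _)).sub (hu'e.mul_one_right (J_pow_mem' _))
  have hax : R.φ * C.red R.g a
      = C.red (1, 1) C.J ^ N * C.red (1, 1) (C.J - 1) ^ N := by
    rw [red_mul_one_right hu.2 (hJ'pow N), ← mul_assoc, hur, hJ'red]
  have hdiff : C.Mem (R.g * (c, c)) (a - a') := mem_sub_of_pow_sub_pow R hm hm0 hag ha'g haa
    (fun h => mul_ne_zero (pow_ne_zero N red_ne_zero_of_polar₁) (pow_ne_zero N hne₁)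
      ((congrArg Prod.fst hax).symm.trans (by rw [Prod.fst_mul, h, mul_zero])))
    (fun h => mul_ne_zero (pow_ne_zero N red_ne_zero_of_polar₂) (pow_ne_zero N hne₂)
      ((congrArg Prod.snd hax).symm.trans (by rw [Prod.snd_mul, h, mul_zero]))) hdiff0
  -- glue
  obtain ⟨r, α, β, hαE, hβE, hα, hβ, hab⟩ := exists_bezout (C := C) N
  have hz0 : R.Lat (N + r) (α * u + β * u') := by
    refine ⟨Submodule.add_mem _ ?_ ?_, (mem_smul_one hu.2 hα).add (mem_smul_one hu'.2 hβ)⟩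
    · rw [add_nsmul, ← add_assoc, mul_comm]
      exact mul_mem_riemannRochSpace hu.1 hαE
    · rw [add_nsmul, ← add_assoc, mul_comm]
      exact mul_mem_riemannRochSpace hu'.1 hβE
  have hz0' : C.Mem (R.g * (c, c)) ((α * u + β * u') * C.J ^ N - u) := by
    have e : (α * u + β * u') * C.J ^ N - u = -(β * (a - a')) := by
      rw [ha, ha']
      linear_combination u * hab
    rw [e]
    exact ⟨Branch.Mem.neg _ (mem_smul_one hdiff hβ).1,
      Branch.Mem.neg _ (mem_smul_one hdiff hβ).2⟩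
  -- descend to the fixed lattice
  obtain ⟨z, hz, hzu⟩ := exists_lat_descend R hε hn₀ hu (N + r) (α * u + β * u')
    ⟨riemannRochSpace_mono (add_le_add le_rfl
      (nsmul_le_nsmul_divisor C.polar.1 (by omega))) hz0.1, hz0.2⟩ hz0'
  refine ⟨z, hz, ?_⟩
  -- compare `z ^ m * f` with one
  have h3 : C.Mem (c, c) (((z * C.J ^ N) ^ m - u ^ m) * R.f) :=
    mem_pow_sub_pow_mul R hm0 (hz.2.mul_one_right (J_pow_mem' N)) hu.2 hzu
  refine mem_of_mul_mem (h := (1, 1)) (S := C.J ^ (N * m)) (J_pow_mem' _) ?_ ?_ ?_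
  · rw [red_J_pow]
    exact pow_ne_zero _ red_ne_zero_of_polar₁
  · rw [red_J_pow]
    exact pow_ne_zero _ red_ne_zero_of_polar₂
  · rw [h1eq, mul_one]
    have e : (z ^ m * R.f - 1) * C.J ^ (N * m)
        = ((z * C.J ^ N) ^ m - u ^ m) * R.f + (u ^ m * R.f - C.J ^ (N * m)) := by
      rw [mul_pow, ← pow_mul]; ring
    rw [e]
    exact h3.add hue

end RootData

end PairReduction

end FLTAgent.Semistable
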