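import Fermat.Agent.Semistable.Residue

/-!
# The two branches of `X₀(Mq)` at `q`

The standing hypotheses `Level.Setting`, the branches `branch₁` (expansions at infinity) and
`branch₂` (expansions after Atkin–Lehner) with residues in level `M`, and the basis
`h, (w h) j(qτ)ⁱ` over level `M` with integral coordinates (`exists_coords`).
-/

set_option autoImplicit false

noncomputable section

open AlgebraicCurve ModularCurve FLTAgent.FFBasic FLTAgent.Deuring FLTAgent.HeckeJacobian
open FLTAgent.GoodReduction (X0GoodReduction)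

namespace FLTAgent.Semistable.Level

local notation "Qbar" => AlgebraicClosure ℚ

/-- The standing hypotheses of the reduction of `X₀(Mq)` at `q`. -/
structure Setting (M q : ℕ) [NeZero M] [Fact q.Prime] (A : ValuationSubring Qbar) {k : Type}
    [Field k] (π : A →+* k) where
  surj : Function.Surjective π
  good : X0GoodReduction A π M
  arch : ∀ a b : A, π a = 0 → b ≠ 0 → ∃ N, b ∣ a ^ N
  not_dvd : ¬ q ∣ M
  al : ALData M q

variable {M q : ℕ} [NeZero M] [Fact q.Prime] {k : Type} [Field k]
variable {A : ValuationSubring Qbar} {π : A →+* k} (S : Setting M q A π)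
variable [IsAlgClosed k] [CharP k q]

/-- The level-`M` reduction. -/
abbrev Setting.red : Reduction Qbar k (Modular.FF Qbar M) (modularFunctionFieldFullC k M) :=
  Modular.reduction S.good S.surj

theorem hasPair_beta_j :
    HasPair π S.al (heckeBetaBar Qbar M q (Modular.jF M))
      (expandSpecial q M (Modular.jFb (k := k) M) : LaurentSeries k) (jqModC k) := by
  have h := hasPair_beta (I := S.al) S.good S.surj (jO S.good S.surj)
  rw [resM_jO, coe_jO] at h
  exact h

theorem hasPair_alpha_j :
    HasPair π S.al (heckeAlphaBar Qbar M q (Modular.jF M)) (jqModC k)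
      (expandSpecial q M (Modular.jFb (k := k) M) : LaurentSeries k) := by
  have h := hasPair_alpha (I := S.al) S.good S.surj (jO S.good S.surj)
  rw [resM_jO, coe_jO] at h
  exact h

omit [IsAlgClosed k] in
/-- Multiplying by a power of `h` makes a function vanish on the second branch. -/
theorem exists_pow_hasPair {f : modularFunctionFieldBar (M * q)}
    (hf : f ∈ Gauss.ring A π (ι₁ M q)) :
    ∃ N : ℕ, HasPair π S.al (S.al.h ^ N * f)
      (unitSeries k q ^ N * Gauss.res A π (ι₁ M q) ⟨f, hf⟩) 0 := by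
  set I := S.al
  obtain ⟨h₁, hw₁, hr, hrw⟩ := hasPair_h_aux (π := π) (I := I)
  have key : ∀ N : ℕ, (∃ hm : I.w (I.h ^ N * f) ∈ Gauss.ring A π (ι₁ M q),
        Gauss.res A π (ι₁ M q) ⟨_, hm⟩ = 0) →
      HasPair π I (I.h ^ N * f) (unitSeries k q ^ N * Gauss.res A π (ι₁ M q) ⟨f, hf⟩) 0 := by
    rintro N ⟨hm, hm0⟩
    refine ⟨mul_mem (pow_mem h₁ N) hf, (mem_ring₂_iff π I _).mpr hm, ?_, (res₂_eq π I _).trans hm0⟩
    rw [Gauss.res_mul_mk A π (ι₁ M q) (pow_mem h₁ N) hf, ← hr, ← map_pow]
    rfl
  rcases eq_or_ne f 0 with rfl | hf0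
  · exact ⟨0, key 0 ⟨by simp, by
      rw [show (⟨_, _⟩ : Gauss.ring A π (ι₁ M q)) = 0 from Subtype.ext (by simp), map_zero]⟩⟩
  obtain ⟨c, hc, hres⟩ := scales₁ (M := M) (q := q) π (I.w f) ((map_ne_zero I.w).mpr hf0)
  by_cases hcA : c ∈ A
  · have hq0 : π (q : A) = 0 := by rw [map_natCast, CharP.cast_eq_zero]
    have hc0 : (⟨c, hcA⟩ : A) ≠ 0 := fun h0 => hres (by
      have hc' : c = 0 := congrArg Subtype.val h0
      rw [show (⟨c • I.w f, hc⟩ : Gauss.ring A π (ι₁ M q)) = 0 from
        Subtype.ext (by simp [hc']), map_zero])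
    obtain ⟨n, d, hd⟩ := S.arch _ _ hq0 hc0
    have hne : I.h ≠ 0 := fun h0 => by
      have := hr
      rw [show (⟨I.h, h₁⟩ : Gauss.ring A π (ι₁ M q)) = 0 from Subtype.ext h0, map_zero] at this
      exact (order_unitSeries q).1 this.symm
    have hinv : I.h⁻¹ ∈ Gauss.ring A π (ι₁ M q) :=
      Gauss.inv_mem A π _ ⟨I.h, h₁⟩ (by rw [hr]; exact (order_unitSeries q).1)
    set a : A := d * (q : A) ^ (12 * (n + 1) - n) with ha
    have heq : I.w (I.h ^ (n + 1) * f) =
        algebraMap Qbar _ (a : Qbar) * (I.h⁻¹) ^ (n + 1) * (c • I.w f) := by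
      have hwh : I.w I.h = (q : modularFunctionFieldBar (M * q)) ^ 12 * I.h⁻¹ := by
        rw [← I.h_mul, mul_comm I.h, mul_assoc, mul_inv_cancel₀ hne, mul_one]
      have hd' : (q : Qbar) ^ n = c * (d : Qbar) := by
        have := congrArg Subtype.val hd
        simpa using this
      have hqq : (q : Qbar) ^ (12 * (n + 1)) = c * (a : Qbar) := by
        rw [ha]
        push_cast
        rw [← mul_assoc, ← hd', ← pow_add, Nat.add_sub_of_le (by omega)]
      rw [map_mul, map_pow, hwh, mul_pow, ← pow_mul, Algebra.smul_def,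
        ← map_natCast (algebraMap Qbar (modularFunctionFieldBar (M * q))), ← map_pow, hqq, map_mul]
      ring
    have hm : I.w (I.h ^ (n + 1) * f) ∈ Gauss.ring A π (ι₁ M q) := by
      rw [heq]
      exact mul_mem (mul_mem (Gauss.algebraMap_mem A π _ a) (pow_mem hinv _)) hc
    refine ⟨n + 1, key _ ⟨hm, ?_⟩⟩
    rw [show (⟨_, hm⟩ : Gauss.ring A π (ι₁ M q)) =
      ⟨_, Gauss.algebraMap_mem A π _ a⟩ * ⟨I.h⁻¹, hinv⟩ ^ (n + 1) * ⟨_, hc⟩ from
        Subtype.ext heq, map_mul, map_mul, Gauss.res_algebraMap, ha, map_mul, map_pow, hq0,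
      zero_pow (by omega), mul_zero, map_zero, zero_mul, zero_mul]
  · have hc0 : c ≠ 0 := fun h0 => hcA (h0 ▸ A.zero_mem)
    have hcA' : c⁻¹ ∈ A := (A.mem_or_inv_mem c).resolve_left hcA
    have hwf : I.w f ∈ Gauss.ring A π (ι₁ M q) := by
      have := mul_mem (Gauss.algebraMap_mem A π (ι₁ M q) ⟨_, hcA'⟩) hc
      rwa [← Algebra.smul_def, smul_smul, inv_mul_cancel₀ hc0, one_smul] at this
    have hm : I.w (I.h ^ 1 * f) ∈ Gauss.ring A π (ι₁ M q) := by
      rw [pow_one, map_mul]; exact mul_mem hw₁ hwf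
    refine ⟨1, key 1 ⟨hm, ?_⟩⟩
    rw [show (⟨_, hm⟩ : Gauss.ring A π (ι₁ M q)) = ⟨_, hw₁⟩ * ⟨_, hwf⟩ from
      Subtype.ext ((congrArg (fun z => I.w (z * f)) (pow_one I.h)).trans (map_mul I.w _ _)),
      map_mul, hrw, zero_mul]

/-- The twisted powers `(w h) j(qτ)ⁱ`. -/
def twist (i : ℕ) : modularFunctionFieldBar (M * q) :=
  S.al.w S.al.h * heckeBetaBar Qbar M q (Modular.jF M) ^ i

theorem hasPair_twist (i : ℕ) :
    HasPair π S.al (twist S i) 0 (unitSeries k q * jqModC k ^ i) :=
  ((hasPair_wh (π := π) (I := S.al)).mul ((hasPair_beta_j S).pow i)).congr rfl (zero_mul _) rfl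

omit [NeZero M] in
theorem eq_zero_of_twist {x : Fin q → modularFunctionFieldFullC k M}
    (h : ∑ i, (expandSpecial q M (x i) : LaurentSeries k) *
      (unitSeries k q * jqModC k ^ (i : ℕ)) = 0) : x = 0 := by
  have h' : unitSeries k q *
      ∑ i, qExpand k q (x i : LaurentSeries k) * jqModC k ^ (i : ℕ) = 0 := by
    rw [← h, Finset.mul_sum]
    exact Finset.sum_congr rfl fun i _ => by rw [coe_expandSpecial]; ring
  have := eq_zero_of_sum_qExpand ((mul_eq_zero.mp h').resolve_left (order_unitSeries q).1)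
  exact funext fun i => Subtype.ext (congrFun this i)

theorem finrankAlong_alpha (hqM : ¬ q ∣ M) :
    finrankAlong Qbar (heckeAlphaBar Qbar M q) = q + 1 := by
  rw [finrankAlong_heckeAlphaBar M q Fact.out, if_neg hqM]

theorem card_le_of_hasPair {n : ℕ} {e : Fin n → modularFunctionFieldBar (M * q)}
    {a b : Fin n → LaurentSeries k} (he : ∀ i, HasPair π S.al (e i) (a i) (b i))
    (hind : ∀ x : Fin n → modularFunctionFieldFullC k M,
      ∑ i, (x i : LaurentSeries k) * a i = 0 →
        ∑ i, (expandSpecial q M (x i) : LaurentSeries k) * b i = 0 → x = 0) : n ≤ q + 1 := by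
  let := algebraAlong (heckeAlphaBar Qbar M q)
  have : Module.Finite (modularFunctionFieldBar M) (modularFunctionFieldBar (M * q)) :=
    FFBasic.finiteAlong (heckeAlphaBar Qbar M q)
  have := (linearIndependent_of_hasPair S.good S.surj he hind).fintype_card_le_finrank
  rw [Fintype.card_fin] at this
  exact this.trans_eq (finrankAlong_alpha S.not_dvd)

include S in
theorem res_mem₁ (f : Gauss.ring A π (ι₁ M q)) :
    Gauss.res A π (ι₁ M q) f ∈ modularFunctionFieldFullC k M := by
  obtain ⟨f, hf⟩ := f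
  by_contra hg
  set g := Gauss.res A π (ι₁ M q) ⟨f, hf⟩
  obtain ⟨N, hN⟩ := exists_pow_hasPair S hf
  set u := unitSeries k q ^ N
  have hu : u ≠ 0 := pow_ne_zero _ (order_unitSeries q).1
  obtain ⟨N₁, h1⟩ := exists_pow_hasPair S (one_mem (Gauss.ring A π (ι₁ M q)))
  set u₁ := unitSeries k q ^ N₁ * Gauss.res A π (ι₁ M q) ⟨1, one_mem _⟩
  have hu₁ : u₁ = unitSeries k q ^ N₁ := by
    simp only [u₁]
    rw [show (⟨1, one_mem _⟩ : Gauss.ring A π (ι₁ M q)) = 1 from rfl, map_one, mul_one]
  have p0 : HasPair π S.al (S.al.h ^ N₁ * 1 * S.al.h ^ N) (unitSeries k q ^ N₁ * u) 0 :=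
    (h1.mul (hasPair_h.pow N)).congr rfl (by rw [hu₁]) (zero_mul _)
  have p1 : HasPair π S.al (S.al.h ^ N * f * S.al.h ^ N₁) (unitSeries k q ^ N₁ * (u * g)) 0 :=
    (hN.mul (hasPair_h.pow N₁)).congr rfl (mul_comm _ _) (zero_mul _)
  have := card_le_of_hasPair S
    (e := Fin.cons (S.al.h ^ N₁ * 1 * S.al.h ^ N)
      (Fin.cons (S.al.h ^ N * f * S.al.h ^ N₁) fun i : Fin q => twist S i))
    (a := Fin.cons (unitSeries k q ^ N₁ * u) (Fin.cons (unitSeries k q ^ N₁ * (u * g)) 0))
    (b := Fin.cons 0 (Fin.cons 0 fun i : Fin q => unitSeries k q * jqModC k ^ (i : ℕ)))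
    (by
      intro i
      cases i using Fin.cases with
      | zero => exact p0
      | succ i =>
        cases i using Fin.cases with
        | zero => exact p1
        | succ i => simpa using hasPair_twist S i)
    (by
      intro x hx1 hx2
      simp only [Fin.sum_univ_succ, Fin.cons_zero, Fin.cons_succ, Pi.zero_apply, mul_zero,
        Finset.sum_const_zero, add_zero, zero_add] at hx1 hx2
      have ht := eq_zero_of_twist hx2
      have hx01 : (x 0 : LaurentSeries k) + (x 1 : LaurentSeries k) * g = 0 := by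
        refine (mul_eq_zero.mp (?_ : (unitSeries k q ^ N₁ * u) *
          ((x 0 : LaurentSeries k) + (x 1 : LaurentSeries k) * g) = 0)).resolve_left
          (mul_ne_zero (pow_ne_zero _ (order_unitSeries q).1) hu)
        rw [← hx1, show (Fin.succ 0 : Fin (q + 2)) = 1 from rfl]
        ring
      have hx1' : x 1 = 0 := by
        by_contra hne
        refine hg ?_
        have hne' : (x 1 : LaurentSeries k) ≠ 0 := fun h0 => hne (Subtype.ext h0)
        have : g = -(x 0 : LaurentSeries k) / (x 1 : LaurentSeries k) := by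
          rw [eq_div_iff hne', eq_neg_iff_add_eq_zero, add_comm, mul_comm, hx01]
        rw [this]
        exact div_mem (neg_mem (x 0).2) (x 1).2
      rw [hx1', ZeroMemClass.coe_zero, zero_mul, add_zero] at hx01
      funext i
      cases i using Fin.cases with
      | zero => exact Subtype.ext hx01
      | succ i =>
        cases i using Fin.cases with
        | zero => exact hx1'
        | succ i => exact congrFun ht i)
  omega

theorem res_mem₂ (f : Gauss.ring A π (ι₂ S.al)) :
    Gauss.res A π (ι₂ S.al) f ∈ modularFunctionFieldFullC k M := by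
  obtain ⟨f, hf⟩ := f
  rw [res₂_eq π S.al hf]
  exact res_mem₁ S _

/-- The branch of expansions at infinity. -/
def branch₁ : Branch A π (modularFunctionFieldBar (M * q)) (modularFunctionFieldFullC k M) where
  O := Gauss.valRing A π (ι₁ M q) (scales₁ π)
  res := (Gauss.res A π (ι₁ M q)).codRestrict
    (modularFunctionFieldFullC k M).toSubfield.toSubring (res_mem₁ S)
  algebraMap_mem a := Gauss.algebraMap_mem A π _ a
  res_algebraMap a := Subtype.ext (Gauss.res_algebraMap A π _ a)
  scale f hf := by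
    obtain ⟨c, h, hr⟩ := scales₁ π f hf
    exact ⟨c, h, fun h0 => hr (congrArg Subtype.val h0)⟩

/-- The branch of expansions after the Atkin–Lehner automorphism. -/
def branch₂ : Branch A π (modularFunctionFieldBar (M * q)) (modularFunctionFieldFullC k M) where
  O := Gauss.valRing A π (ι₂ S.al) (scales₂ π S.al)
  res := (Gauss.res A π (ι₂ S.al)).codRestrict
    (modularFunctionFieldFullC k M).toSubfield.toSubring (res_mem₂ S)
  algebraMap_mem a := Gauss.algebraMap_mem A π _ a
  res_algebraMap a := Subtype.ext (Gauss.res_algebraMap A π _ a)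
  scale f hf := by
    obtain ⟨c, h, hr⟩ := scales₂ π S.al f hf
    exact ⟨c, h, fun h0 => hr (congrArg Subtype.val h0)⟩

/-- The residue on the first branch is the Gauss residue of the first expansion. -/
theorem coe_res₁ {f : modularFunctionFieldBar (M * q)} (h : f ∈ (branch₁ S).O) :
    ((branch₁ S).res ⟨f, h⟩ : LaurentSeries k) = Gauss.res A π (ι₁ M q) ⟨f, h⟩ := rfl

theorem coe_res₂ {f : modularFunctionFieldBar (M * q)} (h : f ∈ (branch₂ S).O) :
    ((branch₂ S).res ⟨f, h⟩ : LaurentSeries k) = Gauss.res A π (ι₂ S.al) ⟨f, h⟩ := rfl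

/-- `h` and the twisted powers. -/
def basisFun : Fin (q + 1) → modularFunctionFieldBar (M * q) :=
  Fin.cons S.al.h fun i : Fin q => twist S i

theorem hasPair_basisFun (i : Fin (q + 1)) :
    HasPair π S.al (basisFun S i) ((Fin.cons (unitSeries k q) 0 : Fin (q + 1) → LaurentSeries k) i)
      ((Fin.cons 0 fun i : Fin q => unitSeries k q * jqModC k ^ (i : ℕ) :
        Fin (q + 1) → LaurentSeries k) i) := by
  cases i using Fin.cases with
  | zero => exact hasPair_h
  | succ i => simpa [basisFun] using hasPair_twist S i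

omit [NeZero M] in
theorem basisFun_hind (x : Fin (q + 1) → modularFunctionFieldFullC k M)
    (h1 : ∑ i, (x i : LaurentSeries k) *
      (Fin.cons (unitSeries k q) 0 : Fin (q + 1) → LaurentSeries k) i = 0)
    (h2 : ∑ i, (expandSpecial q M (x i) : LaurentSeries k) *
      (Fin.cons 0 fun i : Fin q => unitSeries k q * jqModC k ^ (i : ℕ) :
        Fin (q + 1) → LaurentSeries k) i = 0) : x = 0 := by
  simp only [Fin.sum_univ_succ, Fin.cons_zero, Fin.cons_succ, Pi.zero_apply, mul_zero,
    Finset.sum_const_zero, add_zero, zero_add] at h1 h2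
  have ht := eq_zero_of_twist h2
  funext i
  cases i using Fin.cases with
  | zero => exact Subtype.ext ((mul_eq_zero.mp h1).resolve_right (order_unitSeries q).1)
  | succ i => exact congrFun ht i

/-- Coordinates over level `M`; they are integral for doubly integral functions. -/
theorem exists_coords (u : modularFunctionFieldBar (M * q)) :
    ∃ x : Fin (q + 1) → modularFunctionFieldBar M,
      u = ∑ i, heckeAlphaBar Qbar M q (x i) * basisFun S i ∧
      (u ∈ (branch₁ S).O → u ∈ (branch₂ S).O → ∀ i, x i ∈ S.red.O) := by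
  let := algebraAlong (heckeAlphaBar Qbar M q)
  have : Module.Finite (modularFunctionFieldBar M) (modularFunctionFieldBar (M * q)) :=
    FFBasic.finiteAlong (heckeAlphaBar Qbar M q)
  have hli := linearIndependent_of_hasPair S.good S.surj (hasPair_basisFun S)
    (basisFun_hind (M := M))
  have hspan := hli.span_eq_top_of_card_eq_finrank (by
    rw [Fintype.card_fin]; exact (finrankAlong_alpha S.not_dvd).symm)
  obtain ⟨x, hx⟩ := Submodule.mem_span_range_iff_exists_fun _ |>.mp
    (hspan.ge (Submodule.mem_top : u ∈ ⊤))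
  have hu : u = ∑ i, heckeAlphaBar Qbar M q (x i) * basisFun S i := hx.symm
  refine ⟨x, hu, fun h₁ h₂ i => ?_⟩
  exact mem_O_of_hasPair S.good S.surj (hasPair_basisFun S) (basisFun_hind (M := M)) x
    (u := Gauss.res A π (ι₁ M q) ⟨u, h₁⟩) (v := Gauss.res A π (ι₂ S.al) ⟨u, h₂⟩)
    (HasPair.congr (⟨h₁, h₂, rfl, rfl⟩ : HasPair π S.al u _ _) hu rfl rfl) i

end FLTAgent.Semistable.Level
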