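import Fermat.Agent.Semistable.Regular

/-!
# The crossings of the special fibre

The residue `hbar` of `Δ(τ)/Δ(qτ)`, the set `nodeSet` of crossings where it vanishes, the
equality of the values of the two residues at a crossing (`compat_values`) and the involutivity
of Frobenius there (`frobAut_smul_smul`).
-/

set_option autoImplicit false

noncomputable section

open AlgebraicCurve ModularCurve Polynomial FLTAgent.FFBasic FLTAgent.Deuring
open FLTAgent.HeckeJacobian

namespace FLTAgent.Semistable.Level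

local notation "Qbar" => AlgebraicClosure ℚ

variable {M q : ℕ} [NeZero M] [Fact q.Prime]
variable {k : Type} [Field k] [IsAlgClosed k] [CharP k q]
variable {A : ValuationSubring Qbar} {π : A →+* k} (S : Setting M q A π)

theorem h_mem₁ : S.al.h ∈ (branch₁ S).O := (hasPair_h (π := π) (I := S.al)).fst

theorem h_mem₂ : S.al.h ∈ (branch₂ S).O := (hasPair_h (π := π) (I := S.al)).snd.fst

theorem wh_mem₁ : S.al.w S.al.h ∈ (branch₁ S).O := (hasPair_wh (π := π) (I := S.al)).fst

theorem wh_mem₂ : S.al.w S.al.h ∈ (branch₂ S).O := (hasPair_wh (π := π) (I := S.al)).snd.fst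

/-- The residue of `Δ(τ) / Δ(qτ)`. -/
def hbar : modularFunctionFieldFullC k M := (branch₁ S).res ⟨S.al.h, h_mem₁ S⟩

theorem coe_hbar : (hbar S : LaurentSeries k) = unitSeries k q := by
  obtain ⟨a, b, e, -⟩ := hasPair_h (π := π) (I := S.al)
  exact e

theorem hbar_ne_zero : hbar S ≠ 0 := fun h =>
  (order_unitSeries q).1 ((coe_hbar S).symm.trans (congrArg Subtype.val h))

theorem res₂_wh : (branch₂ S).res ⟨S.al.w S.al.h, wh_mem₂ S⟩ = hbar S := by
  obtain ⟨a, b, -, e⟩ := hasPair_wh (π := π) (I := S.al)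
  exact Subtype.ext (e.trans (coe_hbar S).symm)

theorem frobAut_smul_hbar : frobAut (k := k) q M • hbar S = hbar S := by
  refine Subtype.ext ?_
  rw [frobAut, CongruenceRel.coe_specialAut_smul, coe_hbar, coeffMap_unitSeries]

theorem frobAut_inv_smul_hbar : (frobAut (k := k) q M)⁻¹ • hbar S = hbar S := by
  rw [inv_smul_eq_iff, frobAut_smul_hbar]

/-- The crossings: finite places where the residue of `Δ(τ) / Δ(qτ)` vanishes. -/
def nodeSet : Set (Place k (modularFunctionFieldFullC k M)) :=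
  {s | 0 ≤ s.ord (Modular.jFb M) ∧ 0 < s.ord (hbar S)}

theorem nodeSet_finite [IsFunctionField k (modularFunctionFieldFullC k M)] :
    (nodeSet S).Finite :=
  (finite_setOf_ord_pos (hbar S)).subset fun _ hs => hs.2

theorem smul_mem_nodeSet {g : SemilinearAut k (modularFunctionFieldFullC k M)}
    (hj : g • Modular.jFb (k := k) M = Modular.jFb M) (hh : g • hbar S = hbar S)
    {s : Place k (modularFunctionFieldFullC k M)} (hs : s ∈ nodeSet S) : g • s ∈ nodeSet S := by
  constructor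
  · rw [← hj, SemilinearAut.ord_smul]; exact hs.1
  · rw [← hh, SemilinearAut.ord_smul]; exact hs.2

theorem frobAut_smul_mem {s : Place k (modularFunctionFieldFullC k M)} (hs : s ∈ nodeSet S) :
    frobAut (k := k) q M • s ∈ nodeSet S :=
  smul_mem_nodeSet S (specialAut_smul_jFb M _) (frobAut_smul_hbar S) hs

theorem frobAut_inv_smul_mem {s : Place k (modularFunctionFieldFullC k M)}
    (hs : s ∈ nodeSet S) : (frobAut (k := k) q M)⁻¹ • s ∈ nodeSet S :=
  smul_mem_nodeSet S (specialAut_inv_smul_jFb M _) (frobAut_inv_smul_hbar S) hs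

variable [IsFunctionField k (modularFunctionFieldFullC k M)]

/-- The values on the two branches at a crossing agree. -/
theorem compat_values {u : modularFunctionFieldBar (M * q)} (h₁ : u ∈ (branch₁ S).O)
    (h₂ : u ∈ (branch₂ S).O) (hu : InB Qbar (jA M q) u)
    {s : Place k (modularFunctionFieldFullC k M)} (hs : s ∈ nodeSet S) :
    ∃ c : k, HasValue s ((branch₁ S).res ⟨u, h₁⟩) c ∧
      HasValue ((frobAut (k := k) q M)⁻¹ • s) ((branch₂ S).res ⟨u, h₂⟩) c := by
  obtain ⟨ha, hb⟩ := inB_res_fin S h₁ h₂ hu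
  set a := (branch₁ S).res ⟨u, h₁⟩
  set b := (branch₂ S).res ⟨u, h₂⟩
  set φ := frobAut (k := k) q M
  obtain ⟨c₁, hc₁⟩ := exists_hasValue (v := s) (a := a)
    (mem_ball_of_le_ord (by simpa using ha s hs.1))
  obtain ⟨c₂, hc₂⟩ := exists_hasValue (v := φ⁻¹ • s) (a := b)
    (mem_ball_of_le_ord (by simpa using hb _ (frobAut_inv_smul_mem S hs).1))
  suffices c₁ = c₂ from ⟨c₁, hc₁, this ▸ hc₂⟩
  by_contra hne
  -- a function vanishing on the second branch with nonzero value at `s`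
  have hg : InB k (Modular.jFb (k := k) M) (φ • b) := inB_smul φ (specialAut_smul_jFb M _) hb
  have hgv : HasValue s (φ • b) (c₂ ^ q) := by
    have := hasValue_smul φ hc₂
    rwa [smul_inv_smul] at this
  obtain ⟨x, hxB, hx⟩ := exists_lift_fin S hg
  set e := u ^ q - heckeAlphaBar Qbar M q x with he
  set E₁ : (branch₁ S).O := ⟨u, h₁⟩ ^ q - alphaO₁ S x
  set E₂ : (branch₂ S).O := ⟨u, h₂⟩ ^ q - alphaO₂ S x
  have hr₁ : (branch₁ S).res E₁ = a ^ q - φ • b := by
    rw [map_sub, map_pow, res₁_alphaO₁, hx]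
  have hr₂ : (branch₂ S).res E₂ = 0 := by
    rw [map_sub, map_pow, res₂_alphaO₂, hx, expandSpecial_frobAut_smul, sub_self]
  have hq : q ≠ 0 := (Fact.out : q.Prime).ne_zero
  have hv₁ : HasValue s ((branch₁ S).res E₁) ((c₁ - c₂) ^ q) := by
    have : ExpChar k q := ExpChar.prime Fact.out
    rw [hr₁, sub_pow_expChar]
    have := (hc₁.pow q).add (hgv.const_mul (-1))
    simpa [sub_eq_add_neg] using this
  have hval : (c₁ - c₂) ^ q ≠ 0 := pow_ne_zero _ (sub_ne_zero.mpr hne)
  have hE₁0 : (branch₁ S).res E₁ ≠ 0 := hv₁.ne_zero hval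
  have he1 : (E₁ : modularFunctionFieldBar (M * q)) = e := by rw [he]; rfl
  have he2 : (E₂ : modularFunctionFieldBar (M * q)) = e := by rw [he]; rfl
  have heB : InB Qbar (jA M q) e := by
    intro v hv
    rw [he]
    exact ord_nonneg_of_mem v (sub_mem (pow_mem (mem_of_ord_nonneg v (hu v hv)) _)
      (mem_of_ord_nonneg v (inB_map _ hxB v hv)))
  have hem : e ∈ (branch₂ S).O := he2 ▸ E₂.2
  have he0 : e ≠ 0 := fun h0 => hE₁0 (by
    rw [show E₁ = 0 from Subtype.ext (he1.trans h0), map_zero])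
  set I := S.al
  have hwe : I.w e ∈ Gauss.ring A π (ι₁ M q) := (mem_ring₂_iff π I e).mp hem
  have hwe0 : Gauss.res A π (ι₁ M q) ⟨I.w e, hwe⟩ = 0 := by
    rw [← res₂_eq π I hem]
    have h0 : (branch₂ S).res ⟨e, hem⟩ = 0 := by
      rw [show (⟨e, hem⟩ : (branch₂ S).O) = E₂ from Subtype.ext he2.symm, hr₂]
    exact congrArg Subtype.val h0
  obtain ⟨c, hc, hcr⟩ := scales₁ (M := M) (q := q) π (I.w e) ((_root_.map_ne_zero I.w).mpr he0)
  have hcA : c ∉ A := fun hcA => hcr (by
    rw [show (⟨c • I.w e, hc⟩ : Gauss.ring A π (ι₁ M q)) =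
      ⟨algebraMap Qbar _ c, Gauss.algebraMap_mem A π _ ⟨c, hcA⟩⟩ * ⟨I.w e, hwe⟩ from
        Subtype.ext (Algebra.smul_def c _), map_mul, hwe0, mul_zero])
  obtain ⟨hcA', hπc⟩ := S.red.inv_mem_of_not_mem hcA
  have hc0 : c ≠ 0 := fun h0 => hcA (h0 ▸ A.zero_mem)
  have hq12 : ((q : A) ^ 12) ≠ 0 := pow_ne_zero _ (fun h0 => by
    have := congrArg Subtype.val h0
    simp only [ZeroMemClass.coe_zero] at this
    exact hq (by exact_mod_cast this))
  obtain ⟨n, d, hd⟩ := S.arch ⟨c⁻¹, hcA'⟩ ((q : A) ^ 12) hπc hq12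
  set κ : Qbar := ((q : Qbar) ^ 12)⁻¹ with hκ
  have hq' : (q : Qbar) ^ 12 ≠ 0 := pow_ne_zero _ (Nat.cast_ne_zero.mpr hq)
  set x' := algebraMap Qbar (modularFunctionFieldBar (M * q)) κ * e ^ n * I.w I.h with hx'
  have hh0 : I.h ≠ 0 := fun h0 => hbar_ne_zero S (by
    rw [hbar, show (⟨S.al.h, h_mem₁ S⟩ : (branch₁ S).O) = 0 from Subtype.ext h0, map_zero])
  have hx₁eq : x' = e ^ n * I.h⁻¹ := by
    have hwh : I.w I.h = (q : modularFunctionFieldBar (M * q)) ^ 12 * I.h⁻¹ := by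
      rw [← I.h_mul, mul_comm I.h, mul_assoc, mul_inv_cancel₀ hh0, mul_one]
    rw [hx', hwh, ← map_natCast (algebraMap Qbar (modularFunctionFieldBar (M * q))), ← map_pow,
      mul_comm (algebraMap Qbar _ κ), mul_assoc, ← mul_assoc (algebraMap Qbar _ κ), ← map_mul, hκ,
      inv_mul_cancel₀ hq', map_one, one_mul]
  have hinv : I.h⁻¹ ∈ (branch₁ S).O :=
    Gauss.inv_mem A π _ ⟨_, h_mem₁ S⟩ (fun h => hbar_ne_zero S (Subtype.ext h))
  have hinvr : (branch₁ S).res ⟨_, hinv⟩ = (hbar S)⁻¹ := by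
    refine eq_inv_of_mul_eq_one_left ?_
    rw [hbar, ← map_mul, show (⟨_, hinv⟩ : (branch₁ S).O) * ⟨S.al.h, h_mem₁ S⟩ = 1 from
      Subtype.ext (inv_mul_cancel₀ hh0), map_one]
  have hx₁ : x' ∈ (branch₁ S).O := by
    rw [hx₁eq, ← he1]; exact mul_mem (pow_mem E₁.2 n) hinv
  have hx₂ : x' ∈ (branch₂ S).O := by
    show x' ∈ Gauss.ring A π (ι₂ I)
    rw [mem_ring₂_iff]
    have : I.w x' = algebraMap Qbar _ (d : Qbar) * (c • I.w e) ^ n * I.h := by
      have hd' : c⁻¹ ^ n = (q : Qbar) ^ 12 * (d : Qbar) := by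
        simpa using congrArg Subtype.val hd
      have hkey : κ = (d : Qbar) * c ^ n := by
        have h1 : (q : Qbar) ^ 12 * ((d : Qbar) * c ^ n) = 1 := by
          rw [← mul_assoc, ← hd', ← mul_pow, inv_mul_cancel₀ hc0, one_pow]
        exact (eq_inv_of_mul_eq_one_right h1).symm
      rw [hx', map_mul, map_mul, map_pow, AlgHom.commutes, w_w, hkey, Algebra.smul_def, mul_pow,
        map_mul, map_pow]
      ring
    rw [this]
    exact mul_mem (mul_mem (Gauss.algebraMap_mem A π _ d) (pow_mem hc n)) (h_mem₁ S)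
  have hxB' : InB Qbar (jA M q) x' := by
    rw [hx']
    exact ((inB_const _ κ).mul (heB.pow n)).mul I.inB_wh
  have hfin := (inB_res_fin S hx₁ hx₂ hxB').1 s hs.1
  rw [show (⟨x', hx₁⟩ : (branch₁ S).O) = E₁ ^ n * ⟨_, hinv⟩ from
    Subtype.ext (by push_cast; rw [hx₁eq, he1]), map_mul, map_pow, hinvr,
    s.ord_mul (pow_ne_zero _ hE₁0) (inv_ne_zero (hbar_ne_zero S)), FFBasic.ord_pow,
    hv₁.ord_eq_zero hval, mul_zero, zero_add, s.ord_inv] at hfin
  have := hs.2
  omega

/-- Frobenius is an involution on the crossings. -/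
theorem frobAut_smul_smul {s : Place k (modularFunctionFieldFullC k M)} (hs : s ∈ nodeSet S) :
    frobAut (k := k) q M • frobAut (k := k) q M • s = s := by
  set φ := frobAut (k := k) q M
  suffices φ • s = φ⁻¹ • s by rw [this, smul_inv_smul]
  by_contra hne
  obtain ⟨y, hy, hy1, hy0⟩ := exists_separating_inB (Modular.transcendental_jFb (k := k) M) hne
    (frobAut_smul_mem S hs).1 (frobAut_inv_smul_mem S hs).1
  obtain ⟨x, hxB, hx⟩ := exists_lift_fin S hy
  obtain ⟨m₁, m₂, e₁, e₂⟩ := hasPair_beta (I := S.al) S.good S.surj x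
  have hB : InB Qbar (jA M q) (heckeBetaBar Qbar M q x) := fun v hv =>
    inB_map (heckeBetaBar Qbar M q) hxB v (inB_jA_jB M q v hv)
  obtain ⟨c, hc₁, hc₂⟩ := compat_values S m₁ m₂ hB hs
  have r₁ : (branch₁ S).res ⟨_, m₁⟩ = expandSpecial q M y := Subtype.ext
    ((coe_res₁ S m₁).trans (e₁.trans (congrArg (fun z => (expandSpecial q M z : LaurentSeries k))
      hx)))
  have r₂ : (branch₂ S).res ⟨_, m₂⟩ = y := Subtype.ext
    ((coe_res₂ S m₂).trans (e₂.trans (congrArg Subtype.val hx)))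
  rw [r₁] at hc₁
  rw [r₂] at hc₂
  have h1 := hasValue_expandSpecial q M hy1
  rw [inv_smul_smul] at h1
  exact zero_ne_one ((hc₂.unique hy0).symm.trans (hc₁.unique h1))

end FLTAgent.Semistable.Level
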