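import Fermat.Prelude.Def_ModularCurve_ModularUnit
import Fermat.Prelude.Def_ModularCurve_X0ModL
import Fermat.Agent.Deuring.Modular

/-!
# The expansion of `Δ(τ)/Δ(qτ)` over any ring

`unitSeries` is that expansion with integer coefficients, compatible with base change, of
order `1 - q`; also the order of the powers of `j`.
-/

set_option autoImplicit false

noncomputable section

open ModularCurve

namespace FLTAgent.Semistable

variable (R : Type*) [CommRing R] (q : ℕ) [NeZero q]

/-- `Δ(τ) / Δ(qτ)` as a series over any ring. -/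
def unitSeries : LaurentSeries R :=
  HahnSeries.single (1 - (q : ℤ)) 1 *
    HahnSeries.ofPowerSeries ℤ R (dedekindEtaUnit.map (Int.castRingHom R)) *
    qExpand R q (HahnSeries.ofPowerSeries ℤ R (dedekindEtaUnitInv.map (Int.castRingHom R)))

variable {R}

theorem coeffMap_unitSeries {S : Type*} [CommRing S] (f : R →+* S) :
    coeffMap f (unitSeries R q) = unitSeries S q := by
  have hps : ∀ p : PowerSeries ℤ, coeffMap f
      (HahnSeries.ofPowerSeries ℤ R (p.map (Int.castRingHom R))) =
      HahnSeries.ofPowerSeries ℤ S (p.map (Int.castRingHom S)) := fun p => by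
    rw [coeffMap_ofPowerSeries, ← RingHom.comp_apply (PowerSeries.map f), ← PowerSeries.map_comp,
      RingHom.ext_int (f.comp (Int.castRingHom R)) (Int.castRingHom S)]
  rw [unitSeries, unitSeries, map_mul, map_mul, coeffMap_single, map_one, coeffMap_qExpand, hps,
    hps]

theorem unitSeries_rat : unitSeries ℚ q = modularUnitSeries q := by
  refine mul_right_cancel₀ (deltaSeriesN_ne_zero q) ?_
  rw [modularUnitSeries_mul_deltaSeriesN, unitSeries, deltaSeriesN, deltaSeries, map_mul,
    qExpand_single, mul_one]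
  set E := HahnSeries.ofPowerSeries ℤ ℚ (dedekindEtaUnit.map (Int.castRingHom ℚ))
  set E' := HahnSeries.ofPowerSeries ℤ ℚ (dedekindEtaUnitInv.map (Int.castRingHom ℚ))
  have hEE : qExpand ℚ q E' * qExpand ℚ q E = 1 := by
    rw [← map_mul, ← map_mul, ← map_mul, mul_comm, dedekindEtaUnit_mul_inv, map_one, map_one,
      map_one]
  rw [show dedekindEtaUnitQ = dedekindEtaUnit.map (Int.castRingHom ℚ) from rfl]
  calc _ = HahnSeries.single (1 - (q : ℤ)) (1 : ℚ) * HahnSeries.single (q : ℤ) 1 * E *
        (qExpand ℚ q E' * qExpand ℚ q E) := by ring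
    _ = _ := by
      rw [hEE, mul_one, HahnSeries.single_mul_single, mul_one, sub_add_cancel]

theorem coeff_unitSeries_int :
    (unitSeries ℤ q).coeff (1 - (q : ℤ)) = 1 ∧
      ∀ n : ℤ, n < 1 - (q : ℤ) → (unitSeries ℤ q).coeff n = 0 := by
  have h : ∀ n, (((unitSeries ℤ q).coeff n : ℤ) : ℚ) = (modularUnitSeries q).coeff n := fun n => by
    rw [← unitSeries_rat, ← coeffMap_unitSeries q (Int.castRingHom ℚ), coeffMap_coeff]
    rfl
  refine ⟨?_, fun n hn => ?_⟩
  · have := h (1 - (q : ℤ))
    rw [coeff_modularUnitSeries_self] at this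
    exact_mod_cast this
  · have := h n
    rw [coeff_modularUnitSeries_of_lt q hn] at this
    exact_mod_cast this

theorem order_unitSeries [Nontrivial R] :
    unitSeries R q ≠ 0 ∧ (unitSeries R q).order = 1 - (q : ℤ) := by
  obtain ⟨h1, h0⟩ := coeff_unitSeries_int q
  have hc : ∀ n, (unitSeries R q).coeff n = ((unitSeries ℤ q).coeff n : R) := fun n => by
    rw [← coeffMap_unitSeries q (Int.castRingHom R), coeffMap_coeff]
    rfl
  have hne : (unitSeries R q).coeff (1 - (q : ℤ)) ≠ 0 := by
    rw [hc, h1, Int.cast_one]; exact one_ne_zero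
  have hne' : unitSeries R q ≠ 0 := fun h => hne (by rw [h, HahnSeries.coeff_zero])
  refine ⟨hne', le_antisymm (HahnSeries.order_le_of_coeff_ne_zero hne) ?_⟩
  by_contra hlt
  apply HahnSeries.coeff_order_eq_zero.not.mpr hne'
  rw [hc, h0 _ (not_le.mp hlt), Int.cast_zero]

theorem order_jqModC (K : Type*) [Field K] (n : ℕ) :
    (jqModC K ^ n).order = -(n : ℤ) := by
  have hne : (jqModC K ^ n).coeff (-(n : ℤ)) ≠ 0 := by
    rw [coeff_jqModC_pow_self]; exact one_ne_zero
  refine le_antisymm (HahnSeries.order_le_of_coeff_ne_zero hne) ?_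
  by_contra hlt
  have hne' : jqModC K ^ n ≠ 0 := fun h => hne (by rw [h, HahnSeries.coeff_zero])
  apply HahnSeries.coeff_order_eq_zero.not.mpr hne'
  exact coeff_jqModC_pow_of_lt K (not_le.mp hlt)

end FLTAgent.Semistable
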