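import Fermat.Agent.Semistable.SpecialRR
import Fermat.Agent.Semistable.UnitSeries

/-!
# Orders at the cusps of a series in `k(j)`

A series in `k(j)` of order `1 - q`, such as the residue of `Δ(τ)/Δ(qτ)`, has order
`(q - 1) ord j` at every cusp (`ord_of_mem_kj`).  Used in `Semistable.Dim`.
-/

set_option autoImplicit false

noncomputable section

open AlgebraicCurve ModularCurve Polynomial IntermediateField FLTAgent.FFBasic FLTAgent.Deuring

namespace FLTAgent.Semistable

variable {k : Type*} [Field k]

theorem order_aeval_j {p : k[X]} (hp : p ≠ 0) :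
    aeval (jqModC k) p ≠ 0 ∧ (aeval (jqModC k) p).order = -(p.natDegree : ℤ) := by
  have hc := Modular.coeff_aeval_j k p
  have hne : (aeval (jqModC k) p).coeff (-(p.natDegree : ℤ)) ≠ 0 := by
    rw [hc]; exact leadingCoeff_ne_zero.mpr hp
  have hne' : aeval (jqModC k) p ≠ 0 := fun h => hne (by rw [h, HahnSeries.coeff_zero])
  refine ⟨hne', le_antisymm (HahnSeries.order_le_of_coeff_ne_zero hne) ?_⟩
  by_contra hlt
  apply HahnSeries.coeff_order_eq_zero.not.mpr hne'
  have hlt' := not_le.mp hlt
  generalize (aeval (jqModC k) p).order = m at hlt' ⊢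
  rw [aeval_eq_sum_range, HahnSeries.coeff_sum]
  refine Finset.sum_eq_zero fun i hi => ?_
  rw [Algebra.smul_def, algebraMap_laurentSeries_eq_single, HahnSeries.coeff_single_zero_mul,
    coeff_jqModC_pow_of_lt k (by have := Finset.mem_range.mp hi; omega), mul_zero]

/-- A series in `k(j)` of order `1 - q` grows like `j ^ (q - 1)` at the cusps. -/
theorem ord_of_mem_kj {N q : ℕ} [IsFunctionField k (modularFunctionFieldFullC k N)]
    {g : modularFunctionFieldFullC k N}
    (hg : (g : LaurentSeries k) ∈ k⟮jqModC k⟯) (hg0 : g ≠ 0)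
    (hord : (g : LaurentSeries k).order = 1 - (q : ℤ))
    (v : Place k (modularFunctionFieldFullC k N)) (hv : v.ord (Modular.jFb (k := k) N) < 0) :
    v.ord g = ((q : ℤ) - 1) * v.ord (Modular.jFb (k := k) N) := by
  obtain ⟨r, s, hrs⟩ := (IntermediateField.mem_adjoin_simple_iff _ _).mp hg
  have hgc : (g : LaurentSeries k) ≠ 0 := fun h => hg0 (Subtype.ext h)
  have hs : s ≠ 0 := by
    rintro rfl
    exact hgc (by rw [hrs, map_zero, div_zero])
  have hr : r ≠ 0 := by
    rintro rfl
    exact hgc (by rw [hrs, map_zero, zero_div])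
  obtain ⟨hs0, hso⟩ := order_aeval_j (k := k) hs
  obtain ⟨hr0, hro⟩ := order_aeval_j (k := k) hr
  have hmul : (g : LaurentSeries k) * aeval (jqModC k) s = aeval (jqModC k) r := by
    rw [hrs, div_mul_cancel₀ _ hs0]
  have hdeg : (r.natDegree : ℤ) = s.natDegree + ((q : ℤ) - 1) := by
    have := congrArg HahnSeries.order hmul
    rw [HahnSeries.order_mul hgc hs0, hord, hso, hro] at this
    omega
  have hF : g * aeval (Modular.jFb (k := k) N) s = aeval (Modular.jFb (k := k) N) r := by
    apply Subtype.ext
    have hval : ∀ t : k[X], ((aeval (Modular.jFb (k := k) N) t :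
        modularFunctionFieldFullC k N) : LaurentSeries k) = aeval (jqModC k) t := fun t =>
      (aeval_algHom_apply (modularFunctionFieldFullC k N).val _ t).symm
    push_cast
    rw [hval, hval, hmul]
  obtain ⟨hs1, hs2⟩ := ord_aeval_of_neg v hv hs
  obtain ⟨-, hr2⟩ := ord_aeval_of_neg v hv hr
  have := congrArg v.ord hF
  rw [v.ord_mul hg0 hs1, hs2, hr2, hdeg] at this
  linarith

end FLTAgent.Semistable
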