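import Fermat.Agent.Semistable.RootData

/-!
# Descent in the filtration by pole order

Multiplication by a power of `J` is injective on reductions, so membership of a product in a
lattice modulo small elements descends to lower pole order (`descent_step`).
Iterated in `Semistable.Approx`.
-/

set_option autoImplicit false

noncomputable section

open AlgebraicCurve FLTAgent.FFRiemannRoch FLTAgent.FFBasic

namespace FLTAgent.Semistable

variable {L k : Type*} [Field L] [Field k] {A : ValuationSubring L} {π : A →+* k}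
variable {F F₁ F₂ : Type*} [Field F] [Field F₁] [Field F₂]
  [Algebra L F] [Algebra k F₁] [Algebra k F₂] {ι : Type*} [Fintype ι]

namespace PairReduction

variable {C : PairReduction A π F F₁ F₂ ι}

theorem red_ne_zero_of_polar₁ : C.b₁.red 1 C.J ≠ 0 := by
  intro h
  rw [C.b₁.red_one C.J_mem₁] at h
  obtain ⟨-, -, hord⟩ := C.polar₁
  rw [h] at hord
  obtain ⟨v, hv⟩ : ∃ v, 0 < C.E₁ v := by
    by_contra! hc
    have h0 : C.E₁ = 0 := Finsupp.ext fun v => le_antisymm (hc v) (C.polar₁.1 v)
    have := C.degree_pos₁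
    rw [h0, map_zero] at this
    exact lt_irrefl _ this
  have := hord v hv
  rw [Place.ord_zero] at this
  omega

theorem red_ne_zero_of_polar₂ : C.b₂.red 1 C.J ≠ 0 := by
  intro h
  rw [C.b₂.red_one C.J_mem₂] at h
  obtain ⟨-, -, hord⟩ := C.polar₂
  rw [h] at hord
  obtain ⟨v, hv⟩ : ∃ v, 0 < C.E₂ v := by
    by_contra! hc
    have h0 : C.E₂ = 0 := Finsupp.ext fun v => le_antisymm (hc v) (C.polar₂.1 v)
    have := C.degree_pos₂
    rw [h0, map_zero] at this
    exact lt_irrefl _ this
  have := hord v hv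
  rw [Place.ord_zero] at this
  omega

theorem J_mem : C.Mem (1, 1) C.J :=
  ⟨show (1 : L) • C.J ∈ C.b₁.O by rw [one_smul]; exact C.J_mem₁,
    show (1 : L) • C.J ∈ C.b₂.O by rw [one_smul]; exact C.J_mem₂⟩

theorem red_J_pow_injective (s : ℕ) :
    Function.Injective (LinearMap.mulRight k (C.red (1, 1) C.J ^ s)) := fun _ _ h =>
  Prod.ext (mul_right_cancel₀ (pow_ne_zero s red_ne_zero_of_polar₁) (congrArg Prod.fst h))
    (mul_right_cancel₀ (pow_ne_zero s red_ne_zero_of_polar₂) (congrArg Prod.snd h))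

theorem Mem.mul_one_right {g : L × L} {u v : F} (hu : C.Mem g u) (hv : C.Mem (1, 1) v) :
    C.Mem g (u * v) := by
  have := hu.mul hv
  rwa [show ((1, 1) : L × L) = 1 from rfl, mul_one] at this

theorem red_mul_one_right {g : L × L} {u v : F} (hu : C.Mem g u) (hv : C.Mem (1, 1) v) :
    C.red g (u * v) = C.red g u * C.red (1, 1) v := by
  have := red_mul hu hv
  rwa [show ((1, 1) : L × L) = 1 from rfl, mul_one] at this

theorem J_pow_mem' (s : ℕ) : C.Mem (1, 1) (C.J ^ s) := by
  have := (J_mem (C := C)).pow s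
  rwa [show ((1, 1) : L × L) = 1 from rfl, one_pow] at this

theorem red_J_pow (s : ℕ) : C.red (1, 1) (C.J ^ s) = C.red (1, 1) C.J ^ s := by
  have := red_pow (J_mem (C := C)) s
  rwa [show ((1, 1) : L × L) = 1 from rfl, one_pow] at this

namespace RootData

variable {m : ℕ} (R : C.RootData m)

/-- The lattice in `L(D + r E)`. -/
def Lat (r : ℕ) (u : F) : Prop := u ∈ riemannRochSpace (R.D + r • C.E) ∧ C.Mem R.g u

theorem pow_mul_mem_lat {r : ℕ} {u : F} (hu : R.Lat r u) (s : ℕ) :
    R.Lat (r + s) (u * C.J ^ s) := by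
  refine ⟨?_, hu.2.mul_one_right (J_pow_mem' s)⟩
  rw [add_nsmul, ← add_assoc]
  exact mul_mem_riemannRochSpace hu.1 (C.polar.pow_mem s)

variable [IsAlgClosed L] [IsFunctionField L F]

omit [IsAlgClosed L] in
/-- One descent step. -/
theorem descent_step {r s : ℕ}
    (hinj : ∀ w ∈ C.resSub R.g (riemannRochSpace (R.D + (r + 1) • C.E)),
      w * C.red (1, 1) C.J ^ s ∈ C.resSub R.g (riemannRochSpace (R.D + (r + s) • C.E)) →
        w ∈ C.resSub R.g (riemannRochSpace (R.D + r • C.E)))
    {c : L} {z y : F} (hz : R.Lat (r + 1) z) (hy : y ∈ riemannRochSpace (R.D + (r + s) • C.E))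
    (h : C.Mem (R.g * (c, c)) (z * C.J ^ s - y)) :
    ∃ z', R.Lat r z' ∧ C.Mem (R.g * (c, c)) (z - z') := by
  set V₀ := riemannRochSpace (R.D + r • C.E) with hV₀
  set V₁ := riemannRochSpace (R.D + (r + 1) • C.E) with hV₁
  set V₂ := riemannRochSpace (R.D + (r + s) • C.E) with hV₂
  have hle : V₀ ≤ V₁ := riemannRochSpace_mono
    (add_le_add le_rfl (nsmul_le_nsmul_divisor C.polar.1 (Nat.le_succ r)))
  obtain ⟨b, hbV, hb, hbli⟩ := C.exists_basis R.g_ne₁ R.g_ne₂ V₀
  obtain ⟨b', hb'V, hb', hb'li⟩ := C.exists_basis R.g_ne₁ R.g_ne₂ V₂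
  have := C.finiteDimensional_resSub R.g_ne₁ R.g_ne₂ V₁
  obtain ⟨W₀, hW₀⟩ := Submodule.exists_isCompl (C.resSub R.g V₀)
  set W := W₀ ⊓ C.resSub R.g V₁ with hW
  have : FiniteDimensional k W := Submodule.finiteDimensional_of_le inf_le_right
  have hWdisj : Disjoint (C.resSub R.g V₀) W := hW₀.disjoint.mono_right inf_le_left
  have hWsup : C.resSub R.g V₀ ⊔ W = C.resSub R.g V₁ := by
    rw [hW, ← sup_inf_assoc_of_le _ (C.resSub_mono hle), hW₀.sup_eq_top, top_inf_eq]
  let w : Fin (Module.finrank k W) → F₁ × F₂ := fun j => ((Module.finBasis k W j : W) : F₁ × F₂)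
  have hwmem : ∀ j, w j ∈ W := fun j => (Module.finBasis k W j).2
  have hwspan : Submodule.span k (Set.range w) = W := by
    rw [show w = W.subtype ∘ Module.finBasis k W from rfl, Set.range_comp, Submodule.span_image,
      (Module.finBasis k W).span_eq, Submodule.map_subtype_top]
  have hwli : LinearIndependent k w :=
    (Module.finBasis k W).linearIndependent.map' W.subtype (Submodule.ker_subtype W)
  choose e heV he hew using fun j => C.mem_resSub.mp (inf_le_right (a := W₀) (hwmem j))
  have hfam : ∀ i, C.Mem R.g (Sum.elim b e i) := Sum.rec hb he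
  have hspan0 : C.resSub R.g V₀ = Submodule.span k (Set.range fun i => C.red R.g (b i)) :=
    C.resSub_eq_span hbV hb hbli
  have hli : LinearIndependent k fun i => C.red R.g (Sum.elim b e i) := by
    rw [show (fun i => C.red R.g (Sum.elim b e i)) = Sum.elim (fun i => C.red R.g (b i)) w from
      funext (Sum.rec (fun _ => rfl) hew)]
    exact hbli.sum_type hwli (by rw [← hspan0, hwspan]; exact hWdisj)
  have hcard : Module.finrank L V₀ + Module.finrank k W = Module.finrank L V₁ := by
    have := C.finiteDimensional_resSub R.g_ne₁ R.g_ne₂ V₀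
    have h1 := Submodule.finrank_sup_add_finrank_inf_eq (C.resSub R.g V₀) W
    rw [hWsup, hWdisj.eq_bot, finrank_bot, C.finrank_resSub R.g_ne₁ R.g_ne₂,
      C.finrank_resSub R.g_ne₁ R.g_ne₂] at h1
    omega
  have hspan : Submodule.span L (Set.range (Sum.elim b e)) = V₁ := by
    refine Submodule.eq_of_le_of_finrank_eq (Submodule.span_le.mpr ?_) ?_
    · rintro _ ⟨i | j, rfl⟩
      exacts [hle (hbV i), heV j]
    · rw [finrank_span_eq_card (C.linearIndependent_of_red hfam hli), Fintype.card_sum,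
        Fintype.card_fin, Fintype.card_fin, hcard]
  have hz1 := hz.1
  rw [← hV₁, ← hspan, Submodule.mem_span_range_iff_exists_fun] at hz1
  obtain ⟨d, hd⟩ := hz1
  have hdA := C.coord_mem hfam hli (hd ▸ hz.2 : C.Mem R.g (∑ i, d i • Sum.elim b e i))
  rw [Fintype.sum_sum_type] at hd
  simp only [Sum.elim_inl, Sum.elim_inr] at hd
  -- the second family
  have hfam' : ∀ i, C.Mem R.g (Sum.elim b' (fun j => e j * C.J ^ s) i) :=
    Sum.rec hb' fun j => (he j).mul_one_right (J_pow_mem' s)
  have hli' : LinearIndependent k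
      fun i => C.red R.g (Sum.elim b' (fun j => e j * C.J ^ s) i) := by
    rw [show (fun i => C.red R.g (Sum.elim b' (fun j => e j * C.J ^ s) i)) =
      Sum.elim (fun i => C.red R.g (b' i))
        (LinearMap.mulRight k (C.red (1, 1) C.J ^ s) ∘ w) from
      funext (Sum.rec (fun _ => rfl) fun j => by
        show C.red R.g (e j * C.J ^ s) = w j * C.red (1, 1) C.J ^ s
        rw [red_mul_one_right (he j) (J_pow_mem' s), red_J_pow, hew j])]
    refine hb'li.sum_type (hwli.map' _ (LinearMap.ker_eq_bot.mpr (red_J_pow_injective s))) ?_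
    rw [← C.resSub_eq_span hb'V hb' hb'li, Set.range_comp, Submodule.span_image, hwspan,
      Submodule.disjoint_def]
    rintro _ hx ⟨x, hxW, rfl⟩
    have hx0 := hinj x (inf_le_right (a := W₀) hxW) hx
    rw [Submodule.disjoint_def.mp hWdisj x hx0 hxW, map_zero]
  have hspan' : Submodule.span L (Set.range b') = V₂ := by
    refine Submodule.eq_of_le_of_finrank_eq
      (Submodule.span_le.mpr (Set.range_subset_iff.mpr hb'V)) ?_
    rw [finrank_span_eq_card (C.linearIndependent_of_red hb' hb'li), Fintype.card_fin]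
  have hq : (∑ i, d (Sum.inl i) • b i) * C.J ^ s - y ∈ V₂ := by
    refine Submodule.sub_mem _ ?_ hy
    rw [hV₂, add_nsmul, ← add_assoc]
    exact mul_mem_riemannRochSpace
      (Submodule.sum_mem _ fun i _ => Submodule.smul_mem _ _ (hbV i)) (C.polar.pow_mem s)
  rw [← hspan', Submodule.mem_span_range_iff_exists_fun] at hq
  obtain ⟨d', hd'⟩ := hq
  have hexp : z * C.J ^ s - y =
      ∑ i, Sum.elim d' (fun j => d (Sum.inr j)) i • Sum.elim b' (fun j => e j * C.J ^ s) i := by
    rw [Fintype.sum_sum_type]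
    simp only [Sum.elim_inl, Sum.elim_inr]
    rw [hd', ← hd, add_mul, Finset.sum_mul _ _ (C.J ^ s), add_sub_right_comm]
    congr 1
    rw [Finset.sum_mul]
    exact Finset.sum_congr rfl fun j _ => smul_mul_assoc _ _ _
  have hc : C.Mem R.g (c • (z * C.J ^ s - y)) := C.mem_smul_iff.mpr h
  rw [hexp, Finset.smul_sum] at hc
  simp only [smul_smul] at hc
  have hA := C.coord_mem hfam' hli' hc
  refine ⟨∑ i, d (Sum.inl i) • b i, ⟨Submodule.sum_mem _ fun i _ =>
    Submodule.smul_mem _ _ (hbV i), Mem.sum fun i _ => (hb i).smul ⟨_, hdA (Sum.inl i)⟩⟩, ?_⟩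
  rw [← hd, add_sub_cancel_left, ← C.mem_smul_iff, Finset.smul_sum]
  simp only [smul_smul]
  exact Mem.sum fun j _ => (he j).smul ⟨_, hA (Sum.inr j)⟩

end RootData

end PairReduction

end FLTAgent.Semistable
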