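import Fermat.Agent.Semistable.Reach
import Fermat.Agent.Semistable.CuspOrder

/-!
# The dimension count for `X₀(Mq)` at `q`

For `n` large the pairs of residues of `L(n · poles of j)` are all pairs with equal values at
the crossings, whence the dimension formula `exists_dim` required by the pair reduction in
`Semistable.Instance`.
-/

set_option autoImplicit false

noncomputable section

open AlgebraicCurve ModularCurve Polynomial FLTAgent.FFBasic FLTAgent.Deuring
open FLTAgent.HeckeJacobian

namespace FLTAgent.Semistable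

/-- Arbitrary values at finitely many places off `x = ∞`. -/
theorem exists_values {K F : Type*} [Field K] [Field F] [Algebra K F] [IsAlgClosed K]
    [IsFunctionField K F] {x : F} (hx : Transcendental K x) {ι : Type*} [Fintype ι]
    {p : ι → Place K F} (hp : Function.Injective p) (hoff : ∀ s, 0 ≤ (p s).ord x) {n : ℕ}
    (hn : 2 * genusFF K F + Fintype.card ι ≤ n) (c : ι → K) :
    ∃ a ∈ riemannRochSpace (n • pol (K := K) x), ∀ s, HasValue (p s) a (c s) := by
  refine exists_mem_valueAt_eq hp (D := n • pol (K := K) x) (fun s => ?_) ?_ c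
  · rw [Finsupp.smul_apply, pol_apply, max_eq_right (by have := hoff s; omega), smul_zero]
  · rw [map_nsmul, nsmul_eq_mul]
    have hd := degree_pol_pos (K := K) hx
    have h1 : (n : ℤ) * 1 ≤ (n : ℤ) * Divisor.degree (pol (K := K) x) :=
      mul_le_mul_of_nonneg_left (by omega) (by omega)
    omega

/-- The dimension of the kernel of a surjection onto functions, via a basis of it. -/
theorem finrank_ker_prod {k V₁ V₂ ι : Type*} [Field k] [AddCommGroup V₁] [Module k V₁]
    [AddCommGroup V₂] [Module k V₂] [FiniteDimensional k V₁] [FiniteDimensional k V₂] [Fintype ι]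
    (Φ : V₁ × V₂ →ₗ[k] (ι → k)) (hΦ : Function.Surjective Φ) {d : ℕ}
    (hle : d ≤ Module.finrank k (LinearMap.ker Φ))
    (hge : ∀ (m : ℕ) (e : Fin m → V₁ × V₂), LinearIndependent k e → (∀ i, Φ (e i) = 0) → m ≤ d) :
    d + Fintype.card ι = Module.finrank k V₁ + Module.finrank k V₂ := by
  have hker := LinearMap.finrank_range_add_finrank_ker Φ
  rw [LinearMap.range_eq_top.mpr hΦ, finrank_top, Module.finrank_fintype_fun_eq_card,
    Module.finrank_prod] at hker
  let e := Module.finBasis k (LinearMap.ker Φ)
  have := hge _ (fun i => (e i : V₁ × V₂))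
    (e.linearIndependent.map' (LinearMap.ker Φ).subtype (Submodule.ker_subtype _))
    fun i => LinearMap.mem_ker.mp (e i).2
  omega

end FLTAgent.Semistable

namespace FLTAgent.Semistable.Level

local notation "Qbar" => AlgebraicClosure ℚ

variable {M q : ℕ} [NeZero M] [Fact q.Prime]
variable {k : Type} [Field k] [IsAlgClosed k] [CharP k q]
variable {A : ValuationSubring Qbar} {π : A →+* k} (S : Setting M q A π)
variable [IsFunctionField k (modularFunctionFieldFullC k M)]

omit [NeZero M] in
theorem pol_expandSpecial_jFb :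
    pol (K := k) (expandSpecial q M (Modular.jFb (k := k) M)) =
      q • pol (K := k) (Modular.jFb (k := k) M) := by
  ext v
  rw [Finsupp.smul_apply, pol_apply, pol_apply, expandSpecial_jFb, FFBasic.ord_pow, nsmul_eq_mul,
    mul_max_of_nonneg _ _ (Int.natCast_nonneg q), mul_zero, mul_neg]

omit [NeZero M] in
theorem nsmul_pol_expandSpecial (n : ℕ) :
    n • pol (K := k) (expandSpecial q M (Modular.jFb (k := k) M)) =
      (q * n) • pol (K := k) (Modular.jFb (k := k) M) := by
  rw [pol_expandSpecial_jFb, smul_smul, mul_comm]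

omit [IsFunctionField k (modularFunctionFieldFullC k M)] in
/-- Bases of finite dimensional spaces with independent pairs of residues. -/
theorem pair_ortho (g₁ g₂ : Qbar) (hg₁ : g₁ ≠ 0)
    (V : Submodule Qbar (modularFunctionFieldBar (M * q))) [FiniteDimensional Qbar V] :
    ∃ (b : Fin (Module.finrank Qbar V) → modularFunctionFieldBar (M * q))
      (h₁ : ∀ i, g₁ • b i ∈ (branch₁ S).O) (h₂ : ∀ i, g₂ • b i ∈ (branch₂ S).O),
      (∀ i, b i ∈ V) ∧ LinearIndependent k
        (fun i => ((branch₁ S).res ⟨g₁ • b i, h₁ i⟩, (branch₂ S).res ⟨g₂ • b i, h₂ i⟩)) := by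
  obtain ⟨b, h₁, h₂, hV, hli⟩ := Gauss.exists_ortho (A := A) (π := π) exists_frac intSeries_ι₁
    (intSeries_ι₂ S.al) (g₂ := g₂) hg₁ V
  refine ⟨b, h₁, h₂, hV, Fintype.linearIndependent_iff.mpr fun c hc =>
    Fintype.linearIndependent_iff.mp hli c ?_⟩
  have key : ∀ (d : k) (x : modularFunctionFieldFullC k M),
      ((d • x : modularFunctionFieldFullC k M) : LaurentSeries k) = d • (x : LaurentSeries k) :=
    fun d x => by
      rw [← HahnSeries.C_mul_eq_smul, Algebra.smul_def, IntermediateField.coe_mul]
      congr 1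
      exact algebraMap_laurentSeries_eq_single k d
  refine Prod.ext ?_ ?_
  · have h := congrArg (fun p => ((p.1 : modularFunctionFieldFullC k M) : LaurentSeries k)) hc
    simp only [Prod.fst_sum, Prod.smul_fst, AddSubmonoidClass.coe_finsetSum, key, Prod.fst_zero,
      ZeroMemClass.coe_zero] at h
    rw [Prod.fst_sum]
    exact h
  · have h := congrArg (fun p => ((p.2 : modularFunctionFieldFullC k M) : LaurentSeries k)) hc
    simp only [Prod.snd_sum, Prod.smul_snd, AddSubmonoidClass.coe_finsetSum, key, Prod.snd_zero,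
      ZeroMemClass.coe_zero] at h
    rw [Prod.snd_sum]
    exact h

omit [IsAlgClosed k] [CharP k q] [IsFunctionField k ↥(modularFunctionFieldFullC k M)] in
/-- Independent pairs come from independent functions. -/
theorem card_le_finrank {n m : ℕ} (u : Fin m → modularFunctionFieldBar (M * q))
    (hu : ∀ i, u i ∈ riemannRochSpace (n • pol (K := Qbar) (jA M q)))
    (a b : Fin m → modularFunctionFieldFullC k M) (h : ∀ i, HasPair π S.al (u i) (a i) (b i))
    (hli : LinearIndependent k fun i => (a i, b i)) :
    m ≤ Module.finrank Qbar (riemannRochSpace (n • pol (K := Qbar) (jA M q))) := by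
  classical
  have hind : LinearIndependent Qbar fun i =>
      (⟨u i, hu i⟩ : riemannRochSpace (n • pol (K := Qbar) (jA M q))) := by
    refine LinearIndependent.of_comp (riemannRochSpace (n • pol (K := Qbar) (jA M q))).subtype ?_
    rw [Fintype.linearIndependent_iff]
    intro c hc i
    by_contra hi
    have hc0 : c ≠ 0 := fun h0 => hi (congrFun h0 i)
    obtain ⟨p, hp, hmem⟩ := Deuring.exists_scaled_mem (A := A) c hc0
    let d : Fin m → A := fun i => ⟨c i / c p, hmem i⟩
    have hsum : HasPair π S.al (∑ i, (d i : Qbar) • u i)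
        (∑ i, algebraMap k (LaurentSeries k) (π (d i)) * (a i : LaurentSeries k))
        (∑ i, algebraMap k (LaurentSeries k) (π (d i)) * (b i : LaurentSeries k)) :=
      HasPair.sum Finset.univ fun i _ => (h i).const_smul (d i)
    have h0 : ∑ i, (d i : Qbar) • u i = 0 := by
      have : ∑ i, (d i : Qbar) • u i = (c p)⁻¹ • ∑ i, c i • u i := by
        rw [Finset.smul_sum]
        exact Finset.sum_congr rfl fun i _ => by rw [smul_smul, ← div_eq_inv_mul]
      rw [this, show ∑ i, c i • u i = 0 from hc, smul_zero]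
    rw [h0] at hsum
    obtain ⟨e₁, e₂⟩ := hsum.unique HasPair.zero
    have := Fintype.linearIndependent_iff.mp hli (fun i => π (d i)) (by
      refine Prod.ext (Subtype.ext ?_) (Subtype.ext ?_)
      · rw [Prod.fst_sum, Prod.fst_zero, ZeroMemClass.coe_zero]
        push_cast
        simp only [Prod.smul_fst]
        rw [← e₁]
        exact Finset.sum_congr rfl fun i _ => by rw [Algebra.smul_def]; rfl
      · rw [Prod.snd_sum, Prod.snd_zero, ZeroMemClass.coe_zero]
        push_cast
        simp only [Prod.smul_snd]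
        rw [← e₂]
        exact Finset.sum_congr rfl fun i _ => by rw [Algebra.smul_def]; rfl) p
    rw [show d p = 1 from Subtype.ext (div_self hp), map_one] at this
    exact one_ne_zero this
  simpa using hind.fintype_card_le_finrank

variable (hk : (hbar S : LaurentSeries k) ∈ IntermediateField.adjoin k {jqModC k})

include hk in
theorem ord_hbar_cusp (v : Place k (modularFunctionFieldFullC k M))
    (hv : v.ord (Modular.jFb (k := k) M) < 0) :
    v.ord (hbar S) = ((q : ℤ) - 1) * v.ord (Modular.jFb (k := k) M) :=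
  ord_of_mem_kj hk (hbar_ne_zero S) (by rw [coe_hbar]; exact (order_unitSeries q).2) v hv

/-- Multiples of a high power of the residue of `Δ(τ)/Δ(qτ)`. -/
theorem exists_reach_hbar_pow :
    ∃ b : ℕ, 0 < b ∧ ∀ n, b ≤ n → ∀ g ∈ riemannRochSpace
      ((q * (n - b) + b) • pol (K := k) (Modular.jFb (k := k) M)),
        Reach S n 0 (hbar S ^ b * g) := by
  obtain ⟨n₀, hlift⟩ := exists_lifts S
  set T := Modular.jFb (k := k) M
  set B := (rrBound k (modularFunctionFieldFullC k M)).toNat
  set b := n₀ + q + B + 1 with hb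
  refine ⟨b, by omega, fun n hn => ?_⟩
  induction n, hn using Nat.le_induction with
  | base =>
    intro g hg
    rw [Nat.sub_self, mul_zero, zero_add] at hg
    obtain ⟨x, hx, rfl⟩ := hlift b (by omega) g hg
    exact reach_twist S (by omega) hx
  | succ n hn ih =>
    intro g hg
    have hN : q * (n + 1 - b) + b = q * (n - b) + b + q := by
      rw [Nat.sub_add_comm hn, mul_add, mul_one]; ring
    rw [hN, ← rr_step (Modular.transcendental_jFb (k := k) M) (e := q) (by omega) (by
      have hd : 0 < Divisor.degree (pol (K := k) (Modular.jFb (k := k) M)) :=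
        degree_pol_pos (Modular.transcendental_jFb (k := k) M)
      have h1 : ((q * (n - b) + b - q : ℕ) : ℤ) * 1 ≤ ((q * (n - b) + b - q : ℕ) : ℤ) *
          Divisor.degree (pol (K := k) (Modular.jFb (k := k) M)) :=
        mul_le_mul_of_nonneg_left (by omega) (by omega)
      omega)] at hg
    obtain ⟨g₁, hg₁, g₂', ⟨g₂, hg₂, rfl⟩, rfl⟩ := Submodule.mem_sup.mp hg
    rw [mul_add, LinearMap.mulLeft_apply]
    have h1 := Reach.mono S (Nat.le_succ n) (ih g₁ hg₁)
    have h2 := Reach.mul S (reach_alpha_j S) (ih g₂ hg₂)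
    rw [mul_zero, expandSpecial_jFb, add_comm 1 n] at h2
    have := Reach.add S h1 h2
    rwa [add_zero, ← mul_assoc, mul_comm (Modular.jFb (k := k) M ^ q), mul_assoc] at this

include hk in
/-- Functions vanishing at the crossings are reached on the second branch. -/
theorem exists_reach_vanishing :
    ∃ n₁ : ℕ, ∀ n, n₁ ≤ n → ∀ a ∈ riemannRochSpace
      (n • pol (K := k) (expandSpecial q M (Modular.jFb (k := k) M))),
      (∀ s ∈ nodeSet S, a ∈ FFRiemannRoch.ball s (-1)) → Reach S n 0 a := by
  classical
  obtain ⟨b, hb, hpow⟩ := exists_reach_hbar_pow S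
  obtain ⟨n₀, hlift⟩ := exists_lifts S
  set T := Modular.jFb (k := k) M with hTdef
  have hT := Modular.transcendental_jFb (k := k) M
  set Sf := (nodeSet_finite S).toFinset
  have hSf : ∀ s, s ∈ Sf ↔ s ∈ nodeSet S := fun s => (nodeSet_finite S).mem_toFinset
  obtain ⟨y, hy0, hyB, hy1⟩ := exists_simple_zeros hT Sf fun s hs => ((hSf s).mp hs).1
  have hVy : InB k T (expandSpecial q M y) := by
    have := inB_map (expandSpecial q M) hyB
    rw [expandSpecial_jFb] at this
    exact (inB_pow_iff (Fact.out : q.Prime).pos).mp this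
  set z := y - expandSpecial q M (expandSpecial q M y) with hz
  obtain ⟨N₀, hzR⟩ : ∃ N₀, Reach S N₀ 0 z := by
    obtain ⟨m, hm⟩ := hyB.exists_mem
    obtain ⟨m', hm'⟩ := hVy.exists_mem
    obtain ⟨x, hx, hxr⟩ := hlift (max m n₀) (le_max_right _ _) y
      (rr_nsmul_pol_mono _ (le_max_left _ _) hm)
    obtain ⟨x', hx', hxr'⟩ := hlift (max m' n₀) (le_max_right _ _) _
      (rr_nsmul_pol_mono _ (le_max_left _ _) hm')
    obtain ⟨N, hN⟩ := exists_reach_beta S (max m n₀)
    have h1 := hN x hx
    have h2 := reach_alpha S hx'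
    rw [hxr] at h1
    rw [hxr'] at h2
    refine ⟨max N (max m' n₀), ?_⟩
    have := Reach.add S (Reach.mono S (le_max_left N (max m' n₀)) h1)
      (Reach.smul S (Reach.mono S (le_max_right N (max m' n₀)) h2) (-1 : k))
    rwa [neg_one_smul, neg_one_smul, add_neg_cancel, ← sub_eq_add_neg] at this
  have hz1 : ∀ s ∈ Sf, z ≠ 0 ∧ s.ord z = 1 := by
    intro s hs
    have hs' := (hSf s).mp hs
    have hm1 := frobAut_smul_mem S hs'
    have hm2 := frobAut_smul_mem S hm1
    have hV : s.ord (-(expandSpecial q M (expandSpecial q M y))) = (q : ℤ) * q := by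
      rw [FFBasic.ord_neg, ord_expandSpecial, ord_expandSpecial, hy1 _ ((hSf _).mpr hm2), mul_one]
    have h1 := hy1 s hs
    have h2 := ord_add_eq_left s hy0 (g := -(expandSpecial q M (expandSpecial q M y)))
      (mem_filt_of_le (by
        rw [hV, h1]
        have : (2 : ℤ) ≤ q := by exact_mod_cast (Fact.out : q.Prime).two_le
        nlinarith))
    rw [← sub_eq_add_neg, h1] at h2
    exact h2
  obtain ⟨nj, hjets⟩ := exists_jets hT Sf (fun s hs => ((hSf s).mp hs).1)
    fun s => b * (s.ord (hbar S)).toNat
  obtain ⟨N₁, hN₁⟩ := exists_reach_beta S (max nj n₀)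
  refine ⟨max b (N₁ + N₀), fun n hn a ha hvan => ?_⟩
  set f := a / z with hf
  have hfreg : ∀ s ∈ Sf, 0 ≤ s.ord f := by
    intro s hs
    rcases eq_or_ne a 0 with h0 | h0
    · simp [hf, h0]
    · have := le_ord_of_mem_ball (hvan s ((hSf s).mp hs)) h0
      rw [hf, div_eq_mul_inv, s.ord_mul h0 (inv_ne_zero (hz1 s hs).1), s.ord_inv, (hz1 s hs).2]
      omega
  obtain ⟨c, hc, hjet⟩ := hjets (max nj n₀) (le_max_left _ _) f hfreg
  obtain ⟨x, hx, hxr⟩ := hlift (max nj n₀) (le_max_right _ _) c hc
  have hcR : Reach S n 0 (c * z) := by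
    have h1 := hN₁ x hx
    rw [hxr] at h1
    have := Reach.mono S (le_trans (le_max_right b (N₁ + N₀)) hn) (Reach.mul S h1 hzR)
    rwa [mul_zero] at this
  set d := a - c * z with hd
  have hdmem : d ∈ riemannRochSpace ((q * n) • pol (K := k) T) := by
    have h2 := (Reach.mem S hcR).2
    rw [nsmul_pol_expandSpecial] at h2 ha
    exact Submodule.sub_mem _ ha h2
  suffices hdR : Reach S n 0 d by
    have := Reach.add S hdR hcR
    rwa [add_zero, hd, sub_add_cancel] at this
  have hh0 := hbar_ne_zero S
  have hg : d / hbar S ^ b ∈ riemannRochSpace ((q * (n - b) + b) • pol (K := k) T) := by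
    rcases eq_or_ne d 0 with h0 | h0
    · rw [h0, zero_div]; exact Submodule.zero_mem _
    refine mem_rr_of_ord fun v => ?_
    have hv := (mem_rr_iff_of_ne h0).mp hdmem v
    rw [Finsupp.smul_apply, pol_apply, nsmul_eq_mul] at hv ⊢
    rw [div_eq_mul_inv, v.ord_mul h0 (inv_ne_zero (pow_ne_zero _ hh0)), v.ord_inv, FFBasic.ord_pow]
    rcases le_or_gt 0 (v.ord T) with hvT | hvT
    · rw [max_eq_right (show -v.ord T ≤ 0 by omega)] at hv ⊢
      have hh := inB_hbar S v hvT
      by_cases hvS : v ∈ Sf
      · have hz' := hz1 v hvS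
        have hdz : d = (f - c) * z := by rw [hd, hf, sub_mul, div_mul_cancel₀ a hz'.1]
        have hfc : f - c ≠ 0 := fun h => h0 (by rw [hdz, h, zero_mul])
        have h3 := le_ord_of_mem_ball (hjet v hvS) hfc
        rw [hdz, v.ord_mul hfc hz'.1, hz'.2] at hv ⊢
        push_cast [Int.toNat_of_nonneg hh] at h3 ⊢
        linarith
      · have : v.ord (hbar S) = 0 := by
          by_contra hne
          exact hvS ((hSf v).mpr ⟨hvT, lt_of_le_of_ne hh (Ne.symm hne)⟩)
        rw [this]
        push_cast
        linarith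
    · rw [max_eq_left (show (0 : ℤ) ≤ -v.ord T by omega)] at hv ⊢
      rw [ord_hbar_cusp S hk v hvT]
      have hbn : b ≤ n := le_trans (le_max_left _ _) hn
      push_cast [hbn] at hv ⊢
      linarith
  have := hpow n (le_trans (le_max_left _ _) hn) _ hg
  rwa [mul_div_cancel₀ _ (pow_ne_zero _ hh0)] at this

theorem node₁_off (n : ℕ) (s : nodeSet S) :
    (n • pol (K := k) (Modular.jFb (k := k) M)) (s : Place k _) = 0 := by
  rw [Finsupp.smul_apply, pol_apply, max_eq_right (by have := s.2.1; omega), smul_zero]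

theorem node₂_off (n : ℕ) (s : nodeSet S) :
    (n • pol (K := k) (expandSpecial q M (Modular.jFb (k := k) M)))
      ((frobAut (k := k) q M)⁻¹ • (s : Place k _)) = 0 := by
  rw [Finsupp.smul_apply, pol_expandSpecial_jFb, Finsupp.smul_apply, pol_apply,
    max_eq_right (by have := (frobAut_inv_smul_mem S s.2).1; omega), smul_zero, smul_zero]

/-- Differences of the values at the two sides of the crossings. -/
def valueDiff (n : ℕ) :
    (riemannRochSpace (n • pol (K := k) (Modular.jFb (k := k) M)) ×
      riemannRochSpace (n • pol (K := k) (expandSpecial q M (Modular.jFb (k := k) M)))) →ₗ[k]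
      (nodeSet S → k) :=
  LinearMap.pi fun s =>
    (evalL _ (s : Place k _) (node₁_off S n s).le).comp (LinearMap.fst k _ _) -
      (evalL _ _ (node₂_off S n s).le).comp (LinearMap.snd k _ _)

theorem valueDiff_apply (n : ℕ)
    (x : riemannRochSpace (n • pol (K := k) (Modular.jFb (k := k) M)) ×
      riemannRochSpace (n • pol (K := k) (expandSpecial q M (Modular.jFb (k := k) M))))
    (s : nodeSet S) :
    valueDiff S n x s = valueAt (s : Place k _) (x.1 : modularFunctionFieldFullC k M) -
      valueAt ((frobAut (k := k) q M)⁻¹ • (s : Place k _))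
        (x.2 : modularFunctionFieldFullC k M) := rfl

theorem valueDiff_surjective [Fintype (nodeSet S)] (n : ℕ)
    (hn : 2 * genusFF k (modularFunctionFieldFullC k M) + Fintype.card (nodeSet S) ≤ n) :
    Function.Surjective (valueDiff S n) := by
  intro c
  obtain ⟨a, ha, hav⟩ := exists_values (Modular.transcendental_jFb (k := k) M)
    (p := fun s : nodeSet S => (s : Place k (modularFunctionFieldFullC k M)))
    (fun a b h => Subtype.ext h) (fun s => s.2.1) (n := n) hn c
  refine ⟨(⟨a, ha⟩, 0), funext fun s => ?_⟩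
  rw [valueDiff_apply, (hav s).valueAt_eq, ZeroMemClass.coe_zero, hasValue_zero.valueAt_eq,
    sub_zero]

theorem finrank_le_ker (n : ℕ) :
    Module.finrank Qbar (riemannRochSpace (n • pol (K := Qbar) (jA M q))) ≤
      Module.finrank k (LinearMap.ker (valueDiff S n)) := by
  set R := riemannRochSpace (n • pol (K := Qbar) (jA M q))
  obtain ⟨β, h₁, h₂, hβ, hli⟩ := pair_ortho S 1 1 one_ne_zero R
  have hmem : ∀ i, (((branch₁ S).res ⟨_, h₁ i⟩ ∈
        riemannRochSpace (n • pol (K := k) (Modular.jFb (k := k) M))) ∧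
      (branch₂ S).res ⟨_, h₂ i⟩ ∈
        riemannRochSpace (n • pol (K := k) (expandSpecial q M (Modular.jFb (k := k) M)))) :=
    fun i =>
    reg_res S n (h₁ i) (h₂ i) (Submodule.smul_mem _ _ (hβ i))
  let P : Fin (Module.finrank Qbar R) → LinearMap.ker (valueDiff S n) := fun i =>
    ⟨(⟨_, (hmem i).1⟩, ⟨_, (hmem i).2⟩), LinearMap.mem_ker.mpr (funext fun s => by
      obtain ⟨c, hc₁, hc₂⟩ := compat_values S (h₁ i) (h₂ i)
        (inB_of_mem (Submodule.smul_mem _ _ (hβ i))) s.2
      rw [valueDiff_apply, hc₁.valueAt_eq, hc₂.valueAt_eq, sub_self]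
      rfl)⟩
  have hP : LinearIndependent k P :=
    LinearIndependent.of_comp
      ((((riemannRochSpace (n • pol (K := k) (Modular.jFb (k := k) M))).subtype.prodMap
        (riemannRochSpace
          (n • pol (K := k) (expandSpecial q M (Modular.jFb (k := k) M)))).subtype)).comp
        (LinearMap.ker (valueDiff S n)).subtype) hli
  simpa using hP.fintype_card_le_finrank

theorem reach_of_mem_ker {n n₁ n₀ : ℕ} (hn₁ : n₁ ≤ n) (hn₀ : n₀ ≤ n)
    (hlift : ∀ n, n₀ ≤ n → ∀ a ∈ riemannRochSpace (n • pol (K := k) (Modular.jFb (k := k) M)),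
      ∃ x : S.red.O, (x : modularFunctionFieldBar M) ∈
          riemannRochSpace (n • pol (K := Qbar) (Modular.jF (L := Qbar) M)) ∧ S.red.res x = a)
    (hvan : ∀ n, n₁ ≤ n → ∀ a ∈ riemannRochSpace
      (n • pol (K := k) (expandSpecial q M (Modular.jFb (k := k) M))),
      (∀ s ∈ nodeSet S, a ∈ FFRiemannRoch.ball s (-1)) → Reach S n 0 a)
    {a a' : modularFunctionFieldFullC k M}
    (ha : a ∈ riemannRochSpace (n • pol (K := k) (Modular.jFb (k := k) M)))
    (ha' : a' ∈ riemannRochSpace
      (n • pol (K := k) (expandSpecial q M (Modular.jFb (k := k) M))))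
    (hker : valueDiff S n (⟨a, ha⟩, ⟨a', ha'⟩) = 0) : Reach S n a a' := by
  obtain ⟨x, hx, hxr⟩ := hlift n hn₀ a ha
  have h1 := reach_alpha S hx
  rw [hxr] at h1
  have h2 := hvan n hn₁ (a' - expandSpecial q M a) (Submodule.sub_mem _ ha' (Reach.mem S h1).2) (by
    intro t ht
    have hs : frobAut (k := k) q M • t ∈ nodeSet S := frobAut_smul_mem S ht
    have hker' := congrFun hker ⟨_, hs⟩
    rw [valueDiff_apply, Pi.zero_apply, sub_eq_zero] at hker'
    simp only [inv_smul_smul] at hker'
    have hz1 : a ∈ FFRiemannRoch.ball (frobAut (k := k) q M • t) 0 :=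
      mem_ball_zero_of_mem (node₁_off S n ⟨_, hs⟩).le ha
    have hz2 : a' ∈ FFRiemannRoch.ball t 0 := by
      have := node₂_off S n ⟨_, hs⟩
      rw [inv_smul_smul] at this
      exact mem_ball_zero_of_mem this.le ha'
    have v1 := hasValue_expandSpecial q M (hasValue_valueAt hz1)
    rw [inv_smul_smul, hker'] at v1
    rw [← hasValue_zero_iff]
    have := (hasValue_valueAt hz2).add (v1.const_mul (-1))
    simpa [sub_eq_add_neg] using this)
  have := Reach.add S h1 h2
  rwa [add_zero, add_sub_cancel] at this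

include hk in
/-- The pairs of residues fill the compatible pairs, whence the dimension formula. -/
theorem exists_dim [Fintype (nodeSet S)] :
    ∃ n₁ : ℕ, ∀ n, n₁ ≤ n →
      Module.finrank Qbar (riemannRochSpace (n • pol (K := Qbar) (jA M q))) +
          Fintype.card (nodeSet S)
        = Module.finrank k (riemannRochSpace (n • pol (K := k) (Modular.jFb (k := k) M))) +
          Module.finrank k (riemannRochSpace
            (n • pol (K := k) (expandSpecial q M (Modular.jFb (k := k) M)))) := by
  obtain ⟨n₁, hvan⟩ := exists_reach_vanishing S hk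
  obtain ⟨n₀, hlift⟩ := exists_lifts S
  refine ⟨max (max n₁ n₀)
    (2 * genusFF k (modularFunctionFieldFullC k M) + Fintype.card (nodeSet S)), fun n hn => ?_⟩
  refine finrank_ker_prod (valueDiff S n)
    (valueDiff_surjective S n (le_trans (le_max_right _ _) hn)) (finrank_le_ker S n)
    fun m e hli he => ?_
  have hreach : ∀ i, Reach S n ((e i).1 : modularFunctionFieldFullC k M) (e i).2 := fun i =>
    reach_of_mem_ker S (le_trans (le_trans (le_max_left _ _) (le_max_left _ _)) hn)
      (le_trans (le_trans (le_max_right _ _) (le_max_left _ _)) hn) hlift hvan (e i).1.2 (e i).2.2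
      (he i)
  choose u hu hp using hreach
  exact card_le_finrank S u hu _ _ hp
    (hli.map' ((riemannRochSpace _).subtype.prodMap (riemannRochSpace _).subtype)
      (LinearMap.ker_eq_bot.mpr (Function.Injective.prodMap Subtype.val_injective
        Subtype.val_injective)))

end FLTAgent.Semistable.Level
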