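import Fermat.Prelude.Def_ModularCurve_LaurentCoeff
import Fermat.Agent.Deuring.Echelon
import Mathlib.RingTheory.Noetherian.Basic
import Mathlib.RingTheory.Adjoin.Basic

/-!
# Gauss reductions of a function field in Laurent series

For a field generated by series with integer coefficients, the Gauss ring is a valuation ring
(`valRing`): every function has a scale (`scales`), and finite dimensional spaces have bases with
independent pairs of reductions (`exists_ortho`).
-/

set_option autoImplicit false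

noncomputable section

open ModularCurve

namespace FLTAgent.Semistable.Gauss

variable {L k F : Type*} [Field L] [Field k] [Field F] [Algebra L F]
variable (A : ValuationSubring L) (π : A →+* k) (ι : F →ₐ[L] LaurentSeries L)

/-- Series with coefficients in `A`, inside series over `L`. -/
abbrev incl : LaurentSeries A →+* LaurentSeries L := coeffMap A.subtype

theorem incl_injective : Function.Injective (incl A) := fun a b h => by
  ext n
  have := congrArg (fun z : LaurentSeries L => z.coeff n) h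
  simpa [coeffMap_coeff] using this

/-- Functions with an expansion `y / z`, with `y, z` integral and `z` nonzero modulo `π`. -/
def ring : Subring F where
  carrier := {f | ∃ y z : LaurentSeries A, coeffMap π z ≠ 0 ∧ ι f * incl A z = incl A y}
  one_mem' := ⟨1, 1, by simp, by simp⟩
  zero_mem' := ⟨0, 1, by simp, by simp⟩
  mul_mem' := by
    rintro a b ⟨y, z, hz, h⟩ ⟨y', z', hz', h'⟩
    refine ⟨y * y', z * z', by rw [map_mul]; exact mul_ne_zero hz hz', ?_⟩
    rw [map_mul, map_mul, map_mul, ← h, ← h']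
    ring
  add_mem' := by
    rintro a b ⟨y, z, hz, h⟩ ⟨y', z', hz', h'⟩
    refine ⟨y * z' + y' * z, z * z', by rw [map_mul]; exact mul_ne_zero hz hz', ?_⟩
    rw [map_add, map_add, map_mul, map_mul, map_mul, ← h, ← h']
    ring
  neg_mem' := by
    rintro a ⟨y, z, hz, h⟩
    exact ⟨-y, z, hz, by rw [map_neg, map_neg, neg_mul, h]⟩

theorem mem_ring {f : F} :
    f ∈ ring A π ι ↔ ∃ y z : LaurentSeries A, coeffMap π z ≠ 0 ∧ ι f * incl A z = incl A y :=
  Iff.rfl

theorem mem_ring_of_eq {f : F} {y : LaurentSeries A} (h : ι f = incl A y) : f ∈ ring A π ι :=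
  ⟨y, 1, by simp, by simp [h]⟩

/-- The reduction of an element of the Gauss ring. -/
def val (f : ring A π ι) : LaurentSeries k :=
  coeffMap π f.2.choose / coeffMap π f.2.choose_spec.choose

theorem cross_eq {x : LaurentSeries L} {y z y' z' : LaurentSeries A}
    (h : x * incl A z = incl A y) (h' : x * incl A z' = incl A y') : y' * z = y * z' := by
  apply incl_injective A
  rw [map_mul, map_mul, ← h', ← h]
  ring

theorem coeff_map_smul (c : L) (f : F) (n : ℤ) : (ι (c • f)).coeff n = c * (ι f).coeff n := by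
  rw [Algebra.smul_def, map_mul, AlgHom.commutes, algebraMap_laurentSeries_eq_single,
    HahnSeries.coeff_single_zero_mul]

theorem val_eq (f : ring A π ι) {y z : LaurentSeries A} (hz : coeffMap π z ≠ 0)
    (h : ι (f : F) * incl A z = incl A y) : val A π ι f = coeffMap π y / coeffMap π z := by
  obtain ⟨hz', h'⟩ := f.2.choose_spec.choose_spec
  rw [val, div_eq_div_iff hz' hz, ← map_mul, ← map_mul]
  exact congrArg _ (cross_eq A h h')

/-- Reduction on the Gauss ring. -/
def res : ring A π ι →+* LaurentSeries k where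
  toFun := val A π ι
  map_one' := by rw [val_eq A π ι 1 (y := 1) (z := 1) (by simp) (by simp)]; simp
  map_zero' := by rw [val_eq A π ι 0 (y := 0) (z := 1) (by simp) (by simp)]; simp
  map_mul' a b := by
    obtain ⟨y, z, hz, h⟩ := a.2
    obtain ⟨y', z', hz', h'⟩ := b.2
    rw [val_eq A π ι (a * b) (y := y * y') (z := z * z')
      (by rw [map_mul]; exact mul_ne_zero hz hz')
      (by push_cast; rw [map_mul, map_mul, map_mul, ← h, ← h']; ring),
      val_eq A π ι a hz h, val_eq A π ι b hz' h', map_mul, map_mul, div_mul_div_comm]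
  map_add' a b := by
    obtain ⟨y, z, hz, h⟩ := a.2
    obtain ⟨y', z', hz', h'⟩ := b.2
    rw [val_eq A π ι (a + b) (y := y * z' + y' * z) (z := z * z')
      (by rw [map_mul]; exact mul_ne_zero hz hz')
      (by push_cast; rw [map_add, map_add, map_mul, map_mul, map_mul, ← h, ← h']; ring),
      val_eq A π ι a hz h, val_eq A π ι b hz' h', map_add, map_mul, map_mul, map_mul,
      div_add_div _ _ hz hz']
    congr 1
    ring

theorem res_eq (f : ring A π ι) {y z : LaurentSeries A} (hz : coeffMap π z ≠ 0)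
    (h : ι (f : F) * incl A z = incl A y) : res A π ι f = coeffMap π y / coeffMap π z :=
  val_eq A π ι f hz h

/-- The Gauss residue of a fraction is the quotient of the reductions. -/
theorem res_mk {f : F} (hf : f ∈ ring A π ι) {y z : LaurentSeries A} (hz : coeffMap π z ≠ 0)
    (h : ι f * incl A z = incl A y) :
    res A π ι ⟨f, hf⟩ = coeffMap π y / coeffMap π z :=
  val_eq A π ι ⟨f, hf⟩ hz h

attribute [irreducible] val

theorem res_add_mk {f g : F} (hf : f ∈ ring A π ι) (hg : g ∈ ring A π ι) :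
    res A π ι ⟨f + g, add_mem hf hg⟩ = res A π ι ⟨f, hf⟩ + res A π ι ⟨g, hg⟩ :=
  map_add (res A π ι) ⟨f, hf⟩ ⟨g, hg⟩

theorem res_mul_mk {f g : F} (hf : f ∈ ring A π ι) (hg : g ∈ ring A π ι) :
    res A π ι ⟨f * g, mul_mem hf hg⟩ = res A π ι ⟨f, hf⟩ * res A π ι ⟨g, hg⟩ :=
  map_mul (res A π ι) ⟨f, hf⟩ ⟨g, hg⟩

theorem res_of_series (f : ring A π ι) {y : LaurentSeries A} (h : ι (f : F) = incl A y) :
    res A π ι f = coeffMap π y := by
  rw [res_eq A π ι f (z := 1) (by simp) (by simpa using h)]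
  simp

theorem algebraMap_mem (a : A) : algebraMap L F a ∈ ring A π ι :=
  mem_ring_of_eq A π ι (y := HahnSeries.single 0 a)
    (by rw [AlgHom.commutes, incl, coeffMap_single, algebraMap_laurentSeries_eq_single]; rfl)

theorem res_algebraMap (a : A) :
    res A π ι ⟨algebraMap L F a, algebraMap_mem A π ι a⟩ =
      algebraMap k (LaurentSeries k) (π a) := by
  rw [res_of_series A π ι _ (y := HahnSeries.single 0 a)
    (by rw [AlgHom.commutes, incl, coeffMap_single, algebraMap_laurentSeries_eq_single]; rfl),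
    coeffMap_single, algebraMap_laurentSeries_eq_single]

/-- An element with nonzero reduction is a unit of the Gauss ring. -/
theorem inv_mem (f : ring A π ι) (h : res A π ι f ≠ 0) : (f : F)⁻¹ ∈ ring A π ι := by
  obtain ⟨y, z, hz, he⟩ := f.2
  rw [res_eq A π ι f hz he] at h
  have hy : coeffMap π y ≠ 0 := fun h0 => h (by rw [h0, zero_div])
  refine ⟨z, y, hy, ?_⟩
  have hf : ι (f : F) ≠ 0 := fun h0 => hy (by
    rw [h0, zero_mul] at he
    rw [incl_injective A (he.symm.trans (map_zero _).symm), map_zero])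
  rw [map_inv₀, ← he, ← mul_assoc, inv_mul_cancel₀ hf, one_mul]

/-- Every function can be scaled to one with nonzero reduction. -/
def Scales : Prop :=
  ∀ f : F, f ≠ 0 → ∃ (c : L) (h : c • f ∈ ring A π ι), res A π ι ⟨c • f, h⟩ ≠ 0

/-- The Gauss valuation ring. -/
def valRing (hs : Scales A π ι) : ValuationSubring F where
  toSubring := ring A π ι
  mem_or_inv_mem' f := by
    rcases eq_or_ne f 0 with rfl | hf
    · exact Or.inl (ring A π ι).zero_mem
    obtain ⟨c, hc, hres⟩ := hs f hf
    have hc0 : c ≠ 0 := fun h0 => hres (by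
      rw [show (⟨c • f, hc⟩ : ring A π ι) = 0 from Subtype.ext (by simp [h0]), map_zero])
    rcases A.mem_or_inv_mem c with h | h
    · right
      have := (ring A π ι).mul_mem (algebraMap_mem A π ι ⟨c, h⟩) (inv_mem A π ι ⟨_, hc⟩ hres)
      have e : algebraMap L F c * (c • f)⁻¹ = f⁻¹ := by
        rw [Algebra.smul_def, mul_inv, ← mul_assoc, mul_inv_cancel₀
          ((map_ne_zero (algebraMap L F)).mpr hc0), one_mul]
      rw [← e]
      exact this
    · left
      have := (ring A π ι).mul_mem (algebraMap_mem A π ι ⟨c⁻¹, h⟩) hc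
      have e : algebraMap L F c⁻¹ * (c • f) = f := by
        rw [Algebra.smul_def, ← mul_assoc, ← map_mul, inv_mul_cancel₀ hc0, map_one, one_mul]
      rw [← e]
      exact this

section Integer

variable {A π ι}

/-- The elements of `Z` have integer expansions. -/
def IntSeries (ι : F →ₐ[L] LaurentSeries L) (Z : Subring F) : Prop :=
  ∀ z ∈ Z, ∃ y : LaurentSeries ℤ, coeffMap (Int.castRingHom L) y = ι z

variable {Z : Subring F}

/-- Finitely many coordinates determine all coefficients over `ℤ`. -/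
theorem exists_coords (hZ : IntSeries ι Z) {s : Finset F} (hs : (s : Set F) ⊆ Z) :
    ∃ S : Finset ℤ, ∀ n : ℤ, ∃ m : ℤ → ℤ, ∀ p ∈ Submodule.span L (s : Set F),
      (ι p).coeff n = ∑ i ∈ S, (m i : L) * (ι p).coeff i := by
  classical
  choose y hy using fun z : s => hZ z (hs z.2)
  let v : ℤ → (s → ℤ) := fun n z => (y z).coeff n
  obtain ⟨-, ⟨S, rfl⟩, hmax⟩ := set_has_maximal_iff_noetherian.mpr
    (inferInstance : IsNoetherian ℤ (s → ℤ))
    (Set.range fun S : Finset ℤ => Submodule.span ℤ (v '' (S : Set ℤ))) (Set.range_nonempty _)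
  refine ⟨S, fun n => ?_⟩
  have hle : Submodule.span ℤ (v '' (S : Set ℤ)) ≤
      Submodule.span ℤ (v '' ((insert n S : Finset ℤ) : Set ℤ)) :=
    Submodule.span_mono (Set.image_mono (by simp))
  have hn : v n ∈ Submodule.span ℤ (v '' (S : Set ℤ)) := by
    have hin : v n ∈ Submodule.span ℤ (v '' ((insert n S : Finset ℤ) : Set ℤ)) :=
      Submodule.subset_span ⟨n, by simp, rfl⟩
    by_contra hcon
    exact hmax _ ⟨_, rfl⟩ (lt_of_le_of_ne hle fun h => hcon (by simp only at h; rw [h]; exact hin))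
  obtain ⟨c, hc⟩ := Submodule.mem_span_image_finset_iff_exists_fun ℤ |>.mp hn
  refine ⟨fun i => if h : i ∈ S then c ⟨i, h⟩ else 0, fun p hp => ?_⟩
  induction hp using Submodule.span_induction with
  | mem x hx =>
    have hx' : ∀ i, (ι x).coeff i = ((v i ⟨x, hx⟩ : ℤ) : L) := fun i => by
      rw [← hy ⟨x, hx⟩, coeffMap_coeff]; rfl
    simp only [hx', ← hc, ← Int.cast_mul, ← Int.cast_sum]
    refine congrArg _ ?_
    rw [Finset.sum_apply, ← Finset.sum_coe_sort S fun i =>
      (if h : i ∈ S then c ⟨i, h⟩ else 0) * v i ⟨x, hx⟩]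
    refine Finset.sum_congr rfl fun i _ => ?_
    rw [dif_pos i.2, Pi.smul_apply, smul_eq_mul]
  | zero => simp
  | add a b _ _ ha hb =>
    simp only [map_add, HahnSeries.coeff_add, ha, hb, mul_add, Finset.sum_add_distrib]
  | smul r a _ ha =>
    simp only [coeff_map_smul, ha, Finset.mul_sum]
    exact Finset.sum_congr rfl fun i _ => by ring

/-- A series with coefficients in `A`. -/
theorem exists_incl {f : LaurentSeries L} (h : ∀ n, f.coeff n ∈ A) :
    ∃ y : LaurentSeries A, incl A y = f := by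
  refine ⟨⟨fun n => ⟨f.coeff n, h n⟩, f.isPWO_support.mono fun n hn h0 => hn ?_⟩, ?_⟩
  · exact Subtype.ext h0
  · ext n; rfl

/-- Integrality and vanishing of the reduction are decided on the coordinates. -/
theorem exists_series {S : Finset ℤ} {p : F}
    (hco : ∀ n : ℤ, ∃ m : ℤ → ℤ, (ι p).coeff n = ∑ i ∈ S, (m i : L) * (ι p).coeff i)
    (h : ∀ i ∈ S, (ι p).coeff i ∈ A) : ∃ y : LaurentSeries A, incl A y = ι p := by
  refine exists_incl fun n => ?_
  obtain ⟨m, hm⟩ := hco n
  rw [hm]
  exact sum_mem fun i hi => A.mul_mem _ _ (intCast_mem A (m i)) (h i hi)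

theorem mem_span_of_mem_adjoin {p : F} (hp : p ∈ Algebra.adjoin L (Z : Set F)) :
    p ∈ Submodule.span L (Z : Set F) := by
  rw [← Subalgebra.mem_toSubmodule, Algebra.adjoin_eq_span,
    show Submonoid.closure (Z : Set F) = Z.toSubmonoid from
      Submonoid.closure_eq Z.toSubmonoid] at hp
  exact hp

theorem exists_finset_span {T : Finset F} (hT : ∀ p ∈ T, p ∈ Algebra.adjoin L (Z : Set F)) :
    ∃ s : Finset F, (s : Set F) ⊆ Z ∧ ∀ p ∈ T, p ∈ Submodule.span L (s : Set F) := by
  classical
  induction T using Finset.induction_on with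
  | empty => exact ⟨∅, by simp, by simp⟩
  | insert a T _ ih =>
    obtain ⟨s, hs, h⟩ := ih fun p hp => hT p (Finset.mem_insert_of_mem hp)
    obtain ⟨t, ht, ha⟩ := Submodule.mem_span_finite_of_mem_span
      (mem_span_of_mem_adjoin (hT a (Finset.mem_insert_self a T)))
    refine ⟨s ∪ t, by simp [hs, ht], fun p hp => ?_⟩
    rcases Finset.mem_insert.mp hp with rfl | hp
    · exact Submodule.span_mono (by simp) ha
    · exact Submodule.span_mono (by simp) (h p hp)

/-- Scaling an element of a coordinatised space. -/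
theorem exists_scale_aux {S : Finset ℤ} {p : F} (hp : ι p ≠ 0)
    (hco : ∀ n : ℤ, ∃ m : ℤ → ℤ, (ι p).coeff n = ∑ i ∈ S, (m i : L) * (ι p).coeff i) :
    ∃ (c : L) (y : LaurentSeries A), c ≠ 0 ∧ incl A y = ι (c • p) ∧ coeffMap π y ≠ 0 := by
  have hv : (fun i : S => (ι p).coeff i) ≠ 0 := by
    intro h0
    refine hp (HahnSeries.ext (funext fun n => ?_))
    obtain ⟨m, hm⟩ := hco n
    rw [hm, HahnSeries.coeff_zero]
    exact Finset.sum_eq_zero fun i hi => by rw [congrFun h0 ⟨i, hi⟩, Pi.zero_apply, mul_zero]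
  obtain ⟨i₀, hi₀, hmem⟩ := Deuring.exists_scaled_mem (A := A) _ hv
  set c := ((ι p).coeff i₀)⁻¹
  obtain ⟨y, hy⟩ := exists_series (A := A) (ι := ι) (p := c • p) (S := S)
    (fun n => by
      obtain ⟨m, hm⟩ := hco n
      refine ⟨m, ?_⟩
      simp only [coeff_map_smul, hm, Finset.mul_sum]
      exact Finset.sum_congr rfl fun i _ => by ring)
    (fun i hi => by
      simp only [coeff_map_smul, c, ← div_eq_inv_mul]
      exact hmem ⟨i, hi⟩)
  refine ⟨c, y, inv_ne_zero hi₀, hy, fun h0 => ?_⟩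
  have h1 : y.coeff i₀ = 1 := Subtype.ext (by
    have := congrArg (fun z : LaurentSeries L => z.coeff i₀) hy
    simp only [incl, coeffMap_coeff, coeff_map_smul, c] at this
    exact this.trans (inv_mul_cancel₀ hi₀))
  have := congrArg (fun z : LaurentSeries k => z.coeff i₀) h0
  simp [coeffMap_coeff, h1] at this

variable (hfrac : ∀ f : F, ∃ P Q : F, P ∈ Algebra.adjoin L (Z : Set F) ∧
  Q ∈ Algebra.adjoin L (Z : Set F) ∧ Q ≠ 0 ∧ f * Q = P)

include hfrac in
theorem scales (hZ : IntSeries ι Z) : Scales A π ι := by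
  classical
  intro f hf
  obtain ⟨P, Q, hP, hQ, hQ0, he⟩ := hfrac f
  obtain ⟨s, hs, hspan⟩ := exists_finset_span (L := L) (T := {P, Q}) (Z := Z)
    (by simp [hP, hQ])
  obtain ⟨S, hS⟩ := exists_coords hZ hs
  have hco : ∀ p ∈ ({P, Q} : Finset F), ∀ n : ℤ, ∃ m : ℤ → ℤ,
      (ι p).coeff n = ∑ i ∈ S, (m i : L) * (ι p).coeff i :=
    fun p hp n => (hS n).imp fun m hm => hm p (hspan p hp)
  have hι : ∀ p : F, p ≠ 0 → ι p ≠ 0 := fun p hp => (map_ne_zero ι).mpr hp
  obtain ⟨a, y, ha, hy, hy0⟩ := exists_scale_aux (A := A) (π := π) (ι := ι)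
    (hι P (by rw [← he]; exact mul_ne_zero hf hQ0)) (hco P (by simp))
  obtain ⟨b, z, hb, hz, hz0⟩ := exists_scale_aux (A := A) (π := π) (ι := ι) (hι Q hQ0)
    (hco Q (by simp))
  have hmem : ι ((a / b) • f) * incl A z = incl A y := by
    rw [hz, hy, ← map_mul, smul_mul_smul_comm, div_mul_cancel₀ a hb, he]
  refine ⟨a / b, ⟨y, z, hz0, hmem⟩, ?_⟩
  rw [res_eq A π ι ⟨(a / b) • f, ⟨y, z, hz0, hmem⟩⟩ hz0 hmem]
  exact div_ne_zero hy0 hz0

/-- Finite dimensional spaces have bases with independent pairs of reductions. -/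
theorem exists_ortho {κ : F →ₐ[L] LaurentSeries L}
    (hfr : ∀ f : F, ∃ P Q : F, P ∈ Algebra.adjoin L (Z : Set F) ∧
      Q ∈ Algebra.adjoin L (Z : Set F) ∧ Q ≠ 0 ∧ f * Q = P)
    (hZ : IntSeries ι Z) (hZ' : IntSeries κ Z) {g₁ g₂ : L} (hg₁ : g₁ ≠ 0)
    (V : Submodule L F) [FiniteDimensional L V] :
    ∃ (b : Fin (Module.finrank L V) → F) (h₁ : ∀ i, g₁ • b i ∈ ring A π ι)
      (h₂ : ∀ i, g₂ • b i ∈ ring A π κ), (∀ i, b i ∈ V) ∧
      LinearIndependent k fun i =>
        (res A π ι ⟨g₁ • b i, h₁ i⟩, res A π κ ⟨g₂ • b i, h₂ i⟩) := by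
  classical
  let e := Module.finBasis L V
  choose P Q hP hQ hQ0 he using fun i => hfr (e i : F)
  set D := ∏ i, Q i with hD
  have hD0 : D ≠ 0 := Finset.prod_ne_zero_iff.mpr fun i _ => hQ0 i
  have hDmem : D ∈ Algebra.adjoin L (Z : Set F) := Subalgebra.prod_mem _ fun i _ => hQ i
  have hVD : ∀ i, (e i : F) * D ∈ Algebra.adjoin L (Z : Set F) := fun i => by
    rw [hD, ← Finset.mul_prod_erase _ _ (Finset.mem_univ i), ← mul_assoc, he]
    exact mul_mem (hP i) (Subalgebra.prod_mem _ fun j _ => hQ j)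
  obtain ⟨s, hs, hspan⟩ := exists_finset_span (L := L) (Z := Z)
    (T := insert D (Finset.univ.image fun i => (e i : F) * D)) (by
      intro p hp
      rcases Finset.mem_insert.mp hp with rfl | hp
      · exact hDmem
      · obtain ⟨i, -, rfl⟩ := Finset.mem_image.mp hp
        exact hVD i)
  have hDs : D ∈ Submodule.span L (s : Set F) := hspan D (Finset.mem_insert_self _ _)
  have hVs : ∀ p ∈ V, p * D ∈ Submodule.span L (s : Set F) := by
    have : V ≤ (Submodule.span L (s : Set F)).comap (LinearMap.mulRight L D) := by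
      intro p hp
      rw [Submodule.mem_comap, LinearMap.mulRight_apply,
        show p = ((⟨p, hp⟩ : V) : F) from rfl, ← e.sum_repr ⟨p, hp⟩, Submodule.coe_sum,
        Finset.sum_mul]
      refine sum_mem fun i _ => ?_
      rw [Submodule.coe_smul, smul_mul_assoc]
      exact Submodule.smul_mem _ _ (hspan _ (Finset.mem_insert_of_mem
        (Finset.mem_image_of_mem _ (Finset.mem_univ i))))
    exact fun p hp => this hp
  obtain ⟨S, hS⟩ := exists_coords hZ hs
  obtain ⟨S', hS'⟩ := exists_coords hZ' hs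
  obtain ⟨c, z, hc, hz, hz0⟩ := exists_scale_aux (A := A) (π := π) (ι := ι)
    ((map_ne_zero ι).mpr hD0) fun n => (hS n).imp fun m hm => hm D hDs
  obtain ⟨c', z', hc', hz', hz0'⟩ := exists_scale_aux (A := A) (π := π) (ι := κ)
    ((map_ne_zero κ).mpr hD0) fun n => (hS' n).imp fun m hm => hm D hDs
  let Φ : V →ₗ[L] (S ⊕ S' → L) :=
    { toFun := fun p => Sum.elim (fun i => g₁ * c * (ι ((p : F) * D)).coeff i)
        (fun i => g₂ * c' * (κ ((p : F) * D)).coeff i)
      map_add' := fun a b => by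
        funext i; rcases i with i | i <;> simp [add_mul, mul_add]
      map_smul' := fun r a => by
        funext i
        rcases i with i | i <;>
          simp only [Sum.elim_inl, Sum.elim_inr, Pi.smul_apply, Submodule.coe_smul, smul_mul_assoc,
            coeff_map_smul, RingHom.id_apply, smul_eq_mul] <;> ring }
  have hΦ : Function.Injective Φ := by
    rw [← LinearMap.ker_eq_bot, LinearMap.ker_eq_bot']
    intro p hp
    have h0 : ι ((p : F) * D) = 0 := by
      refine HahnSeries.ext (funext fun n => ?_)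
      obtain ⟨m, hm⟩ := hS n
      rw [hm _ (hVs p p.2), HahnSeries.coeff_zero]
      refine Finset.sum_eq_zero fun i hi => ?_
      have := congrFun hp (Sum.inl ⟨i, hi⟩)
      simp only [Φ, LinearMap.coe_mk, AddHom.coe_mk, Sum.elim_inl, Pi.zero_apply, mul_eq_zero,
        hg₁, hc, false_or] at this
      rw [this, mul_zero]
    exact Subtype.ext ((mul_eq_zero.mp ((map_eq_zero ι).mp h0)).resolve_right hD0)
  have hrank : Module.finrank L (LinearMap.range Φ) = Module.finrank L V :=
    LinearMap.finrank_range_of_inj hΦ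
  obtain ⟨a, haV, hli⟩ := Deuring.exists_reduced_basis π _ (LinearMap.range Φ) hrank
  choose b hb using haV
  have key₁ : ∀ j, ∃ y : LaurentSeries A,
      ι (g₁ • (b j : F)) * incl A z = incl A y ∧ ∀ i : S, y.coeff i = a j (Sum.inl i) := by
    intro j
    have hcoeff : ∀ i : S, (ι ((g₁ * c) • ((b j : F) * D))).coeff i = a j (Sum.inl i) := fun i => by
      rw [coeff_map_smul]
      exact congrFun (hb j) (Sum.inl i)
    obtain ⟨y, hy⟩ := exists_series (A := A) (ι := ι) (S := S)
      (p := (g₁ * c) • ((b j : F) * D))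
      (fun n => (hS n).imp fun m hm => hm _ (Submodule.smul_mem _ _ (hVs _ (b j).2)))
      (fun i hi => by rw [hcoeff ⟨i, hi⟩]; exact SetLike.coe_mem _)
    refine ⟨y, by rw [hy, hz, ← map_mul, smul_mul_smul_comm], fun i => Subtype.ext ?_⟩
    rw [← hcoeff i, ← hy]
    rfl
  have key₂ : ∀ j, ∃ y : LaurentSeries A,
      κ (g₂ • (b j : F)) * incl A z' = incl A y ∧ ∀ i : S', y.coeff i = a j (Sum.inr i) := by
    intro j
    have hcoeff : ∀ i : S', (κ ((g₂ * c') • ((b j : F) * D))).coeff i = a j (Sum.inr i) :=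
      fun i => by
        rw [coeff_map_smul]
        exact congrFun (hb j) (Sum.inr i)
    obtain ⟨y, hy⟩ := exists_series (A := A) (ι := κ) (S := S')
      (p := (g₂ * c') • ((b j : F) * D))
      (fun n => (hS' n).imp fun m hm => hm _ (Submodule.smul_mem _ _ (hVs _ (b j).2)))
      (fun i hi => by rw [hcoeff ⟨i, hi⟩]; exact SetLike.coe_mem _)
    refine ⟨y, by rw [hy, hz', ← map_mul, smul_mul_smul_comm], fun i => Subtype.ext ?_⟩
    rw [← hcoeff i, ← hy]
    rfl
  choose y₁ hy₁ hy₁a using key₁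
  choose y₂ hy₂ hy₂a using key₂
  refine ⟨fun j => (b j : F), fun j => ⟨y₁ j, z, hz0, hy₁ j⟩, fun j => ⟨y₂ j, z', hz0', hy₂ j⟩,
    fun j => (b j).2, ?_⟩
  rw [Fintype.linearIndependent_iff]
  intro l hl
  have hr₁ : ∀ j, res A π ι ⟨g₁ • (b j : F), ⟨y₁ j, z, hz0, hy₁ j⟩⟩ =
      coeffMap π (y₁ j) / coeffMap π z := fun j =>
    res_eq A π ι ⟨g₁ • (b j : F), ⟨y₁ j, z, hz0, hy₁ j⟩⟩ hz0 (hy₁ j)
  have hr₂ : ∀ j, res A π κ ⟨g₂ • (b j : F), ⟨y₂ j, z', hz0', hy₂ j⟩⟩ =
      coeffMap π (y₂ j) / coeffMap π z' := fun j =>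
    res_eq A π κ ⟨g₂ • (b j : F), ⟨y₂ j, z', hz0', hy₂ j⟩⟩ hz0' (hy₂ j)
  simp only [hr₁, hr₂, Prod.smul_mk] at hl
  have h1 : ∑ j, l j • coeffMap π (y₁ j) = 0 := by
    have := congrArg (fun r => r.1 * coeffMap π z) hl
    simp only [Prod.fst_sum, Prod.fst_zero, zero_mul, Finset.sum_mul] at this
    simp only [← HahnSeries.C_mul_eq_smul, mul_assoc, div_mul_cancel₀ _ hz0] at this ⊢
    exact this
  have h2 : ∑ j, l j • coeffMap π (y₂ j) = 0 := by
    have := congrArg (fun r => r.2 * coeffMap π z') hl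
    simp only [Prod.snd_sum, Prod.snd_zero, zero_mul, Finset.sum_mul] at this
    simp only [← HahnSeries.C_mul_eq_smul, mul_assoc, div_mul_cancel₀ _ hz0'] at this ⊢
    exact this
  refine Fintype.linearIndependent_iff.mp hli l (funext fun i => ?_)
  rcases i with i | i
  · have := congrArg (fun s : LaurentSeries k => s.coeff i) h1
    simpa [HahnSeries.coeff_sum, coeffMap_coeff, hy₁a] using this
  · have := congrArg (fun s : LaurentSeries k => s.coeff i) h2
    simpa [HahnSeries.coeff_sum, coeffMap_coeff, hy₂a] using this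

end Integer

end FLTAgent.Semistable.Gauss
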