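import Fermat.Agent.Semistable.RootData

/-!
# Gluing constants as functions of the class

Products, powers and principal torus data, toric classes (`IsTorus`) and gluings of a class
(`IsGluingOf`), additive in the class.
-/

set_option autoImplicit false

noncomputable section

open AlgebraicCurve FLTAgent.FFRiemannRoch FLTAgent.FFBasic

namespace FLTAgent.Semistable

/-- An integral element over an algebraically closed field is a constant. -/
theorem exists_eq_algebraMap_of_isIntegral {K G : Type*} [Field K] [IsAlgClosed K] [Field G]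
    [Algebra K G] {x : G} (hx : IsIntegral K x) : ∃ c : K, algebraMap K G c = x := by
  obtain ⟨c, hc⟩ := (IsAlgClosed.algebraMap_bijective_of_isIntegral
    (k := K) (K := integralClosure K G)).2 ⟨x, hx⟩
  exact ⟨c, congrArg Subtype.val hc⟩

variable {L k : Type*} [Field L] [Field k] {A : ValuationSubring L} {π : A →+* k}
variable {F F₁ F₂ : Type*} [Field F] [Field F₁] [Field F₂]
  [Algebra L F] [Algebra k F₁] [Algebra k F₂] {ι : Type*} [Fintype ι]

namespace PairReduction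

variable {C : PairReduction A π F F₁ F₂ ι} {m : ℕ}

namespace RootData

/-- The product of two torus data. -/
def mul (R S : C.RootData m) : C.RootData m where
  D := R.D + S.D
  degree_eq := by rw [map_add, R.degree_eq, S.degree_eq, add_zero]
  f := R.f * S.f
  f_ne := mul_ne_zero R.f_ne S.f_ne
  div_eq v := by rw [v.ord_mul R.f_ne S.f_ne, Finsupp.add_apply, mul_add, R.div_eq, S.div_eq]
  g := R.g * S.g
  g_ne₁ := mul_ne_zero R.g_ne₁ S.g_ne₁
  g_ne₂ := mul_ne_zero R.g_ne₂ S.g_ne₂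
  φ := R.φ * S.φ
  φ_ne₁ := mul_ne_zero R.φ_ne₁ S.φ_ne₁
  φ_ne₂ := mul_ne_zero R.φ_ne₂ S.φ_ne₂
  mem := by
    rw [mul_pow, mul_inv]
    exact R.mem.mul S.mem
  red_eq := by
    rw [mul_pow, mul_inv, red_mul R.mem S.mem, R.red_eq, S.red_eq, mul_pow]

theorem cls_mul (R S : C.RootData m) : (R.mul S).cls = R.cls + S.cls := rfl

variable [IsAlgClosed k] [IsFunctionField k F₁] [IsFunctionField k F₂]
  [IsAlgClosed L] [IsFunctionField L F]

omit [IsAlgClosed k] [IsFunctionField k F₁] [IsFunctionField k F₂] [IsAlgClosed L]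
  [IsFunctionField L F] in
theorem mul_mem_V {R S : C.RootData m} {a b : ℕ} {v w : F₁ × F₂} (hv : v ∈ R.V a)
    (hw : w ∈ S.V b) : v * w ∈ (R.mul S).V (a + b) := by
  obtain ⟨u, hu, hug, rfl⟩ := R.mem_V.mp hv
  obtain ⟨u', hu', hug', rfl⟩ := S.mem_V.mp hw
  refine (R.mul S).mem_V.mpr ⟨u * u', ?_, hug.mul hug', ?_⟩
  · have h := mul_mem_riemannRochSpace hu hu'
    rwa [add_add_add_comm, ← add_nsmul] at h
  · show R.φ * S.φ * C.red (R.g * S.g) (u * u') = _
    rw [red_mul hug hug']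
    exact mul_mul_mul_comm _ _ _ _

theorem IsGluing.mul {R S : C.RootData m} {ε δ : ι → k} (hm : 0 < m) (hε : R.IsGluing ε)
    (hδ : S.IsGluing δ) : (R.mul S).IsGluing (ε * δ) := by
  obtain ⟨γ, -, hγ, -⟩ := (R.mul S).exists_gluing hm
  obtain ⟨a, ha⟩ := C.exists_pair_values
  obtain ⟨b, hb⟩ := hε.eq_glued R hm
  obtain ⟨c, hc⟩ := hδ.eq_glued S hm
  obtain ⟨v, hv₁, hv₂, hvε, hv1⟩ := ha (a + b + c) (by omega) ε 1
  obtain ⟨w, hw₁, hw₂, hwδ, hw1⟩ := ha (a + b + c) (by omega) δ 1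
  have hv : v ∈ R.V (a + b + c) := by
    rw [hb _ (by omega)]
    exact ⟨hv₁, hv₂, fun s => by rw [hvε, hv1]; simp⟩
  have hw : w ∈ S.V (a + b + c) := by
    rw [hc _ (by omega)]
    exact ⟨hw₁, hw₂, fun s => by rw [hwδ, hw1]; simp⟩
  have h1 := hγ _ (mul_mem_V hv hw)
  have h2 := C.glued_mul (hε _ hv) (hδ _ hw)
  convert hγ using 1
  funext s
  have e1 := h1.2.2 s
  have e2 := h2.2.2 s
  have e3 : valueAt (C.node₂ s) (v * w).2 = 1 := by
    rw [Prod.snd_mul, ((hasValue_valueAt (mem_ball_zero_of_mem (C.node₂_le _ s) hv₂)).mul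
      (hasValue_valueAt (mem_ball_zero_of_mem (C.node₂_le _ s) hw₂))).valueAt_eq, hv1, hw1]
    simp
  rw [e3, mul_one] at e1 e2
  exact e2.symm.trans e1

omit [IsAlgClosed L] in
variable (C m) in
/-- The datum of a principal divisor. -/
theorem exists_ofPrincipal {h : F} (hh : h ≠ 0) :
    ∃ R : C.RootData m, R.D = divOf h ∧ R.IsGluing 1 := by
  obtain ⟨c₁, hc₁, hm₁, hr₁⟩ := C.b₁.exists_red_ne_zero hh
  obtain ⟨c₂, hc₂, hm₂, hr₂⟩ := C.b₂.exists_red_ne_zero hh
  have hmem : C.Mem (c₁, c₂) h := ⟨hm₁, hm₂⟩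
  have hg : (((c₁⁻¹, c₂⁻¹) : L × L) ^ m)⁻¹ = (c₁, c₂) ^ m := by
    refine Prod.ext ?_ ?_ <;> simp
  let R : C.RootData m :=
    { D := divOf h
      degree_eq := degree_divOf h
      f := h ^ m
      f_ne := pow_ne_zero m hh
      div_eq := fun v => by
        rw [divOf_apply, ← zpow_natCast, v.ord_zpow]
      g := (c₁⁻¹, c₂⁻¹)
      g_ne₁ := inv_ne_zero hc₁
      g_ne₂ := inv_ne_zero hc₂
      φ := C.red (c₁, c₂) h
      φ_ne₁ := hr₁
      φ_ne₂ := hr₂
      mem := hg ▸ hmem.pow m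
      red_eq := hg ▸ red_pow hmem m }
  refine ⟨R, rfl, fun n w hw => ?_⟩
  obtain ⟨u, hu, hug, rfl⟩ := R.mem_V.mp hw
  have e : ((c₁, c₂) : L × L) * (c₁⁻¹, c₂⁻¹) = (1, 1) := by
    refine Prod.ext ?_ ?_ <;> simp [hc₁, hc₂]
  have hu' : C.Mem (1, 1) (h * u) := e ▸ hmem.mul hug
  have hr : C.red (c₁, c₂) h * C.red R.g u = C.red (1, 1) (h * u) := by
    rw [← e]
    exact (red_mul hmem hug).symm
  show C.red (c₁, c₂) h * C.red R.g u ∈ _
  rw [hr]
  refine C.red_mem_glued_one hu' ?_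
  rw [mem_riemannRochSpace_iff] at hu ⊢
  intro v
  rcases eq_or_ne u 0 with rfl | hu0
  · exact Or.inl (mul_zero h)
  refine Or.inr ?_
  have := (hu v).resolve_left hu0
  simp only [R, Finsupp.add_apply, divOf_apply] at this
  rw [v.ord_mul hh hu0]
  omega

end RootData

variable (C m) in
/-- `x` lies in the toric part. -/
def IsTorus (x : Pic0 L F) : Prop := ∃ R : C.RootData m, R.cls = x

variable [IsAlgClosed k] [IsFunctionField k F₁] [IsFunctionField k F₂]

variable (C m) in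
/-- `ε` is a gluing of the class `x`. -/
def IsGluingOf (x : Pic0 L F) (ε : ι → k) : Prop :=
  ∃ R : C.RootData m, R.cls = x ∧ R.IsGluing ε

theorem IsGluingOf.isTorus {x : Pic0 L F} {ε : ι → k} (h : C.IsGluingOf m x ε) :
    C.IsTorus m x := ⟨h.choose, h.choose_spec.1⟩

variable [IsAlgClosed L] [IsFunctionField L F]

theorem IsTorus.exists_gluingOf {x : Pic0 L F} (hm : 0 < m) (h : C.IsTorus m x) :
    ∃ ε, C.IsGluingOf m x ε := by
  obtain ⟨R, hR⟩ := h
  obtain ⟨ε, -, hε, -⟩ := R.exists_gluing hm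
  exact ⟨ε, R, hR, hε⟩

theorem IsGluingOf.pow_eq_one {x : Pic0 L F} {ε : ι → k} (hm : 0 < m)
    (h : C.IsGluingOf m x ε) (s : ι) : ε s ^ m = 1 := by
  obtain ⟨R, -, hε⟩ := h
  exact hε.pow_eq_one R hm s

theorem IsGluingOf.add {x y : Pic0 L F} {ε δ : ι → k} (hm : 0 < m)
    (h : C.IsGluingOf m x ε) (h' : C.IsGluingOf m y δ) : C.IsGluingOf m (x + y) (ε * δ) := by
  obtain ⟨R, rfl, hε⟩ := h
  obtain ⟨S, rfl, hδ⟩ := h'
  exact ⟨R.mul S, RootData.cls_mul R S, hε.mul hm hδ⟩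

omit [IsAlgClosed L] in
theorem isGluingOf_zero : C.IsGluingOf m 0 1 := by
  obtain ⟨R, hR, h1⟩ := RootData.exists_ofPrincipal C m (one_ne_zero (α := F))
  refine ⟨R, ?_, h1⟩
  have : (⟨R.D, R.degree_eq⟩ : Divisor.degZero (K := L) (F := F)) = 0 :=
    Subtype.ext (hR.trans (Finsupp.ext fun v => by simp [divOf_apply]))
  show Pic0.mk _ = 0
  rw [this, Pic0.mk_zero]

theorem IsGluingOf.nsmul {x : Pic0 L F} {ε : ι → k} (hm : 0 < m) (h : C.IsGluingOf m x ε) :
    ∀ j : ℕ, C.IsGluingOf m (j • x) (ε ^ j)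
  | 0 => by rw [zero_nsmul, pow_zero]; exact isGluingOf_zero
  | j + 1 => by rw [succ_nsmul, pow_succ]; exact (h.nsmul hm j).add hm h

omit [IsAlgClosed L] [IsFunctionField L F] [IsAlgClosed k] [IsFunctionField k F₁]
  [IsFunctionField k F₂] in
theorem IsTorus.nsmul_eq_zero {x : Pic0 L F} (h : C.IsTorus m x) : m • x = 0 := by
  obtain ⟨R, rfl⟩ := h
  show QuotientAddGroup.mk (m • (⟨R.D, R.degree_eq⟩ : Divisor.degZero (K := L) (F := F))) = _
  rw [QuotientAddGroup.eq_zero_iff, AddSubgroup.mem_addSubgroupOf]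
  exact ⟨R.f, R.f_ne, fun v => by simp [R.div_eq]⟩

end PairReduction

end FLTAgent.Semistable
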