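import Fermat.Agent.Semistable.SpecialRR
import Fermat.Prelude.Def_AlgebraicCurve_BaseChangeGalois
import Mathlib.RingTheory.Polynomial.GaussLemma
import Mathlib.FieldTheory.Minpoly.Field

/-!
# Tools for regularity away from the poles of a function

Roots of monic polynomials with regular coefficients are regular, regularity is transported
along embeddings and semilinear automorphisms, and minimal polynomials of integral elements have
integral coefficients (`minpoly_coeff_mem`).
-/

set_option autoImplicit false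

noncomputable section

open AlgebraicCurve Polynomial FLTAgent.FFBasic FLTAgent.Deuring

namespace FLTAgent.Semistable

theorem mem_of_monic_root {F : Type*} [Field F] (R : ValuationSubring F) {p : F[X]}
    (hm : p.Monic) (hc : ∀ i, p.coeff i ∈ R) {f : F} (hf : p.eval f = 0) : f ∈ R := by
  obtain ⟨p', hp', -, hm'⟩ := lifts_and_degree_eq_and_monic
    (show p ∈ lifts R.subtype from (lifts_iff_coeff_lifts p).mpr fun i => ⟨⟨_, hc i⟩, rfl⟩) hm
  have hint : IsIntegral R f := ⟨p', hm', by rw [← hf, ← hp', eval_map]; rfl⟩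
  obtain ⟨g, hg⟩ := IsIntegrallyClosed.isIntegral_iff.mp hint
  exact hg ▸ g.2

variable {K F : Type*} [Field K] [Field F] [Algebra K F]

theorem inB_of_root {x f : F} {p : F[X]} (hm : p.Monic) (hc : ∀ i, InB K x (p.coeff i))
    (hf : p.eval f = 0) : InB K x f := fun v hv =>
  ord_nonneg_of_mem v (mem_of_monic_root v.toValuationSubring hm
    (fun i => mem_of_ord_nonneg v (hc i v hv)) hf)

/-- Regular functions are roots of monic polynomials with coefficients polynomial in `x`. -/
theorem exists_monic_of_inB [IsFunctionField K F] {x f : F} (hf : InB K x f) :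
    ∃ P : (K[X])[X], P.Monic ∧ P.eval₂ (aeval x).toRingHom f = 0 := by
  obtain ⟨p, hp, hpf⟩ := isIntegral_of_inB hf
  have hr := Algebra.adjoin_singleton_eq_range_aeval K x
  have hlift : p.map (algebraMap (Algebra.adjoin K ({x} : Set F)) F) ∈
      lifts (aeval (R := K) x).toRingHom := by
    rw [lifts_iff_coeff_lifts]
    intro n
    rw [coeff_map]
    exact hr.le (p.coeff n).2
  obtain ⟨P, hP, -, hPm⟩ := lifts_and_degree_eq_and_monic hlift (hp.map _)
  exact ⟨P, hPm, by rw [← eval_map, hP, eval_map]; exact hpf⟩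

variable {F' : Type*} [Field F'] [Algebra K F']

theorem inB_map [IsFunctionField K F] (φ : F →ₐ[K] F') {x f : F} (hf : InB K x f) :
    InB K (φ x) (φ f) := by
  obtain ⟨P, hPm, hP⟩ := exists_monic_of_inB hf
  refine inB_of_root (p := P.map (aeval (φ x)).toRingHom) (hPm.map _) (fun i => ?_) ?_
  · intro v hv
    rw [coeff_map]
    exact ord_nonneg_of_mem v (aeval_mem v.algebraMap_mem' (mem_of_ord_nonneg v hv) _)
  · rw [eval_map, show (aeval (φ x)).toRingHom = φ.toRingHom.comp (aeval x).toRingHom from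
      RingHom.ext fun q => (aeval_algHom_apply φ x q), show φ f = φ.toRingHom f from rfl,
      ← hom_eval₂, hP, map_zero]

theorem inB_pow_iff {x f : F} {n : ℕ} (hn : 0 < n) : InB K (x ^ n) f ↔ InB K x f := by
  constructor <;> intro h v hv <;> refine h v ?_
  · rw [FFBasic.ord_pow]; positivity
  · rw [FFBasic.ord_pow] at hv
    exact nonneg_of_mul_nonneg_right hv (by exact_mod_cast hn)

theorem inB_smul (g : SemilinearAut K F) {x f : F} (hx : g • x = x) (hf : InB K x f) :
    InB K x (g • f) := by
  intro v hv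
  rw [← smul_inv_smul g v, SemilinearAut.ord_smul]
  refine hf _ ?_
  rw [← SemilinearAut.ord_smul g, smul_inv_smul, hx]
  exact hv

theorem hasValue_smul (g : SemilinearAut K F) {v : Place K F} {a : F} {c : K}
    (h : HasValue v a c) : HasValue (g • v) (g • a) (SemilinearAut.baseAut g c) := by
  unfold HasValue at h ⊢
  rw [← SemilinearAut.smul_algebraMap, ← smul_sub]
  rcases eq_or_ne (a - algebraMap K F c) 0 with h0 | h0
  · rw [h0, smul_zero (A := F) g]; exact Submodule.zero_mem _
  refine mem_ball_of_le_ord ?_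
  rw [SemilinearAut.ord_smul]
  exact le_ord_of_mem_ball h h0

theorem mem_rr_of_inB [IsFunctionField K F] {x f : F} (hx : x ≠ 0) {n : ℕ} (h : InB K x f)
    (h' : InB K x⁻¹ (f * x⁻¹ ^ n)) : f ∈ riemannRochSpace (n • pol (K := K) x) := by
  rcases eq_or_ne f 0 with rfl | hf
  · exact Submodule.zero_mem _
  refine mem_rr_of_ord fun v => ?_
  rw [Finsupp.smul_apply, pol_apply, nsmul_eq_mul]
  rcases le_or_gt 0 (v.ord x) with hv | hv
  · rw [max_eq_right (by omega), mul_zero, neg_zero]; exact h v hv
  · have h2 := h' v (by rw [v.ord_inv]; omega)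
    rw [v.ord_mul hf (pow_ne_zero _ (inv_ne_zero hx)), FFBasic.ord_pow, v.ord_inv] at h2
    rw [max_eq_left (by omega)]
    linarith

theorem inB_inv_of_mem [IsFunctionField K F] {x f : F} (hx : x ≠ 0) {n : ℕ}
    (h : f ∈ riemannRochSpace (n • pol (K := K) x)) : InB K x⁻¹ (f * x⁻¹ ^ n) :=
  inB_of_mem (n := n) (mul_pow_mem_of_inv (inv_ne_zero hx) (by rwa [inv_inv]))

/-- The minimal polynomial of an element integral over a valuation ring is integral. -/
theorem minpoly_coeff_mem {F₀ G : Type*} [Field F₀] [Field G] [Algebra F₀ G]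
    (R : ValuationSubring F₀) {u : G} {p : F₀[X]} (hm : p.Monic) (hc : ∀ i, p.coeff i ∈ R)
    (hu : aeval u p = 0) (i : ℕ) : (minpoly F₀ u).coeff i ∈ R := by
  obtain ⟨p', hp', -, hm'⟩ := lifts_and_degree_eq_and_monic
    (show p ∈ lifts (algebraMap R F₀) from
      (lifts_iff_coeff_lifts p).mpr fun i => ⟨⟨_, hc i⟩, rfl⟩) hm
  obtain ⟨g, hg⟩ := IsIntegrallyClosed.eq_map_mul_C_of_dvd F₀ hm'
    (show minpoly F₀ u ∣ p'.map (algebraMap R F₀) by rw [hp']; exact minpoly.dvd F₀ u hu)
  rw [(minpoly.monic ⟨p, hm, hu⟩).leadingCoeff, C_1, mul_one] at hg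
  rw [← hg, coeff_map]
  exact (g.coeff i).2

end FLTAgent.Semistable
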