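import Fermat.Agent.Semistable.Abstract
import Mathlib.LinearAlgebra.FiniteDimensional.Lemmas
import Mathlib.LinearAlgebra.Prod

/-!
# Rescaled lattices of one branch

`Branch.Mem g u` says that `g • u` is integral and `Branch.red g u` is its reduction; both
are compatible with sums, products, powers and constants, and every nonzero function has a
scale with nonzero reduction (`exists_red_ne_zero`).
-/

set_option autoImplicit false

noncomputable section

open AlgebraicCurve FLTAgent.FFRiemannRoch

namespace FLTAgent.Semistable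

variable {L k : Type*} [Field L] [Field k] {A : ValuationSubring L} {π : A →+* k}
variable {F Fb : Type*} [Field F] [Field Fb] [Algebra L F] [Algebra k Fb]

namespace Branch

variable (B : Branch A π F Fb)

/-- `g • u` is integral. -/
def Mem (g : L) (u : F) : Prop := g • u ∈ B.O

/-- The reduction of `g • u` (zero when not integral). -/
def red (g : L) (u : F) : Fb :=
  letI := Classical.propDecidable
  if h : g • u ∈ B.O then B.res ⟨g • u, h⟩ else 0

theorem red_eq {g : L} {u : F} (h : B.Mem g u) : B.red g u = B.res ⟨g • u, h⟩ := dif_pos h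

theorem red_eq_res {g : L} {u x : F} (hx : x ∈ B.O) (h : g • u = x) :
    B.red g u = B.res ⟨x, hx⟩ := by
  have h' : B.Mem g u := by
    show g • u ∈ B.O
    rw [h]
    exact hx
  rw [B.red_eq h']
  exact congrArg B.res (Subtype.ext h)

/-- The reduction at scale one is the residue. -/
theorem red_one {x : F} (hx : x ∈ B.O) : B.red 1 x = B.res ⟨x, hx⟩ :=
  B.red_eq_res hx (one_smul L x)

theorem mem_zero (g : L) : B.Mem g 0 := by
  unfold Mem
  rw [smul_zero]
  exact B.O.zero_mem

theorem red_zero (g : L) : B.red g 0 = 0 := by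
  rw [B.red_eq_res B.O.zero_mem (smul_zero g)]
  exact map_zero _

/-- The lattice of a scale is closed under addition. -/
theorem Mem.add {g : L} {u v : F} (hu : B.Mem g u) (hv : B.Mem g v) : B.Mem g (u + v) := by
  unfold Mem
  rw [smul_add]
  exact B.O.add_mem _ _ hu hv

theorem red_add {g : L} {u v : F} (hu : B.Mem g u) (hv : B.Mem g v) :
    B.red g (u + v) = B.red g u + B.red g v := by
  rw [B.red_eq hu, B.red_eq hv, ← map_add]
  exact B.red_eq_res _ (smul_add g u v)

theorem Mem.neg {g : L} {u : F} (hu : B.Mem g u) : B.Mem g (-u) := by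
  unfold Mem
  rw [smul_neg]
  exact B.O.neg_mem _ hu

theorem red_neg {g : L} {u : F} (hu : B.Mem g u) : B.red g (-u) = -B.red g u := by
  rw [B.red_eq hu, ← map_neg]
  exact B.red_eq_res _ (smul_neg g u)

theorem Mem.sub {g : L} {u v : F} (hu : B.Mem g u) (hv : B.Mem g v) : B.Mem g (u - v) := by
  rw [sub_eq_add_neg]
  exact Mem.add B hu (Mem.neg B hv)

theorem red_sub {g : L} {u v : F} (hu : B.Mem g u) (hv : B.Mem g v) :
    B.red g (u - v) = B.red g u - B.red g v := by
  rw [sub_eq_add_neg, B.red_add hu (Mem.neg B hv), B.red_neg hv, ← sub_eq_add_neg]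

theorem smul_mul_smul_comm' (g h : L) (u v : F) : (g * h) • (u * v) = (g • u) * (h • v) :=
  (smul_mul_smul_comm g u h v).symm

/-- A product lies in the lattice of the product of the scales. -/
theorem Mem.mul {g h : L} {u v : F} (hu : B.Mem g u) (hv : B.Mem h v) :
    B.Mem (g * h) (u * v) := by
  unfold Mem
  rw [smul_mul_smul_comm']
  exact B.O.mul_mem _ _ hu hv

theorem red_mul {g h : L} {u v : F} (hu : B.Mem g u) (hv : B.Mem h v) :
    B.red (g * h) (u * v) = B.red g u * B.red h v := by
  rw [B.red_eq hu, B.red_eq hv, ← map_mul]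
  exact B.red_eq_res _ (smul_mul_smul_comm' g h u v)

theorem mem_one : B.Mem 1 (1 : F) := by
  unfold Mem
  rw [one_smul]
  exact B.O.one_mem

/-- The reduction of one is one. -/
theorem red_one_one : B.red 1 (1 : F) = 1 := by
  rw [B.red_one B.O.one_mem]
  exact map_one _

/-- A power of a member lies in the lattice of the power of the scale. -/
theorem Mem.pow {g : L} {u : F} (hu : B.Mem g u) : ∀ n : ℕ, B.Mem (g ^ n) (u ^ n)
  | 0 => by simpa using B.mem_one
  | n + 1 => by
    rw [pow_succ, pow_succ]
    exact Mem.mul B (Mem.pow hu n) hu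

theorem red_pow {g : L} {u : F} (hu : B.Mem g u) : ∀ n : ℕ, B.red (g ^ n) (u ^ n) = B.red g u ^ n
  | 0 => by simpa using B.red_one_one
  | n + 1 => by
    rw [pow_succ, pow_succ, pow_succ, B.red_mul (Mem.pow B hu n) hu, red_pow hu n]

theorem mem_algebraMap (a : A) : B.Mem 1 (algebraMap L F a) := by
  unfold Mem
  rw [one_smul]
  exact B.algebraMap_mem a

theorem red_algebraMap (a : A) : B.red 1 (algebraMap L F a) = algebraMap k Fb (π a) := by
  rw [B.red_one (B.algebraMap_mem a), B.res_algebraMap]

/-- A lattice is stable under integral constants. -/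
theorem Mem.smul {g : L} {u : F} (hu : B.Mem g u) (a : A) : B.Mem g ((a : L) • u) := by
  have := Mem.mul B (B.mem_algebraMap a) hu
  rwa [one_mul, ← Algebra.smul_def] at this

theorem red_smul {g : L} {u : F} (hu : B.Mem g u) (a : A) :
    B.red g ((a : L) • u) = π a • B.red g u := by
  have := B.red_mul (B.mem_algebraMap a) hu
  rw [one_mul, ← Algebra.smul_def, B.red_algebraMap, ← Algebra.smul_def] at this
  exact this

theorem mem_smul_iff {g c : L} {u : F} : B.Mem g (c • u) ↔ B.Mem (g * c) u := by
  unfold Mem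
  rw [smul_smul]

/-- Reduction of a constant multiple moves the scale. -/
theorem red_smul_eq {g c : L} {u : F} (h : B.Mem (g * c) u) :
    B.red g (c • u) = B.red (g * c) u :=
  B.red_eq_res h (smul_smul g c u) |>.trans (B.red_eq h).symm

theorem Mem.sum {g : L} {α : Type*} {S : Finset α} {u : α → F} (h : ∀ i ∈ S, B.Mem g (u i)) :
    B.Mem g (∑ i ∈ S, u i) := by
  induction S using Finset.cons_induction with
  | empty => simpa using B.mem_zero g
  | cons i S hi ih =>
    rw [Finset.sum_cons]
    exact Mem.add B (h i (Finset.mem_cons_self i S))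
      (ih fun j hj => h j (Finset.mem_cons_of_mem hj))

theorem red_sum {g : L} {α : Type*} {S : Finset α} {u : α → F} (h : ∀ i ∈ S, B.Mem g (u i)) :
    B.red g (∑ i ∈ S, u i) = ∑ i ∈ S, B.red g (u i) := by
  induction S using Finset.cons_induction with
  | empty => simpa using B.red_zero g
  | cons i S hi ih =>
    have h' : ∀ j ∈ S, B.Mem g (u j) := fun j hj => h j (Finset.mem_cons_of_mem hj)
    rw [Finset.sum_cons, Finset.sum_cons, B.red_add (h i (Finset.mem_cons_self i S)) (Mem.sum B h'),
      ih h']

/-- A non-unit has zero residue. -/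
theorem π_eq_zero_of_not_isUnit (hπ : Function.Surjective π) {a : A} (ha : ¬IsUnit a) :
    π a = 0 := by
  have hker : RingHom.ker π = IsLocalRing.maximalIdeal A :=
    IsLocalRing.eq_maximalIdeal (RingHom.ker_isMaximal_of_surjective π hπ)
  exact RingHom.mem_ker.mp (hker ▸ (IsLocalRing.mem_maximalIdeal a).mpr ha)

/-- The constants of `A` inside `B.O`. -/
def constHom : A →+* B.O where
  toFun a := ⟨algebraMap L F a, B.algebraMap_mem a⟩
  map_one' := Subtype.ext (by simp)
  map_mul' _ _ := Subtype.ext (by simp)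
  map_zero' := Subtype.ext (by simp)
  map_add' _ _ := Subtype.ext (by simp)

theorem res_constHom (a : A) : B.res (B.constHom a) = algebraMap k Fb (π a) := B.res_algebraMap a

theorem isUnit_of_res_ne_zero (hπ : Function.Surjective π) {w : B.O} (h : B.res w ≠ 0) :
    IsUnit w := by
  have hw0 : (w : F) ≠ 0 := fun h0 => h (by rw [show w = 0 from Subtype.ext h0, map_zero])
  obtain ⟨c, hc, hres⟩ := B.scale (w : F)⁻¹ (inv_ne_zero hw0)
  have hcF : algebraMap L F c ∈ B.O := by
    have := B.O.mul_mem _ _ hc w.2
    rwa [Algebra.smul_def, mul_assoc, inv_mul_cancel₀ hw0, mul_one] at this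
  have hcA : c ∈ A := by
    by_contra hcA
    have hc0 : c ≠ 0 := fun h => hcA (h ▸ A.zero_mem)
    have hinvA : c⁻¹ ∈ A := (A.mem_or_inv_mem c).resolve_left hcA
    have hnu : ¬IsUnit (⟨c⁻¹, hinvA⟩ : A) := fun hu => hcA (by
      obtain ⟨d, hd⟩ := hu.exists_right_inv
      have hd' : c⁻¹ * (d : L) = 1 := congrArg Subtype.val hd
      exact (inv_mul_eq_one₀ hc0).mp hd' ▸ d.2)
    have h1 : B.constHom ⟨c⁻¹, hinvA⟩ * ⟨algebraMap L F c, hcF⟩ = 1 :=
      Subtype.ext (by simp [constHom, hc0])
    have := congrArg B.res h1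
    rw [map_mul, B.res_constHom, π_eq_zero_of_not_isUnit hπ hnu, map_zero, zero_mul, map_one]
      at this
    exact zero_ne_one this
  have he : B.constHom ⟨c, hcA⟩ = ⟨_, hc⟩ * w :=
    Subtype.ext (by simp [constHom, Algebra.smul_def, hw0])
  have hunit : IsUnit (⟨c, hcA⟩ : A) := by
    by_contra hnu
    have := congrArg B.res he
    rw [map_mul, B.res_constHom, π_eq_zero_of_not_isUnit hπ hnu, map_zero] at this
    exact mul_ne_zero hres h this.symm
  exact isUnit_of_mul_isUnit_right (he ▸ hunit.map B.constHom)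

theorem isUnit_of_red_ne_zero (hπ : Function.Surjective π) {g : L} {u : F} (hu : B.Mem g u)
    (h : B.red g u ≠ 0) : IsUnit (⟨g • u, hu⟩ : B.O) :=
  B.isUnit_of_res_ne_zero hπ (by rwa [B.red_eq hu] at h)

/-- If a product is integral and the second factor is a unit, the first factor is integral. -/
theorem mem_of_mul_mem (hπ : Function.Surjective π) {g h : L} {e S : F} (hS : B.Mem h S)
    (hres : B.red h S ≠ 0) (hmul : B.Mem (g * h) (e * S)) : B.Mem g e := by
  obtain ⟨i, hi⟩ := (B.isUnit_of_red_ne_zero hπ hS hres).exists_right_inv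
  have hi' : h • S * (i : F) = 1 := congrArg Subtype.val hi
  have : g • e = (g * h) • (e * S) * (i : F) := by
    rw [smul_mul_smul_comm', mul_assoc, hi', mul_one]
  unfold Mem
  rw [this]
  exact B.O.mul_mem _ _ hmul i.2

/-- Every nonzero element has a scale with nonzero reduction. -/
theorem exists_red_ne_zero {f : F} (hf : f ≠ 0) : ∃ c : L, c ≠ 0 ∧ B.Mem c f ∧ B.red c f ≠ 0 := by
  obtain ⟨c, hc, hres⟩ := B.scale f hf
  refine ⟨c, ?_, hc, by rwa [B.red_eq hc]⟩
  rintro rfl
  apply hres
  rw [show (⟨(0 : L) • f, hc⟩ : B.O) = 0 from Subtype.ext (zero_smul L f), map_zero]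

end Branch

end FLTAgent.Semistable
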