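import Fermat.Agent.Semistable.Value
import Fermat.Agent.Deuring.Poles
import Fermat.Agent.Deuring.ModelAtlas
import Fermat.Agent.FFRiemannRoch.FunctionField

/-!
# Riemann–Roch lemmas for the special fibre

Jets at finitely many places (`exists_jets`), growth of `L(n E)` along powers of the
coordinate (`rr_step`), simple zeros at given places and separation of places by functions
regular off the poles of the coordinate.
-/

set_option autoImplicit false

noncomputable section

open AlgebraicCurve Polynomial FLTAgent.FFBasic FLTAgent.Deuring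

namespace FLTAgent.Semistable

variable {K F : Type*} [Field K] [Field F] [Algebra K F]

theorem mem_ball_of_le_ord {v : Place K F} {n : ℤ} {f : F} (h : -n ≤ v.ord f) :
    f ∈ FFRiemannRoch.ball v n :=
  (FFRiemannRoch.mem_ball_iff_ord v).mpr (Or.inr h)

theorem le_ord_of_mem_ball {v : Place K F} {n : ℤ} {f : F} (h : f ∈ FFRiemannRoch.ball v n)
    (hf : f ≠ 0) : -n ≤ v.ord f :=
  ((FFRiemannRoch.mem_ball_iff_ord v).mp h).resolve_left hf

/-- The order of a polynomial in `x` at a pole of `x`. -/
theorem ord_aeval_of_neg [IsFunctionField K F] (v : Place K F) {x : F} (hx : v.ord x < 0)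
    {p : K[X]} (hp : p ≠ 0) :
    aeval x p ≠ 0 ∧ v.ord (aeval x p) = p.natDegree * v.ord x := by
  have hx0 : x ≠ 0 := fun h => by simp [h] at hx
  set n := p.natDegree with hn
  have ha : algebraMap K F p.leadingCoeff ≠ 0 :=
    (_root_.map_ne_zero _).mpr (leadingCoeff_ne_zero.mpr hp)
  set t := algebraMap K F p.leadingCoeff * x ^ n with ht
  have ht0 : t ≠ 0 := mul_ne_zero ha (pow_ne_zero _ hx0)
  have hto : v.ord t = n * v.ord x := by
    rw [ht, v.ord_mul ha (pow_ne_zero _ hx0), ord_algebraMap, FFBasic.ord_pow, zero_add]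
  have hdec : aeval x p = t + aeval x p.eraseLead := by
    conv_lhs => rw [← eraseLead_add_C_mul_X_pow p]
    rw [map_add, map_mul, map_pow, aeval_C, aeval_X, add_comm]
  rw [hdec, ← hto]
  refine ord_add_eq_left v ht0 ?_
  rcases eq_or_ne p.eraseLead 0 with h0 | h0
  · rw [h0, map_zero]; exact Submodule.zero_mem _
  have hn1 : p.eraseLead.natDegree < n := by
    rcases eraseLead_natDegree_lt_or_eraseLead_eq_zero p with h | h
    · exact h
    · exact absurd h h0
  refine filt_antitone v ?_ (aeval_mem_filt hx.le le_rfl (N := n - 1) (by omega))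
  rw [hto]
  push_cast [show 1 ≤ n by omega]
  linarith

variable [IsAlgClosed K] [IsFunctionField K F]

/-- Polar parts at finitely many places off `x = ∞` are reached in bounded degree. -/
theorem exists_jets {x : F} (hx : Transcendental K x) (S : Finset (Place K F))
    (hS : ∀ s ∈ S, 0 ≤ s.ord x) (m : Place K F → ℕ) :
    ∃ n₀ : ℕ, ∀ n, n₀ ≤ n → ∀ f : F, (∀ s ∈ S, 0 ≤ s.ord f) →
      ∃ b ∈ riemannRochSpace (n • pol (K := K) x),
        ∀ s ∈ S, f - b ∈ FFRiemannRoch.ball s (-(m s : ℤ)) := by
  classical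
  set Md : Divisor K F := ∑ s ∈ S, Finsupp.single s (m s : ℤ) with hMd
  have hMd' : ∀ v, Md v = if v ∈ S then (m v : ℤ) else 0 := fun v => by
    rw [hMd, Finset.sum_apply']
    simp [Finsupp.single_apply, Finset.sum_ite_eq']
  have hdeg : 0 < Divisor.degree (pol (K := K) x) := degree_pol_pos hx
  refine ⟨(rrBound K F + Divisor.degree Md).toNat + 1, fun n hn f hf => ?_⟩
  set E := n • pol (K := K) x with hE
  set P := pol (K := K) f + E with hP
  have hE0 : ∀ s ∈ S, E s = 0 := fun s hs => by
    rw [hE, Finsupp.smul_apply, pol_apply, max_eq_right (by have := hS s hs; omega), smul_zero]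
  have hP0 : ∀ s ∈ S, P s = 0 := fun s hs => by
    rw [hP, Finsupp.add_apply, hE0 s hs, pol_apply, max_eq_right (by have := hf s hs; omega),
      add_zero]
  have hEnn : ∀ v, (0 : ℤ) ≤ E v := fun v => by
    rw [hE, Finsupp.smul_apply]; exact nsmul_nonneg (pol_nonneg x v) n
  have hle : ∀ v, E v ≤ P v := fun v => by
    rw [hP, Finsupp.add_apply]; exact le_add_of_nonneg_left (pol_nonneg f v)
  have hsup : E ⊔ (P - Md) = P := by
    ext v
    rw [Finsupp.sup_apply, Finsupp.sub_apply, hMd']
    split_ifs with hv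
    · rw [hE0 v hv, hP0 v hv]; exact max_eq_left (by simp)
    · rw [sub_zero]; exact max_eq_right (hle v)
  have hinf : E ⊓ (P - Md) = E - Md := by
    ext v
    rw [Finsupp.inf_apply, Finsupp.sub_apply, Finsupp.sub_apply, hMd']
    split_ifs with hv
    · rw [hE0 v hv, hP0 v hv]; exact min_eq_right (by simp)
    · rw [sub_zero, sub_zero]; exact min_eq_left (hle v)
  have hbig : rrBound K F < Divisor.degree (E ⊓ (P - Md)) := by
    rw [hinf, map_sub, hE, map_nsmul, nsmul_eq_mul]
    have h1 : (n : ℤ) * 1 ≤ (n : ℤ) * Divisor.degree (pol (K := K) x) :=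
      mul_le_mul_of_nonneg_left (by omega) (by omega)
    omega
  have hfP : f ∈ riemannRochSpace P := mem_rr_of_ord fun v => by
    have := hEnn v
    have := le_max_left (-v.ord f) 0
    rw [hP, Finsupp.add_apply, pol_apply]
    omega
  rw [← hsup, ← rr_sup_eq hbig] at hfP
  obtain ⟨b, hb, r, hr, rfl⟩ := Submodule.mem_sup.mp hfP
  refine ⟨b, hb, fun s hs => ?_⟩
  rw [add_sub_cancel_left]
  have := hr s
  rwa [Finsupp.sub_apply, hMd', if_pos hs, hP0 s hs, zero_sub] at this

/-- `L((N + e) E) = L(N E) + x ^ e L(N E)` in large degree. -/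
theorem rr_step {x : F} (hx : Transcendental K x) {N e : ℕ} (he : e ≤ N)
    (hN : rrBound K F < ((N - e : ℕ) : ℤ) * Divisor.degree (pol (K := K) x)) :
    riemannRochSpace (N • pol (K := K) x) ⊔
        (riemannRochSpace (N • pol (K := K) x)).map (LinearMap.mulLeft K (x ^ e)) =
      riemannRochSpace ((N + e) • pol (K := K) x) := by
  have hx0 : x ≠ 0 := fun h => hx (h ▸ isAlgebraic_zero)
  have hd : 0 < Divisor.degree (pol (K := K) x) := degree_pol_pos hx
  set U := riemannRochSpace (N • pol (K := K) x) with hU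
  set φ := LinearMap.mulLeft K (x ^ e) with hφ
  have hinj : Function.Injective φ := fun a b h => mul_left_cancel₀ (pow_ne_zero e hx0) h
  have hle : U ⊔ U.map φ ≤ riemannRochSpace ((N + e) • pol (K := K) x) := by
    refine sup_le (rr_nsmul_pol_mono x (by omega)) ?_
    rintro _ ⟨g, hg, rfl⟩
    rw [add_comm N e, add_nsmul, hφ, LinearMap.mulLeft_apply]
    exact mul_mem_riemannRochSpace (pow_mem_rr_nsmul_pol x e) hg
  have hinf : U ⊓ U.map φ ≤ (riemannRochSpace ((N - e) • pol (K := K) x)).map φ := by
    rintro _ ⟨hb, g, hg, rfl⟩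
    refine ⟨g, ?_, rfl⟩
    rcases eq_or_ne g 0 with rfl | hg0
    · exact Submodule.zero_mem _
    refine mem_rr_of_ord fun v => ?_
    have h1 := (mem_rr_iff_of_ne hg0).mp hg v
    have h2 := (mem_rr_iff_of_ne (mul_ne_zero (pow_ne_zero e hx0) hg0)).mp hb v
    rw [v.ord_mul (pow_ne_zero e hx0) hg0, FFBasic.ord_pow] at h2
    simp only [Finsupp.smul_apply, pol_apply, nsmul_eq_mul] at h1 h2 ⊢
    push_cast [he]
    rcases le_total 0 (v.ord x) with h | h
    · rw [max_eq_right (by omega)] at h1 ⊢; linarith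
    · rw [max_eq_left (by omega)] at h2 ⊢; linarith
  refine Submodule.eq_of_le_of_finrank_le hle ?_
  have h3 := Submodule.finrank_sup_add_finrank_inf_eq U (U.map φ)
  have hmap : ∀ W : Submodule K F, Module.finrank K (W.map φ) = Module.finrank K W := fun W =>
    (W.equivMapOfInjective φ hinj).finrank_eq.symm
  have h4 := Submodule.finrank_mono hinf
  rw [hmap] at h3 h4
  have hbig : ∀ j : ℕ, N - e ≤ j →
      rrBound K F < Divisor.degree (j • pol (K := K) x) := fun j hj => by
    rw [map_nsmul, nsmul_eq_mul]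
    exact hN.trans_le (mul_le_mul_of_nonneg_right (by exact_mod_cast hj) hd.le)
  have e1 := finrank_rr (hbig (N - e) le_rfl)
  have e2 := finrank_rr (hbig N (by omega))
  have e3 := finrank_rr (hbig (N + e) (by omega))
  rw [map_nsmul, nsmul_eq_mul] at e1 e2 e3
  rw [← hU] at e2
  push_cast [he] at e1 e2 e3
  rw [sub_mul] at e1
  rw [add_mul] at e3
  omega

/-- Simple zeros at a finite set of places off `x = ∞`. -/
theorem exists_simple_zeros {x : F} (hx : Transcendental K x) (S : Finset (Place K F))
    (hS : ∀ s ∈ S, 0 ≤ s.ord x) :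
    ∃ y : F, y ≠ 0 ∧ InB K x y ∧ ∀ s ∈ S, s.ord y = 1 := by
  classical
  set n := (rrBound K F + S.card + 1).toNat + 1 with hn
  set D : Divisor K F := n • pol (K := K) x - ∑ s ∈ S, Finsupp.single s 1 with hD
  have hdeg : rrBound K F + 1 < Divisor.degree D := by
    rw [hD, map_sub, map_sum, map_nsmul, nsmul_eq_mul]
    simp only [degree_single_one, Finset.sum_const, nsmul_eq_mul, mul_one]
    have h1 : (n : ℤ) * 1 ≤ (n : ℤ) * Divisor.degree (pol (K := K) x) :=
      mul_le_mul_of_nonneg_left (by have := degree_pol_pos (K := K) hx; omega) (by omega)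
    omega
  obtain ⟨y, hy, hy0, hord⟩ := exists_exact_rr hdeg S
  refine ⟨y, hy0, inB_of_mem (n := n) (riemannRochSpace_mono ?_ hy), fun s hs => ?_⟩
  · exact sub_le_self _ (Finset.sum_nonneg fun s _ => FFRiemannRoch.single_nonneg s zero_le_one)
  · rw [hord s hs, hD, Finsupp.sub_apply, Finsupp.smul_apply, pol_apply,
      max_eq_right (by have := hS s hs; omega), Finset.sum_apply']
    simp [Finsupp.single_apply, Finset.sum_ite_eq', hs]

/-- Functions regular off `x = ∞` separate places. -/
theorem exists_separating_inB {x : F} (hx : Transcendental K x) {s t : Place K F} (hst : s ≠ t)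
    (hs : 0 ≤ s.ord x) (ht : 0 ≤ t.ord x) :
    ∃ y : F, InB K x y ∧ HasValue s y 1 ∧ HasValue t y 0 := by
  classical
  let p : Fin 2 → Place K F := ![s, t]
  set n := 2 * genusFF K F + 2
  have hp : Function.Injective p := by
    intro i j h
    fin_cases i <;> fin_cases j <;> first | rfl | exact absurd h hst | exact absurd h.symm hst
  obtain ⟨y, hy, hval⟩ := exists_mem_valueAt_eq hp (D := n • pol (K := K) x)
    (fun i => by
      rw [Finsupp.smul_apply, pol_apply, max_eq_right ?_, smul_zero]
      fin_cases i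
      · simp [p]; omega
      · simp [p]; omega)
    (by
      rw [map_nsmul, nsmul_eq_mul, Fintype.card_fin]
      have h1 : (n : ℤ) * 1 ≤ (n : ℤ) * Divisor.degree (pol (K := K) x) :=
        mul_le_mul_of_nonneg_left (by have := degree_pol_pos (K := K) hx; omega) (by omega)
      omega)
    ![1, 0]
  exact ⟨y, inB_of_mem hy, hval 0, hval 1⟩

end FLTAgent.Semistable
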