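import Fermat.Agent.CongruenceRel.Kronecker
import Fermat.Agent.CongruenceRel.SpecialAut
import Fermat.Agent.Deuring.Modular
import Fermat.Agent.Semistable.SpecialRR
import Mathlib.FieldTheory.Perfect

/-!
# Frobenius on the special fibre

In characteristic `q`: the coefficientwise Frobenius `frobAut` of the function field of
`X₀(M)`, the substitution `T ↦ T ^ q` (`expandSpecial`), and their effect on `j`, orders and
values at places.
-/

set_option autoImplicit false

noncomputable section

open AlgebraicCurve ModularCurve IntermediateField FLTAgent.FFBasic FLTAgent.Deuring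
open FLTAgent.CongruenceRel

namespace FLTAgent.Semistable

variable {k : Type} [Field k] [IsAlgClosed k] (q : ℕ) [Fact q.Prime] [CharP k q]
  (M : ℕ)

/-- The `q`-power automorphism of the constants. -/
def constFrob : k ≃+* k :=
  haveI : ExpChar k q := ExpChar.prime Fact.out
  haveI : PerfectRing k q := PerfectField.toPerfectRing q
  frobeniusEquiv k q

theorem constFrob_apply (c : k) : constFrob q c = c ^ q := rfl

theorem constFrob_symm_pow (c : k) : (constFrob (k := k) q).symm c ^ q = c :=
  (constFrob q).apply_symm_apply c

/-- Coefficientwise Frobenius on the special fibre. -/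
def frobAut : SemilinearAut k (modularFunctionFieldFullC k M) := specialAut M (constFrob q)

theorem qExpand_mem_special {x : LaurentSeries k} (hx : x ∈ modularFunctionFieldFullC k M) :
    qExpand k q x = coeffMap ((constFrob (k := k) q).symm : k →+* k) x ^ q := by
  induction hx using IntermediateField.adjoin_induction with
  | mem y hy =>
    obtain ⟨d, hd0, -, rfl⟩ := hy
    rw [coeffMap_qExpand, coeffMap_jqModC, qExpand_qExpand,
      qExpand_congr (show q * d = d * q from mul_comm q d), qExpand_jqModC_char q k d]
  | algebraMap c =>
    rw [coeffMap_algebraMap, qExpand_algebraMap, ← map_pow]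
    exact congrArg _ (constFrob_symm_pow q c).symm
  | add a b _ _ ha hb =>
    have : CharP (LaurentSeries k) q := charP_of_injective_algebraMap
      (algebraMap k (LaurentSeries k)).injective q
    rw [map_add, map_add, ha, hb, add_pow_char]
  | inv a _ ha => rw [map_inv₀, map_inv₀, ha, inv_pow]
  | mul a b _ _ ha hb => rw [map_mul, map_mul, ha, hb, mul_pow]

/-- `T ↦ T ^ q` on the special fibre. -/
def expandSpecial : modularFunctionFieldFullC k M →ₐ[k] modularFunctionFieldFullC k M where
  toFun x := ⟨qExpand k q (x : LaurentSeries k),
    (qExpand_mem_special q M x.2).symm ▸ pow_mem (coeffMap_mem_fullC M _ x.2) q⟩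
  map_one' := Subtype.ext (map_one (qExpand k q))
  map_mul' a b := Subtype.ext (map_mul (qExpand k q) (a : LaurentSeries k) b)
  map_zero' := Subtype.ext (map_zero (qExpand k q))
  map_add' a b := Subtype.ext (map_add (qExpand k q) (a : LaurentSeries k) b)
  commutes' c := Subtype.ext (qExpand_algebraMap q c)

@[simp] theorem coe_expandSpecial (x : modularFunctionFieldFullC k M) :
    (expandSpecial q M x : LaurentSeries k) = qExpand k q (x : LaurentSeries k) := rfl

theorem expandSpecial_eq (x : modularFunctionFieldFullC k M) :
    expandSpecial q M x = ((frobAut (k := k) q M)⁻¹ • x) ^ q := by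
  refine Subtype.ext ?_
  rw [coe_expandSpecial, qExpand_mem_special q M x.2, SubmonoidClass.coe_pow, frobAut,
    coe_specialAut_inv_smul]

theorem expandSpecial_frobAut_smul (x : modularFunctionFieldFullC k M) :
    expandSpecial q M (frobAut (k := k) q M • x) = x ^ q := by
  rw [expandSpecial_eq, inv_smul_smul]

omit [IsAlgClosed k] in
theorem specialAut_smul_jFb (ρ : k ≃+* k) :
    specialAut M ρ • (Modular.jFb (k := k) M) = Modular.jFb M :=
  Subtype.ext (by rw [coe_specialAut_smul]; exact coeffMap_jqModC _)

omit [IsAlgClosed k] in
theorem specialAut_inv_smul_jFb (ρ : k ≃+* k) :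
    (specialAut M ρ)⁻¹ • (Modular.jFb (k := k) M) = Modular.jFb M := by
  rw [inv_smul_eq_iff, specialAut_smul_jFb]

theorem expandSpecial_jFb : expandSpecial q M (Modular.jFb (k := k) M) = Modular.jFb M ^ q := by
  rw [expandSpecial_eq, frobAut, specialAut_inv_smul_jFb]

variable [IsFunctionField k (modularFunctionFieldFullC k M)]

omit [IsFunctionField k (modularFunctionFieldFullC k M)] in
theorem ord_expandSpecial (v : Place k (modularFunctionFieldFullC k M))
    (x : modularFunctionFieldFullC k M) :
    v.ord (expandSpecial q M x) = q * (frobAut (k := k) q M • v).ord x := by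
  rw [expandSpecial_eq, FFBasic.ord_pow]
  congr 1
  conv_rhs => rw [← smul_inv_smul (frobAut (k := k) q M) x, SemilinearAut.ord_smul]

omit [IsFunctionField k ↥(modularFunctionFieldFullC k M)] in
theorem ord_expandSpecial_inv (v : Place k (modularFunctionFieldFullC k M))
    (x : modularFunctionFieldFullC k M) :
    ((frobAut (k := k) q M)⁻¹ • v).ord (expandSpecial q M x) = q * v.ord x := by
  rw [ord_expandSpecial, smul_inv_smul]

omit [IsFunctionField k ↥(modularFunctionFieldFullC k M)] in
/-- Values are preserved by `T ↦ T ^ q`. -/
theorem hasValue_expandSpecial {v : Place k (modularFunctionFieldFullC k M)}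
    {x : modularFunctionFieldFullC k M} {c : k} (h : HasValue v x c) :
    HasValue ((frobAut (k := k) q M)⁻¹ • v) (expandSpecial q M x) c := by
  unfold HasValue at h ⊢
  rw [← (expandSpecial q M).commutes c, ← map_sub]
  rcases eq_or_ne (x - algebraMap k _ c) 0 with h0 | h0
  · rw [h0, map_zero]; exact Submodule.zero_mem _
  refine mem_ball_of_le_ord ?_
  rw [ord_expandSpecial_inv]
  have h1 := le_ord_of_mem_ball h h0
  have hq : (1 : ℤ) ≤ q := by exact_mod_cast (Fact.out : q.Prime).one_lt.le
  have : (q : ℤ) * 1 ≤ (q : ℤ) * v.ord (x - algebraMap k _ c) :=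
    mul_le_mul_of_nonneg_left (by omega) (by omega)
  omega

end FLTAgent.Semistable
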