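import Fermat.Agent.Semistable.Gauss
import Fermat.Agent.Semistable.Special
import Fermat.Agent.Deuring.ModularModel
import Fermat.Agent.SemistableHecke.Degeneracy
import Fermat.Prelude.Def_ModularCurve_ModularUnit

/-!
# The two expansions of functions on `X₀(Mq)`

The Atkin–Lehner data `ALData`, expansions at infinity and after Atkin–Lehner (`ι₁`, `ι₂`),
their Gauss scales (`scales₁`, `scales₂`), and the integrality of both degeneracy images of the
integral functions of level `M`.
-/

set_option autoImplicit false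

noncomputable section

open AlgebraicCurve ModularCurve FLTAgent.FFBasic FLTAgent.Deuring FLTAgent.HeckeJacobian
open FLTAgent.GoodReduction (X0GoodReduction)

namespace FLTAgent.Semistable.Level

local notation "Qbar" => AlgebraicClosure ℚ

/-- The Atkin–Lehner automorphism at `q` and the discriminant ratio on `X₀(Mq)`. -/
structure ALData (M q : ℕ) [NeZero M] [NeZero q] where
  w : modularFunctionFieldBar (M * q) →ₐ[Qbar] modularFunctionFieldBar (M * q)
  w_alpha : w.comp (heckeAlphaBar Qbar M q) = heckeBetaBar Qbar M q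
  w_beta : w.comp (heckeBetaBar Qbar M q) = heckeAlphaBar Qbar M q
  h : modularFunctionFieldBar (M * q)
  coe_h : (h : LaurentSeries Qbar) = coeffEmb Qbar (modularUnitSeries q)
  h_mul : h * w h = (q : modularFunctionFieldBar (M * q)) ^ 12
  inB_h : InB Qbar (heckeAlphaBar Qbar M q (Modular.jF M)) h
  inB_wh : InB Qbar (heckeAlphaBar Qbar M q (Modular.jF M)) (w h)
  inB_eta : InB Qbar (heckeAlphaBar Qbar M q (Modular.jF M))⁻¹
    (w h * heckeBetaBar Qbar M q (Modular.jF M) / heckeAlphaBar Qbar M q (Modular.jF M))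

variable {M q : ℕ} [NeZero M] [Fact q.Prime]

/-- Expansions at infinity. -/
def ι₁ (M q : ℕ) [NeZero M] [NeZero q] :
    modularFunctionFieldBar (M * q) →ₐ[Qbar] LaurentSeries Qbar :=
  (modularFunctionFieldBar (M * q)).val

/-- Expansions after the Atkin–Lehner automorphism. -/
def ι₂ (I : ALData M q) : modularFunctionFieldBar (M * q) →ₐ[Qbar] LaurentSeries Qbar :=
  (ι₁ M q).comp I.w

theorem w_alpha_apply (I : ALData M q) (x : modularFunctionFieldBar M) :
    I.w (heckeAlphaBar Qbar M q x) = heckeBetaBar Qbar M q x := DFunLike.congr_fun I.w_alpha x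

theorem w_beta_apply (I : ALData M q) (x : modularFunctionFieldBar M) :
    I.w (heckeBetaBar Qbar M q x) = heckeAlphaBar Qbar M q x := DFunLike.congr_fun I.w_beta x

theorem w_w (I : ALData M q) (f : modularFunctionFieldBar (M * q)) : I.w (I.w f) = f :=
  DFunLike.congr_fun (SemistableHecke.al_involutive I.w_alpha I.w_beta) f

/-- The ring generated by the `j(q^d)`. -/
def gensRing (N : ℕ) : Subring (modularFunctionFieldBar N) :=
  Subring.closure {x | ∃ (d : ℕ) (_ : NeZero d), d ∣ N ∧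
    (x : LaurentSeries Qbar) = qExpand Qbar d (jqModC Qbar)}

theorem intSeries_ι₁ : Gauss.IntSeries (ι₁ M q) (gensRing (M * q)) := by
  intro z hz
  have hle : gensRing (M * q) ≤ (coeffMap (Int.castRingHom Qbar)).range.comap
      (ι₁ M q).toRingHom := by
    rw [gensRing, Subring.closure_le]
    rintro x ⟨d, hd0, -, hx⟩
    refine ⟨qExpand ℤ d (jqModC ℤ), ?_⟩
    rw [coeffMap_qExpand, coeffMap_jqModC]
    exact hx.symm
  exact hle hz

theorem w_mem_gensRing (I : ALData M q) {z : modularFunctionFieldBar (M * q)}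
    (hz : z ∈ gensRing (M * q)) : I.w z ∈ gensRing (M * q) := by
  have hq : q.Prime := Fact.out
  have hle : gensRing (M * q) ≤ (gensRing (M * q)).comap I.w.toRingHom := by
    rw [gensRing, Subring.closure_le]
    rintro x ⟨d, hd0, hd, hx⟩
    show I.w x ∈ gensRing (M * q)
    have hgen : ∀ (e : ℕ) [NeZero e], e ∣ M → ∃ y : modularFunctionFieldBar M,
        (y : LaurentSeries Qbar) = qExpand Qbar e (jqModC Qbar) := fun e _ he =>
      ⟨⟨_, CongruenceRel.coeffEmb_qExpand_jq (L := Qbar) e ▸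
        coeffEmb_mem_laurentBaseChange Qbar (jqd_mem_full M he)⟩, rfl⟩
    by_cases hqd : q ∣ d
    · obtain ⟨e, rfl⟩ := hqd
      have he : e ∣ M := Nat.dvd_of_mul_dvd_mul_left hq.pos (mul_comm M q ▸ hd)
      have : NeZero e := ⟨fun h => hd0.out (by rw [h, mul_zero])⟩
      obtain ⟨y, hy⟩ := hgen e he
      have hxy : x = heckeBetaBar Qbar M q y :=
        Subtype.ext (by rw [hx, coe_heckeBetaBar, hy, qExpand_qExpand])
      rw [hxy, w_beta_apply]
      refine Subring.subset_closure ⟨e, inferInstance, he.trans (dvd_mul_right M q), ?_⟩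
      rw [coe_heckeAlphaBar, hy]
    · have hdM : d ∣ M := (Nat.Coprime.dvd_mul_right
        ((hq.coprime_iff_not_dvd.mpr hqd).symm)).mp hd
      obtain ⟨y, hy⟩ := hgen d hdM
      have hxy : x = heckeAlphaBar Qbar M q y :=
        Subtype.ext (by rw [hx, coe_heckeAlphaBar, hy])
      rw [hxy, w_alpha_apply]
      have : NeZero (q * d) := ⟨Nat.mul_ne_zero hq.ne_zero hd0.out⟩
      refine Subring.subset_closure ⟨q * d, inferInstance, ?_, ?_⟩
      · rw [mul_comm q d]; exact mul_dvd_mul_right hdM q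
      · rw [coe_heckeBetaBar, hy, qExpand_qExpand]
  exact hle hz

theorem intSeries_ι₂ (I : ALData M q) :
    Gauss.IntSeries (ι₂ I) (gensRing (M * q)) :=
  fun z hz => intSeries_ι₁ (I.w z) (w_mem_gensRing I hz)

theorem exists_frac (f : modularFunctionFieldBar (M * q)) :
    ∃ P Q : modularFunctionFieldBar (M * q),
      P ∈ Algebra.adjoin Qbar (gensRing (M * q) : Set (modularFunctionFieldBar (M * q))) ∧
      Q ∈ Algebra.adjoin Qbar (gensRing (M * q) : Set (modularFunctionFieldBar (M * q))) ∧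
      Q ≠ 0 ∧ f * Q = P := by
  obtain ⟨P, Q, hQ, hf⟩ := ModularFF.exists_eq_div Qbar (M * q) f
  have hmem : ∀ R, ModularFF.evalField Qbar (M * q) R ∈
      Algebra.adjoin Qbar (gensRing (M * q) : Set (modularFunctionFieldBar (M * q))) := by
    intro R
    have hle : (ModularFF.evalField Qbar (M * q)).range ≤
        Algebra.adjoin Qbar (gensRing (M * q) : Set (modularFunctionFieldBar (M * q))) := by
      rw [ModularFF.evalField, ← Algebra.adjoin_range_eq_range_aeval]
      refine Algebra.adjoin_mono ?_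
      rintro _ ⟨i, rfl⟩
      have : NeZero i.1 := ⟨(Nat.pos_of_mem_divisors i.2).ne'⟩
      exact Subring.subset_closure ⟨i.1, inferInstance, Nat.dvd_of_mem_divisors i.2,
        ModularFF.coe_gen _ _ i⟩
    exact hle ⟨R, rfl⟩
  refine ⟨_, _, hmem P, hmem Q, hQ, ?_⟩
  rw [hf, div_mul_cancel₀ _ hQ]

variable {k : Type} [Field k] {A : ValuationSubring Qbar} (π : A →+* k)

theorem scales₁ : Gauss.Scales A π (ι₁ M q) := Gauss.scales exists_frac intSeries_ι₁

theorem scales₂ (I : ALData M q) : Gauss.Scales A π (ι₂ I) :=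
  Gauss.scales exists_frac (intSeries_ι₂ I)

theorem mem_ring₂_iff (I : ALData M q) (f : modularFunctionFieldBar (M * q)) :
    f ∈ Gauss.ring A π (ι₂ I) ↔ I.w f ∈ Gauss.ring A π (ι₁ M q) := Iff.rfl

theorem res₂_eq (I : ALData M q) {f : modularFunctionFieldBar (M * q)}
    (hf : f ∈ Gauss.ring A π (ι₂ I)) :
    Gauss.res A π (ι₂ I) ⟨f, hf⟩ =
      Gauss.res A π (ι₁ M q) ⟨I.w f, (mem_ring₂_iff π I f).mp hf⟩ := by
  obtain ⟨y, z, hz, he⟩ := hf
  exact (Gauss.res_mk A π (ι₂ I) _ hz he).trans (Gauss.res_mk A π (ι₁ M q) _ hz he).symm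

variable [IsAlgClosed k] [CharP k q] {π}
variable (H : X0GoodReduction A π M) (hπ : Function.Surjective π) (I : ALData M q)

omit [NeZero M] in
/-- Residues of integral elements of level `M`. -/
theorem exists_series_of_mem_O {x : modularFunctionFieldBar M}
    (hx : x ∈ (Modular.reduction H hπ).O) :
    ∃ y z : LaurentSeries A, coeffMap π z ≠ 0 ∧
      (x : LaurentSeries Qbar) * Gauss.incl A z = Gauss.incl A y ∧
      ((Modular.reduction H hπ).res ⟨x, hx⟩ : LaurentSeries k) =
        coeffMap π y / coeffMap π z := by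
  obtain ⟨(t : Modular.seriesRing A M), (s : Modular.seriesRing A M), ht, he⟩ :=
    (Modular.model H hπ).mem_O.mp hx
  refine ⟨Modular.seriesHom A M s, Modular.seriesHom A M t, fun h0 => ht (Subtype.ext h0), ?_, ?_⟩
  · rw [show Gauss.incl A (Modular.seriesHom A M t) = ((t : Modular.FF Qbar M) : LaurentSeries Qbar)
        from Modular.coeffMap_seriesOf A M t,
      show Gauss.incl A (Modular.seriesHom A M s) = ((s : Modular.FF Qbar M) : LaurentSeries Qbar)
        from Modular.coeffMap_seriesOf A M s, ← he]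
    rfl
  · rw [show (Modular.reduction H hπ).res ⟨x, hx⟩ = Modular.red H s / Modular.red H t from
      (Modular.model H hπ).res_eq ⟨x, hx⟩ ht he, IntermediateField.coe_div, Modular.coe_red,
      Modular.coe_red]

omit [CharP k q] in
theorem alpha_mem₁ {x : modularFunctionFieldBar M} (hx : x ∈ (Modular.reduction H hπ).O) :
    ∃ h₁ : heckeAlphaBar Qbar M q x ∈ Gauss.ring A π (ι₁ M q),
      Gauss.res A π (ι₁ M q) ⟨_, h₁⟩ =
        ((Modular.reduction H hπ).res ⟨x, hx⟩ : LaurentSeries k) := by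
  obtain ⟨y, z, hz, he, hr⟩ := exists_series_of_mem_O H hπ hx
  have he' : ι₁ M q (heckeAlphaBar Qbar M q x) * Gauss.incl A z = Gauss.incl A y := by
    rw [← he]; rfl
  exact ⟨⟨y, z, hz, he'⟩, (Gauss.res_mk A π (ι₁ M q) _ hz he').trans hr.symm⟩

theorem beta_mem₁ {x : modularFunctionFieldBar M} (hx : x ∈ (Modular.reduction H hπ).O) :
    ∃ h₁ : heckeBetaBar Qbar M q x ∈ Gauss.ring A π (ι₁ M q),
      Gauss.res A π (ι₁ M q) ⟨_, h₁⟩ =
        (expandSpecial q M ((Modular.reduction H hπ).res ⟨x, hx⟩) : LaurentSeries k) := by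
  obtain ⟨y, z, hz, he, hr⟩ := exists_series_of_mem_O H hπ hx
  have he' : ι₁ M q (heckeBetaBar Qbar M q x) * Gauss.incl A (qExpand A q z) =
      Gauss.incl A (qExpand A q y) := by
    rw [Gauss.incl, coeffMap_qExpand, coeffMap_qExpand]
    show (heckeBetaBar Qbar M q x : LaurentSeries Qbar) * _ = _
    rw [coe_heckeBetaBar, ← map_mul, he]
  have hz' : coeffMap π (qExpand A q z) ≠ 0 := by
    rw [coeffMap_qExpand]
    exact fun h => hz (qExpand_injective (R := k) q (h.trans (map_zero _).symm))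
  refine ⟨⟨_, _, hz', he'⟩, (Gauss.res_mk A π (ι₁ M q) _ hz' he').trans ?_⟩
  rw [coe_expandSpecial, hr, map_div₀, coeffMap_qExpand, coeffMap_qExpand]

theorem alpha_mem₂ {x : modularFunctionFieldBar M} (hx : x ∈ (Modular.reduction H hπ).O) :
    ∃ h₂ : heckeAlphaBar Qbar M q x ∈ Gauss.ring A π (ι₂ I),
      Gauss.res A π (ι₂ I) ⟨_, h₂⟩ =
        (expandSpecial q M ((Modular.reduction H hπ).res ⟨x, hx⟩) : LaurentSeries k) := by
  obtain ⟨h₁, hr⟩ := beta_mem₁ (q := q) H hπ hx
  have hm : heckeAlphaBar Qbar M q x ∈ Gauss.ring A π (ι₂ I) :=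
    (mem_ring₂_iff π I _).mpr (by rw [w_alpha_apply]; exact h₁)
  refine ⟨hm, ?_⟩
  rw [res₂_eq, ← hr]
  congr 2
  exact w_alpha_apply I x

omit [CharP k q] in
theorem beta_mem₂ {x : modularFunctionFieldBar M} (hx : x ∈ (Modular.reduction H hπ).O) :
    ∃ h₂ : heckeBetaBar Qbar M q x ∈ Gauss.ring A π (ι₂ I),
      Gauss.res A π (ι₂ I) ⟨_, h₂⟩ =
        ((Modular.reduction H hπ).res ⟨x, hx⟩ : LaurentSeries k) := by
  obtain ⟨h₁, hr⟩ := alpha_mem₁ (q := q) H hπ hx
  have hm : heckeBetaBar Qbar M q x ∈ Gauss.ring A π (ι₂ I) :=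
    (mem_ring₂_iff π I _).mpr (by rw [w_beta_apply]; exact h₁)
  refine ⟨hm, ?_⟩
  rw [res₂_eq, ← hr]
  congr 2
  exact w_beta_apply I x

end FLTAgent.Semistable.Level
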