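import Fermat.Agent.Semistable.Descent
import Fermat.Agent.Semistable.GluingOps
import Mathlib.Algebra.Polynomial.Identities

/-!
# Newton approximation of roots

Newton iteration for the `m`-th root attached to a torus datum with trivial gluing, starting
from a function with nowhere vanishing reduction (`exists_newton`).
Used in `Semistable.Approx`.
-/

set_option autoImplicit false

noncomputable section

open AlgebraicCurve FLTAgent.FFRiemannRoch FLTAgent.FFBasic

namespace FLTAgent.Semistable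

variable {L k : Type*} [Field L] [Field k] {A : ValuationSubring L} {π : A →+* k}
variable {F F₁ F₂ : Type*} [Field F] [Field F₁] [Field F₂]
  [Algebra L F] [Algebra k F₁] [Algebra k F₂] {ι : Type*} [Fintype ι]

/-- An integral element with zero reduction becomes integral after a non-integral rescaling. -/
theorem Branch.exists_small {Fb : Type*} [Field Fb] [Algebra k Fb] (B : Branch A π F Fb)
    (ht : ∃ t : A, t ≠ 0 ∧ π t = 0) {e : F} (he : B.Mem 1 e) (h0 : B.red 1 e = 0) :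
    ∃ c : L, c ∉ A ∧ B.Mem c e := by
  rcases eq_or_ne e 0 with rfl | hne
  · obtain ⟨t, ht0, htπ⟩ := ht
    refine ⟨(t : L)⁻¹, fun h => ?_, B.mem_zero _⟩
    have h1 : (⟨_, h⟩ : A) * t = 1 :=
      Subtype.ext (inv_mul_cancel₀ fun h' => ht0 (Subtype.ext h'))
    have := congrArg π h1
    rw [map_mul, htπ, mul_zero, map_one] at this
    exact zero_ne_one this
  obtain ⟨c, -, hc, hred⟩ := B.exists_red_ne_zero hne
  refine ⟨c, fun hA => hred ?_, hc⟩
  have hc' : B.Mem (1 * c) e := by rwa [one_mul]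
  calc B.red c e = B.red 1 (((⟨c, hA⟩ : A) : L) • e) := by
        rw [B.red_smul_eq hc', one_mul]
    _ = π ⟨c, hA⟩ • B.red 1 e := B.red_smul he ⟨c, hA⟩
    _ = 0 := by rw [h0, smul_zero]

theorem Branch.Mem.of_div {Fb : Type*} [Field Fb] [Algebra k Fb] (B : Branch A π F Fb)
    {x y : L} {e : F} (hy : y ≠ 0) (hA : x / y ∈ A) (hm : B.Mem y e) : B.Mem x e := by
  have := Branch.Mem.smul B hm ⟨x / y, hA⟩
  rwa [B.mem_smul_iff, mul_div_cancel₀ _ hy] at this

namespace PairReduction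

variable {C : PairReduction A π F F₁ F₂ ι}

theorem Mem.of_mul {g : L × L} {a : A} {e : F} {c : L} (h : C.Mem (g * (c, c)) e) :
    C.Mem (g * ((a : L) * c, (a : L) * c)) e := by
  have := (C.mem_smul_iff.mpr h).smul a
  rwa [smul_smul, C.mem_smul_iff] at this

theorem exists_small (ht : ∃ t : A, t ≠ 0 ∧ π t = 0) {e : F} (he : C.Mem (1, 1) e)
    (h0 : C.red (1, 1) e = 0) : ∃ c : L, c ∉ A ∧ C.Mem (c, c) e := by
  obtain ⟨c₁, hc₁, h₁⟩ := C.b₁.exists_small ht he.1 (congrArg Prod.fst h0)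
  obtain ⟨c₂, hc₂, h₂⟩ := C.b₂.exists_small ht he.2 (congrArg Prod.snd h0)
  have hne₁ : c₁ ≠ 0 := fun h => hc₁ (h ▸ A.zero_mem)
  have hne₂ : c₂ ≠ 0 := fun h => hc₂ (h ▸ A.zero_mem)
  rcases A.mem_or_inv_mem (c₁ / c₂) with h | h
  · exact ⟨c₁, hc₁, h₁, Branch.Mem.of_div _ hne₂ h h₂⟩
  · rw [inv_div] at h
    exact ⟨c₂, hc₂, Branch.Mem.of_div _ hne₁ h h₁, h₂⟩

theorem mem_one_pair : C.Mem (1, 1) (1 : F) := ⟨C.b₁.mem_one, C.b₂.mem_one⟩

/-- The elements integral on both branches. -/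
def int : Subring F := C.b₁.O.toSubring ⊓ C.b₂.O.toSubring

theorem mem_int {x : F} : x ∈ C.int ↔ C.Mem (1, 1) x := by
  rw [int, Subring.mem_inf]
  show _ ↔ (1 : L) • x ∈ C.b₁.O ∧ (1 : L) • x ∈ C.b₂.O
  rw [one_smul]
  rfl

namespace RootData

variable {m : ℕ} (R : C.RootData m)
variable [IsAlgClosed k] [IsFunctionField k F₁] [IsFunctionField k F₂]
variable [IsAlgClosed L] [IsFunctionField L F]

/-- Newton iteration at a function `P` with poles along `E` and nowhere vanishing reduction. -/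
theorem exists_newton (hm : (m : k) ≠ 0) (hε : R.IsGluing 1)
    (ht : ∃ t : A, t ≠ 0 ∧ π t = 0)
    (harch : ∀ a b : A, π a = 0 → b ≠ 0 → ∃ N, b ∣ a ^ N)
    {P : F} (hPE : P ∈ riemannRochSpace C.E) (hP : C.Mem (1, 1) P)
    (b : A) (hb : b ≠ 0) :
    ∃ (N : ℕ) (u : F), R.Lat N u ∧ R.φ * C.red R.g u = C.red (1, 1) P ^ N ∧
      C.Mem ((b : L)⁻¹, (b : L)⁻¹) (u ^ m * R.f - P ^ (N * m)) := by
  have hm0 : 0 < m := Nat.pos_of_ne_zero fun h => hm (by rw [h, Nat.cast_zero])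
  have h1eq : ((1, 1) : L × L) = 1 := rfl
  have hPn : ∀ n : ℕ, C.Mem (1, 1) (P ^ n) := fun n => by
    have := hP.pow n; rwa [h1eq, one_pow] at this
  have hPr : ∀ n : ℕ, C.red (1, 1) (P ^ n) = C.red (1, 1) P ^ n := fun n => by
    have := red_pow hP n; rwa [h1eq, one_pow] at this
  obtain ⟨n₀, hn₀⟩ := hε.eq_glued R hm0
  obtain ⟨u₀, hu₀, hu₀g, hu₀r⟩ : ∃ u₀ ∈ riemannRochSpace (R.D + n₀ • C.E),
      C.Mem R.g u₀ ∧ R.φ * C.red R.g u₀ = C.red (1, 1) (P ^ n₀) := by
    rw [← R.mem_V, hn₀ n₀ le_rfl]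
    exact C.red_mem_glued_one (hPn n₀) (pow_mem_riemannRochSpace hPE n₀)
  rw [hPr] at hu₀r
  have hred : ∀ (N : ℕ) (u : F), C.Mem R.g u → R.φ * C.red R.g u = C.red (1, 1) P ^ N →
      C.Mem (1, 1) (u ^ m * R.f - P ^ (N * m)) ∧
        C.red (1, 1) (u ^ m * R.f - P ^ (N * m)) = 0 := by
    intro N u hu hr
    obtain ⟨h1, h2⟩ := R.mem_pow_mul hu
    refine ⟨h1.sub (hPn _), ?_⟩
    rw [red_sub h1 (hPn _), h2, hr, hPr, pow_mul, sub_self]
  obtain ⟨c, hcA, hc⟩ :=
    exists_small ht (hred n₀ u₀ hu₀g hu₀r).1 (hred n₀ u₀ hu₀g hu₀r).2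
  have hc0 : c ≠ 0 := fun h => hcA (h ▸ A.zero_mem)
  obtain ⟨μ, hμ⟩ : ∃ μ : A, (μ : L) * (m : L) = 1 := by
    have hu : IsUnit (m : A) := of_not_not fun h =>
      hm (by rw [← map_natCast π]; exact Branch.π_eq_zero_of_not_isUnit C.π_surj h)
    obtain ⟨μ, hμ⟩ := hu.exists_left_inv
    exact ⟨μ, by simpa using congrArg Subtype.val hμ⟩
  have key : ∀ j : ℕ, ∃ (N : ℕ) (u : F), R.Lat N u ∧
      R.φ * C.red R.g u = C.red (1, 1) P ^ N ∧
      C.Mem (c ^ 2 ^ j, c ^ 2 ^ j) (u ^ m * R.f - P ^ (N * m)) := by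
    intro j
    induction j with
    | zero => exact ⟨n₀, u₀, ⟨hu₀, hu₀g⟩, hu₀r, by simpa using hc⟩
    | succ j ih =>
      obtain ⟨N, u, ⟨huE, hug⟩, hur, hue⟩ := ih
      obtain ⟨hei, her⟩ := hred N u hug hur
      set e := u ^ m * R.f - P ^ (N * m) with he
      set d := c ^ 2 ^ j
      have hμe : C.Mem (1, 1) ((μ : L) • e) := hei.smul μ
      obtain ⟨q, hq⟩ := Polynomial.powAddExpansion (R := C.int) ⟨_, mem_int.mpr (hPn (N * m))⟩
        (-⟨_, mem_int.mpr hμe⟩) m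
      have hq' : (P ^ (N * m) - (μ : L) • e) ^ m = (P ^ (N * m)) ^ m
          + (m : F) * (P ^ (N * m)) ^ (m - 1) * (-((μ : L) • e)) + (q : F) * ((μ : L) • e) ^ 2 := by
        have := congrArg (fun x : C.int => (x : F)) hq
        push_cast at this
        rw [sub_eq_add_neg, this, neg_sq]
      have hmμ : (m : F) * algebraMap L F (μ : L) = 1 := by
        rw [← map_natCast (algebraMap L F), ← map_mul, mul_comm, hμ, map_one]
      have hXm : (P ^ (N * m)) ^ m = P ^ (N * m) * (P ^ (N * m)) ^ (m - 1) := by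
        rw [← pow_succ', Nat.sub_add_cancel hm0]
      have hid : (u * (P ^ (N * m) - (μ : L) • e)) ^ m * R.f - P ^ ((N + N * m) * m)
          = e * e * (-((P ^ (N * m)) ^ (m - 1))
              + (P ^ (N * m) + e) * ((q : F) * algebraMap L F (μ : L) ^ 2)) := by
        have huf : u ^ m * R.f = P ^ (N * m) + e := by rw [he]; ring
        have hX : P ^ ((N + N * m) * m) = P ^ (N * m) * (P ^ (N * m)) ^ m := by
          rw [← pow_mul, ← pow_add, add_mul]
        rw [mul_pow, mul_right_comm, huf, hq', hX, Algebra.smul_def]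
        linear_combination ((P ^ (N * m)) ^ (m - 1) * e * (-(P ^ (N * m) + e))) * hmμ + e * hXm
      have hX1 : P ^ (N * m) ∈ riemannRochSpace ((N * m) • C.E) := pow_mem_riemannRochSpace hPE _
      have hY : P ^ (N * m) - (μ : L) • e ∈ riemannRochSpace ((N * m) • C.E) := by
        refine Submodule.sub_mem _ hX1 (Submodule.smul_mem _ _ (Submodule.sub_mem _ ?_ hX1))
        rw [mul_comm N m]
        exact R.pow_mul_mem huE
      have hY1 : C.Mem (1, 1) (P ^ (N * m) - (μ : L) • e) := (hPn _).sub hμe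
      refine ⟨N + N * m, u * (P ^ (N * m) - (μ : L) • e), ⟨?_, hug.mul_one_right hY1⟩, ?_, ?_⟩
      · rw [add_nsmul, ← add_assoc]
        exact mul_mem_riemannRochSpace huE hY
      · rw [red_mul_one_right hug hY1, red_sub (hPn _) hμe, red_smul hei, her, smul_zero,
          sub_zero, hPr, ← mul_assoc, hur, pow_add]
      · rw [hid]
        have hrest : C.Mem (1, 1) (-((P ^ (N * m)) ^ (m - 1))
            + (P ^ (N * m) + e) * ((q : F) * algebraMap L F (μ : L) ^ 2)) := by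
          rw [← mem_int]
          refine C.int.add_mem (C.int.neg_mem (C.int.pow_mem (mem_int.mpr (hPn _)) _)) ?_
          refine C.int.mul_mem (C.int.add_mem (mem_int.mpr (hPn _)) (mem_int.mpr hei)) ?_
          refine C.int.mul_mem q.2 (C.int.pow_mem (mem_int.mpr ?_) _)
          exact ⟨C.b₁.mem_algebraMap μ, C.b₂.mem_algebraMap μ⟩
        have := (hue.mul hue).mul_one_right hrest
        convert this using 2
        all_goals simp [d, pow_succ, pow_mul]
  have hcinv : c⁻¹ ∈ A := (A.mem_or_inv_mem c).resolve_left hcA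
  have hπc : π ⟨c⁻¹, hcinv⟩ = 0 := Branch.π_eq_zero_of_not_isUnit C.π_surj fun hu => hcA (by
    obtain ⟨d, hd⟩ := hu.exists_right_inv
    have hd' : c⁻¹ * (d : L) = 1 := congrArg Subtype.val hd
    exact (inv_mul_eq_one₀ hc0).mp hd' ▸ d.2)
  obtain ⟨M, r, hr⟩ := harch ⟨c⁻¹, hcinv⟩ b hπc hb
  obtain ⟨N, u, hu, hur, hue⟩ := key M
  refine ⟨N, u, hu, hur, ?_⟩
  have hbinv : (b : L)⁻¹ = ((r * ⟨c⁻¹, hcinv⟩ ^ (2 ^ M - M) : A) : L) * c ^ 2 ^ M := by
    have hr' : c⁻¹ ^ M = (b : L) * (r : L) := by simpa using congrArg Subtype.val hr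
    have hb' : (b : L) ≠ 0 := fun h => hb (Subtype.ext h)
    have hsplit : c ^ 2 ^ M = c ^ (2 ^ M - M) * c ^ M := by
      rw [← pow_add, Nat.sub_add_cancel Nat.lt_two_pow_self.le]
    push_cast
    rw [hsplit, inv_pow] at *
    field_simp at hr' ⊢
    linear_combination hr'
  have := Mem.of_mul (g := (1, 1)) (a := r * ⟨c⁻¹, hcinv⟩ ^ (2 ^ M - M))
    (show C.Mem ((1, 1) * (c ^ 2 ^ M, c ^ 2 ^ M)) _ by simpa using hue)
  rw [← hbinv] at this
  simpa using this

end RootData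

end PairReduction

end FLTAgent.Semistable
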