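import Fermat.Agent.Semistable.Lattice
import Fermat.Agent.Deuring.Echelon

/-!
# Pair lattices

Lattices and reductions for both branches at once: coordinates in families with independent
reductions are integral (`coord_mem`), and the reductions of a finite dimensional space form a
space of the same dimension (`finrank_resSub`).
-/

set_option autoImplicit false

noncomputable section

open AlgebraicCurve FLTAgent.FFRiemannRoch

namespace FLTAgent.Semistable

variable {L k : Type*} [Field L] [Field k] {A : ValuationSubring L} {π : A →+* k}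
variable {F F₁ F₂ : Type*} [Field F] [Field F₁] [Field F₂]
  [Algebra L F] [Algebra k F₁] [Algebra k F₂] {ι : Type*} [Fintype ι]

namespace PairReduction

variable (C : PairReduction A π F F₁ F₂ ι)

/-- `g.1 • u` and `g.2 • u` are integral on the respective branches. -/
def Mem (g : L × L) (u : F) : Prop := C.b₁.Mem g.1 u ∧ C.b₂.Mem g.2 u

/-- The pair reduction. -/
def red (g : L × L) (u : F) : F₁ × F₂ := (C.b₁.red g.1 u, C.b₂.red g.2 u)

theorem mem_zero (g : L × L) : C.Mem g 0 := ⟨C.b₁.mem_zero _, C.b₂.mem_zero _⟩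

/-- The reduction of zero vanishes. -/
theorem red_zero (g : L × L) : C.red g 0 = 0 := Prod.ext (C.b₁.red_zero _) (C.b₂.red_zero _)

variable {C}

theorem Mem.add {g : L × L} {u v : F} (hu : C.Mem g u) (hv : C.Mem g v) : C.Mem g (u + v) :=
  ⟨Branch.Mem.add _ hu.1 hv.1, Branch.Mem.add _ hu.2 hv.2⟩

theorem Mem.sub {g : L × L} {u v : F} (hu : C.Mem g u) (hv : C.Mem g v) : C.Mem g (u - v) :=
  ⟨Branch.Mem.sub _ hu.1 hv.1, Branch.Mem.sub _ hu.2 hv.2⟩

/-- The pair reduction is additive. -/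
theorem red_add {g : L × L} {u v : F} (hu : C.Mem g u) (hv : C.Mem g v) :
    C.red g (u + v) = C.red g u + C.red g v :=
  Prod.ext (C.b₁.red_add hu.1 hv.1) (C.b₂.red_add hu.2 hv.2)

/-- The pair reduction of a difference. -/
theorem red_sub {g : L × L} {u v : F} (hu : C.Mem g u) (hv : C.Mem g v) :
    C.red g (u - v) = C.red g u - C.red g v :=
  Prod.ext (C.b₁.red_sub hu.1 hv.1) (C.b₂.red_sub hu.2 hv.2)

theorem Mem.mul {g h : L × L} {u v : F} (hu : C.Mem g u) (hv : C.Mem h v) :
    C.Mem (g * h) (u * v) :=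
  ⟨Branch.Mem.mul _ hu.1 hv.1, Branch.Mem.mul _ hu.2 hv.2⟩

/-- The pair reduction is multiplicative. -/
theorem red_mul {g h : L × L} {u v : F} (hu : C.Mem g u) (hv : C.Mem h v) :
    C.red (g * h) (u * v) = C.red g u * C.red h v :=
  Prod.ext (C.b₁.red_mul hu.1 hv.1) (C.b₂.red_mul hu.2 hv.2)

theorem Mem.pow {g : L × L} {u : F} (hu : C.Mem g u) (n : ℕ) : C.Mem (g ^ n) (u ^ n) :=
  ⟨Branch.Mem.pow _ hu.1 n, Branch.Mem.pow _ hu.2 n⟩

/-- The pair reduction of a power. -/
theorem red_pow {g : L × L} {u : F} (hu : C.Mem g u) (n : ℕ) :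
    C.red (g ^ n) (u ^ n) = C.red g u ^ n :=
  Prod.ext (C.b₁.red_pow hu.1 n) (C.b₂.red_pow hu.2 n)

theorem Mem.smul {g : L × L} {u : F} (hu : C.Mem g u) (a : A) : C.Mem g ((a : L) • u) :=
  ⟨Branch.Mem.smul _ hu.1 a, Branch.Mem.smul _ hu.2 a⟩

/-- The pair reduction is linear over the integers of the constants. -/
theorem red_smul {g : L × L} {u : F} (hu : C.Mem g u) (a : A) :
    C.red g ((a : L) • u) = π a • C.red g u :=
  Prod.ext (C.b₁.red_smul hu.1 a) (C.b₂.red_smul hu.2 a)

theorem Mem.sum {g : L × L} {α : Type*} {S : Finset α} {u : α → F}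
    (h : ∀ i ∈ S, C.Mem g (u i)) : C.Mem g (∑ i ∈ S, u i) :=
  ⟨Branch.Mem.sum _ fun i hi => (h i hi).1, Branch.Mem.sum _ fun i hi => (h i hi).2⟩

theorem red_sum {g : L × L} {α : Type*} {S : Finset α} {u : α → F}
    (h : ∀ i ∈ S, C.Mem g (u i)) : C.red g (∑ i ∈ S, u i) = ∑ i ∈ S, C.red g (u i) :=
  Prod.ext
    (by simp only [red, Prod.fst_sum]; exact C.b₁.red_sum fun i hi => (h i hi).1)
    (by simp only [red, Prod.snd_sum]; exact C.b₂.red_sum fun i hi => (h i hi).2)

variable (C)

/-- Membership of a constant multiple moves the scales. -/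
theorem mem_smul_iff {g : L × L} {c : L} {u : F} :
    C.Mem g (c • u) ↔ C.Mem (g * (c, c)) u :=
  and_congr C.b₁.mem_smul_iff C.b₂.mem_smul_iff

/-- Coordinates in a family with independent reductions are integral. -/
theorem coord_mem {g : L × L} {α : Type*} [Fintype α] {b : α → F} (hb : ∀ i, C.Mem g (b i))
    (hli : LinearIndependent k fun i => C.red g (b i)) {c : α → L}
    (hu : C.Mem g (∑ i, c i • b i)) : ∀ i, c i ∈ A := by
  by_contra! hcon
  obtain ⟨j, hj⟩ := hcon
  have hc : c ≠ 0 := fun h => hj (by rw [h]; exact A.zero_mem)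
  obtain ⟨p, hp, hmem⟩ := Deuring.exists_scaled_mem (A := A) c hc
  have hpA : c p ∉ A := fun h =>
    hj (by simpa [div_mul_cancel₀ _ hp] using A.mul_mem _ _ (hmem j) h)
  have hinv : (c p)⁻¹ ∈ A := (A.mem_or_inv_mem _).resolve_left hpA
  have hπ : π ⟨(c p)⁻¹, hinv⟩ = 0 := by
    refine Branch.π_eq_zero_of_not_isUnit C.π_surj fun hu' => hpA ?_
    obtain ⟨d, hd⟩ := hu'.exists_right_inv
    have hd' : (c p)⁻¹ * (d : L) = 1 := congrArg Subtype.val hd
    exact (inv_mul_eq_one₀ hp).mp hd' ▸ d.2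
  have e : (((⟨(c p)⁻¹, hinv⟩ : A) : L)) • ∑ i, c i • b i
      = ∑ i, (((⟨c i / c p, hmem i⟩ : A) : L)) • b i := by
    rw [Finset.smul_sum]
    exact Finset.sum_congr rfl fun i _ => by rw [smul_smul]; congr 1; exact inv_mul_eq_div _ _
  have he := congrArg (C.red g) e
  rw [red_smul hu, hπ, zero_smul, red_sum fun i _ => (hb i).smul _] at he
  rw [Finset.sum_congr rfl (fun i _ => red_smul (hb i) _)] at he
  have := Fintype.linearIndependent_iff.mp hli _ he.symm p
  rw [show (⟨c p / c p, hmem p⟩ : A) = 1 from Subtype.ext (div_self hp), map_one] at this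
  exact one_ne_zero this

theorem linearIndependent_of_red {g : L × L} {α : Type*} [Fintype α] {b : α → F}
    (hb : ∀ i, C.Mem g (b i))
    (hli : LinearIndependent k fun i => C.red g (b i)) : LinearIndependent L b := by
  rw [Fintype.linearIndependent_iff]
  intro c hc
  by_contra! hcon
  obtain ⟨j, hj⟩ := hcon
  obtain ⟨p, hp, hmem⟩ := Deuring.exists_scaled_mem (A := A) c (fun h => hj (by rw [h]; rfl))
  have e : ∑ i, (((⟨c i / c p, hmem i⟩ : A) : L)) • b i = 0 := by
    have := congrArg (fun z => (c p)⁻¹ • z) hc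
    simp only [smul_zero, Finset.smul_sum, smul_smul] at this
    rw [← this]
    exact Finset.sum_congr rfl fun i _ => by congr 1; exact (inv_mul_eq_div _ _).symm
  have he := congrArg (C.red g) e
  rw [red_sum fun i _ => (hb i).smul _, C.red_zero] at he
  rw [Finset.sum_congr rfl (fun i _ => red_smul (hb i) _)] at he
  have := Fintype.linearIndependent_iff.mp hli _ he p
  rw [show (⟨c p / c p, hmem p⟩ : A) = 1 from Subtype.ext (div_self hp), map_one] at this
  exact one_ne_zero this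

/-- The reduction of the lattice of a subspace. -/
def resSub (g : L × L) (V : Submodule L F) : Submodule k (F₁ × F₂) where
  carrier := {w | ∃ u ∈ V, C.Mem g u ∧ C.red g u = w}
  zero_mem' := ⟨0, V.zero_mem, C.mem_zero g, C.red_zero g⟩
  add_mem' := by
    rintro _ _ ⟨u, hu, hug, rfl⟩ ⟨v, hv, hvg, rfl⟩
    exact ⟨u + v, V.add_mem hu hv, hug.add hvg, red_add hug hvg⟩
  smul_mem' := by
    rintro c _ ⟨u, hu, hug, rfl⟩
    obtain ⟨a, rfl⟩ := C.π_surj c
    exact ⟨(a : L) • u, V.smul_mem _ hu, hug.smul a, red_smul hug a⟩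

theorem mem_resSub {g : L × L} {V : Submodule L F} {w : F₁ × F₂} :
    w ∈ C.resSub g V ↔ ∃ u ∈ V, C.Mem g u ∧ C.red g u = w := Iff.rfl

theorem resSub_mono {g : L × L} {V W : Submodule L F} (h : V ≤ W) :
    C.resSub g V ≤ C.resSub g W :=
  fun _ ⟨u, hu, hug, e⟩ => ⟨u, h hu, hug, e⟩

theorem exists_basis {g : L × L} (h₁ : g.1 ≠ 0) (h₂ : g.2 ≠ 0) (V : Submodule L F)
    [FiniteDimensional L V] :
    ∃ b : Fin (Module.finrank L V) → F, (∀ i, b i ∈ V) ∧ (∀ i, C.Mem g (b i)) ∧
      LinearIndependent k (fun i => C.red g (b i)) := by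
  obtain ⟨b, hb₁, hb₂, hV, hli⟩ := C.ortho g.1 g.2 h₁ h₂ V
  refine ⟨b, hV, fun i => ⟨hb₁ i, hb₂ i⟩, ?_⟩
  convert hli using 1
  funext i
  exact Prod.ext (C.b₁.red_eq (hb₁ i)) (C.b₂.red_eq (hb₂ i))

theorem resSub_eq_span {g : L × L} {V : Submodule L F} [FiniteDimensional L V]
    {b : Fin (Module.finrank L V) → F} (hV : ∀ i, b i ∈ V) (hb : ∀ i, C.Mem g (b i))
    (hli : LinearIndependent k fun i => C.red g (b i)) :
    C.resSub g V = Submodule.span k (Set.range fun i => C.red g (b i)) := by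
  refine le_antisymm ?_ (Submodule.span_le.mpr (by
    rintro _ ⟨i, rfl⟩; exact ⟨b i, hV i, hb i, rfl⟩))
  rintro _ ⟨u, hu, hug, rfl⟩
  have hspan : Submodule.span L (Set.range b) = V := by
    refine Submodule.eq_of_le_of_finrank_eq
      (Submodule.span_le.mpr (by rintro _ ⟨i, rfl⟩; exact hV i)) ?_
    rw [finrank_span_eq_card (C.linearIndependent_of_red hb hli), Fintype.card_fin]
  rw [← hspan] at hu
  obtain ⟨c, rfl⟩ := (Submodule.mem_span_range_iff_exists_fun L).mp hu
  have hc := C.coord_mem hb hli hug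
  rw [show (∑ i, c i • b i) = ∑ i, ((⟨c i, hc i⟩ : A) : L) • b i from rfl,
    red_sum fun i _ => (hb i).smul _]
  refine Submodule.sum_mem _ fun i _ => ?_
  rw [red_smul (hb i)]
  exact Submodule.smul_mem _ _ (Submodule.subset_span ⟨i, rfl⟩)

theorem finiteDimensional_resSub {g : L × L} (h₁ : g.1 ≠ 0) (h₂ : g.2 ≠ 0) (V : Submodule L F)
    [FiniteDimensional L V] : FiniteDimensional k (C.resSub g V) := by
  obtain ⟨b, hV, hb, hli⟩ := C.exists_basis h₁ h₂ V
  rw [C.resSub_eq_span hV hb hli]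
  exact FiniteDimensional.span_of_finite k (Set.finite_range _)

/-- The reductions of a finite dimensional space form a space of the same dimension. -/
theorem finrank_resSub {g : L × L} (h₁ : g.1 ≠ 0) (h₂ : g.2 ≠ 0) (V : Submodule L F)
    [FiniteDimensional L V] : Module.finrank k (C.resSub g V) = Module.finrank L V := by
  obtain ⟨b, hV, hb, hli⟩ := C.exists_basis h₁ h₂ V
  rw [C.resSub_eq_span hV hb hli, finrank_span_eq_card hli, Fintype.card_fin]

end PairReduction

end FLTAgent.Semistable
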