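import Fermat.Agent.Semistable.Abstract
import Fermat.Agent.FFRiemannRoch.LinearSystems

/-!
# Values of functions at rational places

The calculus of `HasValue`, the value `valueAt` as a linear form, and interpolation of values
at finitely many places in large degree (`exists_mem_valueAt_eq`).
-/

set_option autoImplicit false

noncomputable section

open AlgebraicCurve FLTAgent.FFRiemannRoch

namespace FLTAgent.Semistable

variable {k Fb : Type*} [Field k] [Field Fb] [Algebra k Fb]
variable {v : Place k Fb} {a b : Fb} {c d : k}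

theorem HasValue.mem_ball_zero (h : HasValue v a c) : a ∈ ball v 0 := by
  have := add_mem (ball_mono v (show (-1 : ℤ) ≤ 0 by omega) h) (algebraMap_mem_ball v le_rfl c)
  simpa using this

theorem HasValue.unique (h : HasValue v a c) (h' : HasValue v a d) : c = d := by
  by_contra hne
  have h1 := sub_mem h' h
  rw [show a - algebraMap k Fb d - (a - algebraMap k Fb c) = algebraMap k Fb (c - d) by
    rw [map_sub]; ring] at h1
  have hne' : algebraMap k Fb (c - d) ≠ 0 :=
    (map_ne_zero_iff _ (algebraMap k Fb).injective).mpr (sub_ne_zero.mpr hne)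
  have h2 := (mem_ball_iff_ord v).mp h1
  have h3 := (mem_ball_iff_ord v).mp (algebraMap_mem_ball v (le_refl (0 : ℤ)) (c - d)⁻¹)
  rw [map_inv₀, v.ord_inv] at h3
  simp only [hne', inv_eq_zero, false_or] at h2 h3
  omega

theorem HasValue.add (h : HasValue v a c) (h' : HasValue v b d) :
    HasValue v (a + b) (c + d) := by
  unfold HasValue at *
  rw [map_add, add_sub_add_comm]
  exact add_mem h h'

theorem hasValue_zero : HasValue v (0 : Fb) 0 := by
  unfold HasValue
  simp

theorem hasValue_algebraMap (c : k) : HasValue v (algebraMap k Fb c) c := by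
  unfold HasValue
  rw [sub_self]
  exact zero_mem _

theorem hasValue_one : HasValue v (1 : Fb) 1 := by
  simpa using hasValue_algebraMap (v := v) (1 : k)

theorem HasValue.mul (h : HasValue v a c) (h' : HasValue v b d) :
    HasValue v (a * b) (c * d) := by
  have h1 := mul_mem_ball v (m := -1) (n := 0) h h'.mem_ball_zero
  have h2 := mul_mem_ball v (m := 0) (n := -1) (algebraMap_mem_ball v le_rfl c) h'
  simp only [add_zero, zero_add] at h1 h2
  unfold HasValue at *
  rw [map_mul, show a * b - algebraMap k Fb c * algebraMap k Fb d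
    = (a - algebraMap k Fb c) * b + algebraMap k Fb c * (b - algebraMap k Fb d) by ring]
  exact add_mem h1 h2

theorem HasValue.pow (h : HasValue v a c) : ∀ n : ℕ, HasValue v (a ^ n) (c ^ n)
  | 0 => by simpa using hasValue_one (v := v)
  | n + 1 => by
    rw [pow_succ, pow_succ]
    exact (h.pow n).mul h

theorem HasValue.const_mul (h : HasValue v a c) (e : k) :
    HasValue v (algebraMap k Fb e * a) (e * c) := (hasValue_algebraMap e).mul h

theorem HasValue.sum {α : Type*} (S : Finset α) {f : α → Fb} {g : α → k}
    (h : ∀ i ∈ S, HasValue v (f i) (g i)) : HasValue v (∑ i ∈ S, f i) (∑ i ∈ S, g i) := by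
  induction S using Finset.cons_induction with
  | empty => simpa using hasValue_zero
  | cons i S hi ih =>
    rw [Finset.sum_cons, Finset.sum_cons]
    exact (h i (Finset.mem_cons_self i S)).add (ih fun j hj => h j (Finset.mem_cons_of_mem hj))

theorem HasValue.smul (h : HasValue v a c) (e : k) : HasValue v (e • a) (e * c) := by
  rw [Algebra.smul_def]
  exact h.const_mul e

theorem hasValue_zero_iff : HasValue v a 0 ↔ a ∈ ball v (-1) := by
  simp [HasValue]

theorem HasValue.ord_eq_zero (h : HasValue v a c) (hc : c ≠ 0) : v.ord a = 0 := by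
  have h0 := (mem_ball_iff_ord v).mp h.mem_ball_zero
  have hnot : a ∉ ball v (-1) := fun hm => hc (h.unique (hasValue_zero_iff.mpr hm))
  rw [mem_ball_iff_ord] at hnot
  push Not at hnot
  have := h0.resolve_left hnot.1
  omega

/-- An element with nonzero value is nonzero. -/
theorem HasValue.ne_zero (h : HasValue v a c) (hc : c ≠ 0) : a ≠ 0 := fun h0 =>
  hc ((h0 ▸ h).unique hasValue_zero)

section Eval

variable [∀ v : Place k Fb, v.FiniteResidue] [IsAlgClosed k]

theorem exists_hasValue (ha : a ∈ ball v 0) : ∃ c : k, HasValue v a c :=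
  exists_sub_algebraMap_mem_ball v ha

/-- The value of `a` at `v` (zero at a pole). -/
def valueAt (v : Place k Fb) (a : Fb) : k :=
  letI := Classical.propDecidable
  if h : ∃ c : k, HasValue v a c then h.choose else 0

theorem hasValue_valueAt (ha : a ∈ ball v 0) : HasValue v a (valueAt v a) := by
  rw [valueAt, dif_pos (exists_hasValue ha)]
  exact (exists_hasValue ha).choose_spec

/-- The value of an element. -/
theorem HasValue.valueAt_eq (h : HasValue v a c) : valueAt v a = c :=
  (hasValue_valueAt h.mem_ball_zero).unique h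

/-- Evaluation at `v` as a linear form on functions regular at `v`. -/
def valueHom (v : Place k Fb) : ball v 0 →ₗ[k] k where
  toFun a := valueAt v (a : Fb)
  map_add' a b := ((hasValue_valueAt a.2).add (hasValue_valueAt b.2)).valueAt_eq
  map_smul' e a := by
    rw [RingHom.id_apply, SetLike.val_smul, Algebra.smul_def]
    exact ((hasValue_valueAt a.2).const_mul e).valueAt_eq

omit [∀ v : Place k Fb, v.FiniteResidue] [IsAlgClosed k] in
theorem mem_ball_zero_of_mem {D : Divisor k Fb} (hD : D v ≤ 0)
    (ha : a ∈ riemannRochSpace D) : a ∈ ball v 0 := ball_mono v hD (ha v)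

/-- Evaluation at `v` on `L(D)`, for `D v ≤ 0`. -/
def evalL (D : Divisor k Fb) (v : Place k Fb) (hD : D v ≤ 0) : riemannRochSpace D →ₗ[k] k :=
  (valueHom v).comp (Submodule.inclusion fun _ ha => mem_ball_zero_of_mem hD ha)

variable [HasPrincipalDivisors k Fb] [Nonempty (Place k Fb)] [HasRiemannBound k Fb]

/-- Interpolation: arbitrary values at finitely many places off `D`, in large degree. -/
theorem exists_mem_valueAt_eq {ι : Type*} [Fintype ι] {p : ι → Place k Fb}
    (hp : Function.Injective p) {D : Divisor k Fb} (hD : ∀ s, D (p s) = 0)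
    (hdeg : 2 * (genusFF k Fb : ℤ) + Fintype.card ι ≤ Divisor.degree D) (c : ι → k) :
    ∃ a ∈ riemannRochSpace D, ∀ s, HasValue (p s) a (c s) := by
  classical
  have hkey : ∀ s : ι, ∃ a ∈ riemannRochSpace D, HasValue (p s) a 1 ∧
      ∀ t, t ≠ s → HasValue (p t) a 0 := by
    intro s
    set D' : Divisor k Fb := D - ∑ t ∈ Finset.univ.erase s, Finsupp.single (p t) 1 with hD'
    have hdeg' : 2 * (genusFF k Fb : ℤ) ≤ Divisor.degree D' := by
      rw [hD', map_sub, map_sum]
      simp only [Divisor.degree_single, deg_eq_one, Finset.sum_const, Finset.card_erase_of_mem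
        (Finset.mem_univ s), Finset.card_univ, nsmul_eq_mul]
      have : 1 ≤ Fintype.card ι := Fintype.card_pos_iff.mpr ⟨s⟩
      push_cast [Nat.cast_sub this]
      omega
    have happ : ∀ t, D' (p t) = if t = s then 0 else -1 := fun t => by
      rw [hD', Finsupp.sub_apply, hD, Finset.sum_apply']
      simp [Finsupp.single_apply, hp.eq_iff, Finset.sum_ite_eq']
      split_ifs <;> simp
    obtain ⟨a, ha, ha0, hord⟩ := exists_ord_eq_neg_of_two_mul_le (p s) hdeg'
    rw [happ, if_pos rfl, neg_zero] at hord
    have hball : ∀ t, a ∈ ball (p t) (if t = s then 0 else -1) := fun t => happ t ▸ ha (p t)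
    have hs0 : a ∈ ball (p s) 0 := by simpa using hball s
    have hv := hasValue_valueAt hs0
    have hne : valueAt (p s) a ≠ 0 := fun h0 => by
      rw [h0, hasValue_zero_iff, mem_ball_iff_ord] at hv
      rcases hv with h | h
      · exact ha0 h
      · omega
    refine ⟨algebraMap k Fb (valueAt (p s) a)⁻¹ * a, ?_, ?_, fun t ht => ?_⟩
    · rw [← Algebra.smul_def]
      refine Submodule.smul_mem _ _ (FFBasic.riemannRochSpace_mono ?_ ha)
      exact sub_le_self _ (Finset.sum_nonneg fun t _ => single_nonneg _ zero_le_one)
    · simpa [inv_mul_cancel₀ hne] using hv.const_mul (valueAt (p s) a)⁻¹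
    · have h2 : HasValue (p t) a 0 := by
        rw [hasValue_zero_iff]; simpa [ht] using hball t
      simpa using h2.const_mul (valueAt (p s) a)⁻¹
  choose a ha h1 h0 using hkey
  refine ⟨∑ s, c s • a s, Submodule.sum_mem _ fun s _ => Submodule.smul_mem _ _ (ha s),
    fun t => ?_⟩
  have hsum := HasValue.sum (v := p t) Finset.univ
    (f := fun s => c s • a s) (g := fun s => c s * if t = s then 1 else 0) fun s _ => by
      refine HasValue.smul ?_ (c s)
      split_ifs with hts
      · exact hts ▸ h1 t
      · exact h0 s t hts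
  simpa using hsum

end Eval

end FLTAgent.Semistable
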