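import Fermat.Agent.Semistable.PairLattice
import Fermat.Agent.Semistable.Value

/-!
# Pairs of functions glued at the nodes

The space `glued n ε` of pairs with bounded poles whose values at the nodes are in ratio `ε`;
in large degree gluing costs exactly one condition per node (`finrank_glued`).
-/

set_option autoImplicit false

noncomputable section

open AlgebraicCurve FLTAgent.FFRiemannRoch

namespace FLTAgent.Semistable

theorem IsPolarDivisor.ord_pow {K G : Type*} [Field K] [Field G] [Algebra K G] {J : G}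
    {E : Divisor K G} (h : IsPolarDivisor J E) {v : Place K G} (hv : 0 < E v) (n : ℕ) :
    v.ord (J ^ n) = -((n : ℤ) * E v) := by
  have := v.ord_zpow J n
  rw [zpow_natCast, h.2.2 v hv] at this
  linarith

/-- Powers of the element lie in the multiples of its polar divisor. -/
theorem IsPolarDivisor.pow_mem {K G : Type*} [Field K] [Field G] [Algebra K G] {J : G}
    {E : Divisor K G} (h : IsPolarDivisor J E) : ∀ n : ℕ, J ^ n ∈ riemannRochSpace (n • E)
  | 0 => by
    rw [pow_zero, zero_smul]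
    exact fun v => (mem_ball_iff_ord v).mpr (Or.inr (by simp))
  | n + 1 => by
    rw [pow_succ, succ_nsmul]
    exact FFBasic.mul_mem_riemannRochSpace (h.pow_mem n) h.2.1

theorem nsmul_le_nsmul_divisor {K G : Type*} [Field K] [Field G] [Algebra K G] {E : Divisor K G}
    (h : 0 ≤ E) {a b : ℕ} (hab : a ≤ b) : a • E ≤ b • E := fun v => by
  simp only [Finsupp.smul_apply, nsmul_eq_mul]
  exact mul_le_mul_of_nonneg_right (by exact_mod_cast hab) (h v)

variable {L k : Type*} [Field L] [Field k] {A : ValuationSubring L} {π : A →+* k}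
variable {F F₁ F₂ : Type*} [Field F] [Field F₁] [Field F₂]
  [Algebra L F] [Algebra k F₁] [Algebra k F₂] {ι : Type*} [Fintype ι]

namespace PairReduction

variable (C : PairReduction A π F F₁ F₂ ι)

theorem node₁_le (n : ℕ) (s : ι) : (n • C.E₁) (C.node₁ s) ≤ 0 := by
  simp [C.node₁_off s]

theorem node₂_le (n : ℕ) (s : ι) : (n • C.E₂) (C.node₂ s) ≤ 0 := by
  simp [C.node₂_off s]

section Glued

variable [IsAlgClosed k] [∀ v : Place k F₁, v.FiniteResidue] [∀ v : Place k F₂, v.FiniteResidue]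

/-- Pairs in `L(n E₁) × L(n E₂)` with values in ratio `ε` at the nodes. -/
def glued (n : ℕ) (ε : ι → k) : Submodule k (F₁ × F₂) where
  carrier := {w | w.1 ∈ riemannRochSpace (n • C.E₁) ∧ w.2 ∈ riemannRochSpace (n • C.E₂) ∧
    ∀ s, valueAt (C.node₁ s) w.1 = ε s * valueAt (C.node₂ s) w.2}
  zero_mem' := ⟨zero_mem _, zero_mem _, fun s => by
    simp [(hasValue_zero (v := C.node₁ s)).valueAt_eq, (hasValue_zero (v := C.node₂ s)).valueAt_eq]⟩
  add_mem' := by
    rintro a b ⟨ha₁, ha₂, ha⟩ ⟨hb₁, hb₂, hb⟩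
    refine ⟨add_mem ha₁ hb₁, add_mem ha₂ hb₂, fun s => ?_⟩
    rw [Prod.fst_add, Prod.snd_add,
      ((hasValue_valueAt (mem_ball_zero_of_mem (C.node₁_le n s) ha₁)).add
        (hasValue_valueAt (mem_ball_zero_of_mem (C.node₁_le n s) hb₁))).valueAt_eq,
      ((hasValue_valueAt (mem_ball_zero_of_mem (C.node₂_le n s) ha₂)).add
        (hasValue_valueAt (mem_ball_zero_of_mem (C.node₂_le n s) hb₂))).valueAt_eq, ha s, hb s,
      mul_add]
  smul_mem' := by
    rintro c a ⟨ha₁, ha₂, ha⟩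
    refine ⟨Submodule.smul_mem _ c ha₁, Submodule.smul_mem _ c ha₂, fun s => ?_⟩
    rw [Prod.smul_fst, Prod.smul_snd,
      ((hasValue_valueAt (mem_ball_zero_of_mem (C.node₁_le n s) ha₁)).smul c).valueAt_eq,
      ((hasValue_valueAt (mem_ball_zero_of_mem (C.node₂_le n s) ha₂)).smul c).valueAt_eq, ha s]
    ring

theorem mem_glued {n : ℕ} {ε : ι → k} {w : F₁ × F₂} :
    w ∈ C.glued n ε ↔ w.1 ∈ riemannRochSpace (n • C.E₁) ∧ w.2 ∈ riemannRochSpace (n • C.E₂) ∧
      ∀ s, valueAt (C.node₁ s) w.1 = ε s * valueAt (C.node₂ s) w.2 := Iff.rfl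

theorem glued_mul {m n : ℕ} {ε δ : ι → k} {a b : F₁ × F₂} (ha : a ∈ C.glued m ε)
    (hb : b ∈ C.glued n δ) : a * b ∈ C.glued (m + n) (ε * δ) := by
  refine ⟨?_, ?_, fun s => ?_⟩
  · rw [add_nsmul]; exact FFBasic.mul_mem_riemannRochSpace ha.1 hb.1
  · rw [add_nsmul]; exact FFBasic.mul_mem_riemannRochSpace ha.2.1 hb.2.1
  · rw [Prod.fst_mul, Prod.snd_mul,
      ((hasValue_valueAt (mem_ball_zero_of_mem (C.node₁_le m s) ha.1)).mul
        (hasValue_valueAt (mem_ball_zero_of_mem (C.node₁_le n s) hb.1))).valueAt_eq,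
      ((hasValue_valueAt (mem_ball_zero_of_mem (C.node₂_le m s) ha.2.1)).mul
        (hasValue_valueAt (mem_ball_zero_of_mem (C.node₂_le n s) hb.2.1))).valueAt_eq,
      ha.2.2 s, hb.2.2 s, Pi.mul_apply]
    ring

theorem red_mem_glued_one {n : ℕ} {u : F} (hu : C.Mem (1, 1) u)
    (hE : u ∈ riemannRochSpace (n • C.E)) : C.red (1, 1) u ∈ C.glued n 1 := by
  have h₁ : u ∈ C.b₁.O := one_smul L u ▸ hu.1
  have h₂ : u ∈ C.b₂.O := one_smul L u ▸ hu.2
  rw [mem_glued, red, C.b₁.red_one h₁, C.b₂.red_one h₂]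
  refine ⟨C.reg₁ n u h₁ h₂ hE, C.reg₂ n u h₁ h₂ hE, fun s => ?_⟩
  obtain ⟨c, hc₁, hc₂⟩ := C.compat n u h₁ h₂ hE s
  rw [hc₁.valueAt_eq, hc₂.valueAt_eq, Pi.one_apply, one_mul]

omit [IsAlgClosed k] [∀ v : Place k F₁, v.FiniteResidue]
  [∀ v : Place k F₂, v.FiniteResidue] in
theorem J_pow_mem (n : ℕ) : C.Mem (1, 1) (C.J ^ n) := by
  have : C.Mem (1, 1) C.J := ⟨show (1 : L) • C.J ∈ C.b₁.O by rw [one_smul]; exact C.J_mem₁,
    show (1 : L) • C.J ∈ C.b₂.O by rw [one_smul]; exact C.J_mem₂⟩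
  simpa [Prod.pow_def] using this.pow n

variable [HasPrincipalDivisors k F₁] [Nonempty (Place k F₁)] [HasRiemannBound k F₁]
  [HasPrincipalDivisors k F₂] [Nonempty (Place k F₂)] [HasRiemannBound k F₂]

/-- Interpolation inside pairs: all node values are attained in large degree. -/
theorem exists_pair_values : ∃ n₀ : ℕ, ∀ n, n₀ ≤ n → ∀ c₁ c₂ : ι → k, ∃ w : F₁ × F₂,
    w.1 ∈ riemannRochSpace (n • C.E₁) ∧ w.2 ∈ riemannRochSpace (n • C.E₂) ∧
      (∀ s, valueAt (C.node₁ s) w.1 = c₁ s) ∧ ∀ s, valueAt (C.node₂ s) w.2 = c₂ s := by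
  refine ⟨2 * genusFF k F₁ + 2 * genusFF k F₂ + Fintype.card ι, fun n hn c₁ c₂ => ?_⟩
  have h₁ := C.degree_pos₁
  have h₂ := C.degree_pos₂
  obtain ⟨a, ha, hav⟩ := exists_mem_valueAt_eq C.node₁_injective (D := n • C.E₁)
    (fun s => by simp [C.node₁_off s]) (by
      rw [map_nsmul, nsmul_eq_mul]
      have : (n : ℤ) * 1 ≤ n * Divisor.degree C.E₁ :=
        mul_le_mul_of_nonneg_left (by omega) (by omega)
      omega) c₁
  obtain ⟨b, hb, hbv⟩ := exists_mem_valueAt_eq C.node₂_injective (D := n • C.E₂)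
    (fun s => by simp [C.node₂_off s]) (by
      rw [map_nsmul, nsmul_eq_mul]
      have : (n : ℤ) * 1 ≤ n * Divisor.degree C.E₂ :=
        mul_le_mul_of_nonneg_left (by omega) (by omega)
      omega) c₂
  exact ⟨(a, b), ha, hb, fun s => (hav s).valueAt_eq, fun s => (hbv s).valueAt_eq⟩

omit [HasRiemannBound k F₁] [HasRiemannBound k F₂] in
theorem finiteDimensional_glued (n : ℕ) (ε : ι → k) : FiniteDimensional k (C.glued n ε) :=
  Module.Finite.of_injective
    ({ toFun := fun w => (⟨w.1.1, w.2.1⟩, ⟨w.1.2, w.2.2.1⟩)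
       map_add' := fun _ _ => rfl
       map_smul' := fun _ _ => rfl } :
      C.glued n ε →ₗ[k] riemannRochSpace (n • C.E₁) × riemannRochSpace (n • C.E₂))
    fun _ _ h => Subtype.ext (Prod.ext (congrArg (fun z => (z.1 : F₁)) h)
      (congrArg (fun z => (z.2 : F₂)) h))

/-- Gluing by a nowhere zero `ε` costs exactly one condition per node. -/
theorem finrank_glued : ∃ n₀ : ℕ, ∀ n, n₀ ≤ n → ∀ ε : ι → k,
    Module.finrank k (C.glued n ε) + Fintype.card ι
      = ell k F₁ (n • C.E₁) + ell k F₂ (n • C.E₂) := by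
  obtain ⟨n₀, hn₀⟩ := C.exists_pair_values
  refine ⟨n₀, fun n hn ε => ?_⟩
  let Φ : riemannRochSpace (n • C.E₁) × riemannRochSpace (n • C.E₂) →ₗ[k] (ι → k) :=
    LinearMap.pi fun s => (evalL _ (C.node₁ s) (C.node₁_le n s)).comp (LinearMap.fst k _ _)
      - ε s • (evalL _ (C.node₂ s) (C.node₂_le n s)).comp (LinearMap.snd k _ _)
  have hΦ : ∀ x s, Φ x s
      = valueAt (C.node₁ s) (x.1 : F₁) - ε s * valueAt (C.node₂ s) (x.2 : F₂) := fun x s => rfl
  have hsurj : Function.Surjective Φ := fun c => by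
    obtain ⟨w, hw₁, hw₂, hv₁, hv₂⟩ := hn₀ n hn c 0
    exact ⟨(⟨w.1, hw₁⟩, ⟨w.2, hw₂⟩), funext fun s => by rw [hΦ, hv₁, hv₂]; simp⟩
  have hker : Module.finrank k (LinearMap.ker Φ) = Module.finrank k (C.glued n ε) := by
    let e : LinearMap.ker Φ →ₗ[k] C.glued n ε :=
      { toFun := fun x => ⟨((x.1.1 : F₁), (x.1.2 : F₂)), x.1.1.2, x.1.2.2, fun s => by
          have := congrFun (LinearMap.mem_ker.mp x.2) s
          rw [hΦ, Pi.zero_apply, sub_eq_zero] at this
          exact this⟩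
        map_add' := fun _ _ => rfl
        map_smul' := fun _ _ => rfl }
    refine (LinearEquiv.ofBijective e ⟨fun x y h => ?_, fun w => ?_⟩).finrank_eq
    · have h1 := congrArg (fun z : C.glued n ε => (z : F₁ × F₂)) h
      exact Subtype.ext (Prod.ext (Subtype.ext (congrArg Prod.fst h1))
        (Subtype.ext (congrArg Prod.snd h1)))
    · obtain ⟨⟨a, b⟩, ha, hb, hab⟩ := w
      exact ⟨⟨(⟨a, ha⟩, ⟨b, hb⟩), LinearMap.mem_ker.mpr (funext fun s => by
        rw [hΦ, Pi.zero_apply, sub_eq_zero]; exact hab s)⟩, rfl⟩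
  have h := LinearMap.finrank_range_add_finrank_ker Φ
  rw [LinearMap.range_eq_top.mpr hsurj, finrank_top, Module.finrank_fintype_fun_eq_card, hker,
    Module.finrank_prod] at h
  unfold ell
  omega

end Glued

end PairReduction

end FLTAgent.Semistable
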