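import Fermat.Agent.Semistable.Compat

/-!
# Pairs of residues with bounded poles

`Reach n a b`: `(a, b)` is the pair of residues of a function with poles bounded by `n` times
those of `j`; its closure properties and the basic lifts used to count dimensions in
`Semistable.Dim`.
-/

set_option autoImplicit false

noncomputable section

open AlgebraicCurve ModularCurve Polynomial FLTAgent.FFBasic FLTAgent.Deuring
open FLTAgent.HeckeJacobian

namespace FLTAgent.Semistable

theorem map_mem_rr {K F F' : Type*} [Field K] [Field F] [Field F'] [Algebra K F] [Algebra K F']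
    [IsFunctionField K F] [IsFunctionField K F'] (φ : F →ₐ[K] F') {x f : F} (hx : x ≠ 0) {n : ℕ}
    (hf : f ∈ riemannRochSpace (n • pol (K := K) x)) :
    φ f ∈ riemannRochSpace (n • pol (K := K) (φ x)) := by
  refine mem_rr_of_inB ((_root_.map_ne_zero φ).mpr hx) (inB_map φ (inB_of_mem hf)) ?_
  have h := inB_map φ (inB_inv_of_mem hx hf)
  rwa [map_mul, map_pow, map_inv₀] at h

theorem pol_le_nsmul {K F : Type*} [Field K] [Field F] [Algebra K F] [IsFunctionField K F]
    [IsAlgClosed K] {x y : F} (hy : y ≠ 0) (h : InB K x y) :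
    ∃ c : ℕ, pol (K := K) y ≤ c • pol (K := K) x := by
  obtain ⟨c, hc⟩ := h.exists_mem
  refine ⟨c, fun v => ?_⟩
  have h1 := (mem_rr_iff_of_ne hy).mp hc v
  have h2 : (0 : ℤ) ≤ (c • pol (K := K) x) v := by
    rw [Finsupp.smul_apply]; exact nsmul_nonneg (pol_nonneg x v) c
  rw [pol_apply]
  omega

namespace Level

local notation "Qbar" => AlgebraicClosure ℚ

variable {M q : ℕ} [NeZero M] [Fact q.Prime]
variable {k : Type} [Field k] [IsAlgClosed k] [CharP k q]
variable {A : ValuationSubring Qbar} {π : A →+* k} (S : Setting M q A π)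

/-- `(a, b)` is the pair of residues of a function with poles bounded by `n` times those of `j`. -/
def Reach (n : ℕ) (a b : modularFunctionFieldFullC k M) : Prop :=
  ∃ u ∈ riemannRochSpace (n • pol (K := Qbar) (jA M q)), HasPair π S.al u a b

omit [IsAlgClosed k] [CharP k q] in
theorem Reach.add {n : ℕ} {a b a' b' : modularFunctionFieldFullC k M} (h : Reach S n a b)
    (h' : Reach S n a' b') : Reach S n (a + a') (b + b') := by
  obtain ⟨u, hu, hp⟩ := h
  obtain ⟨v, hv, hq⟩ := h'
  exact ⟨u + v, add_mem hu hv, hp.add hq⟩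

omit [IsAlgClosed k] [CharP k q] in
theorem Reach.mul {n n' : ℕ} {a b a' b' : modularFunctionFieldFullC k M} (h : Reach S n a b)
    (h' : Reach S n' a' b') : Reach S (n + n') (a * a') (b * b') := by
  obtain ⟨u, hu, hp⟩ := h
  obtain ⟨v, hv, hq⟩ := h'
  exact ⟨u * v, by rw [add_nsmul]; exact mul_mem_riemannRochSpace hu hv, hp.mul hq⟩

omit [IsAlgClosed k] [CharP k q] in
theorem Reach.mono {n n' : ℕ} (hn : n ≤ n') {a b : modularFunctionFieldFullC k M}
    (h : Reach S n a b) : Reach S n' a b := by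
  obtain ⟨u, hu, hp⟩ := h
  exact ⟨u, rr_nsmul_pol_mono _ hn hu, hp⟩

omit [IsAlgClosed k] [CharP k q] in
theorem Reach.smul {n : ℕ} {a b : modularFunctionFieldFullC k M} (h : Reach S n a b) (c : k) :
    Reach S n (c • a) (c • b) := by
  obtain ⟨u, hu, hp⟩ := h
  obtain ⟨d, rfl⟩ := S.surj c
  exact ⟨(d : Qbar) • u, Submodule.smul_mem _ _ hu,
    (hp.const_smul d).congr rfl (by rw [Algebra.smul_def]; rfl) (by rw [Algebra.smul_def]; rfl)⟩

variable [IsFunctionField k (modularFunctionFieldFullC k M)]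

/-- Reached pairs lie in the two Riemann–Roch spaces. -/
theorem Reach.mem {n : ℕ} {a b : modularFunctionFieldFullC k M} (h : Reach S n a b) :
    a ∈ riemannRochSpace (n • pol (K := k) (Modular.jFb (k := k) M)) ∧
      b ∈ riemannRochSpace (n • pol (K := k) (expandSpecial q M (Modular.jFb (k := k) M))) := by
  obtain ⟨u, hu, h₁, h₂, e₁, e₂⟩ := h
  obtain ⟨p, p'⟩ := reg_res S n h₁ h₂ hu
  rw [show (branch₁ S).res ⟨u, h₁⟩ = a from Subtype.ext e₁] at p
  rw [show (branch₂ S).res ⟨u, h₂⟩ = b from Subtype.ext e₂] at p'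
  exact ⟨p, p'⟩

theorem inB_hbar : InB k (Modular.jFb (k := k) M) (hbar S) :=
  (inB_res_fin S (h_mem₁ S) (h_mem₂ S) S.al.inB_h).1

omit [IsFunctionField k ↥(modularFunctionFieldFullC k M)] in
theorem reach_alpha_j :
    Reach S 1 (Modular.jFb (k := k) M) (expandSpecial q M (Modular.jFb (k := k) M)) :=
  ⟨jA M q, by simpa using pow_mem_rr_nsmul_pol (K := Qbar) (jA M q) 1, hasPair_alpha_j S⟩

omit [CharP k q] in
/-- Lifts from level `M`, for both degeneracy maps. -/
theorem exists_lifts :
    ∃ n₀ : ℕ, ∀ n, n₀ ≤ n → ∀ a ∈ riemannRochSpace (n • pol (K := k) (Modular.jFb (k := k) M)),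
      ∃ x : S.red.O, (x : modularFunctionFieldBar M) ∈
          riemannRochSpace (n • pol (K := Qbar) (Modular.jF (L := Qbar) M)) ∧ S.red.res x = a := by
  have : IsFunctionField Qbar (Modular.FF Qbar M) := Modular.isFunctionFieldL S.good
  obtain ⟨n₀, h⟩ := (atlas S).X.exists_resSub_eq (atlas S).X' (atlas S).inv
  refine ⟨n₀, fun n hn a ha => ?_⟩
  have := h n hn
  rw [res_chart] at this
  obtain ⟨x, hx, rfl⟩ := this.ge ha
  exact ⟨x, hx, rfl⟩

omit [IsFunctionField k ↥(modularFunctionFieldFullC k M)] in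
/-- A lift of an element of `L(n · poles of j̄)` through `α`. -/
theorem reach_alpha {n : ℕ} {x : S.red.O} (hx : (x : modularFunctionFieldBar M) ∈
      riemannRochSpace (n • pol (K := Qbar) (Modular.jF (L := Qbar) M))) :
    Reach S n (S.red.res x) (expandSpecial q M (S.red.res x)) := by
  refine ⟨heckeAlphaBar Qbar M q x, ?_, hasPair_alpha S.good S.surj x⟩
  exact map_mem_rr (heckeAlphaBar Qbar M q)
    (fun h => Modular.transcendental_jF (L := Qbar) M (by rw [h]; exact isAlgebraic_zero)) hx

omit [IsFunctionField k ↥(modularFunctionFieldFullC k M)] in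
/-- Lifts through `β` are reached in bounded degree. -/
theorem exists_reach_beta (n : ℕ) : ∃ N : ℕ, ∀ x : S.red.O,
    (x : modularFunctionFieldBar M) ∈
      riemannRochSpace (n • pol (K := Qbar) (Modular.jF (L := Qbar) M)) →
    Reach S N (expandSpecial q M (S.red.res x)) (S.red.res x) := by
  have hj : Modular.jF (L := Qbar) M ≠ 0 := fun h =>
    Modular.transcendental_jF (L := Qbar) M (h ▸ isAlgebraic_zero)
  have hjB : jB M q ≠ 0 := (_root_.map_ne_zero _).mpr hj
  obtain ⟨c, hc⟩ := pol_le_nsmul hjB (inB_jA_jB M q)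
  refine ⟨n * c, fun x hx => ⟨heckeBetaBar Qbar M q x, riemannRochSpace_mono ?_
    (map_mem_rr (heckeBetaBar Qbar M q) hj hx), hasPair_beta S.good S.surj x⟩⟩
  rw [mul_nsmul']
  exact nsmul_le_nsmul_right hc n

omit [IsFunctionField k ↥(modularFunctionFieldFullC k M)] in
/-- The basic lifts on the second branch. -/
theorem reach_twist {b : ℕ} (hb : 0 < b) {x : S.red.O}
    (hx : (x : modularFunctionFieldBar M) ∈
      riemannRochSpace (b • pol (K := Qbar) (Modular.jF (L := Qbar) M))) :
    Reach S b 0 (hbar S ^ b * S.red.res x) := by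
  have hj : Modular.jF (L := Qbar) M ≠ 0 := fun h =>
    Modular.transcendental_jF (L := Qbar) M (h ▸ isAlgebraic_zero)
  refine ⟨S.al.w S.al.h ^ b * heckeBetaBar Qbar M q x, ?_, ?_⟩
  · rcases eq_or_ne (x : modularFunctionFieldBar M) 0 with h0 | h0
    · rw [show heckeBetaBar Qbar M q (x : modularFunctionFieldBar M) = 0 by rw [h0, map_zero],
        mul_zero]
      exact Submodule.zero_mem _
    have hjA : jA M q ≠ 0 := (_root_.map_ne_zero _).mpr hj
    have hjB : jB M q ≠ 0 := (_root_.map_ne_zero _).mpr hj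
    have hwh : S.al.w S.al.h ≠ 0 := by
      intro h
      have := S.al.h_mul
      rw [h, mul_zero] at this
      exact Nat.cast_ne_zero.mpr (Fact.out : q.Prime).ne_zero (pow_eq_zero_iff (by norm_num) |>.mp
        this.symm)
    have hy : heckeBetaBar Qbar M q (x : modularFunctionFieldBar M) ≠ 0 :=
      (_root_.map_ne_zero _).mpr h0
    have hB := (mem_rr_iff_of_ne hy).mp (map_mem_rr (heckeBetaBar Qbar M q) hj hx)
    refine mem_rr_of_ord fun v => ?_
    have h1 := hB v
    rw [Finsupp.smul_apply, pol_apply, nsmul_eq_mul] at h1 ⊢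
    rw [v.ord_mul (pow_ne_zero _ hwh) hy, FFBasic.ord_pow]
    rcases le_or_gt 0 (v.ord (jA M q)) with hv | hv
    · have := inB_jA_jB M q v hv
      rw [max_eq_right (show -v.ord (jB M q) ≤ 0 by omega)] at h1
      have h2 := S.al.inB_wh v hv
      rw [max_eq_right (show -v.ord (jA M q) ≤ 0 by omega)]
      have : (0 : ℤ) ≤ (b : ℤ) * v.ord (S.al.w S.al.h) := mul_nonneg (Int.natCast_nonneg b) h2
      omega
    · have hv' : v.ord (jB M q) < 0 := by
        by_contra hcon
        have := inB_jB_jA S.al v (not_lt.mp hcon)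
        omega
      rw [max_eq_left (show (0 : ℤ) ≤ -v.ord (jB M q) by omega)] at h1
      rw [max_eq_left (show (0 : ℤ) ≤ -v.ord (jA M q) by omega)]
      have h2 := S.al.inB_eta v (show 0 ≤ v.ord (jA M q)⁻¹ by rw [v.ord_inv]; omega)
      change 0 ≤ v.ord (S.al.w S.al.h * jB M q / jA M q) at h2
      rw [div_eq_mul_inv, v.ord_mul (mul_ne_zero hwh hjB) (inv_ne_zero hjA), v.ord_mul hwh hjB,
        v.ord_inv] at h2
      have h3 : (0 : ℤ) ≤ (b : ℤ) *
          (v.ord (S.al.w S.al.h) + v.ord (jB M q) + -v.ord (jA M q)) :=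
        mul_nonneg (Int.natCast_nonneg b) h2
      linarith
  · refine (((hasPair_wh (π := π) (I := S.al)).pow b).mul (hasPair_beta S.good S.surj x)).congr
      rfl ?_ ?_
    · rw [zero_pow hb.ne', zero_mul]; rfl
    · rw [← coe_hbar S]; rfl

end Level

end FLTAgent.Semistable
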