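import Fermat.Agent.Semistable.Branches
import Fermat.Agent.Semistable.InBTools
import Mathlib.LinearAlgebra.Matrix.Charpoly.Coeff
import Mathlib.LinearAlgebra.Matrix.ToLinearEquiv

/-!
# Regularity of residues off the cusps

Doubly integral functions on `X₀(Mq)` regular off the cusps reduce, on both branches, to
functions regular off the cusps (`inB_res`, `reg_res`); this supplies the regularity fields of
the pair reduction.
-/

set_option autoImplicit false

noncomputable section

open AlgebraicCurve ModularCurve Polynomial FLTAgent.FFBasic FLTAgent.Deuring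
open FLTAgent.HeckeJacobian
open FLTAgent.GoodReduction (X0GoodReduction)

namespace FLTAgent.Semistable.Level

local notation "Qbar" => AlgebraicClosure ℚ

/-- `j(τ)` on `X₀(Mq)`. -/
abbrev jA (M q : ℕ) [NeZero M] [NeZero q] : modularFunctionFieldBar (M * q) :=
  heckeAlphaBar Qbar M q (Modular.jF M)

/-- `j(qτ)` on `X₀(Mq)`. -/
abbrev jB (M q : ℕ) [NeZero M] [NeZero q] : modularFunctionFieldBar (M * q) :=
  heckeBetaBar Qbar M q (Modular.jF M)

theorem coe_jA (M q : ℕ) [NeZero M] [NeZero q] :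
    (jA M q : LaurentSeries Qbar) = jqModC Qbar := coe_heckeAlphaBar _ _ _

theorem coe_jB (M q : ℕ) [NeZero M] [NeZero q] :
    (jB M q : LaurentSeries Qbar) = qExpand Qbar q (jqModC Qbar) := coe_heckeBetaBar _ _ _

theorem inB_jA_jB (M q : ℕ) [NeZero M] [NeZero q] : InB Qbar (jA M q) (jB M q) := by
  obtain ⟨p, hp, hpe⟩ := CongruenceRel.ModularEquations.fwd' CongruenceRel.modularEquations
    (L := Qbar) q
  let ψ : ℤ[X] →+* modularFunctionFieldBar (M * q) :=
    eval₂RingHom (Int.castRingHom _) (jA M q)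
  have hψ : (modularFunctionFieldBar (M * q)).val.toRingHom.comp ψ = CongruenceRel.evalJ Qbar :=
    Polynomial.ringHom_ext' (RingHom.ext_int _ _) (by simp [ψ, Modular.coe_jF])
  refine inB_of_root (p := p.map ψ) (hp.map ψ) (fun i => ?_) ?_
  · intro v hv
    rw [coeff_map]
    refine ord_nonneg_of_mem v ?_
    show eval₂ (Int.castRingHom _) (jA M q) (p.coeff i) ∈ v.toValuationSubring
    rw [eval₂_eq_sum_range]
    exact sum_mem fun j _ => mul_mem (intCast_mem _ _) (pow_mem (mem_of_ord_nonneg v hv) _)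
  · apply (modularFunctionFieldBar (M * q)).val.toRingHom.injective
    rw [eval_map, hom_eval₂, hψ, map_zero]
    exact (congrArg (fun s => eval₂ (CongruenceRel.evalJ Qbar) s p) (coe_jB M q)).trans hpe

variable {M q : ℕ} [NeZero M] [Fact q.Prime]

theorem inB_jB_jA (I : ALData M q) : InB Qbar (jB M q) (jA M q) := by
  have h := inB_map I.w (inB_jA_jB M q)
  rwa [w_alpha_apply, w_beta_apply] at h

theorem transcendental_jA : Transcendental Qbar (jA M q) := fun h =>
  Modular.transcendental_jF (L := Qbar) M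
    ((isAlgebraic_algHom_iff (heckeAlphaBar Qbar M q) (heckeAlphaBar Qbar M q).injective).mp h)

variable {k : Type} [Field k] [IsAlgClosed k] [CharP k q]
variable {A : ValuationSubring Qbar} {π : A →+* k} (S : Setting M q A π)

theorem exists_integral_monic {u : modularFunctionFieldBar (M * q)} (h₁ : u ∈ (branch₁ S).O)
    (h₂ : u ∈ (branch₂ S).O) :
    ∃ P : (modularFunctionFieldBar M)[X], P.Monic ∧ (∀ i, P.coeff i ∈ S.red.O) ∧
      P.eval₂ (heckeAlphaBar Qbar M q).toRingHom u = 0 := by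
  classical
  set e := basisFun S
  have he : ∀ l, e l ∈ (branch₁ S).O ∧ e l ∈ (branch₂ S).O := fun l => by
    obtain ⟨a, b, -, -⟩ := hasPair_basisFun S l
    exact ⟨a, b⟩
  choose x hx hxO using fun l => exists_coords S (u * e l)
  have hxO' : ∀ l i, x l i ∈ S.red.O := fun l =>
    hxO l (mul_mem h₁ (he l).1) (mul_mem h₂ (he l).2)
  let X₀ : Matrix (Fin (q + 1)) (Fin (q + 1)) S.red.O := fun l i => ⟨x l i, hxO' l i⟩
  let P := X₀.charpoly.map S.red.O.subtype
  refine ⟨P, (Matrix.charpoly_monic _).map _,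
    fun i => by rw [coeff_map]; exact SetLike.coe_mem _, ?_⟩
  let ψ : S.red.O →+* modularFunctionFieldBar (M * q) :=
    (heckeAlphaBar Qbar M q).toRingHom.comp S.red.O.subtype
  rw [eval₂_map, show (heckeAlphaBar Qbar M q).toRingHom.comp S.red.O.subtype = ψ from rfl,
    ← eval_map, ← Matrix.charpoly_map, Matrix.eval_charpoly]
  refine Matrix.exists_mulVec_eq_zero_iff.mp ⟨e, fun h0 => ?_, ?_⟩
  · have hh : e 0 = 0 := congrFun h0 0
    have hp := hasPair_basisFun S 0
    rw [show basisFun S 0 = 0 from hh] at hp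
    exact (order_unitSeries q).1 (hp.unique HasPair.zero).1
  · funext l
    rw [Matrix.sub_mulVec, Pi.sub_apply, Matrix.scalar_apply, Matrix.mulVec_diagonal, Pi.zero_apply,
      sub_eq_zero, hx l]
    rfl

/-- Monic equations over level `M`, integral and regular where `y` is. -/
theorem exists_monic {y : modularFunctionFieldBar M} {u : modularFunctionFieldBar (M * q)}
    (h₁ : u ∈ (branch₁ S).O) (h₂ : u ∈ (branch₂ S).O)
    (hu : InB Qbar (heckeAlphaBar Qbar M q y) u) :
    ∃ P : (S.red.O)[X], P.Monic ∧ (∀ i, InB Qbar y (P.coeff i : modularFunctionFieldBar M)) ∧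
      P.eval₂ ((heckeAlphaBar Qbar M q).toRingHom.comp S.red.O.subtype) u = 0 := by
  let := algebraAlong (heckeAlphaBar Qbar M q)
  obtain ⟨P, hPm, hPc, hP⟩ := exists_integral_monic S h₁ h₂
  have hPu : aeval u P = 0 := hP
  have hOm := minpoly_coeff_mem S.red.O hPm hPc hPu
  have hm : (minpoly (modularFunctionFieldBar M) u).Monic := minpoly.monic ⟨P, hPm, hPu⟩
  have hB : ∀ i, InB Qbar y ((minpoly (modularFunctionFieldBar M) u).coeff i) := by
    intro i v hv
    obtain ⟨Q, hQm, hQ⟩ := exists_monic_of_inB hu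
    refine ord_nonneg_of_mem v (minpoly_coeff_mem v.toValuationSubring
      (p := Q.map (aeval y).toRingHom) (hQm.map _) (fun j => ?_) ?_ i)
    · rw [coeff_map]
      exact aeval_mem v.algebraMap_mem' (mem_of_ord_nonneg v hv) _
    · rw [aeval_def, eval₂_map, ← hQ]
      congr 1
      exact RingHom.ext fun r => (aeval_algHom_apply (heckeAlphaBar Qbar M q) y r).symm
  obtain ⟨P', hP', -, hP'm⟩ := lifts_and_degree_eq_and_monic
    (show minpoly (modularFunctionFieldBar M) u ∈ lifts S.red.O.subtype from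
      (lifts_iff_coeff_lifts _).mpr fun i => ⟨⟨_, hOm i⟩, rfl⟩) hm
  refine ⟨P', hP'm, fun i => ?_, ?_⟩
  · rw [show ((P'.coeff i : S.red.O) : modularFunctionFieldBar M) =
      (P'.map S.red.O.subtype).coeff i by rw [coeff_map]; rfl, hP']
    exact hB i
  · rw [← eval₂_map, hP']
    exact minpoly.aeval _ _

/-- `α` on integral functions, into the first branch. -/
def alphaO₁ : S.red.O →+* (branch₁ S).O :=
  ((heckeAlphaBar Qbar M q).toRingHom.comp S.red.O.subtype).codRestrict (branch₁ S).O.toSubring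
    fun x => (alpha_mem₁ (q := q) S.good S.surj x.2).fst

/-- `α` on integral functions, into the second branch. -/
def alphaO₂ : S.red.O →+* (branch₂ S).O :=
  ((heckeAlphaBar Qbar M q).toRingHom.comp S.red.O.subtype).codRestrict (branch₂ S).O.toSubring
    fun x => (alpha_mem₂ S.good S.surj S.al x.2).fst

theorem res₁_alphaO₁ (x : S.red.O) : (branch₁ S).res (alphaO₁ S x) = S.red.res x :=
  Subtype.ext ((alpha_mem₁ (q := q) S.good S.surj x.2).snd)

theorem res₂_alphaO₂ (x : S.red.O) :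
    (branch₂ S).res (alphaO₂ S x) = expandSpecial q M (S.red.res x) :=
  Subtype.ext ((alpha_mem₂ S.good S.surj S.al x.2).snd)

/-- Regularity is inherited by residues on both branches. -/
theorem inB_res {y : modularFunctionFieldBar M} {yb : modularFunctionFieldFullC k M}
    [IsFunctionField k (modularFunctionFieldFullC k M)]
    (hy : ∀ x : S.red.O, InB Qbar y (x : modularFunctionFieldBar M) → InB k yb (S.red.res x))
    {u : modularFunctionFieldBar (M * q)} (h₁ : u ∈ (branch₁ S).O) (h₂ : u ∈ (branch₂ S).O)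
    (hu : InB Qbar (heckeAlphaBar Qbar M q y) u) :
    InB k yb ((branch₁ S).res ⟨u, h₁⟩) ∧
      InB k (expandSpecial q M yb) ((branch₂ S).res ⟨u, h₂⟩) := by
  obtain ⟨P, hPm, hPB, hP⟩ := exists_monic S h₁ h₂ hu
  have e₁ : P.eval₂ (alphaO₁ S) ⟨u, h₁⟩ = 0 := by
    apply (branch₁ S).O.subtype_injective
    rw [map_zero, ← hP, hom_eval₂]
    rfl
  have e₂ : P.eval₂ (alphaO₂ S) ⟨u, h₂⟩ = 0 := by
    apply (branch₂ S).O.subtype_injective
    rw [map_zero, ← hP, hom_eval₂]
    rfl
  constructor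
  · refine inB_of_root (p := P.map S.red.res) (hPm.map _) (fun i => ?_) ?_
    · rw [coeff_map]; exact hy _ (hPB i)
    · rw [eval_map, ← map_zero (branch₁ S).res, ← e₁, hom_eval₂]
      congr 1
      exact RingHom.ext fun x => (res₁_alphaO₁ S x).symm
  · refine inB_of_root (p := P.map ((expandSpecial q M).toRingHom.comp S.red.res)) (hPm.map _)
      (fun i => ?_) ?_
    · rw [coeff_map]; exact inB_map (expandSpecial q M) (hy _ (hPB i))
    · rw [eval_map, ← map_zero (branch₂ S).res, ← e₂, hom_eval₂]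
      congr 1
      exact RingHom.ext fun x => (res₂_alphaO₂ S x).symm

section Charts

variable [IsFunctionField k (modularFunctionFieldFullC k M)]

/-- The atlas of level `M`. -/
def atlas : S.red.Atlas := Modular.atlasX0 S.good S.surj

omit [CharP k q] in
theorem res_chart : S.red.res (atlas S).X.x = Modular.jFb (k := k) M :=
  ((Modular.model S.good S.surj).res_toO _).trans (Modular.red_jF S.good)

omit [CharP k q] in
theorem coe_chart' : ((atlas S).X'.x : modularFunctionFieldBar M) = (Modular.jF (L := Qbar) M)⁻¹ :=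
  (atlas S).inv

omit [CharP k q] in
theorem res_chart' : S.red.res (atlas S).X'.x = (Modular.jFb (k := k) M)⁻¹ := by
  rw [(atlas S).X.res_inv (atlas S).X' (atlas S).inv, res_chart]

omit [CharP k q] in
theorem red_inB_fin (x : S.red.O) (hx : InB Qbar (Modular.jF M) (x : modularFunctionFieldBar M)) :
    InB k (Modular.jFb (k := k) M) (S.red.res x) := by
  have := (atlas S).X.fwd x hx
  rwa [res_chart] at this

omit [CharP k q] in
theorem red_inB_inf (x : S.red.O)
    (hx : InB Qbar (Modular.jF (L := Qbar) M)⁻¹ (x : modularFunctionFieldBar M)) :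
    InB k (Modular.jFb (k := k) M)⁻¹ (S.red.res x) := by
  have := (atlas S).X'.fwd x (by rw [coe_chart']; exact hx)
  rwa [res_chart'] at this

omit [CharP k q] in
theorem exists_lift_fin {g : modularFunctionFieldFullC k M}
    (hg : InB k (Modular.jFb (k := k) M) g) :
    ∃ x : S.red.O, InB Qbar (Modular.jF M) (x : modularFunctionFieldBar M) ∧ S.red.res x = g :=
  (atlas S).X.surj g (by rw [res_chart]; exact hg)

omit [IsFunctionField k (modularFunctionFieldFullC k M)] in
theorem jA_mem₁ : jA M q ∈ (branch₁ S).O := (hasPair_alpha_j S).fst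

omit [IsFunctionField k (modularFunctionFieldFullC k M)] in
theorem jA_mem₂ : jA M q ∈ (branch₂ S).O := (hasPair_alpha_j S).snd.fst

omit [IsFunctionField k ↥(modularFunctionFieldFullC k M)] in
theorem res₁_jA : (branch₁ S).res ⟨jA M q, jA_mem₁ S⟩ = Modular.jFb M := by
  obtain ⟨a, b, e, -⟩ := hasPair_alpha_j S
  exact Subtype.ext e

omit [IsFunctionField k ↥(modularFunctionFieldFullC k M)] in
theorem res₂_jA :
    (branch₂ S).res ⟨jA M q, jA_mem₂ S⟩ = expandSpecial q M (Modular.jFb M) := by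
  obtain ⟨a, b, -, e⟩ := hasPair_alpha_j S
  exact Subtype.ext e

theorem inB_res_fin {u : modularFunctionFieldBar (M * q)} (h₁ : u ∈ (branch₁ S).O)
    (h₂ : u ∈ (branch₂ S).O) (hu : InB Qbar (jA M q) u) :
    InB k (Modular.jFb (k := k) M) ((branch₁ S).res ⟨u, h₁⟩) ∧
      InB k (Modular.jFb (k := k) M) ((branch₂ S).res ⟨u, h₂⟩) := by
  obtain ⟨a, b⟩ := inB_res S (red_inB_fin S) h₁ h₂ hu
  refine ⟨a, ?_⟩
  rw [expandSpecial_jFb] at b
  exact (inB_pow_iff (Fact.out : q.Prime).pos).mp b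

/-- Residues of `L(n · poles of j)`. -/
theorem reg_res (n : ℕ) {u : modularFunctionFieldBar (M * q)} (h₁ : u ∈ (branch₁ S).O)
    (h₂ : u ∈ (branch₂ S).O) (hu : u ∈ riemannRochSpace (n • pol (K := Qbar) (jA M q))) :
    (branch₁ S).res ⟨u, h₁⟩ ∈ riemannRochSpace (n • pol (K := k) (Modular.jFb (k := k) M)) ∧
      (branch₂ S).res ⟨u, h₂⟩ ∈
        riemannRochSpace (n • pol (K := k) (expandSpecial q M (Modular.jFb (k := k) M))) := by
  have hj0 : jA M q ≠ 0 := fun h => transcendental_jA (M := M) (q := q) (h ▸ isAlgebraic_zero)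
  have hjb : Modular.jFb (k := k) M ≠ 0 := fun h =>
    Modular.transcendental_jFb (k := k) M (h ▸ isAlgebraic_zero)
  have hVj : expandSpecial q M (Modular.jFb (k := k) M) ≠ 0 := (_root_.map_ne_zero _).mpr hjb
  obtain ⟨a, b⟩ := inB_res S (red_inB_fin S) h₁ h₂ (inB_of_mem hu)
  have hi₁ : (jA M q)⁻¹ ∈ (branch₁ S).O :=
    Gauss.inv_mem A π _ ⟨_, jA_mem₁ S⟩ (fun h => hjb (by
      rw [← res₁_jA S]; exact Subtype.ext h))
  have hi₂ : (jA M q)⁻¹ ∈ (branch₂ S).O :=
    Gauss.inv_mem A π _ ⟨_, jA_mem₂ S⟩ (fun h => hVj (by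
      rw [← res₂_jA S]; exact Subtype.ext h))
  have k₁ : (branch₁ S).res ⟨_, hi₁⟩ = (Modular.jFb (k := k) M)⁻¹ := by
    refine eq_inv_of_mul_eq_one_left ?_
    rw [← res₁_jA S, ← map_mul,
      show (⟨_, hi₁⟩ : (branch₁ S).O) * ⟨_, jA_mem₁ S⟩ = 1 from Subtype.ext (inv_mul_cancel₀ hj0),
      map_one]
  have k₂ : (branch₂ S).res ⟨_, hi₂⟩ = (expandSpecial q M (Modular.jFb (k := k) M))⁻¹ := by
    refine eq_inv_of_mul_eq_one_left ?_
    rw [← res₂_jA S, ← map_mul,
      show (⟨_, hi₂⟩ : (branch₂ S).O) * ⟨_, jA_mem₂ S⟩ = 1 from Subtype.ext (inv_mul_cancel₀ hj0),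
      map_one]
  have m₁ : u * (jA M q)⁻¹ ^ n ∈ (branch₁ S).O := mul_mem h₁ (pow_mem hi₁ n)
  have m₂ : u * (jA M q)⁻¹ ^ n ∈ (branch₂ S).O := mul_mem h₂ (pow_mem hi₂ n)
  obtain ⟨a', b'⟩ := inB_res S (red_inB_inf S) m₁ m₂ (by
    rw [map_inv₀]; exact inB_inv_of_mem hj0 hu)
  refine ⟨mem_rr_of_inB hjb a ?_, mem_rr_of_inB hVj b ?_⟩
  · have e : (branch₁ S).res ⟨_, m₁⟩ =
        (branch₁ S).res ⟨u, h₁⟩ * (Modular.jFb (k := k) M)⁻¹ ^ n := by
      rw [← k₁, ← map_pow, ← map_mul]
      rfl
    rwa [e] at a'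
  · have e : (branch₂ S).res ⟨_, m₂⟩ =
        (branch₂ S).res ⟨u, h₂⟩ * (expandSpecial q M (Modular.jFb (k := k) M))⁻¹ ^ n := by
      rw [← k₂, ← map_pow, ← map_mul]
      rfl
    rwa [e, map_inv₀] at b'

end Charts

end FLTAgent.Semistable.Level
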