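import Fermat.Agent.Semistable.Level
import Fermat.Agent.Semistable.UnitSeries

/-!
# Pairs of residues on `X₀(Mq)`

`HasPair`: a function integral on both expansions with given residue series; pairs of the
degeneracy images and of `Δ(τ)/Δ(qτ)`, and integrality of the coordinates over level `M` of a
doubly integral function (`mem_O_of_hasPair`).
-/

set_option autoImplicit false

noncomputable section

open AlgebraicCurve ModularCurve FLTAgent.FFBasic FLTAgent.Deuring FLTAgent.HeckeJacobian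
open FLTAgent.GoodReduction (X0GoodReduction)

namespace FLTAgent.Semistable.Level

local notation "Qbar" => AlgebraicClosure ℚ

variable {M q : ℕ} [NeZero M] [Fact q.Prime] {k : Type} [Field k]
variable {A : ValuationSubring Qbar} {π : A →+* k} {I : ALData M q}

/-- `f` is integral for both branches, with residue series `a` and `b`. -/
def HasPair (π : A →+* k) (I : ALData M q) (f : modularFunctionFieldBar (M * q))
    (a b : LaurentSeries k) : Prop :=
  ∃ (h₁ : f ∈ Gauss.ring A π (ι₁ M q)) (h₂ : f ∈ Gauss.ring A π (ι₂ I)),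
    Gauss.res A π (ι₁ M q) ⟨f, h₁⟩ = a ∧ Gauss.res A π (ι₂ I) ⟨f, h₂⟩ = b

namespace HasPair

variable {f g : modularFunctionFieldBar (M * q)} {a b a' b' : LaurentSeries k}

theorem unique (h : HasPair π I f a b) (h' : HasPair π I f a' b') : a = a' ∧ b = b' := by
  obtain ⟨h₁, h₂, rfl, rfl⟩ := h
  obtain ⟨_, _, rfl, rfl⟩ := h'
  exact ⟨rfl, rfl⟩

theorem congr (h : HasPair π I f a b) (hf : f = g) (ha : a = a') (hb : b = b') :
    HasPair π I g a' b' := by
  subst hf ha hb; exact h

protected theorem add (h : HasPair π I f a b) (h' : HasPair π I g a' b') :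
    HasPair π I (f + g) (a + a') (b + b') := by
  obtain ⟨h₁, h₂, rfl, rfl⟩ := h
  obtain ⟨k₁, k₂, rfl, rfl⟩ := h'
  exact ⟨add_mem h₁ k₁, add_mem h₂ k₂, Gauss.res_add_mk A π (ι₁ M q) h₁ k₁,
    Gauss.res_add_mk A π (ι₂ I) h₂ k₂⟩

protected theorem mul (h : HasPair π I f a b) (h' : HasPair π I g a' b') :
    HasPair π I (f * g) (a * a') (b * b') := by
  obtain ⟨h₁, h₂, rfl, rfl⟩ := h
  obtain ⟨k₁, k₂, rfl, rfl⟩ := h'
  exact ⟨mul_mem h₁ k₁, mul_mem h₂ k₂, Gauss.res_mul_mk A π (ι₁ M q) h₁ k₁,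
    Gauss.res_mul_mk A π (ι₂ I) h₂ k₂⟩

theorem one : HasPair π I 1 1 1 :=
  ⟨one_mem _, one_mem _, map_one _, map_one _⟩

theorem zero : HasPair π I 0 0 0 :=
  ⟨zero_mem _, zero_mem _, map_zero _, map_zero _⟩

protected theorem pow (h : HasPair π I f a b) : ∀ n : ℕ, HasPair π I (f ^ n) (a ^ n) (b ^ n)
  | 0 => HasPair.one.congr (pow_zero f).symm (pow_zero a).symm (pow_zero b).symm
  | n + 1 => ((HasPair.pow h n).mul h).congr (pow_succ f n).symm (pow_succ a n).symm
      (pow_succ b n).symm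

protected theorem sum {α : Type*} (s : Finset α) {f : α → modularFunctionFieldBar (M * q)}
    {a b : α → LaurentSeries k} (h : ∀ i ∈ s, HasPair π I (f i) (a i) (b i)) :
    HasPair π I (∑ i ∈ s, f i) (∑ i ∈ s, a i) (∑ i ∈ s, b i) := by
  classical
  induction s using Finset.induction_on with
  | empty => simpa using HasPair.zero
  | insert i s hi ih =>
    simp only [Finset.sum_insert hi]
    exact (h i (Finset.mem_insert_self i s)).add
      (ih fun j hj => h j (Finset.mem_insert_of_mem hj))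

theorem w_apply (h : HasPair π I f a b) : HasPair π I (I.w f) b a := by
  obtain ⟨h₁, h₂, rfl, rfl⟩ := h
  have hw : I.w f ∈ Gauss.ring A π (ι₂ I) := (mem_ring₂_iff π I _).mpr (by rw [w_w]; exact h₁)
  refine ⟨(mem_ring₂_iff π I f).mp h₂, hw, (res₂_eq π I h₂).symm, ?_⟩
  rw [res₂_eq π I hw]
  congr 2
  exact w_w I f

theorem const (c : A) : HasPair π I (algebraMap Qbar _ (c : Qbar))
    (algebraMap k (LaurentSeries k) (π c)) (algebraMap k (LaurentSeries k) (π c)) :=
  ⟨Gauss.algebraMap_mem A π _ c, Gauss.algebraMap_mem A π _ c, Gauss.res_algebraMap A π _ c,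
    Gauss.res_algebraMap A π _ c⟩

theorem const_smul (h : HasPair π I f a b) (c : A) :
    HasPair π I ((c : Qbar) • f) (algebraMap k (LaurentSeries k) (π c) * a)
      (algebraMap k (LaurentSeries k) (π c) * b) :=
  ((HasPair.const c).mul h).congr (Algebra.smul_def _ _).symm rfl rfl

end HasPair

theorem hasPair_h_aux [CharP k q] :
    ∃ (h₁ : I.h ∈ Gauss.ring A π (ι₁ M q)) (h₂ : I.w I.h ∈ Gauss.ring A π (ι₁ M q)),
      Gauss.res A π (ι₁ M q) ⟨I.h, h₁⟩ = unitSeries k q ∧
        Gauss.res A π (ι₁ M q) ⟨I.w I.h, h₂⟩ = 0 := by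
  have hser : ι₁ M q I.h = Gauss.incl A (unitSeries A q) := by
    show (I.h : LaurentSeries Qbar) = _
    rw [Gauss.incl, coeffMap_unitSeries, I.coe_h, coeffEmb, ← unitSeries_rat, coeffMap_unitSeries]
  have h₁ : I.h ∈ Gauss.ring A π (ι₁ M q) := Gauss.mem_ring_of_eq A π _ hser
  have hr : Gauss.res A π (ι₁ M q) ⟨I.h, h₁⟩ = unitSeries k q := by
    rw [Gauss.res_of_series A π _ ⟨I.h, h₁⟩ (y := unitSeries A q) hser, coeffMap_unitSeries]
  have hinv : I.h⁻¹ ∈ Gauss.ring A π (ι₁ M q) :=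
    Gauss.inv_mem A π _ ⟨I.h, h₁⟩ (by rw [hr]; exact (order_unitSeries q).1)
  have hne : I.h ≠ 0 := fun h0 => by
    have := hr
    rw [show (⟨I.h, h₁⟩ : Gauss.ring A π (ι₁ M q)) = 0 from Subtype.ext h0, map_zero] at this
    exact (order_unitSeries q).1 this.symm
  have hwh : I.w I.h = (q : modularFunctionFieldBar (M * q)) ^ 12 * I.h⁻¹ := by
    rw [← I.h_mul, mul_comm I.h, mul_assoc, mul_inv_cancel₀ hne, mul_one]
  have h₂ : I.w I.h ∈ Gauss.ring A π (ι₁ M q) := by
    rw [hwh]; exact mul_mem (pow_mem (natCast_mem _ q) _) hinv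
  refine ⟨h₁, h₂, hr, ?_⟩
  rw [show (⟨I.w I.h, h₂⟩ : Gauss.ring A π (ι₁ M q)) =
    (q : Gauss.ring A π (ι₁ M q)) ^ 12 * ⟨I.h⁻¹, hinv⟩ from Subtype.ext hwh, map_mul, map_pow,
    map_natCast, ← map_natCast (algebraMap k (LaurentSeries k)), CharP.cast_eq_zero, map_zero,
    zero_pow (by norm_num), zero_mul]

theorem hasPair_h [CharP k q] : HasPair π I I.h (unitSeries k q) 0 := by
  obtain ⟨h₁, h₂, hr₁, hr₂⟩ := hasPair_h_aux (π := π) (I := I)
  exact ⟨h₁, (mem_ring₂_iff π I _).mpr h₂, hr₁, (res₂_eq π I _).trans hr₂⟩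

theorem hasPair_wh [CharP k q] : HasPair π I (I.w I.h) 0 (unitSeries k q) := hasPair_h.w_apply

omit [Fact q.Prime] in
theorem alpha_smul [NeZero q] (c : Qbar) (x : modularFunctionFieldBar M) :
    heckeAlphaBar Qbar M q (c • x) = c • heckeAlphaBar Qbar M q x := by
  rw [Algebra.smul_def, Algebra.smul_def, map_mul, AlgHom.commutes]

section Levels

variable [IsAlgClosed k] [CharP k q] (H : X0GoodReduction A π M) (hπ : Function.Surjective π)

/-- The residue of an integral function of level `M`. -/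
abbrev resM (x : (Modular.reduction H hπ).O) : modularFunctionFieldFullC k M :=
  (Modular.reduction H hπ).res x

theorem hasPair_alpha (x : (Modular.reduction H hπ).O) :
    HasPair π I (heckeAlphaBar Qbar M q x) (resM H hπ x : LaurentSeries k)
      (expandSpecial q M (resM H hπ x) : LaurentSeries k) := by
  obtain ⟨h₁, e₁⟩ := alpha_mem₁ (q := q) H hπ x.2
  obtain ⟨h₂, e₂⟩ := alpha_mem₂ H hπ I x.2
  exact ⟨h₁, h₂, e₁, e₂⟩

theorem hasPair_beta (x : (Modular.reduction H hπ).O) :
    HasPair π I (heckeBetaBar Qbar M q x) (expandSpecial q M (resM H hπ x) : LaurentSeries k)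
      (resM H hπ x : LaurentSeries k) := by
  obtain ⟨h₁, e₁⟩ := beta_mem₁ (q := q) H hπ x.2
  obtain ⟨h₂, e₂⟩ := beta_mem₂ H hπ I x.2
  exact ⟨h₁, h₂, e₁, e₂⟩

/-- The `j`-invariant as an integral function of level `M`. -/
def jO : (Modular.reduction H hπ).O := (Modular.model H hπ).toO (Modular.model H hπ).x

omit [NeZero M] in
theorem coe_jO : ((jO H hπ : (Modular.reduction H hπ).O) : modularFunctionFieldBar M) =
    Modular.jF M := rfl

omit [NeZero M] in
theorem resM_jO : resM H hπ (jO H hπ) = Modular.jFb M :=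
  ((Modular.model H hπ).res_toO _).trans (Modular.red_jF H)

omit [NeZero M] in
/-- A common scale for finitely many functions of level `M`. -/
theorem exists_common_scale {n : ℕ} {x : Fin n → modularFunctionFieldBar M} (hx : x ≠ 0) :
    ∃ (c : Qbar) (hc : ∀ i, c • x i ∈ (Modular.reduction H hπ).O), c ≠ 0 ∧
      ∃ i, resM H hπ ⟨c • x i, hc i⟩ ≠ 0 := by
  classical
  set C := Modular.reduction H hπ
  have hex : ∀ i, ∃ c : Qbar, ∃ h : c • x i ∈ C.O, x i ≠ 0 → C.res ⟨c • x i, h⟩ ≠ 0 := by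
    intro i
    rcases eq_or_ne (x i) 0 with h0 | h0
    · exact ⟨0, by simp, fun h => absurd h0 h⟩
    · obtain ⟨c, h, hr⟩ := C.scale (x i) h0
      exact ⟨c, h, fun _ => hr⟩
  choose c hc hr using hex
  have hc0 : ∀ i, x i ≠ 0 → c i ≠ 0 := fun i hi h0 => hr i hi (by
    rw [show (⟨c i • x i, hc i⟩ : C.O) = 0 from Subtype.ext (by simp [h0]), map_zero])
  let v : Fin n → Qbar := fun i => if x i = 0 then 0 else (c i)⁻¹
  obtain ⟨j, hj⟩ := Function.ne_iff.mp hx
  have hv : v ≠ 0 := fun h => by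
    have := congrFun h j
    simp only [v, Pi.zero_apply] at this
    rw [if_neg (show x j ≠ 0 from hj), inv_eq_zero] at this
    exact hc0 j hj this
  obtain ⟨p, hp, hmem⟩ := Deuring.exists_scaled_mem (A := A) v hv
  have hxp : x p ≠ 0 := fun h => hp (by simp [v, h])
  have hvp : (v p)⁻¹ = c p := by simp [v, hxp]
  refine ⟨c p, fun i => ?_, hc0 p hxp, p, hr p hxp⟩
  rcases eq_or_ne (x i) 0 with h0 | h0
  · simp [h0]
  have hm : c p / c i ∈ A := by
    have := hmem i
    simp only [v, if_neg h0] at this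
    rwa [div_eq_mul_inv, hvp, mul_comm, ← div_eq_mul_inv] at this
  have := C.O.mul_mem _ _ (C.algebraMap_mem ⟨_, hm⟩) (hc i)
  rwa [← Algebra.smul_def, smul_smul, div_mul_cancel₀ _ (hc0 i h0)] at this

variable {n : ℕ} {e : Fin n → modularFunctionFieldBar (M * q)} {a b : Fin n → LaurentSeries k}
  (he : ∀ i, HasPair π I (e i) (a i) (b i))
  (hind : ∀ x : Fin n → modularFunctionFieldFullC k M,
    ∑ i, (x i : LaurentSeries k) * a i = 0 →
      ∑ i, (expandSpecial q M (x i) : LaurentSeries k) * b i = 0 → x = 0)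

include he hind in
/-- A nontrivial combination is nonzero and doubly integral only if the coefficients are. -/
theorem mem_O_of_hasPair (x : Fin n → modularFunctionFieldBar M)
    {u v : LaurentSeries k} (hu : HasPair π I (∑ i, heckeAlphaBar Qbar M q (x i) * e i) u v)
    (i : Fin n) : x i ∈ (Modular.reduction H hπ).O := by
  by_contra hi
  set C := Modular.reduction H hπ
  have hx : x ≠ 0 := fun h => hi (by rw [h]; exact C.O.zero_mem)
  obtain ⟨c, hc, hc0, j, hj⟩ := exists_common_scale H hπ hx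
  have hsum : HasPair π I (c • ∑ i, heckeAlphaBar Qbar M q (x i) * e i)
      (∑ i, (resM H hπ ⟨_, hc i⟩ : LaurentSeries k) * a i)
      (∑ i, (expandSpecial q M (resM H hπ ⟨_, hc i⟩) : LaurentSeries k) * b i) := by
    refine (HasPair.sum Finset.univ fun i _ => (hasPair_alpha H hπ ⟨_, hc i⟩).mul (he i)).congr
      ?_ rfl rfl
    rw [Finset.smul_sum]
    exact Finset.sum_congr rfl fun i _ => by rw [alpha_smul, smul_mul_assoc]
  by_cases hcA : c ∈ A
  · have hπc : π ⟨c, hcA⟩ = 0 := (C.π_eq_zero_iff ⟨c, hcA⟩).mpr fun hunit => hi (by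
      obtain ⟨d, hd⟩ := hunit.exists_right_inv
      have hd' : (d : Qbar) * c = 1 := by
        rw [mul_comm]; simpa using congrArg Subtype.val hd
      have := C.O.mul_mem _ _ (C.algebraMap_mem d) (hc i)
      rwa [← Algebra.smul_def, smul_smul, hd', one_smul] at this)
    have h0 := hu.const_smul ⟨c, hcA⟩
    rw [hπc, map_zero, zero_mul, zero_mul] at h0
    obtain ⟨e1, e2⟩ := hsum.unique h0
    exact hj (congrFun (hind _ e1 e2) j)
  · refine hi ?_
    obtain ⟨h', -⟩ := C.inv_mem_of_not_mem hcA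
    have := C.O.mul_mem _ _ (C.algebraMap_mem ⟨_, h'⟩) (hc i)
    rwa [← Algebra.smul_def, smul_smul, inv_mul_cancel₀ hc0, one_smul] at this

include he hind H hπ in
theorem linearIndependent_of_hasPair :
    letI := algebraAlong (heckeAlphaBar Qbar M q)
    LinearIndependent (modularFunctionFieldBar M) e := by
  let := algebraAlong (heckeAlphaBar Qbar M q)
  rw [Fintype.linearIndependent_iff]
  intro x hx i
  by_contra hi
  set C := Modular.reduction H hπ
  have hne : x ≠ 0 := fun h => hi (congrFun h i)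
  obtain ⟨c, hc, -, j, hj⟩ := exists_common_scale H hπ hne
  have hx' : ∑ i, heckeAlphaBar Qbar M q (x i) * e i = 0 := hx
  have hsum : HasPair π I 0
      (∑ i, (resM H hπ ⟨_, hc i⟩ : LaurentSeries k) * a i)
      (∑ i, (expandSpecial q M (resM H hπ ⟨_, hc i⟩) : LaurentSeries k) * b i) := by
    refine (HasPair.sum Finset.univ fun i _ => (hasPair_alpha H hπ ⟨_, hc i⟩).mul (he i)).congr
      ?_ rfl rfl
    rw [← smul_zero c, ← hx', Finset.smul_sum]
    exact Finset.sum_congr rfl fun i _ => by rw [alpha_smul, smul_mul_assoc]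
  obtain ⟨e1, e2⟩ := hsum.unique HasPair.zero
  exact hj (congrFun (hind _ e1 e2) j)

omit [IsAlgClosed k] [CharP k q] in
/-- Monomials in `j` are independent over series in `T ^ q`. -/
theorem eq_zero_of_sum_qExpand {x : Fin q → LaurentSeries k}
    (h : ∑ i, qExpand k q (x i) * jqModC k ^ (i : ℕ) = 0) : x = 0 := by
  classical
  set t : Fin q → LaurentSeries k := fun i => qExpand k q (x i) * jqModC k ^ (i : ℕ) with ht
  by_contra hx
  have hj0 : jqModC k ≠ 0 := jqModC_ne_zero_of_nontrivial k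
  obtain ⟨i₁, hi₁⟩ := Function.ne_iff.mp hx
  set S := Finset.univ.filter fun i => t i ≠ 0 with hS
  have hord : ∀ i ∈ S, ∃ m : ℤ, (t i).order = q * m - (i : ℕ) := by
    intro i hi
    have hne : qExpand k q (x i) ≠ 0 := left_ne_zero_of_mul (Finset.mem_filter.mp hi).2
    have hdiv : (q : ℤ) ∣ (qExpand k q (x i)).order := by
      by_contra hdvd
      exact HahnSeries.coeff_order_eq_zero.not.mpr hne (qExpand_coeff_of_not_dvd q _ hdvd)
    obtain ⟨m, hm⟩ := hdiv
    refine ⟨m, ?_⟩
    rw [ht, HahnSeries.order_mul hne (pow_ne_zero _ hj0), hm, order_jqModC]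
    ring
  have hSne : S.Nonempty := ⟨i₁, Finset.mem_filter.mpr ⟨Finset.mem_univ _,
    mul_ne_zero (fun h0 => hi₁ (qExpand_injective (R := k) q (h0.trans (map_zero _).symm)))
      (pow_ne_zero _ hj0)⟩⟩
  obtain ⟨p, hp, hmin⟩ := Finset.exists_min_image S (fun i => (t i).order) hSne
  have hc := congrArg (fun s : LaurentSeries k => s.coeff (t p).order) h
  simp only [HahnSeries.coeff_sum, HahnSeries.coeff_zero] at hc
  rw [Finset.sum_eq_single p ?_ (by simp)] at hc
  · exact HahnSeries.coeff_order_eq_zero.not.mpr (Finset.mem_filter.mp hp).2 hc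
  intro i _ hip
  by_cases hi : i ∈ S
  · refine HahnSeries.coeff_eq_zero_of_lt_order (lt_of_le_of_ne (hmin i hi) fun heq => hip ?_)
    obtain ⟨m, hm⟩ := hord i hi
    obtain ⟨m', hm'⟩ := hord p hp
    rw [hm, hm'] at heq
    have hdvd : (q : ℤ) ∣ ((i : ℕ) : ℤ) - (p : ℕ) := ⟨m - m', by linarith⟩
    have hi' : ((i : ℕ) : ℤ) < q := by exact_mod_cast i.2
    have hp' : ((p : ℕ) : ℤ) < q := by exact_mod_cast p.2
    have := Int.eq_zero_of_abs_lt_dvd hdvd (abs_lt.mpr ⟨by omega, by omega⟩)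
    exact Fin.ext (by omega)
  · have : t i = 0 := by simpa [hS] using hi
    show (t i).coeff _ = 0
    rw [this, HahnSeries.coeff_zero]

end Levels

end FLTAgent.Semistable.Level
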