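import Fermat.Agent.Semistable.Pairs
import Fermat.Agent.FFRiemannRoch.FunctionField

/-!
# Torus data and their gluing

A torus datum `RootData` is a torsion class whose function is an `m`-th power on both
branches; its modules of pairs are, in large degree, the pairs glued by unique roots of unity
at the nodes (`exists_gluing`).
-/

set_option autoImplicit false

noncomputable section

open AlgebraicCurve FLTAgent.FFRiemannRoch FLTAgent.FFBasic

namespace FLTAgent.Semistable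

variable {L k : Type*} [Field L] [Field k] {A : ValuationSubring L} {π : A →+* k}
variable {F F₁ F₂ : Type*} [Field F] [Field F₁] [Field F₂]
  [Algebra L F] [Algebra k F₁] [Algebra k F₂] {ι : Type*} [Fintype ι]

namespace PairReduction

variable (C : PairReduction A π F F₁ F₂ ι)

/-- A divisor `D` with `m • D = div f` where `f` reduces to `m`-th powers on both branches. -/
structure RootData (m : ℕ) where
  D : Divisor L F
  degree_eq : Divisor.degree D = 0
  f : F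
  f_ne : f ≠ 0
  div_eq : ∀ v : Place L F, (m : ℤ) * D v = v.ord f
  g : L × L
  g_ne₁ : g.1 ≠ 0
  g_ne₂ : g.2 ≠ 0
  φ : F₁ × F₂
  φ_ne₁ : φ.1 ≠ 0
  φ_ne₂ : φ.2 ≠ 0
  mem : C.Mem (g ^ m)⁻¹ f
  red_eq : C.red (g ^ m)⁻¹ f = φ ^ m

namespace RootData

variable {C} {m : ℕ} (R : C.RootData m)

/-- The class of the divisor. -/
def cls : Pic0 L F := Pic0.mk ⟨R.D, R.degree_eq⟩

/-- The pairs attached to `L(D + n E)`. -/
def V (n : ℕ) : Submodule k (F₁ × F₂) :=
  (C.resSub R.g (riemannRochSpace (R.D + n • C.E))).map (LinearMap.mulLeft k R.φ)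

theorem mem_V {n : ℕ} {w : F₁ × F₂} : w ∈ R.V n ↔
    ∃ u ∈ riemannRochSpace (R.D + n • C.E), C.Mem R.g u ∧ R.φ * C.red R.g u = w := by
  rw [V, Submodule.mem_map]
  constructor
  · rintro ⟨_, ⟨u, hu, hug, rfl⟩, rfl⟩
    exact ⟨u, hu, hug, rfl⟩
  · rintro ⟨u, hu, hug, rfl⟩
    exact ⟨_, ⟨u, hu, hug, rfl⟩, rfl⟩

theorem V_mono {a b : ℕ} (h : a ≤ b) : R.V a ≤ R.V b :=
  Submodule.map_mono (C.resSub_mono (riemannRochSpace_mono
    (add_le_add le_rfl (nsmul_le_nsmul_divisor C.polar.1 h))))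

theorem g_pow_mul_inv : R.g ^ m * (R.g ^ m)⁻¹ = 1 := by
  refine Prod.ext ?_ ?_
  · simp [Prod.pow_fst, mul_inv_cancel₀ (pow_ne_zero m R.g_ne₁)]
  · simp [Prod.pow_snd, mul_inv_cancel₀ (pow_ne_zero m R.g_ne₂)]

theorem mem_pow_mul {u : F} (hu : C.Mem R.g u) :
    C.Mem (1, 1) (u ^ m * R.f) ∧ C.red (1, 1) (u ^ m * R.f) = (R.φ * C.red R.g u) ^ m := by
  have h1 : C.Mem (R.g ^ m * (R.g ^ m)⁻¹) (u ^ m * R.f) := (hu.pow m).mul R.mem
  have h2 := red_mul (hu.pow m) R.mem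
  rw [R.g_pow_mul_inv] at h1 h2
  refine ⟨h1, h2.trans ?_⟩
  rw [red_pow hu, R.red_eq, mul_pow, mul_comm]

theorem pow_mul_mem {n : ℕ} {u : F} (hu : u ∈ riemannRochSpace (R.D + n • C.E)) :
    u ^ m * R.f ∈ riemannRochSpace ((m * n) • C.E) := by
  rcases eq_or_ne u 0 with rfl | hu0
  · rcases eq_or_ne m 0 with rfl | hm
    · rw [pow_zero, one_mul, mem_riemannRochSpace_iff]
      refine fun v => Or.inr ?_
      have := R.div_eq v
      simp only [Nat.cast_zero, zero_mul] at this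
      simp [← this]
    · simp [zero_pow hm]
  rw [mem_riemannRochSpace_iff] at hu ⊢
  intro v
  right
  have h := (hu v).resolve_left hu0
  have hp := v.ord_zpow u m
  rw [zpow_natCast] at hp
  rw [v.ord_mul (pow_ne_zero m hu0) R.f_ne, hp, ← R.div_eq v]
  simp only [Finsupp.add_apply, Finsupp.smul_apply, nsmul_eq_mul, Nat.cast_mul] at h ⊢
  nlinarith

variable [IsAlgClosed k] [IsFunctionField k F₁] [IsFunctionField k F₂]

theorem pow_mem_glued {n : ℕ} {w : F₁ × F₂} (hw : w ∈ R.V n) :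
    w ^ m ∈ C.glued (m * n) 1 := by
  obtain ⟨u, hu, hug, rfl⟩ := R.mem_V.mp hw
  obtain ⟨h1, h2⟩ := R.mem_pow_mul hug
  rw [← h2]
  exact C.red_mem_glued_one h1 (R.pow_mul_mem hu)

theorem mem_of_pow_mem {K G : Type*} [Field K] [Field G] [Algebra K G] {E : Divisor K G}
    {a : G} {n : ℕ} (hm : 0 < m) (h : a ^ m ∈ riemannRochSpace ((m * n) • E)) :
    a ∈ riemannRochSpace (n • E) := by
  rw [mem_riemannRochSpace_iff] at h ⊢
  intro v
  rcases eq_or_ne a 0 with ha | ha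
  · exact Or.inl ha
  right
  have h1 := (h v).resolve_left (pow_ne_zero m ha)
  have hp := v.ord_zpow a m
  rw [zpow_natCast] at hp
  rw [hp] at h1
  simp only [Finsupp.smul_apply, nsmul_eq_mul, Nat.cast_mul] at h1 ⊢
  have hm' : (0 : ℤ) < m := by exact_mod_cast hm
  nlinarith

theorem fst_mem {n : ℕ} (hm : 0 < m) {w : F₁ × F₂} (hw : w ∈ R.V n) :
    w.1 ∈ riemannRochSpace (n • C.E₁) :=
  mem_of_pow_mem hm (Prod.pow_fst w m ▸ (R.pow_mem_glued hw).1)

theorem snd_mem {n : ℕ} (hm : 0 < m) {w : F₁ × F₂} (hw : w ∈ R.V n) :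
    w.2 ∈ riemannRochSpace (n • C.E₂) :=
  mem_of_pow_mem hm (Prod.pow_snd w m ▸ (R.pow_mem_glued hw).2.1)

theorem value_pow_eq {n : ℕ} (hm : 0 < m) {w : F₁ × F₂} (hw : w ∈ R.V n) (s : ι) :
    valueAt (C.node₁ s) w.1 ^ m = valueAt (C.node₂ s) w.2 ^ m := by
  have h := (R.pow_mem_glued hw).2.2 s
  rw [Prod.pow_fst, Prod.pow_snd,
    ((hasValue_valueAt (mem_ball_zero_of_mem (C.node₁_le n s) (R.fst_mem hm hw))).pow m).valueAt_eq,
    ((hasValue_valueAt (mem_ball_zero_of_mem (C.node₂_le n s) (R.snd_mem hm hw))).pow m).valueAt_eq,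
    Pi.one_apply, one_mul] at h
  exact h

theorem exists_ratio (hm : 0 < m) (n : ℕ) (s : ι) : ∃ ζ : k, ζ ^ m = 1 ∧
    ∀ w ∈ R.V n, valueAt (C.node₁ s) w.1 = ζ * valueAt (C.node₂ s) w.2 := by
  classical
  let Z := Polynomial.nthRootsFinset m (1 : k)
  let ψ : k → (R.V n →ₗ[k] k) := fun ζ =>
    (evalL _ (C.node₁ s) (C.node₁_le n s)).comp
      (((LinearMap.fst k F₁ F₂).comp (R.V n).subtype).codRestrict _ fun w => R.fst_mem hm w.2)
    - ζ • (evalL _ (C.node₂ s) (C.node₂_le n s)).comp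
      (((LinearMap.snd k F₁ F₂).comp (R.V n).subtype).codRestrict _ fun w => R.snd_mem hm w.2)
  have hψ : ∀ ζ (w : R.V n), ψ ζ w = valueAt (C.node₁ s) (w : F₁ × F₂).1
      - ζ * valueAt (C.node₂ s) (w : F₁ × F₂).2 := fun _ _ => rfl
  have hcov : ⋃ p ∈ Z.image (fun ζ => LinearMap.ker (ψ ζ)), (p : Set (R.V n)) = Set.univ := by
    refine Set.eq_univ_of_forall fun w => ?_
    simp only [Finset.set_biUnion_finset_image, Set.mem_iUnion, SetLike.mem_coe, LinearMap.mem_ker,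
      hψ]
    have hp := R.value_pow_eq hm w.2 s
    set a := valueAt (C.node₁ s) (w : F₁ × F₂).1
    set b := valueAt (C.node₂ s) (w : F₁ × F₂).2
    rcases eq_or_ne b 0 with hb | hb
    · refine ⟨1, (Polynomial.mem_nthRootsFinset hm _).mpr (one_pow m), ?_⟩
      rw [hb, zero_pow hm.ne'] at hp
      rw [pow_eq_zero_iff hm.ne' |>.mp hp, hb]
      simp
    · refine ⟨a / b, (Polynomial.mem_nthRootsFinset hm _).mpr ?_, ?_⟩
      · rw [div_pow, hp, div_self (pow_ne_zero m hb)]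
      · rw [div_mul_cancel₀ a hb, sub_self]
  have : Infinite k := IsAlgClosed.instInfinite
  obtain ⟨ζ, hζ, htop⟩ := Finset.mem_image.mp (Subspace.top_mem_of_biUnion_eq_univ hcov)
  refine ⟨ζ, (Polynomial.mem_nthRootsFinset hm _).mp hζ, fun w hw => ?_⟩
  have : (⟨w, hw⟩ : R.V n) ∈ LinearMap.ker (ψ ζ) := htop ▸ Submodule.mem_top
  rw [LinearMap.mem_ker, hψ, sub_eq_zero] at this
  exact this

omit [IsAlgClosed k] [IsFunctionField k F₁] [IsFunctionField k F₂] in
theorem mulLeft_injective : Function.Injective (LinearMap.mulLeft k R.φ) := fun x y h => by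
  have h' : R.φ * x = R.φ * y := h
  exact Prod.ext (mul_left_cancel₀ R.φ_ne₁ (congrArg Prod.fst h'))
    (mul_left_cancel₀ R.φ_ne₂ (congrArg Prod.snd h'))

variable [IsAlgClosed L] [IsFunctionField L F]

omit [IsAlgClosed k] [IsFunctionField k F₁] [IsFunctionField k F₂] [IsAlgClosed L] in
theorem finrank_V (n : ℕ) :
    Module.finrank k (R.V n) = ell L F (R.D + n • C.E) := by
  rw [V, ← (Submodule.equivMapOfInjective _ R.mulLeft_injective _).finrank_eq,
    C.finrank_resSub R.g_ne₁ R.g_ne₂]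
  rfl

omit [IsAlgClosed k] [IsFunctionField k F₁] [IsFunctionField k F₂] in
theorem exists_ell_add_eq : ∃ n₀ : ℕ, ∀ n, n₀ ≤ n →
    ell L F (R.D + n • C.E) = ell L F (n • C.E) := by
  obtain ⟨N, hN⟩ := exists_bound_ell (K := L) (F := F)
  refine ⟨N.toNat, fun n hn => ?_⟩
  have hE : 0 < Divisor.degree C.E := by
    have := C.degree_pos₁
    have := C.degree_pos₂
    rw [C.degree_eq]
    omega
  have hmul : (n : ℤ) * 1 ≤ n * Divisor.degree C.E :=
    mul_le_mul_of_nonneg_left (by omega) (by omega)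
  have h1 := hN (R.D + n • C.E) (by rw [map_add, R.degree_eq, map_nsmul, nsmul_eq_mul]; omega)
  have h2 := hN (n • C.E) (by rw [map_nsmul, nsmul_eq_mul]; omega)
  rw [map_add, R.degree_eq, zero_add] at h1
  omega

/-- `ε` is the gluing of `R`. -/
def IsGluing (ε : ι → k) : Prop := ∀ n, R.V n ≤ C.glued n ε

/-- In large degree the pairs of `R` are exactly the pairs glued by its gluing, which exists. -/
theorem exists_gluing (hm : 0 < m) : ∃ ε : ι → k, (∀ s, ε s ^ m = 1) ∧ R.IsGluing ε ∧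
    ∃ n₀ : ℕ, ∀ n, n₀ ≤ n → R.V n = C.glued n ε := by
  obtain ⟨a, ha⟩ := C.exists_pair_values
  obtain ⟨b, hb⟩ := C.finrank_glued
  obtain ⟨c, hc⟩ := C.dim
  obtain ⟨d, hd⟩ := R.exists_ell_add_eq
  choose ζ hζ hle using fun n => fun s => R.exists_ratio hm n s
  have hle' : ∀ n, R.V n ≤ C.glued n (ζ n) := fun n w hw =>
    ⟨R.fst_mem hm hw, R.snd_mem hm hw, fun s => hle n s w hw⟩
  have heq : ∀ n, a + b + c + d ≤ n → R.V n = C.glued n (ζ n) := fun n hn => by
    have := C.finiteDimensional_glued n (ζ n)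
    refine Submodule.eq_of_le_of_finrank_le (hle' n) ?_
    have h1 := hb n (by omega) (ζ n)
    have h2 := hc n (by omega)
    have h3 := hd n (by omega)
    rw [R.finrank_V, h3]
    unfold ell at *
    omega
  set n₀ := a + b + c + d
  have hsame : ∀ n, n₀ ≤ n → ζ n = ζ n₀ := by
    intro n hn
    funext s
    obtain ⟨w, hw₁, hw₂, hv₁, hv₂⟩ := ha n₀ (by omega) (ζ n₀) 1
    have hw : w ∈ C.glued n₀ (ζ n₀) := ⟨hw₁, hw₂, fun t => by rw [hv₁, hv₂]; simp⟩
    rw [← heq n₀ le_rfl] at hw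
    have := hle n s w (R.V_mono hn hw)
    rw [hv₁, hv₂, Pi.one_apply, mul_one] at this
    exact this.symm
  refine ⟨ζ n₀, hζ n₀, fun n w hw => ⟨R.fst_mem hm hw, R.snd_mem hm hw, fun s => ?_⟩,
    n₀, fun n hn => hsame n hn ▸ heq n hn⟩
  have := hle (max n n₀) s w (R.V_mono (le_max_left _ _) hw)
  rwa [hsame _ (le_max_right _ _)] at this

theorem IsGluing.unique {ε δ : ι → k} (hm : 0 < m) (hε : R.IsGluing ε) (hδ : R.IsGluing δ) :
    ε = δ := by
  obtain ⟨a, ha⟩ := C.exists_pair_values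
  obtain ⟨γ, -, -, n₀, heq⟩ := R.exists_gluing hm
  obtain ⟨w, hw₁, hw₂, hv₁, hv₂⟩ := ha (max a n₀) (le_max_left _ _) γ 1
  have hw : w ∈ R.V (max a n₀) := by
    rw [heq _ (le_max_right _ _)]
    exact ⟨hw₁, hw₂, fun t => by rw [hv₁, hv₂]; simp⟩
  funext s
  have h1 := (hε _ hw).2.2 s
  have h2 := (hδ _ hw).2.2 s
  rw [hv₁, hv₂, Pi.one_apply, mul_one] at h1 h2
  exact h1.symm.trans h2

theorem IsGluing.pow_eq_one {ε : ι → k} (hm : 0 < m) (hε : R.IsGluing ε) (s : ι) :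
    ε s ^ m = 1 := by
  obtain ⟨γ, hγ, hg, -⟩ := R.exists_gluing hm
  rw [hε.unique R hm hg]
  exact hγ s

theorem IsGluing.eq_glued {ε : ι → k} (hm : 0 < m) (hε : R.IsGluing ε) :
    ∃ n₀ : ℕ, ∀ n, n₀ ≤ n → R.V n = C.glued n ε := by
  obtain ⟨γ, -, hg, heq⟩ := R.exists_gluing hm
  rw [hε.unique R hm hg]
  exact heq

end RootData

end PairReduction

end FLTAgent.Semistable
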